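/-
Item 79 (S34), block F, piece (V) part 1 (helper24): the Atkin–Lehner map on the upper half plane.

For a prime `q ‖ N` there is `W : ℍ → ℍ` with `j(d · W z) = j(σ(d) · z)` for all `d ∣ N`, where
`σ(d) = d q` if `q ∤ d` and `σ(d) = d / q` if `q ∣ d`.
Helper lemmas are prefixed `val_`.
-/
import Mathlib
import Fermat.Agent.S24lib.Embed

set_option autoImplicit false

open UpperHalfPlane CongruenceSubgroup
open scoped MatrixGroups

namespace Fermat.Agent.S34lib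

open Fermat.Agent.S24lib Fermat.Agent.S20lib

/-- the Atkin–Lehner involution on divisors: `d ↦ d q` if `q ∤ d`, `d ↦ d / q` if `q ∣ d` -/
def alSwap (q d : ℕ) : ℕ := if q ∣ d then d / q else d * q

theorem alSwap_of_dvd {q d : ℕ} (h : q ∣ d) : alSwap q d = d / q := if_pos h

theorem alSwap_of_not_dvd {q d : ℕ} (h : ¬ q ∣ d) : alSwap q d = d * q := if_neg h

theorem val_not_dvd_div {N q : ℕ} (hq : q.Prime) (hq2 : ¬ q ^ 2 ∣ N) {d : ℕ} (hd : d ∣ N)
    (hqd : q ∣ d) : ¬ q ∣ d / q := by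
  intro h
  apply hq2
  obtain ⟨e, he⟩ := h
  have : d = q * (d / q) := (Nat.mul_div_cancel' hqd).symm
  rw [he] at this
  exact Dvd.dvd.trans ⟨e, by rw [this]; ring⟩ hd

theorem alSwap_dvd {N q : ℕ} (hq : q.Prime) (hqN : q ∣ N) {d : ℕ} (hd : d ∣ N) :
    alSwap q d ∣ N := by
  by_cases h : q ∣ d
  · rw [alSwap_of_dvd h]
    exact (Nat.div_dvd_of_dvd h).trans hd
  · rw [alSwap_of_not_dvd h]
    exact Nat.Coprime.mul_dvd_of_dvd_of_dvd
      ((Nat.Prime.coprime_iff_not_dvd hq).mpr h).symm hd hqN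

theorem alSwap_alSwap {N q : ℕ} (hq : q.Prime) (hq2 : ¬ q ^ 2 ∣ N) {d : ℕ} (hd : d ∣ N) :
    alSwap q (alSwap q d) = d := by
  by_cases h : q ∣ d
  · rw [alSwap_of_dvd h, alSwap_of_not_dvd (val_not_dvd_div hq hq2 hd h)]
    exact Nat.div_mul_cancel h
  · rw [alSwap_of_not_dvd h, alSwap_of_dvd (Dvd.intro_left d rfl)]
    exact Nat.mul_div_cancel d hq.pos

theorem alSwap_ne_zero {q d : ℕ} (hq : q.Prime) (hd : d ≠ 0) : alSwap q d ≠ 0 := by
  by_cases h : q ∣ d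
  · rw [alSwap_of_dvd h]
    exact (Nat.div_pos (Nat.le_of_dvd (Nat.pos_of_ne_zero hd) h) hq.pos).ne'
  · rw [alSwap_of_not_dvd h]
    exact mul_ne_zero hd hq.ne_zero

theorem val_jdH_eq (d : ℕ) [NeZero d] (z : ℍ) : jdH d z = jH (nmulH d z) :=
  jd_raw_eq d z

theorem val_nmulH_nmulH (a b : ℕ) [NeZero a] [NeZero b] [NeZero (a * b)] (z : ℍ) :
    nmulH a (nmulH b z) = nmulH (a * b) z := by
  apply UpperHalfPlane.ext
  rw [coe_nmulH, coe_nmulH, coe_nmulH]
  push_cast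
  ring

/-- **the Atkin–Lehner map on `ℍ`** -/
theorem exists_alH (N q : ℕ) [NeZero N] (hq : q.Prime) (hqN : q ∣ N) (hq2 : ¬ q ^ 2 ∣ N) :
    ∃ W : ℍ → ℍ, ∀ d : ℕ, d ∣ N → ∀ z : ℍ, jdH d (W z) = jdH (alSwap q d) z := by
  obtain ⟨N', rfl⟩ := hqN
  have hN'0 : N' ≠ 0 := fun h => NeZero.ne (q * N') (by rw [h, mul_zero])
  haveI : NeZero N' := ⟨hN'0⟩
  haveI : NeZero q := ⟨hq.ne_zero⟩
  have hqN' : ¬ q ∣ N' := fun h => hq2 (by rw [pow_two]; exact mul_dvd_mul_left q h)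
  have hcop : IsCoprime (q : ℤ) (N' : ℤ) :=
    Nat.isCoprime_iff_coprime.mpr ((Nat.Prime.coprime_iff_not_dvd hq).mpr hqN')
  obtain ⟨u, b, hub⟩ := hcop
  -- `u q + b N' = 1`; put `v = -b`
  let g : SL(2, ℤ) := ⟨!![1, 1; -(N' * b), q * u], by
    rw [Matrix.det_fin_two_of]; linear_combination hub⟩
  let g' : SL(2, ℤ) := ⟨!![q, 1; -(N' * b), u], by
    rw [Matrix.det_fin_two_of]; linear_combination hub⟩
  have hg : g ∈ Gamma0 N' := by
    rw [Gamma0_mem]
    show (((-(N' * b) : ℤ)) : ZMod N') = 0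
    push_cast
    simp
  have hg' : g' ∈ Gamma0 N' := by
    rw [Gamma0_mem]
    show (((-(N' * b) : ℤ)) : ZMod N') = 0
    push_cast
    simp
  have hkey : ∀ z : ℍ, nmulH q (g • nmulH q z) = g' • z := by
    intro z
    apply UpperHalfPlane.ext
    rw [coe_nmulH, UpperHalfPlane.coe_specialLinearGroup_apply,
      UpperHalfPlane.coe_specialLinearGroup_apply, coe_nmulH]
    simp only [algebraMap_int_eq, eq_intCast, Complex.ofReal_intCast]
    have h00 : g 0 0 = 1 := rfl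
    have h01 : g 0 1 = 1 := rfl
    have h10 : g 1 0 = -(N' * b) := rfl
    have h11 : g 1 1 = q * u := rfl
    have h00' : g' 0 0 = q := rfl
    have h01' : g' 0 1 = 1 := rfl
    have h10' : g' 1 0 = -(N' * b) := rfl
    have h11' : g' 1 1 = u := rfl
    rw [h00, h01, h10, h11, h00', h01', h10', h11']
    have hden2 : (((-(N' * b) : ℤ)) : ℂ) * (z : ℂ) + ((u : ℤ) : ℂ) ≠ 0 :=
      dist_lin_ne_zero _ _ (by
        by_contra hcon
        rw [not_or, not_not, not_not] at hcon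
        have h1 : (N' : ℤ) * b = 0 := by linarith [hcon.1]
        rw [hcon.2] at hub
        have : b * (N' : ℤ) = 0 := by rw [mul_comm]; exact h1
        rw [this] at hub
        simp at hub) z
    have hq0 : (q : ℂ) ≠ 0 := Nat.cast_ne_zero.mpr hq.ne_zero
    have hden1 : (((-(N' * b) : ℤ)) : ℂ) * ((q : ℂ) * (z : ℂ)) + (((q * u : ℤ)) : ℂ) ≠ 0 := by
      have e : (((-(N' * b) : ℤ)) : ℂ) * ((q : ℂ) * (z : ℂ)) + (((q * u : ℤ)) : ℂ) =
          (q : ℂ) * ((((-(N' * b) : ℤ)) : ℂ) * (z : ℂ) + ((u : ℤ) : ℂ)) := by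
        push_cast; ring
      rw [e]
      exact mul_ne_zero hq0 hden2
    rw [mul_div_assoc', div_eq_div_iff hden1 hden2]
    push_cast
    ring
  refine ⟨fun z => g • nmulH q z, fun d hd z => ?_⟩
  have hd0 : d ≠ 0 := fun h => by rw [h, zero_dvd_iff] at hd; exact NeZero.ne _ hd
  haveI : NeZero d := ⟨hd0⟩
  haveI : NeZero (alSwap q d) := ⟨alSwap_ne_zero hq hd0⟩
  rw [val_jdH_eq, val_jdH_eq]
  by_cases h : q ∣ d
  · -- `d = q d'`
    obtain ⟨d', rfl⟩ := h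
    have hd'0 : d' ≠ 0 := fun h => hd0 (by rw [h, mul_zero])
    haveI : NeZero d' := ⟨hd'0⟩
    have hd' : d' ∣ N' := (Nat.mul_dvd_mul_iff_left hq.pos).mp hd
    have e1 : alSwap q (q * d') = d' := by
      rw [alSwap_of_dvd (Dvd.intro d' rfl)]
      exact Nat.mul_div_cancel_left d' hq.pos
    have e2 : nmulH (q * d') (g • nmulH q z) = nmulH d' (g' • z) := by
      rw [← hkey z]
      haveI : NeZero (d' * q) := ⟨mul_ne_zero hd'0 hq.ne_zero⟩
      rw [val_nmulH_nmulH d' q]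
      apply UpperHalfPlane.ext
      rw [coe_nmulH, coe_nmulH]
      push_cast
      ring
    rw [e2, jd_raw_smul_Gamma0 hd' g' hg' z]
    congr 1
    apply UpperHalfPlane.ext
    rw [coe_nmulH, coe_nmulH, e1]
  · have hd' : d ∣ N' :=
      (Nat.Coprime.dvd_mul_left ((Nat.Prime.coprime_iff_not_dvd hq).mpr h).symm).mp hd
    have e1 : alSwap q d = d * q := alSwap_of_not_dvd h
    rw [jd_raw_smul_Gamma0 hd' g hg (nmulH q z)]
    haveI : NeZero (d * q) := ⟨mul_ne_zero hd0 hq.ne_zero⟩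
    rw [val_nmulH_nmulH d q]
    congr 1
    apply UpperHalfPlane.ext
    rw [coe_nmulH, coe_nmulH, e1]

end Fermat.Agent.S34lib
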