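/-
Item 79 (S34), block F, piece (V) part 2 (helper24): the Atkin–Lehner involution `w_q` of the
function field `FF N` of `X₀(N)` over `ℚ̄`, for a prime `q ‖ N`:

* `atkinLehnerFF N q hq hqN hq2 : FF N ≃ₐ[ℚ̄] FF N`,
* `atkinLehnerFF_jdF` : `w_q (j_d) = j_{σ(d)}`, `σ(d) = d q` (`q ∤ d`) resp. `d / q` (`q ∣ d`),
* `atkinLehnerFF_involutive`.

Construction: `FF N` is the fraction field of `ℚ̄[X_d : d ∣ N] / I`, `I` the ideal of relations
between the `j_d`; `I` is stable under the swap `X_d ↦ X_{σ(d)}` because a polynomial relation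
holds iff it holds pointwise on `ℍ`, and `j_d ∘ W = j_{σ(d)}` for the Atkin–Lehner map `W` on `ℍ`.
Helper lemmas are prefixed `val_`.
-/
import Mathlib
import Fermat.Agent.S34lib.VAtkinLehnerH

set_option autoImplicit false

open UpperHalfPlane CongruenceSubgroup ModularCurve
open scoped MatrixGroups

noncomputable section

namespace Fermat.Agent.S34lib

open Fermat.Agent.S24lib Fermat.Agent.S20lib

/-- the divisors of `N` -/
abbrev DivIdx (N : ℕ) : Type := {d : ℕ // d ∣ N}

theorem val_divIdx_ne_zero {N : ℕ} [NeZero N] (d : DivIdx N) : d.1 ≠ 0 := fun h => by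
  have := d.2
  rw [h, zero_dvd_iff] at this
  exact NeZero.ne N this

variable (N : ℕ) [NeZero N]

/-- the generators `j_d`, `d ∣ N`, of `FF N` -/
def val_gen (d : DivIdx N) : FF N :=
  haveI : NeZero d.1 := ⟨val_divIdx_ne_zero d⟩
  jdF N d.1 d.2

theorem val_gen_eq (d : ℕ) [NeZero d] (hd : d ∣ N) : val_gen N ⟨d, hd⟩ = jdF N d hd := rfl

/-- `P ↦ P(j_d)`, to the function field -/
def val_φ : MvPolynomial (DivIdx N) Kbar →ₐ[Kbar] FF N := MvPolynomial.aeval (val_gen N)

/-- `P ↦ P(j_d)`, to the ring of weakly holomorphic functions -/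
def val_ψ : MvPolynomial (DivIdx N) Kbar →+* WH N :=
  MvPolynomial.eval₂Hom ((whC N).comp ιC) (fun d => jdWH N d.1 d.2)

theorem val_ιF_φ (P : MvPolynomial (DivIdx N) Kbar) :
    ιF N (val_φ N P) = algebraMap (WH N) (MF N) (val_ψ N P) := by
  have h : (ιF N).comp (val_φ N).toRingHom = (algebraMap (WH N) (MF N)).comp (val_ψ N) := by
    apply MvPolynomial.ringHom_ext
    · intro c
      show ιF N (val_φ N (MvPolynomial.C c)) = algebraMap (WH N) (MF N) (val_ψ N (MvPolynomial.C c))
      rw [val_φ, MvPolynomial.aeval_C, ιF_const, val_ψ, MvPolynomial.coe_eval₂Hom,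
        MvPolynomial.eval₂_C]
      rfl
    · intro d
      show ιF N (val_φ N (MvPolynomial.X d)) = algebraMap (WH N) (MF N) (val_ψ N (MvPolynomial.X d))
      haveI : NeZero d.1 := ⟨val_divIdx_ne_zero d⟩
      rw [val_φ, MvPolynomial.aeval_X, val_ψ, MvPolynomial.coe_eval₂Hom, MvPolynomial.eval₂_X]
      exact ιF_jdF N d.1 d.2
  exact RingHom.congr_fun h P

/-- evaluation at a point -/
def val_evz (z : ℍ) : WH N →+* ℂ := (Pi.evalRingHom (fun _ : ℍ => ℂ) z).comp (WH N).subtype

theorem val_evz_apply (z : ℍ) (f : WH N) : val_evz N z f = (f : ℍ → ℂ) z := rfl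

theorem val_evz_ψ (z : ℍ) (P : MvPolynomial (DivIdx N) Kbar) :
    val_evz N z (val_ψ N P) = MvPolynomial.eval₂ ιC (fun d : DivIdx N => jdH d.1 z) P := by
  have h : (val_evz N z).comp (val_ψ N) =
      MvPolynomial.eval₂Hom ιC (fun d : DivIdx N => jdH d.1 z) := by
    apply MvPolynomial.ringHom_ext
    · intro c
      show val_evz N z (val_ψ N (MvPolynomial.C c)) = _
      rw [val_ψ, MvPolynomial.eval₂Hom_C, MvPolynomial.eval₂Hom_C]
      rfl
    · intro d
      show val_evz N z (val_ψ N (MvPolynomial.X d)) = _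
      rw [val_ψ, MvPolynomial.eval₂Hom_X', MvPolynomial.eval₂Hom_X']
      rfl
  exact RingHom.congr_fun h P

theorem val_ψ_eq_zero_iff (P : MvPolynomial (DivIdx N) Kbar) :
    val_ψ N P = 0 ↔ ∀ z : ℍ, MvPolynomial.eval₂ ιC (fun d : DivIdx N => jdH d.1 z) P = 0 := by
  constructor
  · intro h z
    rw [← val_evz_ψ, h, map_zero]
  · intro h
    apply Subtype.ext
    funext z
    have := h z
    rw [← val_evz_ψ] at this
    exact this

theorem val_φ_eq_zero_iff (P : MvPolynomial (DivIdx N) Kbar) :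
    val_φ N P = 0 ↔ val_ψ N P = 0 := by
  constructor
  · intro h
    apply IsFractionRing.injective (WH N) (MF N)
    rw [← val_ιF_φ, h, map_zero, map_zero]
  · intro h
    apply (ιF N).injective
    rw [val_ιF_φ, h, map_zero, map_zero]

variable (q : ℕ) (hq : q.Prime) (hqN : q ∣ N) (hq2 : ¬ q ^ 2 ∣ N)

/-- the swap on the index set -/
def val_σ (hq : q.Prime) (hqN : q ∣ N) : DivIdx N → DivIdx N :=
  fun d => ⟨alSwap q d.1, alSwap_dvd hq hqN d.2⟩

omit [NeZero N] in
include hq2 in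
theorem val_σ_σ (d : DivIdx N) : val_σ N q hq hqN (val_σ N q hq hqN d) = d :=
  Subtype.ext (alSwap_alSwap hq hq2 d.2)

include hq2 in
/-- the ideal of relations is stable under the swap -/
theorem val_φ_rename_eq_zero (P : MvPolynomial (DivIdx N) Kbar) (h : val_φ N P = 0) :
    val_φ N (MvPolynomial.rename (val_σ N q hq hqN) P) = 0 := by
  obtain ⟨W, hW⟩ := exists_alH N q hq hqN hq2
  rw [val_φ_eq_zero_iff, val_ψ_eq_zero_iff] at h ⊢
  intro z
  rw [MvPolynomial.eval₂_rename]
  have e : (fun d : DivIdx N => jdH d.1 z) ∘ val_σ N q hq hqN =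
      fun d : DivIdx N => jdH d.1 (W z) := by
    funext d
    exact (hW d.1 d.2 z).symm
  rw [e]
  exact h (W z)

/-- the ring `ℚ̄[j_d : d ∣ N]`, as a quotient of the polynomial ring -/
def val_R : Type := MvPolynomial (DivIdx N) Kbar ⧸ RingHom.ker (val_φ N).toRingHom

instance : CommRing (val_R N) :=
  inferInstanceAs (CommRing (MvPolynomial (DivIdx N) Kbar ⧸ RingHom.ker (val_φ N).toRingHom))

/-- the class of a polynomial -/
def val_mk : MvPolynomial (DivIdx N) Kbar →+* val_R N :=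
  Ideal.Quotient.mk (RingHom.ker (val_φ N).toRingHom)

theorem val_mk_surjective : Function.Surjective (val_mk N) := Ideal.Quotient.mk_surjective

theorem val_mk_eq_zero_iff (P : MvPolynomial (DivIdx N) Kbar) :
    val_mk N P = 0 ↔ val_φ N P = 0 :=
  (Ideal.Quotient.eq_zero_iff_mem (I := RingHom.ker (val_φ N).toRingHom) (a := P)).trans
    RingHom.mem_ker

/-- the inclusion `ℚ̄[j_d] → FF N` -/
def val_incl : val_R N →+* FF N := RingHom.kerLift (val_φ N).toRingHom

theorem val_incl_mk (P : MvPolynomial (DivIdx N) Kbar) : val_incl N (val_mk N P) = val_φ N P :=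
  rfl

theorem val_incl_injective : Function.Injective (val_incl N) :=
  RingHom.kerLift_injective _

instance val_algebra : Algebra (val_R N) (FF N) := (val_incl N).toAlgebra

theorem val_algebraMap_eq : algebraMap (val_R N) (FF N) = val_incl N := rfl

instance : FaithfulSMul (val_R N) (FF N) :=
  (faithfulSMul_iff_algebraMap_injective _ _).mpr (val_incl_injective N)

theorem val_surj (z : FF N) : ∃ x y : val_R N, val_incl N y ≠ 0 ∧ z * val_incl N y = val_incl N x := by
  induction z using FF_induction with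
  | hc c =>
    refine ⟨val_mk N (MvPolynomial.C c), 1, by rw [map_one]; exact one_ne_zero, ?_⟩
    rw [map_one, mul_one, val_incl_mk, val_φ, MvPolynomial.aeval_C]
  | hj d hd =>
    refine ⟨val_mk N (MvPolynomial.X ⟨d, hd⟩), 1, by rw [map_one]; exact one_ne_zero, ?_⟩
    rw [map_one, mul_one, val_incl_mk, val_φ, MvPolynomial.aeval_X]
    rfl
  | hadd x y hx hy =>
    obtain ⟨a, b, hb, hab⟩ := hx
    obtain ⟨a', b', hb', hab'⟩ := hy
    refine ⟨a * b' + a' * b, b * b', by rw [map_mul]; exact mul_ne_zero hb hb', ?_⟩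
    rw [map_add, map_mul, map_mul, map_mul, ← hab, ← hab']
    ring
  | hneg x hx =>
    obtain ⟨a, b, hb, hab⟩ := hx
    refine ⟨-a, b, hb, ?_⟩
    rw [map_neg, ← hab]
    ring
  | hmul x y hx hy =>
    obtain ⟨a, b, hb, hab⟩ := hx
    obtain ⟨a', b', hb', hab'⟩ := hy
    refine ⟨a * a', b * b', by rw [map_mul]; exact mul_ne_zero hb hb', ?_⟩
    rw [map_mul, map_mul, ← hab, ← hab']
    ring
  | hinv x hx =>
    obtain ⟨a, b, hb, hab⟩ := hx
    by_cases hx0 : x = 0
    · refine ⟨0, 1, by rw [map_one]; exact one_ne_zero, ?_⟩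
      rw [hx0, inv_zero, zero_mul, map_zero]
    · have ha : val_incl N a ≠ 0 := by
        rw [← hab]
        exact mul_ne_zero hx0 hb
      refine ⟨b, a, ha, ?_⟩
      rw [← hab, ← mul_assoc, inv_mul_cancel₀ hx0, one_mul]

instance val_isFractionRing : IsFractionRing (val_R N) (FF N) :=
  IsFractionRing.of_field (val_R N) (FF N) fun z => by
    obtain ⟨x, y, hy, h⟩ := val_surj N z
    exact ⟨x, y, by rw [val_algebraMap_eq, ← h, mul_div_cancel_right₀ _ hy]⟩

/-- the swap on `ℚ̄[j_d]` -/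
def val_swapR (hq : q.Prime) (hqN : q ∣ N) (hq2 : ¬ q ^ 2 ∣ N) : val_R N →+* val_R N :=
  Ideal.Quotient.lift (RingHom.ker (val_φ N).toRingHom)
    ((val_mk N).comp (MvPolynomial.rename (val_σ N q hq hqN)).toRingHom)
    (fun a ha => by
      rw [RingHom.comp_apply]
      exact (val_mk_eq_zero_iff N _).mpr
        (val_φ_rename_eq_zero N q hq hqN hq2 a (RingHom.mem_ker.mp ha)))

theorem val_swapR_mk (P : MvPolynomial (DivIdx N) Kbar) :
    val_swapR N q hq hqN hq2 (val_mk N P) =
      val_mk N (MvPolynomial.rename (val_σ N q hq hqN) P) := rfl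

theorem val_swapR_swapR (x : val_R N) :
    val_swapR N q hq hqN hq2 (val_swapR N q hq hqN hq2 x) = x := by
  obtain ⟨P, rfl⟩ := val_mk_surjective N x
  rw [val_swapR_mk, val_swapR_mk, MvPolynomial.rename_rename]
  have : val_σ N q hq hqN ∘ val_σ N q hq hqN = id := funext fun d => val_σ_σ N q hq hqN hq2 d
  rw [this, MvPolynomial.rename_id]
  rfl

theorem val_swapR_injective : Function.Injective (val_swapR N q hq hqN hq2) :=
  Function.LeftInverse.injective (val_swapR_swapR N q hq hqN hq2)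

/-- the Atkin–Lehner involution as a ring hom -/
def val_w (hq : q.Prime) (hqN : q ∣ N) (hq2 : ¬ q ^ 2 ∣ N) : FF N →+* FF N :=
  IsFractionRing.lift (A := val_R N) (K := FF N) (g := (val_incl N).comp (val_swapR N q hq hqN hq2))
    ((val_incl_injective N).comp (val_swapR_injective N q hq hqN hq2))

theorem val_w_incl (x : val_R N) :
    val_w N q hq hqN hq2 (val_incl N x) = val_incl N (val_swapR N q hq hqN hq2 x) :=
  IsFractionRing.lift_algebraMap _ x

theorem val_w_algebraMap (c : Kbar) :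
    val_w N q hq hqN hq2 (algebraMap Kbar (FF N) c) = algebraMap Kbar (FF N) c := by
  have h : algebraMap Kbar (FF N) c = val_incl N (val_mk N (MvPolynomial.C c)) := by
    rw [val_incl_mk, val_φ, MvPolynomial.aeval_C]
  rw [h, val_w_incl, val_swapR_mk, MvPolynomial.rename_C]

theorem val_w_gen (d : DivIdx N) :
    val_w N q hq hqN hq2 (val_gen N d) = val_gen N (val_σ N q hq hqN d) := by
  have h : ∀ d, val_gen N d = val_incl N (val_mk N (MvPolynomial.X d)) := fun d => by
    rw [val_incl_mk, val_φ, MvPolynomial.aeval_X]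
  rw [h, val_w_incl, val_swapR_mk, MvPolynomial.rename_X, ← h]

theorem val_w_w (x : FF N) : val_w N q hq hqN hq2 (val_w N q hq hqN hq2 x) = x := by
  have h : (val_w N q hq hqN hq2).comp (val_w N q hq hqN hq2) = RingHom.id (FF N) := by
    apply FF_ringHom_ext
    · intro c
      rw [RingHom.comp_apply, val_w_algebraMap, val_w_algebraMap]
      rfl
    · intro d _ hd
      rw [RingHom.comp_apply, ← val_gen_eq N d hd, val_w_gen, val_w_gen, val_σ_σ N q hq hqN hq2]
      rfl
  exact RingHom.congr_fun h x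

/-- **the Atkin–Lehner involution `w_q` of the function field of `X₀(N)`, `q ‖ N`** -/
def atkinLehnerFF (hq : q.Prime) (hqN : q ∣ N) (hq2 : ¬ q ^ 2 ∣ N) : FF N ≃ₐ[Kbar] FF N :=
  AlgEquiv.ofRingEquiv (f := RingEquiv.ofRingHom (val_w N q hq hqN hq2) (val_w N q hq hqN hq2)
    (RingHom.ext (val_w_w N q hq hqN hq2)) (RingHom.ext (val_w_w N q hq hqN hq2)))
    (val_w_algebraMap N q hq hqN hq2)

theorem atkinLehnerFF_apply (x : FF N) :
    atkinLehnerFF N q hq hqN hq2 x = val_w N q hq hqN hq2 x := rfl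

theorem atkinLehnerFF_involutive (x : FF N) :
    atkinLehnerFF N q hq hqN hq2 (atkinLehnerFF N q hq hqN hq2 x) = x :=
  val_w_w N q hq hqN hq2 x

theorem atkinLehnerFF_symm :
    (atkinLehnerFF N q hq hqN hq2).symm = atkinLehnerFF N q hq hqN hq2 := by
  refine AlgEquiv.ext fun x => ?_
  apply (atkinLehnerFF N q hq hqN hq2).injective
  rw [AlgEquiv.apply_symm_apply, atkinLehnerFF_involutive]

/-- `w_q (j_d) = j_{σ(d)}` -/
theorem atkinLehnerFF_jdF (d : ℕ) [NeZero d] (hd : d ∣ N) :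
    haveI : NeZero (alSwap q d) := ⟨alSwap_ne_zero hq (NeZero.ne d)⟩
    atkinLehnerFF N q hq hqN hq2 (jdF N d hd) = jdF N (alSwap q d) (alSwap_dvd hq hqN hd) := by
  rw [atkinLehnerFF_apply, ← val_gen_eq N d hd, val_w_gen]
  rfl

theorem val_jdF_congr {d d' : ℕ} [NeZero d] [NeZero d'] (hd : d ∣ N) (hd' : d' ∣ N)
    (h : d = d') : jdF N d hd = jdF N d' hd' := by
  subst h
  rfl

/-- `w_q (j_d) = j_{dq}` for `q ∤ d` -/
theorem atkinLehnerFF_jdF_of_not_dvd (d : ℕ) [NeZero d] (hd : d ∣ N) (hqd : ¬ q ∣ d)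
    [NeZero (d * q)] (hdq : d * q ∣ N) :
    atkinLehnerFF N q hq hqN hq2 (jdF N d hd) = jdF N (d * q) hdq := by
  haveI : NeZero (alSwap q d) := ⟨alSwap_ne_zero hq (NeZero.ne d)⟩
  rw [atkinLehnerFF_jdF]
  exact val_jdF_congr N _ _ (alSwap_of_not_dvd hqd)

/-- `w_q (j_{dq}) = j_d` -/
theorem atkinLehnerFF_jdF_mul (d : ℕ) [NeZero d] (hd : d ∣ N) [NeZero (d * q)]
    (hdq : d * q ∣ N) :
    atkinLehnerFF N q hq hqN hq2 (jdF N (d * q) hdq) = jdF N d hd := by
  haveI : NeZero (alSwap q (d * q)) := ⟨alSwap_ne_zero hq (NeZero.ne (d * q))⟩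
  rw [atkinLehnerFF_jdF]
  refine val_jdF_congr N _ _ ?_
  rw [alSwap_of_dvd (Dvd.intro_left d rfl)]
  exact Nat.mul_div_cancel d hq.pos

/-- `w_q (j) = j_q` -/
theorem atkinLehnerFF_jF [NeZero q] :
    atkinLehnerFF N q hq hqN hq2 (jF N) = jdF N q hqN := by
  have h1 : jF N = jdF N 1 (one_dvd N) := by
    apply Subtype.ext
    rw [coe_jF, coe_jdF, qExpand_one_apply]
  have hq1 : ¬ q ∣ 1 := fun h => hq.one_lt.ne' (Nat.dvd_one.mp h)
  haveI : NeZero (alSwap q 1) := ⟨alSwap_ne_zero hq one_ne_zero⟩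
  rw [h1, atkinLehnerFF_jdF]
  refine val_jdF_congr N _ _ ?_
  rw [alSwap_of_not_dvd hq1, one_mul]

/-- a ring automorphism of `FF N` which maps constants to constants and fixes the `j_d` commutes
with `w_q` -/
theorem atkinLehnerFF_comm (τ : FF N →+* FF N)
    (hτc : ∀ c : Kbar, ∃ c' : Kbar, τ (algebraMap Kbar (FF N) c) = algebraMap Kbar (FF N) c')
    (hτj : ∀ (d : ℕ) [NeZero d] (hd : d ∣ N), τ (jdF N d hd) = jdF N d hd) (x : FF N) :
    atkinLehnerFF N q hq hqN hq2 (τ x) = τ (atkinLehnerFF N q hq hqN hq2 x) := by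
  have h : (val_w N q hq hqN hq2).comp τ = τ.comp (val_w N q hq hqN hq2) := by
    apply FF_ringHom_ext
    · intro c
      obtain ⟨c', hc'⟩ := hτc c
      rw [RingHom.comp_apply, RingHom.comp_apply, hc', val_w_algebraMap, val_w_algebraMap, hc']
    · intro d _ hd
      haveI : NeZero (alSwap q d) := ⟨alSwap_ne_zero hq (NeZero.ne d)⟩
      rw [RingHom.comp_apply, RingHom.comp_apply, hτj d hd]
      have := atkinLehnerFF_jdF N q hq hqN hq2 d hd
      rw [atkinLehnerFF_apply] at this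
      rw [this, hτj _ (alSwap_dvd hq hqN hd)]
  exact RingHom.congr_fun h x

end Fermat.Agent.S34lib

end
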