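import Mathlib
import Fermat.Agent.S31lib.Main
import Fermat.Prelude.Def_GaloisRep_LocalConditions

/-!
# Item 79 (S34), piece ALG: S34 from unipotency of inertia on `J₀(N)[p^∞]`

`Unip N p q`: every inertia element `τ` at `q` satisfies `(τ - 1)² = 0` on `J₀(N)[p^∞]`
(written `τ • τ • x + x = 2 • τ • x`).

`s34_of_jacInput`: weak Chebotarev, a `JacInput N p`, `Faith J S` and `Unip N p q` (`q ≠ p`) give
`H.ρ.IsUnipotentOnInertiaAt q` for every Hecke–Galois datum `H` of level `N` away from `S`.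

The proof is the one of `S31lib/Main.lean` with one change: weak Chebotarev gives a power
`σ ^ k` of a Frobenius at a good prime `ℓ` which agrees with `τ` on the level field, so on
`J[pⁿ]` the Hecke polynomial `P_k(T_ℓ, ℓ)` acts as `τ + ℓ^k τ⁻¹ = τ + τ⁻¹ = 2`; faithfulness and
saturation give `tr ρ(τ) ≡ 2`, and `det ρ(τ) ≡ ℓ ^ k ≡ 1` modulo every power of the maximal
ideal.
-/

set_option autoImplicit false

open scoped TensorProduct
open Polynomial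

namespace Fermat.Agent.S34lib

open Fermat.Agent.GalRep ModularCurve Fermat.Agent.S31lib Fermat.Agent.S53lib IsLocalRing

/-- **UNIP**: inertia at `q` acts unipotently (of level `2`) on `J₀(N)[p^∞]`. -/
def Unip (N p q : ℕ) : Prop :=
  ∀ B : ValuationSubring (AlgebraicClosure ℚ), B.LiesOverPrime q →
    ∀ τ ∈ B.inertiaSubgroupIn ℚ, ∀ x : JZero N, (∃ n : ℕ, p ^ n • x = 0) →
      τ • τ • x + x = 2 • τ • x

/-- The statement to be proved by the geometry (semistable reduction of `X₀(N)` at `q ‖ N`). -/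
def UnipStatement : Prop :=
  ∀ (N : ℕ) [NeZero N] (p q : ℕ), p.Prime → q.Prime → q ≠ p → q ∣ N → ¬ q ^ 2 ∣ N → Unip N p q

section Det

variable {T : Type} [CommRing T] [IsLocalRing T]

/-- a `2 × 2` matrix which is `≡ 1` entrywise modulo an ideal has determinant `≡ 1`. -/
theorem det_sub_one_mem (I : Ideal T) (M : M2 T) (h : ∀ i j, (M - 1) i j ∈ I) :
    M.det - 1 ∈ I := by
  have h00 : M 0 0 - 1 ∈ I := by simpa using h 0 0
  have h11 : M 1 1 - 1 ∈ I := by simpa using h 1 1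
  have h01 : M 0 1 ∈ I := by simpa using h 0 1
  have e : M.det - 1 = (M 0 0 - 1) * M 1 1 + (M 1 1 - 1) - M 0 1 * M 1 0 := by
    rw [Matrix.det_fin_two]; ring
  rw [e]
  exact Ideal.sub_mem _ (Ideal.add_mem _ (Ideal.mul_mem_right _ _ h00) h11)
    (Ideal.mul_mem_right _ _ h01)

/-- **DETCONG**: determinants of an adically continuous representation are locally constant
modulo `𝔪ⁿ`. -/
theorem detcong (ρ : GaloisRepAdic T) (n : ℕ) :
    ∃ L : IntermediateField ℚ (AlgebraicClosure ℚ), FiniteDimensional ℚ L ∧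
      ∀ g h : AlgebraicClosure ℚ ≃ₐ[ℚ] AlgebraicClosure ℚ, (∀ x ∈ L, g x = h x) →
        LinearMap.det (ρ.ρ h) - LinearMap.det (ρ.ρ g) ∈ maximalIdeal T ^ n := by
  classical
  obtain ⟨L, hLfin, hL⟩ := ρ.isAdicContinuous n
  refine ⟨L, hLfin, fun g h hgh => ?_⟩
  let b : Module.Basis (Fin 2) T ρ.V := Module.finBasisOfFinrankEq T ρ.V ρ.finrank_eq
  set r := matOfBasis ρ b with hr
  have hdet : ∀ g, LinearMap.det (ρ.ρ g) = (r g).det := by
    intro g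
    rw [hr, matOfBasis_apply, LinearMap.det_toMatrix]
  have hL' : ∀ σ : Gal, (∀ x ∈ L, σ x = x) → ∀ i j, (r σ - 1) i j ∈ maximalIdeal T ^ n := by
    intro σ hσ i j
    have h := dict_repr_mem_of_mem_smul_top b _ (hL σ hσ (b j)) i
    have e : (r σ - 1) i j = b.repr (ρ.ρ σ (b j) - b j) i := by
      rw [Matrix.sub_apply, hr, matOfBasis_apply, LinearMap.toMatrix_apply, map_sub,
        Finsupp.sub_apply, Matrix.one_apply, Module.Basis.repr_self, Finsupp.single_apply]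
      by_cases hij : i = j
      · simp [hij]
      · simp [hij, Ne.symm hij]
    rw [e]
    exact h
  have hfix : ∀ x ∈ L, (g⁻¹ * h) x = x := by
    intro x hx
    show g⁻¹ (h x) = x
    rw [← hgh x hx]
    exact g.symm_apply_apply x
  have h1 := det_sub_one_mem _ _ (hL' (g⁻¹ * h) hfix)
  have h2 : (r h).det - (r g).det = (r g).det * ((r (g⁻¹ * h)).det - 1) := by
    rw [mul_sub, mul_one, ← Matrix.det_mul, ← map_mul, mul_inv_cancel_left]
  rw [hdet, hdet, h2]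
  exact Ideal.mul_mem_left _ _ h1

/-- the determinant from the characteristic polynomial in rank `2`. -/
theorem det_of_charpoly {R : Type*} [CommRing R] [Nontrivial R] {V : Type*}
    [AddCommGroup V] [Module R V]
    [Module.Free R V] [Module.Finite R V] (hV : Module.finrank R V = 2) (f : Module.End R V)
    (a b : R) (hf : LinearMap.charpoly f = X ^ 2 - C a * X + C b) :
    LinearMap.det f = b := by
  classical
  let bas : Module.Basis (Fin 2) R V := Module.finBasisOfFinrankEq R V hV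
  have h : LinearMap.charpoly f = X ^ 2 - C (LinearMap.trace R V f) * X + C (LinearMap.det f) := by
    rw [← LinearMap.charpoly_toMatrix f bas, Matrix.charpoly_fin_two,
      LinearMap.trace_eq_matrix_trace R bas f, ← LinearMap.det_toMatrix bas f]
  rw [hf] at h
  have h1 := congrArg (fun p => p.coeff 0) h
  simp only [coeff_add, coeff_sub, coeff_X_pow, coeff_C_mul, coeff_X_zero, coeff_C] at h1
  norm_num at h1
  exact h1.symm

/-- the characteristic polynomial in rank `2` from trace and determinant. -/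
theorem charpoly_of_trace_det {R : Type*} [CommRing R] [Nontrivial R] {V : Type*}
    [AddCommGroup V] [Module R V]
    [Module.Free R V] [Module.Finite R V] (hV : Module.finrank R V = 2) (f : Module.End R V)
    (htr : LinearMap.trace R V f = 2) (hdet : LinearMap.det f = 1) :
    LinearMap.charpoly f = (X - 1) ^ 2 := by
  classical
  let bas : Module.Basis (Fin 2) R V := Module.finBasisOfFinrankEq R V hV
  have h : LinearMap.charpoly f = X ^ 2 - C (LinearMap.trace R V f) * X + C (LinearMap.det f) := by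
    rw [← LinearMap.charpoly_toMatrix f bas, Matrix.charpoly_fin_two,
      LinearMap.trace_eq_matrix_trace R bas f, ← LinearMap.det_toMatrix bas f]
  rw [h, htr, hdet]
  simp only [map_ofNat, map_one]
  ring

end Det

section Lattice

variable {p : ℕ} {N : ℕ} [NeZero N] {S : Finset ℕ}

/-- (JAC') the Frobenius polynomial minus `2` maps `Λ` into `pⁿ Λ`, if the Frobenius power
acts as `τ` on `J[pⁿ]`, `(τ - 1)² = 0` on `J[pⁿ]`, and `ℓ^k ≡ 1` mod `pⁿ`. -/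
theorem asm34_evalLat (J : JacInput N p) (n : ℕ)
    (ℓ : GoodPrime N S) (hℓp : ¬ (ℓ.1 : ℕ) ∣ N * p)
    (A : ValuationSubring (AlgebraicClosure ℚ)) (hA : A.LiesOverPrime (ℓ.1 : ℕ))
    (σ : GQ) (hσ : A.IsFrobeniusAt σ (ℓ.1 : ℕ)) (k : ℕ) (τ : GQ)
    (hg : ∀ x : JZero N, p ^ n • x = 0 → σ ^ k • x = τ • x ∧ (σ ^ k)⁻¹ • x = τ⁻¹ • x)
    (hτ : ∀ x : JZero N, p ^ n • x = 0 → τ • τ • x + x = 2 • τ • x)
    (hdvd : ((p ^ n : ℕ) : ℤ) ∣ ((ℓ.1 : ℕ) : ℤ) ^ k - 1) (l : J.Λ) :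
    ∃ m : J.Λ, evalLat S J (frobPoly N S ℓ k - 2) l = (p ^ n : ℤ) • m := by
  have htors : ∀ (ς : GQ) (y : JZero N), p ^ n • y = 0 → p ^ n • (ς • y) = 0 := by
    intro ς y hy
    have h := map_nsmul (DistribSMul.toAddMonoidHom (JZero N) ς) (p ^ n) y
    rw [hy, map_zero] at h
    exact h.symm
  have hx : p ^ n • J.e n l = 0 := by
    rw [← map_nsmul]
    exact (J.e_ker n _).mpr ⟨l, rfl⟩
  have hx'' : ∃ m : ℕ, p ^ m • J.e n l = 0 := ⟨n, hx⟩
  have key : J.e n (evalLat S J (frobPoly N S ℓ k - 2) l) = 0 := by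
    have q2 : powTr (heckeOperatorBar N ℓ.1) ((((ℓ.1 : ℕ)) : ℤ) • (1 : Module.End ℤ (JZero N))) k
        (J.e n l) = σ ^ k • (J.e n l) + (((ℓ.1 : ℕ)) ^ k : ℤ) • (σ ^ k)⁻¹ • (J.e n l) :=
      powTr_heckeBar_apply J (ℓ.1 : ℕ) ℓ.1.2 hℓp A hA σ hσ k _ hx''
    have h2 : (evalLat S J (2 : HPoly N S)) l = l + l := by
      rw [map_ofNat]
      show (2 : Module.End ℤ J.Λ) l = l + l
      rw [← one_add_one_eq_two, LinearMap.add_apply, Module.End.one_apply]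
    rw [map_sub, LinearMap.sub_apply, map_sub, evalLat_frobPoly, e_powTr, q2, h2, map_add,
      (hg _ hx).1, (hg _ hx).2]
    -- `τ x + ℓ^k τ⁻¹ x - 2 x = 0`
    have hu := hτ (τ⁻¹ • J.e n l) (htors _ _ hx)
    rw [smul_inv_smul] at hu
    obtain ⟨z, hz⟩ := hdvd
    have h3 : (((ℓ.1 : ℕ) : ℤ) ^ k) • τ⁻¹ • J.e n l = τ⁻¹ • J.e n l := by
      have e : ((ℓ.1 : ℕ) : ℤ) ^ k = 1 + ((p ^ n : ℕ) : ℤ) * z := by rw [← hz]; ring
      have e0 : (((p ^ n : ℕ) : ℤ) * z) • τ⁻¹ • J.e n l = 0 := by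
        rw [mul_comm, mul_smul, natCast_zsmul, htors τ⁻¹ _ hx, smul_zero]
      rw [e, add_zsmul, one_zsmul, e0, add_zero]
    rw [h3, hu, two_smul]
    abel
  obtain ⟨m, hm⟩ := (J.e_ker n _).mp key
  exact ⟨m, by rw [hm, ← natCast_zsmul, Nat.cast_pow]⟩

end Lattice

section Final

variable {p : ℕ} {N : ℕ} [NeZero N] {S : Finset ℕ}
  {𝒪 : Type} [CommRing 𝒪] [IsDomain 𝒪] [IsDiscreteValuationRing 𝒪]
  [IsAdicComplete (IsLocalRing.maximalIdeal 𝒪) 𝒪]
  {θ : CuspForm.heckeAlgebra N 2 (↑S : Set ℕ) →+* IsLocalRing.ResidueField 𝒪}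
  {T : Type} [CommRing T] [IsLocalRing T] [IsNoetherianRing T]
  [IsAdicComplete (IsLocalRing.maximalIdeal T) T] [Algebra 𝒪 T] [IsLocalHom (algebraMap 𝒪 T)]
  [Module.Finite 𝒪 T] [Module.Free 𝒪 T]

/-- trace and determinant of `ρ(τ)`, `τ` in the inertia group at `q ≠ p`, are `≡ 2` resp. `≡ 1`
modulo every power of the maximal ideal, if `(τ - 1)² = 0` on `J₀(N)[p^∞]`. -/
theorem asm34_trace_det_sub_mem
    (hcheb : WeakCheb) (J : JacInput N p) (hF : Faith J S)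
    (hp : p.Prime) (hp𝒪 : (p : 𝒪) ∈ IsLocalRing.maximalIdeal 𝒪) (hpS : p ∈ S)
    (hNS : ∀ q : ℕ, q.Prime → q ∣ N → q ∈ S)
    (H : CuspForm.HeckeGaloisRepDatum N (↑S : Set ℕ) 𝒪 θ T)
    (q : ℕ) (hq : q.Prime) (hqp : q ≠ p)
    (B : ValuationSubring (AlgebraicClosure ℚ)) (hB : B.LiesOverPrime q)
    (τ : GQ) (hτ : τ ∈ B.inertiaSubgroupIn ℚ)
    (hU : ∀ x : JZero N, (∃ n : ℕ, p ^ n • x = 0) → τ • τ • x + x = 2 • τ • x) (n₀ : ℕ) :
    H.ρ.trace τ - 2 ∈ IsLocalRing.maximalIdeal T ^ n₀ ∧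
      LinearMap.det (H.ρ.ρ τ) - 1 ∈ IsLocalRing.maximalIdeal T ^ n₀ := by
  obtain ⟨c, hc⟩ := exists_sat_const hp S J hF
  obtain ⟨Lρ, hLρfin, hLρ⟩ := trcong H.ρ (n₀ + c)
  obtain ⟨Ld, hLdfin, hLd⟩ := detcong H.ρ (n₀ + c)
  obtain ⟨LJ, hLJfin, hLJ⟩ := exists_level_torsion J (n₀ + c)
  obtain ⟨χ, ⟨Lχ, hLχfin, hLχ⟩, hχfrob, hχin⟩ := exists_cycloMod p hp (n₀ + c)
  have hLfin : FiniteDimensional ℚ
      (Lρ ⊔ Ld ⊔ LJ ⊔ Lχ : IntermediateField ℚ (AlgebraicClosure ℚ)) := inferInstance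
  have hLρle : Lρ ≤ Lρ ⊔ Ld ⊔ LJ ⊔ Lχ := le_sup_of_le_left (le_sup_of_le_left le_sup_left)
  have hLdle : Ld ≤ Lρ ⊔ Ld ⊔ LJ ⊔ Lχ := le_sup_of_le_left (le_sup_of_le_left le_sup_right)
  have hLJle : LJ ≤ Lρ ⊔ Ld ⊔ LJ ⊔ Lχ := le_sup_of_le_left le_sup_right
  have hLχle : Lχ ≤ Lρ ⊔ Ld ⊔ LJ ⊔ Lχ := le_sup_right
  obtain ⟨ℓ, A, σ, -, k, hℓ, hℓS, hA, hσ, -, hgσ⟩ := hcheb _ hLfin S τ
  -- the prime is good
  have hℓN : ¬ ℓ ∣ N := fun h => hℓS (hNS ℓ hℓ h)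
  have hℓp : ℓ ≠ p := fun h => hℓS (h ▸ hpS)
  have hℓNp : ¬ ℓ ∣ N * p := fun h =>
    (hℓ.dvd_mul.mp h).elim hℓN fun h' => hℓp ((Nat.prime_dvd_prime_iff_eq hℓ hp).mp h')
  -- the element `u`
  have hu : ∀ x ∈ (Lρ ⊔ Ld ⊔ LJ ⊔ Lχ : IntermediateField ℚ (AlgebraicClosure ℚ)),
      ((σ ^ k)⁻¹ * τ) x = x := asm_fix _ τ (σ ^ k) hgσ
  have hgu : σ ^ k * ((σ ^ k)⁻¹ * τ) = τ := mul_inv_cancel_left _ _
  -- trace and determinant
  have t1 : H.ρ.trace (σ ^ k) - H.ρ.trace τ ∈ IsLocalRing.maximalIdeal T ^ (n₀ + c) :=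
    hLρ τ (σ ^ k) fun x hx => hgσ x (hLρle hx)
  have d1 : LinearMap.det (H.ρ.ρ (σ ^ k)) - LinearMap.det (H.ρ.ρ τ) ∈
      IsLocalRing.maximalIdeal T ^ (n₀ + c) :=
    hLd τ (σ ^ k) fun x hx => hgσ x (hLdle hx)
  -- the cyclotomic congruence
  have hχτ : χ τ = 1 := hχin q hq hqp B hB τ hτ
  have hχu : χ ((σ ^ k)⁻¹ * τ) = 1 := hLχ _ fun a ha => hu a (hLχle ha)
  have hχ1 : χ σ ^ k = 1 := by
    have : χ τ = χ σ ^ k := by
      conv_lhs => rw [← hgu]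
      rw [map_mul, hχu, mul_one, map_pow]
    rw [← this, hχτ]
  have hcong : ((ℓ : ZMod (p ^ (n₀ + c))) ^ k) = 1 := by
    rw [← hχfrob ℓ hℓ hℓp A hA σ hσ, ← Units.val_pow_eq_pow_val, hχ1, Units.val_one]
  have hdvd : ((p ^ (n₀ + c) : ℕ) : ℤ) ∣ ((ℓ : ℕ) : ℤ) ^ k - 1 := by
    rw [← ZMod.intCast_zmod_eq_zero_iff_dvd]
    push_cast
    rw [hcong, sub_self]
  have hle : IsLocalRing.maximalIdeal T ^ (n₀ + c) ≤ IsLocalRing.maximalIdeal T ^ n₀ :=
    Ideal.pow_le_pow_right (Nat.le_add_right _ _)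
  have hpmem : ((p ^ (n₀ + c) : ℕ) : T) ∈ IsLocalRing.maximalIdeal T ^ (n₀ + c) := by
    push_cast
    exact Ideal.pow_mem_pow (asm_natCast_mem hp𝒪) _
  constructor
  · -- the lattice
    have hJu := hLJ _ fun a ha => hu a (hLJle ha)
    have hlat := asm34_evalLat (S := S) J (n₀ + c) ⟨⟨ℓ, hℓ⟩, hℓN, hℓS⟩
      hℓNp A hA σ hσ k τ
      (fun x hx => by
        have := asm_smul_eq (N := N) (n₀ + c) _ (σ ^ k) hJu x hx
        rw [hgu] at this
        exact ⟨this.1.symm, this.2.symm⟩)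
      (fun x hx => hU x ⟨_, hx⟩) hdvd
    obtain ⟨t, ht⟩ := hc (n₀ + c) _ hlat
    rw [Nat.add_sub_cancel] at ht
    have t3 : H.ρ.trace (σ ^ k) - 2 ∈ IsLocalRing.maximalIdeal T ^ n₀ := by
      have e2 : (2 : T) = H.π (evalForms N S (2 : HPoly N S)) := by
        rw [map_ofNat, map_ofNat]
      rw [asm_trace_frob_pow H ⟨⟨ℓ, hℓ⟩, hℓN, hℓS⟩ A hA σ hσ k, e2, ← map_sub, ← map_sub, ht,
        map_zsmul, zsmul_eq_mul]
      apply Ideal.mul_mem_right
      push_cast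
      exact Ideal.pow_mem_pow (asm_natCast_mem hp𝒪) n₀
    have : H.ρ.trace τ - 2 = (H.ρ.trace (σ ^ k) - 2) - (H.ρ.trace (σ ^ k) - H.ρ.trace τ) := by
      ring
    rw [this]
    exact Ideal.sub_mem _ t3 (hle t1)
  · -- the determinant
    have hch := H.charpoly_frob ℓ hℓ hℓN hℓS A hA σ hσ
    have hdetσ : LinearMap.det (H.ρ.ρ σ) = (ℓ : T) := det_of_charpoly H.ρ.finrank_eq _ _ _ hch
    have hdetk : LinearMap.det (H.ρ.ρ (σ ^ k)) = (ℓ : T) ^ k := by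
      rw [map_pow, map_pow, hdetσ]
    have d3 : (ℓ : T) ^ k - 1 ∈ IsLocalRing.maximalIdeal T ^ (n₀ + c) := by
      obtain ⟨z, hz⟩ := hdvd
      have e : ((ℓ : T) ^ k - 1) = ((p ^ (n₀ + c) : ℕ) : T) * (z : T) := by
        have := congrArg (Int.cast : ℤ → T) hz
        push_cast at this ⊢
        exact this
      rw [e]
      exact Ideal.mul_mem_right _ _ hpmem
    have : LinearMap.det (H.ρ.ρ τ) - 1 =
        ((ℓ : T) ^ k - 1) - (LinearMap.det (H.ρ.ρ (σ ^ k)) - LinearMap.det (H.ρ.ρ τ)) := by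
      rw [hdetk]; ring
    rw [this]
    exact hle (Ideal.sub_mem _ d3 d1)

/-- **S34 from the arithmetic input**: a Hecke–Galois datum is unipotent on inertia at every
prime `q ≠ p` at which inertia is unipotent on `J₀(N)[p^∞]`. -/
theorem s34_of_jacInput
    (hcheb : WeakCheb) (J : JacInput N p) (hF : Faith J S)
    (hp : p.Prime) (hp𝒪 : (p : 𝒪) ∈ IsLocalRing.maximalIdeal 𝒪) (hpS : p ∈ S)
    (hNS : ∀ q : ℕ, q.Prime → q ∣ N → q ∈ S)
    (H : CuspForm.HeckeGaloisRepDatum N (↑S : Set ℕ) 𝒪 θ T)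
    (q : ℕ) (hq : q.Prime) (hqp : q ≠ p) (hU : Unip N p q) :
    H.ρ.IsUnipotentOnInertiaAt q := by
  intro B hB τ hτ
  have h := fun n => asm34_trace_det_sub_mem hcheb J hF hp hp𝒪 hpS hNS H q hq hqp B hB τ hτ
    (hU B hB τ hτ) n
  have htr : H.ρ.trace τ = 2 := trcong_eq_of_forall_mem fun n => (h n).1
  have hdet : LinearMap.det (H.ρ.ρ τ) = 1 := trcong_eq_of_forall_mem fun n => (h n).2
  exact charpoly_of_trace_det H.ρ.finrank_eq _ htr hdet

end Final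

end Fermat.Agent.S34lib
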