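import Mathlib
import Fermat.Agent.S34lib.Algebra
import Fermat.Agent.S18lib.Normalise

/-!
# Item 79 (S34): the KUMMER FORM of UNIP and `Unip ⇐ UnipK`  (helper7, architect)

`UnipK M m A`: for every nonzero `f ∈ F_M` all of whose orders are divisible by `m`, and all
`σ, τ` in the inertia group of `A`, the function `τ(σ f / f) / (σ f / f)` is a constant times an
`m`-th power.  This is the statement proved by the geometry at the auxiliary levels; it has no
divisors in it, so that it descends along `F_N ⊂ F_{N e}` by `S18lib.exists_root_of_inclBar`.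

`unip_of_unipK`: `UnipK N (p ^ n) A` for all `n` and all `A` over `q` implies `Unip N p q`.
-/

set_option autoImplicit false

noncomputable section

namespace Fermat.Agent.S34lib

open ModularCurve AlgebraicCurve

/-- the arithmetic Galois action on `F_M` -/
abbrev galFF (M : ℕ) (σ : AlgebraicClosure ℚ ≃ₐ[ℚ] AlgebraicClosure ℚ) :
    SemilinearAut (AlgebraicClosure ℚ) (modularFunctionFieldBar M) :=
  arithmeticGalois (modularFunctionFieldFull M) σ

/-- `(τ - 1)(σ - 1) f`, multiplicatively -/
def kummerComm (M : ℕ) (σ τ : AlgebraicClosure ℚ ≃ₐ[ℚ] AlgebraicClosure ℚ)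
    (f : modularFunctionFieldBar M) : modularFunctionFieldBar M :=
  (galFF M τ • (galFF M σ • f / f)) / (galFF M σ • f / f)

/-- **UNIP, Kummer form** at level `M`, exponent `m`, along `A`. -/
def UnipK (M : ℕ) (m : ℕ) (A : ValuationSubring (AlgebraicClosure ℚ)) : Prop :=
  ∀ f : modularFunctionFieldBar M, f ≠ 0 →
    (∀ P : Place (AlgebraicClosure ℚ) (modularFunctionFieldBar M), (m : ℤ) ∣ P.ord f) →
    ∀ σ ∈ A.inertiaSubgroupIn ℚ, ∀ τ ∈ A.inertiaSubgroupIn ℚ,
      ∃ (c : AlgebraicClosure ℚ) (s : modularFunctionFieldBar M),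
        kummerComm M σ τ f =
          algebraMap (AlgebraicClosure ℚ) (modularFunctionFieldBar M) c * s ^ m

section Ord

variable {K F : Type*} [Field K] [Field F] [Algebra K F]

theorem uk_ord_smul' (g : SemilinearAut K F) (w : Place K F) (f : F) :
    w.ord (g • f) = (g⁻¹ • w).ord f := by
  have h := SemilinearAut.ord_smul g (g⁻¹ • w) f
  rwa [smul_inv_smul] at h

/-- constants have order `0` at every place -/
theorem uk_ord_const (v : Place K F) (c : K) : v.ord (algebraMap K F c) = 0 := by
  rcases eq_or_ne c 0 with rfl | hc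
  · simp [Place.ord_zero]
  have h1 : v.adicValuation (algebraMap K F c) ≤ 1 := v.adicValuation_algebraMap_le_one c
  have h2 : v.adicValuation (algebraMap K F c⁻¹) ≤ 1 := v.adicValuation_algebraMap_le_one c⁻¹
  have hc' : algebraMap K F c ≠ 0 := by
    rw [Ne, map_eq_zero_iff _ (algebraMap K F).injective]
    exact hc
  have h3 : v.adicValuation (algebraMap K F c) = 1 := by
    apply le_antisymm h1
    rw [map_inv₀, map_inv₀] at h2
    have hne : v.adicValuation (algebraMap K F c) ≠ 0 := v.adicValuation_ne_zero hc'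
    exact (inv_le_one₀ (zero_lt_iff.mpr hne)).mp h2
  simp [Place.ord, h3]

theorem uk_ord_div (w : Place K F) {a b : F} (ha : a ≠ 0) (hb : b ≠ 0) :
    w.ord (a / b) = w.ord a - w.ord b := by
  rw [div_eq_mul_inv, w.ord_mul ha (inv_ne_zero hb), w.ord_inv]
  ring

end Ord

/-- `Unip` from its Kummer form. -/
theorem unip_of_unipK (N p q : ℕ)
    (h : ∀ A : ValuationSubring (AlgebraicClosure ℚ), A.LiesOverPrime q →
      ∀ n : ℕ, UnipK N (p ^ n) A) (hp : p ≠ 0) : Unip N p q := by
  intro B hB τ hτ x ⟨n, hn⟩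
  obtain ⟨D, rfl⟩ := Pic0.mk_surjective x
  set m : ℕ := p ^ n with hm
  have hm0 : m ≠ 0 := pow_ne_zero _ hp
  -- the Kummer function of `D`
  have hprin : ((m • D : Divisor.degZero (K := AlgebraicClosure ℚ)
      (F := modularFunctionFieldBar N)) : Divisor (AlgebraicClosure ℚ)
        (modularFunctionFieldBar N)) ∈ Divisor.principal := by
    apply Fermat.Agent.S18lib.mem_principal_of_mk_eq_zero
    rw [← hn]
    rfl
  obtain ⟨f, hf0, hf⟩ := hprin
  have hfD : ∀ v : Place (AlgebraicClosure ℚ) (modularFunctionFieldBar N),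
      (m : ℤ) * (D : Divisor _ _) v = v.ord f := by
    intro v
    rw [← hf v]
    simp
  have hdiv : ∀ P : Place (AlgebraicClosure ℚ) (modularFunctionFieldBar N),
      (m : ℤ) ∣ P.ord f := fun P => ⟨_, (hfD P).symm⟩
  obtain ⟨c, s, hcs⟩ := h B hB n f hf0 hdiv τ hτ τ hτ
  set g := galFF N τ with hg
  have hgf0 : g • f ≠ 0 := by simpa using hf0
  have hu0 : g • f / f ≠ 0 := div_ne_zero hgf0 hf0
  have hgu0 : g • (g • f / f) ≠ 0 := by simpa using hu0
  have hw0 : kummerComm N τ τ f ≠ 0 := div_ne_zero hgu0 hu0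
  have hc0 : algebraMap (AlgebraicClosure ℚ) (modularFunctionFieldBar N) c ≠ 0 := by
    intro h0
    rw [hcs, h0, zero_mul] at hw0
    exact hw0 rfl
  have hs0 : s ≠ 0 := by
    intro h0
    rw [hcs, h0, zero_pow hm0, mul_zero] at hw0
    exact hw0 rfl
  -- the divisor `E = g g D + D - 2 g D` is `div s`
  have key : ∀ v : Place (AlgebraicClosure ℚ) (modularFunctionFieldBar N),
      ((g • g • (D : Divisor _ _) + (D : Divisor _ _) - 2 • (g • (D : Divisor _ _)) :
        Divisor (AlgebraicClosure ℚ) (modularFunctionFieldBar N))) v = v.ord s := by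
    intro v
    have h1 : v.ord (kummerComm N τ τ f) = (m : ℤ) * v.ord s := by
      rw [hcs, v.ord_mul hc0 (pow_ne_zero _ hs0), Fermat.Agent.S18lib.ord_pow_nat,
        uk_ord_const, zero_add]
    have h2 : v.ord (kummerComm N τ τ f)
        = (m : ℤ) * ((g • g • (D : Divisor _ _)) v + (D : Divisor _ _) v
            - 2 * (g • (D : Divisor _ _)) v) := by
      show v.ord ((g • (g • f / f)) / (g • f / f)) = _
      rw [uk_ord_div v hgu0 hu0, uk_ord_smul' g v, uk_ord_div _ hgf0 hf0, uk_ord_div v hgf0 hf0,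
        uk_ord_smul' g (g⁻¹ • v), uk_ord_smul' g v, ← hfD, ← hfD, ← hfD,
        SemilinearAut.divisor_smul_apply, SemilinearAut.divisor_smul_apply,
        SemilinearAut.divisor_smul_apply]
      ring
    have h3 : (m : ℤ) * ((g • g • (D : Divisor _ _)) v + (D : Divisor _ _) v
            - 2 * (g • (D : Divisor _ _)) v) = (m : ℤ) * v.ord s := by rw [← h2, h1]
    have hm' : (m : ℤ) ≠ 0 := by exact_mod_cast hm0
    have h4 := mul_left_cancel₀ hm' h3
    rw [Finsupp.sub_apply, Finsupp.add_apply, Finsupp.smul_apply, ← h4]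
    simp
  -- conclude in `Pic0`
  have hE : Pic0.mk (SemilinearAut.degZeroSMulHom g (SemilinearAut.degZeroSMulHom g D) + D
      - 2 • SemilinearAut.degZeroSMulHom g D) = 0 := by
    apply Fermat.Agent.S18lib.mk_eq_zero_of_mem_principal
    exact ⟨s, hs0, fun v => key v⟩
  have e1 : τ • τ • Pic0.mk D + Pic0.mk D - 2 • τ • Pic0.mk D
      = Pic0.mk (SemilinearAut.degZeroSMulHom g (SemilinearAut.degZeroSMulHom g D) + D
      - 2 • SemilinearAut.degZeroSMulHom g D) := rfl
  have e2 := e1.trans hE
  exact sub_eq_zero.mp e2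

end Fermat.Agent.S34lib

end
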