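/-
Item 79 (S34), block SC: the SEMISTABLE crux (helper26).  No sorry in this file.  Mathlib only.

Abstract setting.  `K ⊂ F` fields, `A` a valuation ring of `K` with residue map `π : A → k`.
`O ⊂ F` is a SUBRING (in the application `O = O_∞ ∩ O_0`, the unit ball of the sup-norm of the two
Gauss valuations of the function field of `X₀(N)`, `q ∥ N`), `red : O → R` a ring homomorphism
into a `k`-algebra `R` (in the application `R = κ_∞ × κ_0`), compatible with `π`, such that every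
finite-dimensional `K`-subspace of `F` has an ORTHONORMAL basis (`exists_orthonormal`).

`SSRed.crux`: the crux of S18 (`S18lib/CruxCR.lean`, blueprint NOTES/S18_analysis_helper26.md,
ADDENDUM) in this generality: finite-dimensional `V₁, V₂, W₁, W₂ ⊂ F`, `u ∈ O` with `red u = 1`,
(H1)–(H5)  ⟹  `V₁ ⊓ V₂ ≠ ⊥`.
Application: `V_i = L(D_i + E)`, `W_i = L(m D_i)`, `m E = div u`: then `L(E) = V₁ ⊓ V₂ ≠ 0`.
-/
import Mathlib

set_option autoImplicit false

noncomputable section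

namespace Fermat.Agent.S34lib

variable {K F k : Type*} [Field K] [Field F] [Algebra K F] [Field k]

/-- A "semistable constant reduction": a subring `O` of `F` over the valuation ring `A` of `K`
with a reduction map `red : O → R` into a `k`-algebra, compatible with `π : A → k`, such that
every finite-dimensional `K`-subspace of `F` has an orthonormal basis. -/
structure SSRed (A : ValuationSubring K) (π : A →+* k) (R : Type*) [CommRing R] [Algebra k R]
    (F : Type*) [Field F] [Algebra K F] where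
  /-- the unit ball -/
  O : Subring F
  /-- the reduction map -/
  red : O →+* R
  π_surjective : Function.Surjective π
  algebraMap_mem : ∀ a : A, algebraMap K F (a : K) ∈ O
  red_algebraMap : ∀ a : A, red ⟨algebraMap K F (a : K), algebraMap_mem a⟩ = algebraMap k R (π a)
  exists_orthonormal : ∀ V : Submodule K F, Module.Finite K V →
    ∃ (n : ℕ) (b : Fin n → O), Submodule.span K (Set.range fun i => ((b i : O) : F)) = V ∧
      LinearIndependent k (fun i => red (b i))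

/-- the kernel of a surjective ring hom from a valuation subring onto a field is the set of
nonunits -/
lemma ss_valSubring_map_eq_zero_iff {L κ : Type*} [Field L] [Field κ] (V : ValuationSubring L)
    (f : V →+* κ) (hf : Function.Surjective f) (x : V) : f x = 0 ↔ (x : L) ∈ V.nonunits := by
  have hmax : (RingHom.ker f).IsMaximal := RingHom.ker_isMaximal_of_surjective f hf
  have hker : RingHom.ker f = IsLocalRing.maximalIdeal V := IsLocalRing.eq_maximalIdeal hmax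
  rw [ValuationSubring.coe_mem_nonunits_iff, ← hker, RingHom.mem_ker]

variable {R : Type*} [CommRing R] [Algebra k R]
variable {A : ValuationSubring K} {π : A →+* k} (S : SSRed A π R F)

namespace SSRed

include S in
theorem π_eq_zero_iff (a : A) : π a = 0 ↔ (a : K) ∈ A.nonunits :=
  ss_valSubring_map_eq_zero_iff A π S.π_surjective a

/-- the element of `O` given by a constant of `A` -/
def C (c : A) : S.O := ⟨algebraMap K F (c : K), S.algebraMap_mem c⟩

theorem red_C (c : A) : S.red (S.C c) = algebraMap k R (π c) := S.red_algebraMap c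

theorem coe_C (c : A) : ((S.C c : S.O) : F) = algebraMap K F (c : K) := rfl

/-- `red (a • x) = π a • red x` -/
lemma red_C_mul (a : A) (x : S.O) : S.red (S.C a * x) = π a • S.red x := by
  rw [map_mul, S.red_C, Algebra.smul_def]

/-- normalisation of a linear combination: dividing by a coefficient of maximal valuation gives an
element of `O` with nonzero reduction -/
lemma red_normalised_ne_zero {ι : Type*} (x : ι → S.O)
    (h : LinearIndependent k (fun i => S.red (x i))) (s : Finset ι) (g : ι → K) (j : ι)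
    (hj : j ∈ s) (hgj : g j ≠ 0) (hmax : ∀ i ∈ s, A.valuation (g i) ≤ A.valuation (g j)) :
    ∃ y : S.O, (y : F) = algebraMap K F (g j)⁻¹ * ∑ i ∈ s, g i • ((x i : S.O) : F) ∧
      S.red y ≠ 0 := by
  classical
  have hmem : ∀ i ∈ s, g i / g j ∈ A := by
    intro i hi
    rw [← A.valuation_le_one_iff, map_div₀]
    exact div_le_one_of_le₀ (hmax i hi) zero_le
  obtain ⟨a, ha⟩ : ∃ a : ι → A, ∀ i ∈ s, ((a i : A) : K) = g i / g j :=
    ⟨fun i => if hi : i ∈ s then ⟨g i / g j, hmem i hi⟩ else 0, fun i hi => by simp [hi]⟩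
  refine ⟨∑ i ∈ s, S.C (a i) * x i, ?_, ?_⟩
  · rw [Finset.mul_sum, AddSubmonoidClass.coe_finsetSum]
    refine Finset.sum_congr rfl fun i hi => ?_
    show algebraMap K F (a i : K) * ((x i : S.O) : F) = _
    rw [ha i hi, Algebra.smul_def, ← mul_assoc, ← map_mul]
    congr 2
    field_simp
  · intro h0
    rw [map_sum] at h0
    have h1 : ∑ i ∈ s, π (a i) • S.red (x i) = 0 := by
      rw [← h0]
      exact Finset.sum_congr rfl fun i _ => (S.red_C_mul (a i) (x i)).symm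
    have h2 := linearIndependent_iff'.mp h s (fun i => π (a i)) h1 j hj
    have h3 : a j = 1 := by
      apply Subtype.ext
      rw [ha j hj, div_self hgj]
      rfl
    rw [h3, map_one] at h2
    exact one_ne_zero h2

/-- lifts of `k`-independent elements are `K`-independent -/
theorem linearIndependent_of_red {ι : Type*} (x : ι → S.O)
    (h : LinearIndependent k (fun i => S.red (x i))) :
    LinearIndependent K (fun i => ((x i : S.O) : F)) := by
  classical
  rw [linearIndependent_iff']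
  intro s g hsum i hi
  by_contra hgi
  obtain ⟨j, hj, hmax⟩ := Finset.exists_max_image s (fun i => A.valuation (g i)) ⟨i, hi⟩
  have hgj : g j ≠ 0 := by
    intro h0
    have h1 := hmax i hi
    rw [h0, map_zero] at h1
    exact hgi ((A.valuation).zero_iff.mp (le_antisymm h1 zero_le))
  obtain ⟨y, hy, hne⟩ := S.red_normalised_ne_zero x h s g j hj hgj hmax
  rw [hsum, mul_zero] at hy
  have hy0 : y = 0 := Subtype.ext hy
  rw [hy0, map_zero] at hne
  exact hne rfl

/-- if a combination of an orthonormal family lies in `O`, its coefficients lie in `A` -/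
lemma coeff_mem_of_sum_mem {ι : Type*} (x : ι → S.O)
    (h : LinearIndependent k (fun i => S.red (x i))) (s : Finset ι) (g : ι → K)
    (hy : ∑ i ∈ s, g i • ((x i : S.O) : F) ∈ S.O) : ∀ i ∈ s, g i ∈ A := by
  classical
  intro i hi
  by_contra hgi
  obtain ⟨j, hj, hmax⟩ := Finset.exists_max_image s (fun i => A.valuation (g i)) ⟨i, hi⟩
  have hgjA : g j ∉ A := by
    intro hA
    apply hgi
    rw [← A.valuation_le_one_iff] at hA ⊢
    exact (hmax i hi).trans hA
  have hgj : g j ≠ 0 := fun h0 => hgjA (h0 ▸ A.zero_mem)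
  obtain ⟨y, hyeq, hne⟩ := S.red_normalised_ne_zero x h s g j hj hgj hmax
  have hinv : (g j)⁻¹ ∈ A := (A.mem_or_inv_mem (g j)).resolve_left hgjA
  have hnu : (g j)⁻¹ ∈ A.nonunits := by
    rw [ValuationSubring.mem_nonunits_iff_or]
    right
    rwa [inv_inv]
  have hπ : π ⟨(g j)⁻¹, hinv⟩ = 0 := (S.π_eq_zero_iff ⟨(g j)⁻¹, hinv⟩).mpr hnu
  have hyy : y = S.C ⟨(g j)⁻¹, hinv⟩ * ⟨∑ i ∈ s, g i • ((x i : S.O) : F), hy⟩ :=
    Subtype.ext hyeq
  rw [hyy, S.red_C_mul ⟨(g j)⁻¹, hinv⟩, hπ, zero_smul] at hne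
  exact hne rfl

/-- reduction of a combination with coefficients in `A` -/
lemma red_sum_smul {ι : Type*} (x : ι → S.O) (s : Finset ι) (a : ι → A) (y : S.O)
    (hy : (y : F) = ∑ i ∈ s, ((a i : A) : K) • ((x i : S.O) : F)) :
    S.red y = ∑ i ∈ s, π (a i) • S.red (x i) := by
  have hyy : y = ∑ i ∈ s, S.C (a i) * x i := by
    apply Subtype.ext
    rw [hy]
    push_cast
    refine Finset.sum_congr rfl fun i _ => ?_
    rw [Algebra.smul_def]
    rfl
  rw [hyy, map_sum]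
  exact Finset.sum_congr rfl fun i _ => S.red_C_mul (a i) (x i)

/-- the value group of the sup-norm is that of `A`: every nonzero `t ∈ F` has a multiple `φ t`
(`φ ∈ K^×`) in `O` with nonzero reduction -/
theorem exists_smul_red_ne_zero (t : F) (ht : t ≠ 0) :
    ∃ φ : K, φ ≠ 0 ∧ ∃ h : algebraMap K F φ * t ∈ S.O, S.red ⟨algebraMap K F φ * t, h⟩ ≠ 0 := by
  classical
  obtain ⟨n, b, hbs, hb⟩ := S.exists_orthonormal (Submodule.span K {t}) inferInstance
  have hn : n ≠ 0 := by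
    rintro rfl
    have : Submodule.span K (Set.range fun i : Fin 0 => ((b i : S.O) : F)) = ⊥ := by
      rw [Set.range_eq_empty, Submodule.span_empty]
    rw [this] at hbs
    have ht' : t ∈ (⊥ : Submodule K F) := hbs ▸ Submodule.mem_span_singleton_self t
    exact ht ((Submodule.mem_bot K).mp ht')
  obtain ⟨m, rfl⟩ := Nat.exists_eq_succ_of_ne_zero hn
  have hb0 : ((b 0 : S.O) : F) ∈ Submodule.span K {t} := by
    rw [← hbs]
    exact Submodule.subset_span ⟨0, rfl⟩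
  obtain ⟨φ, hφ⟩ := Submodule.mem_span_singleton.mp hb0
  have hred : S.red (b 0) ≠ 0 := hb.ne_zero 0
  have hφ0 : φ ≠ 0 := by
    rintro rfl
    rw [zero_smul] at hφ
    have : b 0 = 0 := Subtype.ext hφ.symm
    rw [this, map_zero] at hred
    exact hred rfl
  have heq : algebraMap K F φ * t = ((b 0 : S.O) : F) := by rw [← hφ, Algebra.smul_def]
  refine ⟨φ, hφ0, heq ▸ (b 0).2, ?_⟩
  have : (⟨algebraMap K F φ * t, heq ▸ (b 0).2⟩ : S.O) = b 0 := Subtype.ext heq
  rw [this]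
  exact hred

/-- integral coordinates in an orthonormal basis -/
theorem coords {n : ℕ} (b : Fin n → S.O) (hb : LinearIndependent k (fun i => S.red (b i)))
    (V : Submodule K F) (hV : Submodule.span K (Set.range fun i => ((b i : S.O) : F)) = V)
    (y : S.O) (hy : (y : F) ∈ V) :
    ∃ a : Fin n → A, (y : F) = ∑ i, ((a i : A) : K) • ((b i : S.O) : F) ∧
      S.red y = ∑ i, π (a i) • S.red (b i) := by
  classical
  rw [← hV] at hy
  obtain ⟨g, hg⟩ := (Submodule.mem_span_range_iff_exists_fun K).mp hy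
  have hmem : ∀ i ∈ (Finset.univ : Finset (Fin n)), g i ∈ A :=
    S.coeff_mem_of_sum_mem b hb Finset.univ g (by rw [hg]; exact y.2)
  refine ⟨fun i => ⟨g i, hmem i (Finset.mem_univ i)⟩, hg.symm, ?_⟩
  exact S.red_sum_smul b Finset.univ (fun i => ⟨g i, hmem i (Finset.mem_univ i)⟩) y hg.symm

/-- the reduction of an element of `V ∩ O` lies in the span of the reductions of an orthonormal
basis -/
theorem red_mem_span {n : ℕ} (b : Fin n → S.O)
    (hb : LinearIndependent k (fun i => S.red (b i)))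
    (V : Submodule K F) (hV : Submodule.span K (Set.range fun i => ((b i : S.O) : F)) = V)
    (y : S.O) (hy : (y : F) ∈ V) :
    S.red y ∈ Submodule.span k (Set.range fun i => S.red (b i)) := by
  obtain ⟨a, -, ha⟩ := S.coords b hb V hV y hy
  rw [ha]
  exact Submodule.sum_mem _ fun i _ =>
    Submodule.smul_mem _ _ (Submodule.subset_span ⟨i, rfl⟩)

theorem finrank_eq {n : ℕ} (b : Fin n → S.O)
    (hb : LinearIndependent k (fun i => S.red (b i)))
    (V : Submodule K F) (hV : Submodule.span K (Set.range fun i => ((b i : S.O) : F)) = V) :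
    Module.finrank K V = n := by
  have h := finrank_span_eq_card (S.linearIndependent_of_red b hb)
  rw [hV] at h
  simpa using h

/-- **Step 1** (dimension count): if `V₁ ⊓ V₂ = ⊥` and `1 ∈ red V₁ ∩ red V₂`, then some
`f ∈ (V₁ ⊔ V₂) ∩ O` has its reduction outside `red V₁ − red V₂`. -/
theorem exists_bad [Nontrivial R] (V₁ V₂ : Submodule K F) [Module.Finite K V₁]
    [Module.Finite K V₂] (hinf : V₁ ⊓ V₂ = ⊥)
    (h1 : (∃ s : S.O, (s : F) ∈ V₁ ∧ S.red s = 1) ∧ ∃ s : S.O, (s : F) ∈ V₂ ∧ S.red s = 1) :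
    ∃ f : S.O, (f : F) ∈ V₁ ⊔ V₂ ∧
      ¬ ∃ a₁ a₂ : S.O, (a₁ : F) ∈ V₁ ∧ (a₂ : F) ∈ V₂ ∧ S.red f = S.red a₁ - S.red a₂ := by
  classical
  obtain ⟨n₁, b₁, hb₁s, hb₁⟩ := S.exists_orthonormal V₁ inferInstance
  obtain ⟨n₂, b₂, hb₂s, hb₂⟩ := S.exists_orthonormal V₂ inferInstance
  obtain ⟨n, b, hbs, hb⟩ := S.exists_orthonormal (V₁ ⊔ V₂) inferInstance
  by_contra hcon
  have hall : ∀ f : S.O, (f : F) ∈ V₁ ⊔ V₂ →
      ∃ a₁ a₂ : S.O, (a₁ : F) ∈ V₁ ∧ (a₂ : F) ∈ V₂ ∧ S.red f = S.red a₁ - S.red a₂ := by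
    intro f hf
    by_contra h
    exact hcon ⟨f, hf, h⟩
  set S₁ : Submodule k R := Submodule.span k (Set.range fun i => S.red (b₁ i)) with hS₁
  set S₂ : Submodule k R := Submodule.span k (Set.range fun i => S.red (b₂ i)) with hS₂
  -- dimensions upstairs
  have hn₁ : Module.finrank K V₁ = n₁ := S.finrank_eq b₁ hb₁ V₁ hb₁s
  have hn₂ : Module.finrank K V₂ = n₂ := S.finrank_eq b₂ hb₂ V₂ hb₂s
  have hn : Module.finrank K (V₁ ⊔ V₂ : Submodule K F) = n := S.finrank_eq b hb _ hbs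
  have hsum : n = n₁ + n₂ := by
    have h := Submodule.finrank_sup_add_finrank_inf_eq V₁ V₂
    rw [hinf, finrank_bot, add_zero, hn, hn₁, hn₂] at h
    exact h
  -- dimensions downstairs
  have hS₁fin : Module.finrank k S₁ ≤ n₁ := by
    have := finrank_range_le_card (R := k) (fun i => S.red (b₁ i))
    simpa [hS₁, Set.finrank] using this
  have hS₂fin : Module.finrank k S₂ ≤ n₂ := by
    have := finrank_range_le_card (R := k) (fun i => S.red (b₂ i))
    simpa [hS₂, Set.finrank] using this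
  have : Module.Finite k S₁ := FiniteDimensional.span_of_finite k (Set.finite_range _)
  have : Module.Finite k S₂ := FiniteDimensional.span_of_finite k (Set.finite_range _)
  have hone : (1 : R) ∈ S₁ ⊓ S₂ := by
    obtain ⟨⟨s₁, hs₁V, hs₁⟩, ⟨s₂, hs₂V, hs₂⟩⟩ := h1
    refine ⟨?_, ?_⟩
    · rw [← hs₁]; exact S.red_mem_span b₁ hb₁ V₁ hb₁s s₁ hs₁V
    · rw [← hs₂]; exact S.red_mem_span b₂ hb₂ V₂ hb₂s s₂ hs₂V
  have hinfpos : 1 ≤ Module.finrank k (S₁ ⊓ S₂ : Submodule k R) := by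
    have : 0 < Module.finrank k (S₁ ⊓ S₂ : Submodule k R) := by
      rw [Module.finrank_pos_iff_exists_ne_zero]
      exact ⟨⟨1, hone⟩, fun h => one_ne_zero (congrArg Subtype.val h)⟩
    omega
  have hsup : Module.finrank k (S₁ ⊔ S₂ : Submodule k R) + 1 ≤ n₁ + n₂ := by
    have h := Submodule.finrank_sup_add_finrank_inf_eq S₁ S₂
    omega
  -- the reductions of `b` lie in `S₁ ⊔ S₂`
  have hmem : ∀ i, S.red (b i) ∈ S₁ ⊔ S₂ := by
    intro i
    have hbi : ((b i : S.O) : F) ∈ V₁ ⊔ V₂ := by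
      rw [← hbs]
      exact Submodule.subset_span ⟨i, rfl⟩
    obtain ⟨a₁, a₂, ha₁, ha₂, hred⟩ := hall (b i) hbi
    rw [hred]
    exact Submodule.sub_mem _
      (Submodule.mem_sup_left (S.red_mem_span b₁ hb₁ V₁ hb₁s a₁ ha₁))
      (Submodule.mem_sup_right (S.red_mem_span b₂ hb₂ V₂ hb₂s a₂ ha₂))
  have hli : LinearIndependent k
      (fun i => (⟨S.red (b i), hmem i⟩ : (S₁ ⊔ S₂ : Submodule k R))) := by
    refine LinearIndependent.of_comp (S₁ ⊔ S₂ : Submodule k R).subtype ?_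
    exact hb
  have hcard := hli.fintype_card_le_finrank
  rw [Fintype.card_fin] at hcard
  omega

include S in
/-- a unit of `A` has an inverse in `A` -/
theorem exists_inv (a : A) (ha : π a ≠ 0) : ∃ b : A, a * b = 1 := by
  have h1 : (a : K) ∉ A.nonunits := fun h => ha ((S.π_eq_zero_iff a).mpr h)
  rw [ValuationSubring.mem_nonunits_iff_or, not_or, not_not] at h1
  refine ⟨⟨(a : K)⁻¹, h1.2⟩, Subtype.ext ?_⟩
  show (a : K) * (a : K)⁻¹ = 1
  exact mul_inv_cancel₀ h1.1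

/-- **Step 2** (normalisation): from a bad `f` we get `s_i ∈ V_i ∩ O` with `red s_i = 1` and
`s₁ − s₂ = c·f`, `c ∈ m_A`, `c ≠ 0`. -/
theorem normalise (V₁ V₂ : Submodule K F)
    (h2 : ∀ x₁ x₂ : S.O, (x₁ : F) ∈ V₁ → (x₂ : F) ∈ V₂ → S.red x₁ = S.red x₂ →
      S.red x₁ ∈ Set.range (algebraMap k R))
    (f : S.O) (hfV : (f : F) ∈ V₁ ⊔ V₂)
    (hfbad : ¬ ∃ a₁ a₂ : S.O, (a₁ : F) ∈ V₁ ∧ (a₂ : F) ∈ V₂ ∧ S.red f = S.red a₁ - S.red a₂) :
    ∃ (c : A) (s₁ s₂ : S.O), (c : K) ≠ 0 ∧ π c = 0 ∧ (s₁ : F) ∈ V₁ ∧ (s₂ : F) ∈ V₂ ∧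
      S.red s₁ = 1 ∧ S.red s₂ = 1 ∧ s₁ - s₂ = S.C c * f := by
  obtain ⟨t₁, ht₁, t₂, ht₂, hsum⟩ := Submodule.mem_sup.mp hfV
  have ht₁O : t₁ ∉ S.O := by
    intro h
    have h2' : t₂ ∈ S.O := by
      have : t₂ = (f : F) - t₁ := by rw [← hsum]; ring
      rw [this]
      exact sub_mem f.2 h
    apply hfbad
    refine ⟨⟨t₁, h⟩, ⟨-t₂, neg_mem h2'⟩, ht₁, V₂.neg_mem ht₂, ?_⟩
    have : f = (⟨t₁, h⟩ : S.O) - ⟨-t₂, neg_mem h2'⟩ := by
      apply Subtype.ext
      show (f : F) = t₁ - -t₂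
      rw [← hsum]; ring
    rw [this, map_sub]
  have ht₁0 : t₁ ≠ 0 := fun h0 => ht₁O (h0 ▸ S.O.zero_mem)
  obtain ⟨φ, hφ0, hφmem, hs₁ne⟩ := S.exists_smul_red_ne_zero t₁ ht₁0
  have hφinvA : φ⁻¹ ∉ A := by
    intro h
    apply ht₁O
    have : t₁ = algebraMap K F φ⁻¹ * (algebraMap K F φ * t₁) := by
      rw [← mul_assoc, ← map_mul, inv_mul_cancel₀ hφ0, map_one, one_mul]
    rw [this]
    exact mul_mem (S.algebraMap_mem ⟨φ⁻¹, h⟩) hφmem
  have hφA : φ ∈ A := (A.mem_or_inv_mem φ).resolve_right hφinvA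
  have hπφ : π ⟨φ, hφA⟩ = 0 :=
    (S.π_eq_zero_iff ⟨φ, hφA⟩).mpr (A.mem_nonunits_iff_or.mpr (Or.inr hφinvA))
  -- first version of `s₁, s₂`
  set s₁ : S.O := ⟨algebraMap K F φ * t₁, hφmem⟩ with hs₁
  have hs₁V : (s₁ : F) ∈ V₁ := by
    show algebraMap K F φ * t₁ ∈ V₁
    rw [← Algebra.smul_def]
    exact V₁.smul_mem φ ht₁
  set s₂ : S.O := s₁ - S.C ⟨φ, hφA⟩ * f with hs₂
  have hs₂V : (s₂ : F) ∈ V₂ := by
    have : (s₂ : F) = (-φ) • t₂ := by
      show algebraMap K F φ * t₁ - algebraMap K F φ * (f : F) = _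
      rw [← hsum, Algebra.smul_def, map_neg]; ring
    rw [this]
    exact V₂.smul_mem _ ht₂
  have hreds : S.red s₂ = S.red s₁ := by
    rw [hs₂, map_sub, map_mul, S.red_C, hπφ, map_zero, zero_mul, sub_zero]
  obtain ⟨a, ha⟩ := h2 s₁ s₂ hs₁V hs₂V hreds.symm
  have ha0 : a ≠ 0 := by
    rintro rfl
    rw [map_zero] at ha
    exact hs₁ne ha.symm
  obtain ⟨α, rfl⟩ := S.π_surjective a
  obtain ⟨β, hβ⟩ := S.exists_inv α ha0
  have hπβ : π α * π β = 1 := by rw [← map_mul, hβ, map_one]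
  have hred1 : S.red (S.C β * s₁) = 1 := by
    rw [map_mul, S.red_C, ← ha, ← map_mul, mul_comm, hπβ, map_one]
  refine ⟨β * ⟨φ, hφA⟩, S.C β * s₁, S.C β * s₂, ?_, ?_, ?_, ?_, hred1, ?_, ?_⟩
  · have hβ0 : (β : K) ≠ 0 := by
      intro h0
      have : β = 0 := Subtype.ext h0
      rw [this, mul_zero] at hβ
      exact zero_ne_one hβ
    exact mul_ne_zero hβ0 hφ0
  · rw [map_mul, hπφ, mul_zero]
  · show algebraMap K F (β : K) * (s₁ : F) ∈ V₁
    rw [← Algebra.smul_def]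
    exact V₁.smul_mem _ hs₁V
  · show algebraMap K F (β : K) * (s₂ : F) ∈ V₂
    rw [← Algebra.smul_def]
    exact V₂.smul_mem _ hs₂V
  · rw [map_mul, hreds, ← map_mul]
    exact hred1
  · rw [hs₂]
    apply Subtype.ext
    show algebraMap K F (β : K) * (s₁ : F) -
        algebraMap K F (β : K) * ((s₁ : F) - algebraMap K F φ * (f : F)) =
      algebraMap K F ((β : K) * φ) * (f : F)
    rw [map_mul]; ring

/-- divisibility in the valuation ring `A` -/
theorem ss_dvd_of_val_le {c z : A} (hc : (c : K) ≠ 0)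
    (h : A.valuation (z : K) ≤ A.valuation (c : K)) : ∃ z' : A, z = c * z' := by
  have hmem : (z : K) / (c : K) ∈ A := by
    rw [← A.valuation_le_one_iff, map_div₀]
    exact div_le_one_of_le₀ h zero_le
  refine ⟨⟨(z : K) / (c : K), hmem⟩, Subtype.ext ?_⟩
  show (z : K) = (c : K) * ((z : K) / (c : K))
  field_simp

/-- a combination of elements of `O` with coefficients in `A` -/
def lsum {n : ℕ} (a : Fin n → A) (w : Fin n → S.O) : S.O := ∑ j, S.C (a j) * w j

theorem coe_lsum {n : ℕ} (a : Fin n → A) (w : Fin n → S.O) :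
    ((S.lsum a w : S.O) : F) = ∑ j, ((a j : A) : K) • ((w j : S.O) : F) := by
  rw [lsum, AddSubmonoidClass.coe_finsetSum]
  refine Finset.sum_congr rfl fun j _ => ?_
  show algebraMap K F (a j : K) * ((w j : S.O) : F) = _
  rw [Algebra.smul_def]

theorem red_lsum {n : ℕ} (a : Fin n → A) (w : Fin n → S.O) :
    S.red (S.lsum a w) = ∑ j, π (a j) • S.red (w j) := by
  rw [lsum, map_sum]
  refine Finset.sum_congr rfl fun j _ => ?_
  rw [map_mul, S.red_C, Algebra.smul_def]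

theorem lsum_mem {n : ℕ} (a : Fin n → A) (w : Fin n → S.O) (W : Submodule K F)
    (hw : ∀ j, ((w j : S.O) : F) ∈ W) : ((S.lsum a w : S.O) : F) ∈ W := by
  rw [S.coe_lsum]
  exact Submodule.sum_mem _ fun j _ => Submodule.smul_mem _ _ (hw j)


/-- **Steps 3–4** (improvement): the reduction of `f` does lie in `red V₁ − red V₂`. -/
theorem improve [Nontrivial R] (V₁ V₂ W₁ W₂ : Submodule K F) [Module.Finite K W₁]
    (u : S.O) (hu : S.red u = 1) (m : ℕ)
    (h3 : (∀ s ∈ V₁, ((u : S.O) : F) * s ^ m ∈ W₁) ∧ (∀ s ∈ V₂, ((u : S.O) : F) * s ^ m ∈ W₂) ∧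
      (1 : F) ∈ W₁ ∧ (1 : F) ∈ W₂)
    (h4 : ∀ x₁ x₂ : S.O, (x₁ : F) ∈ W₁ → (x₂ : F) ∈ W₂ → S.red x₁ = S.red x₂ →
      S.red x₁ ∈ Set.range (algebraMap k R))
    (h5 : ∀ h₁ h₂ τ : S.O, (h₁ : F) ∈ W₁ → (h₂ : F) ∈ W₂ → (τ : F) ∈ V₁ ⊔ V₂ →
      S.red h₁ - S.red h₂ = (m : R) * S.red τ →
      ∃ a₁ a₂ : S.O, (a₁ : F) ∈ V₁ ∧ (a₂ : F) ∈ V₂ ∧ S.red τ = S.red a₁ - S.red a₂)
    (f : S.O) (hfV : (f : F) ∈ V₁ ⊔ V₂)
    (c : A) (s₁ s₂ : S.O) (hc0 : (c : K) ≠ 0) (hπc : π c = 0)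
    (hs₁V : (s₁ : F) ∈ V₁) (hs₂V : (s₂ : F) ∈ V₂)
    (hs₁ : S.red s₁ = 1) (hs₂ : S.red s₂ = 1) (hdiff : s₁ - s₂ = S.C c * f) :
    ∃ a₁ a₂ : S.O, (a₁ : F) ∈ V₁ ∧ (a₂ : F) ∈ V₂ ∧ S.red f = S.red a₁ - S.red a₂ := by
  classical
  obtain ⟨h3a, h3b, h3c, h3d⟩ := h3
  set f₁ : S.O := u * s₁ ^ m with hf₁
  set f₂ : S.O := u * s₂ ^ m with hf₂
  have hf₁W : (f₁ : F) ∈ W₁ := h3a _ hs₁V
  have hf₂W : (f₂ : F) ∈ W₂ := h3b _ hs₂V
  set σ : S.O := ∑ j ∈ Finset.range m, s₁ ^ j * s₂ ^ (m - 1 - j) with hσdef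
  have hσ : S.red σ = (m : R) := by
    rw [hσdef, map_sum]
    simp only [map_mul, map_pow, hs₁, hs₂, one_pow, mul_one]
    simp
  have hgeom : f₁ - f₂ = S.C c * (u * σ * f) := by
    have h := geom_sum₂_mul s₁ s₂ m
    rw [hdiff] at h
    rw [hf₁, hf₂, ← mul_sub, ← h, hσdef]
    ring
  -- orthonormal basis of `W₁`
  obtain ⟨nW, w, hws, hw⟩ := S.exists_orthonormal W₁ inferInstance
  have hwW : ∀ j, ((w j : S.O) : F) ∈ W₁ := fun j => by
    rw [← hws]; exact Submodule.subset_span ⟨j, rfl⟩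
  obtain ⟨o, ho, hored⟩ := S.coords w hw W₁ hws 1 (by simpa using h3c)
  rw [map_one] at hored
  obtain ⟨j₁, hj₁⟩ : ∃ j₁, π (o j₁) ≠ 0 := by
    by_contra hcon
    have hall : ∀ j, π (o j) = 0 := fun j => by
      by_contra h
      exact hcon ⟨j, h⟩
    rw [Finset.sum_eq_zero (fun j _ => by rw [hall j, zero_smul])] at hored
    exact one_ne_zero hored
  obtain ⟨y, hy, -⟩ := S.coords w hw W₁ hws f₁ hf₁W
  obtain ⟨oinv, hoinv⟩ := S.exists_inv (o j₁) hj₁
  set γ : A := y j₁ * oinv with hγ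
  set z : Fin nW → A := fun j => y j - γ * o j with hz
  have hz₁ : z j₁ = 0 := by
    show y j₁ - y j₁ * oinv * o j₁ = 0
    rw [mul_assoc, mul_comm oinv, hoinv, mul_one, sub_self]
  have hfz : ((f₁ : S.O) : F) - algebraMap K F (γ : K) =
      ∑ j, ((z j : A) : K) • ((w j : S.O) : F) := by
    have h1 : algebraMap K F (γ : K) = ∑ j, ((γ * o j : A) : K) • ((w j : S.O) : F) := by
      have : (1 : F) = ∑ j, ((o j : A) : K) • ((w j : S.O) : F) := by
        rw [← ho]; rfl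
      calc algebraMap K F (γ : K) = (γ : K) • (1 : F) := by rw [Algebra.smul_def, mul_one]
        _ = ∑ j, ((γ * o j : A) : K) • ((w j : S.O) : F) := by
          rw [this, Finset.smul_sum]
          refine Finset.sum_congr rfl fun j _ => ?_
          rw [smul_smul]
          rfl
    rw [hy, h1, ← Finset.sum_sub_distrib]
    refine Finset.sum_congr rfl fun j _ => ?_
    rw [← sub_smul]
    rfl
  have hγW₂ : algebraMap K F (γ : K) ∈ W₂ := by
    rw [Algebra.algebraMap_eq_smul_one]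
    exact W₂.smul_mem _ h3d
  -- KEY: every `z j` is divisible by `c`
  have hkey : ∀ j, A.valuation ((z j : A) : K) ≤ A.valuation (c : K) := by
    by_contra hcon
    rw [not_forall] at hcon
    obtain ⟨jb, hjb⟩ := hcon
    rw [not_le] at hjb
    obtain ⟨j₀, -, hmax⟩ := Finset.exists_max_image Finset.univ
      (fun j => A.valuation ((z j : A) : K)) ⟨jb, Finset.mem_univ _⟩
    have hj₀ : A.valuation (c : K) < A.valuation ((z j₀ : A) : K) :=
      lt_of_lt_of_le hjb (hmax jb (Finset.mem_univ _))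
    have hz₀ : ((z j₀ : A) : K) ≠ 0 := by
      intro h0
      rw [h0, map_zero] at hj₀
      exact not_lt_zero hj₀
    have hζ : ∀ j, ∃ ζ : A, z j = z j₀ * ζ := fun j =>
      ss_dvd_of_val_le hz₀ (hmax j (Finset.mem_univ _))
    choose ζ hζ' using hζ
    obtain ⟨κ, hκ⟩ : ∃ κ : A, c = z j₀ * κ := ss_dvd_of_val_le hz₀ hj₀.le
    have hπκ : π κ = 0 := by
      rw [S.π_eq_zero_iff, ValuationSubring.mem_nonunits_iff]
      have h1 : (c : K) = (z j₀ : K) * (κ : K) := congrArg Subtype.val hκ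
      have h2 : A.valuation (c : K) = A.valuation (z j₀ : K) * A.valuation (κ : K) := by
        rw [h1, map_mul]
      by_contra hge
      rw [not_lt] at hge
      have h3 : A.valuation (z j₀ : K) ≤ A.valuation (c : K) := by
        rw [h2]
        calc A.valuation (z j₀ : K) = A.valuation (z j₀ : K) * 1 := (mul_one _).symm
          _ ≤ A.valuation (z j₀ : K) * A.valuation (κ : K) := by gcongr
      exact not_le.mpr hj₀ h3
    have hζ₀ : ζ j₀ = 1 := by
      have h1 := hζ' j₀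
      have h2 : ((z j₀ : A) : K) * 1 = ((z j₀ : A) : K) * ((ζ j₀ : A) : K) := by
        rw [mul_one]
        exact congrArg Subtype.val h1
      exact Subtype.ext (mul_left_cancel₀ hz₀ h2).symm
    have hζ₁ : ζ j₁ = 0 := by
      have h1 := hζ' j₁
      rw [hz₁] at h1
      have h2 : ((z j₀ : A) : K) * ((ζ j₁ : A) : K) = 0 := (congrArg Subtype.val h1).symm
      rcases mul_eq_zero.mp h2 with h | h
      · exact absurd h hz₀
      · exact Subtype.ext h
    set g₁ : S.O := S.lsum ζ w with hg₁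
    have hg₁W : (g₁ : F) ∈ W₁ := S.lsum_mem ζ w W₁ hwW
    have hg₁eq : algebraMap K F (z j₀ : K) * (g₁ : F) =
        ((f₁ : S.O) : F) - algebraMap K F (γ : K) := by
      rw [hfz, hg₁, S.coe_lsum, Finset.mul_sum]
      refine Finset.sum_congr rfl fun j _ => ?_
      rw [hζ' j, ← Algebra.smul_def, smul_smul]
      rfl
    set g₂ : S.O := g₁ - S.C κ * (u * σ * f) with hg₂
    have hg₂red : S.red g₂ = S.red g₁ := by
      rw [hg₂, map_sub, map_mul, S.red_C, hπκ, map_zero, zero_mul, sub_zero]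
    have hg₂eq : algebraMap K F (z j₀ : K) * (g₂ : F) =
        ((f₂ : S.O) : F) - algebraMap K F (γ : K) := by
      have h1 : ((g₂ : S.O) : F) = (g₁ : F) - algebraMap K F (κ : K) * ((u * σ * f : S.O) : F) :=
        rfl
      have h2 : ((f₁ : S.O) : F) - ((f₂ : S.O) : F) =
          algebraMap K F (c : K) * ((u * σ * f : S.O) : F) := by
        have := congrArg Subtype.val hgeom
        exact this
      have h3 : algebraMap K F (c : K) = algebraMap K F (z j₀ : K) * algebraMap K F (κ : K) := by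
        rw [← map_mul]
        exact congrArg (algebraMap K F) (congrArg Subtype.val hκ)
      rw [h1, mul_sub, hg₁eq, ← mul_assoc, ← h3, ← h2]
      ring
    have hg₂W : (g₂ : F) ∈ W₂ := by
      have h1 : (g₂ : F) = ((z j₀ : K))⁻¹ • (((f₂ : S.O) : F) - algebraMap K F (γ : K)) := by
        rw [← hg₂eq, Algebra.smul_def, ← mul_assoc, ← map_mul, inv_mul_cancel₀ hz₀, map_one,
          one_mul]
      rw [h1]
      exact W₂.smul_mem _ (W₂.sub_mem hf₂W hγW₂)
    obtain ⟨a, ha⟩ := h4 g₁ g₂ hg₁W hg₂W hg₂red.symm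
    have hcmp : ∑ j, π (ζ j) • S.red (w j) = ∑ j, (a * π (o j)) • S.red (w j) := by
      rw [← S.red_lsum, ← hg₁, ← ha, Algebra.algebraMap_eq_smul_one, hored, Finset.smul_sum]
      refine Finset.sum_congr rfl fun j _ => ?_
      rw [smul_smul]
    have hco := fun j => hw.eq_coords_of_eq hcmp j
    have ha0 : a = 0 := by
      have h1 := hco j₁
      rw [hζ₁, map_zero] at h1
      rcases mul_eq_zero.mp h1.symm with h | h
      · exact h
      · exact absurd h hj₁
    have h0 := hco j₀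
    rw [hζ₀, map_one, ha0, zero_mul] at h0
    exact one_ne_zero h0
  have hz' : ∀ j, ∃ z' : A, z j = c * z' := fun j => ss_dvd_of_val_le hc0 (hkey j)
  choose z' hz'' using hz'
  set h₁ : S.O := S.lsum z' w with hh₁
  have hh₁W : (h₁ : F) ∈ W₁ := S.lsum_mem z' w W₁ hwW
  have hh₁eq : algebraMap K F (c : K) * (h₁ : F) =
      ((f₁ : S.O) : F) - algebraMap K F (γ : K) := by
    rw [hfz, hh₁, S.coe_lsum, Finset.mul_sum]
    refine Finset.sum_congr rfl fun j _ => ?_
    rw [hz'' j, ← Algebra.smul_def, smul_smul]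
    rfl
  set h₂ : S.O := h₁ - u * σ * f with hh₂
  have hh₂eq : algebraMap K F (c : K) * (h₂ : F) =
      ((f₂ : S.O) : F) - algebraMap K F (γ : K) := by
    have h1 : ((h₂ : S.O) : F) = (h₁ : F) - ((u * σ * f : S.O) : F) := rfl
    have h2 : ((f₁ : S.O) : F) - ((f₂ : S.O) : F) =
        algebraMap K F (c : K) * ((u * σ * f : S.O) : F) := congrArg Subtype.val hgeom
    rw [h1, mul_sub, hh₁eq, ← h2]
    ring
  have hh₂W : (h₂ : F) ∈ W₂ := by
    have h1 : (h₂ : F) = ((c : K))⁻¹ • (((f₂ : S.O) : F) - algebraMap K F (γ : K)) := by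
      rw [← hh₂eq, Algebra.smul_def, ← mul_assoc, ← map_mul, inv_mul_cancel₀ hc0, map_one,
        one_mul]
    rw [h1]
    exact W₂.smul_mem _ (W₂.sub_mem hf₂W hγW₂)
  have hred : S.red h₁ - S.red h₂ = (m : R) * S.red f := by
    rw [hh₂, map_sub, map_mul, map_mul, hu, hσ, one_mul]
    ring
  exact h5 h₁ h₂ f hh₁W hh₂W hfV hred

/-- **the semistable crux** (abstract lemma on a sup-norm).  See the header of this file. -/
theorem crux [Nontrivial R] (V₁ V₂ W₁ W₂ : Submodule K F)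
    [Module.Finite K V₁] [Module.Finite K V₂] [Module.Finite K W₁]
    (u : S.O) (hu : S.red u = 1) (m : ℕ)
    (h1 : (∃ s : S.O, (s : F) ∈ V₁ ∧ S.red s = 1) ∧ ∃ s : S.O, (s : F) ∈ V₂ ∧ S.red s = 1)
    (h2 : ∀ x₁ x₂ : S.O, (x₁ : F) ∈ V₁ → (x₂ : F) ∈ V₂ → S.red x₁ = S.red x₂ →
      S.red x₁ ∈ Set.range (algebraMap k R))
    (h3 : (∀ s ∈ V₁, ((u : S.O) : F) * s ^ m ∈ W₁) ∧ (∀ s ∈ V₂, ((u : S.O) : F) * s ^ m ∈ W₂) ∧
      (1 : F) ∈ W₁ ∧ (1 : F) ∈ W₂)
    (h4 : ∀ x₁ x₂ : S.O, (x₁ : F) ∈ W₁ → (x₂ : F) ∈ W₂ → S.red x₁ = S.red x₂ →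
      S.red x₁ ∈ Set.range (algebraMap k R))
    (h5 : ∀ h₁ h₂ τ : S.O, (h₁ : F) ∈ W₁ → (h₂ : F) ∈ W₂ → (τ : F) ∈ V₁ ⊔ V₂ →
      S.red h₁ - S.red h₂ = (m : R) * S.red τ →
      ∃ a₁ a₂ : S.O, (a₁ : F) ∈ V₁ ∧ (a₂ : F) ∈ V₂ ∧ S.red τ = S.red a₁ - S.red a₂) :
    V₁ ⊓ V₂ ≠ ⊥ := by
  intro hinf
  obtain ⟨f, hfV, hfbad⟩ := S.exists_bad V₁ V₂ hinf h1
  obtain ⟨c, s₁, s₂, hc0, hπc, hs₁V, hs₂V, hs₁, hs₂, hdiff⟩ :=
    S.normalise V₁ V₂ h2 f hfV hfbad
  exact hfbad (S.improve V₁ V₂ W₁ W₂ u hu m h3 h4 h5 f hfV c s₁ s₂ hc0 hπc hs₁V hs₂V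
    hs₁ hs₂ hdiff)

end SSRed

end Fermat.Agent.S34lib

end
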