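/-
Item 79 (S34), block SC, part 2 (helper26): the semistable reduction datum `SSRed` attached to TWO
constant reductions `R₁, R₂` (GoodRed `ConstRed`) of the same function field `F/K`.
`O = R₁.O ∩ R₂.O` (unit ball of the sup-norm), `red = (red₁, red₂) : O → Fk₁ × Fk₂`.
The only non-formal point is `exists_orthonormal` for the sup-norm: the intersection of the two
unit balls of a finite-dimensional `V` is a finitely generated torsion-free module over the
valuation ring `A`, hence free (Mathlib: torsion-free ⇒ flat over a Bézout domain, f.g. flat ⇒ free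
over a local ring); an `A`-basis of it is orthonormal for the sup-norm.
No sorry in this file.
-/
import Mathlib
import Fermat.Agent.GoodRed.Defs
import Fermat.Agent.GoodRed.Lattice
import Fermat.Agent.S34lib.CruxSS

set_option autoImplicit false

noncomputable section

namespace Fermat.Agent.S34lib

open Fermat.Agent.GoodRed

section Lattice

variable {K : Type*} [Field K] (A : ValuationSubring K)

/-- finitely generated torsion-free modules over a valuation ring are free -/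
theorem ss_free_of_finite_torsionFree (M : Type*) [AddCommGroup M] [Module A M]
    [Module.Finite A M] [Module.IsTorsionFree A M] : Module.Free A M := by
  have : Module.Flat A M := by
    rw [Module.Flat.flat_iff_torsion_eq_bot_of_isBezout,
      ← Submodule.isTorsionFree_iff_torsion_eq_bot]
    infer_instance
  exact Module.free_of_flat_of_isLocalRing

variable {A} {F : Type*} [AddCommGroup F] [Module A F] [Module.IsTorsionFree A F]

/-- over a valuation ring, the intersection of two finitely generated submodules of a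
torsion-free module is finitely generated -/
theorem ss_inf_fg (L₁ L₂ : Submodule A F) (h₁ : L₁.FG) (h₂ : L₂.FG) : (L₁ ⊓ L₂).FG := by
  have hf₁ : Module.Finite A L₁ := Module.Finite.iff_fg.mpr h₁
  have hf₂ : Module.Finite A L₂ := Module.Finite.iff_fg.mpr h₂
  have hf : Module.Finite A (L₁ ⊔ L₂ : Submodule A F) := Module.Finite.iff_fg.mpr (h₁.sup h₂)
  have hfree : Module.Free A (L₁ ⊔ L₂ : Submodule A F) := ss_free_of_finite_torsionFree A _
  let φ : (L₁ × L₂) →ₗ[A] (L₁ ⊔ L₂ : Submodule A F) :=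
    (Submodule.inclusion le_sup_left).coprod (Submodule.inclusion le_sup_right)
  have hφ : Function.Surjective φ := by
    rintro ⟨z, hz⟩
    obtain ⟨x, hx, y, hy, rfl⟩ := Submodule.mem_sup.mp hz
    exact ⟨(⟨x, hx⟩, ⟨y, hy⟩), Subtype.ext rfl⟩
  obtain ⟨s, hs⟩ := Module.projective_lifting_property φ LinearMap.id hφ
  let ψ : (L₁ × L₂) →ₗ[A] F :=
    (L₁.subtype ∘ₗ LinearMap.fst A L₁ L₂) ∘ₗ (LinearMap.id - s ∘ₗ φ)
  have hrange : LinearMap.range ψ = L₁ ⊓ L₂ := by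
    apply le_antisymm
    · rintro _ ⟨m, rfl⟩
      set m' : L₁ × L₂ := m - s (φ m) with hm'
      have hφm' : φ m' = 0 := by
        have h1 : φ (s (φ m)) = φ m := by
          have := congrArg (fun f => f (φ m)) hs
          simpa using this
        rw [hm', map_sub, h1, sub_self]
      have hsum : (m'.1 : F) + (m'.2 : F) = 0 := by
        have := congrArg Subtype.val hφm'
        simpa [φ] using this
      have hψ : ψ m = (m'.1 : F) := rfl
      rw [hψ]
      refine ⟨m'.1.2, ?_⟩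
      have : (m'.1 : F) = -(m'.2 : F) := eq_neg_of_add_eq_zero_left hsum
      rw [this]
      exact L₂.neg_mem m'.2.2
    · rintro z ⟨hz₁, hz₂⟩
      refine ⟨(⟨z, hz₁⟩, ⟨-z, L₂.neg_mem hz₂⟩), ?_⟩
      have hφ0 : φ (⟨z, hz₁⟩, ⟨-z, L₂.neg_mem hz₂⟩) = 0 := by
        apply Subtype.ext
        simp [φ]
      show ((((⟨z, hz₁⟩, ⟨-z, L₂.neg_mem hz₂⟩) : L₁ × L₂) -
        s (φ (⟨z, hz₁⟩, ⟨-z, L₂.neg_mem hz₂⟩))).1 : F) = z
      rw [hφ0, map_zero, sub_zero]
  rw [← hrange, LinearMap.range_eq_map]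
  exact (Module.Finite.fg_top).map ψ

end Lattice

variable {K F k : Type*} [Field K] [Field F] [Algebra K F] [Field k]
variable {Fk₁ Fk₂ : Type*} [Field Fk₁] [Algebra k Fk₁] [Field Fk₂] [Algebra k Fk₂]
variable {A : ValuationSubring K} {π : A →+* k}

/-- the unit ball of the sup-norm -/
def ssBall (R₁ : ConstRed A π Fk₁ F) (R₂ : ConstRed A π Fk₂ F) : Subring F :=
  R₁.O.toSubring ⊓ R₂.O.toSubring

theorem mem_ssBall (R₁ : ConstRed A π Fk₁ F) (R₂ : ConstRed A π Fk₂ F) (x : F) :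
    x ∈ ssBall R₁ R₂ ↔ x ∈ R₁.O ∧ x ∈ R₂.O := Iff.rfl

/-- the first projection `O → O₁` -/
def ssIncl₁ (R₁ : ConstRed A π Fk₁ F) (R₂ : ConstRed A π Fk₂ F) : ssBall R₁ R₂ →+* R₁.O where
  toFun x := ⟨x.1, x.2.1⟩
  map_one' := rfl
  map_mul' _ _ := rfl
  map_zero' := rfl
  map_add' _ _ := rfl

/-- the second projection `O → O₂` -/
def ssIncl₂ (R₁ : ConstRed A π Fk₁ F) (R₂ : ConstRed A π Fk₂ F) : ssBall R₁ R₂ →+* R₂.O where
  toFun x := ⟨x.1, x.2.2⟩
  map_one' := rfl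
  map_mul' _ _ := rfl
  map_zero' := rfl
  map_add' _ _ := rfl

/-- the reduction map of the sup-norm -/
def ssRed (R₁ : ConstRed A π Fk₁ F) (R₂ : ConstRed A π Fk₂ F) : ssBall R₁ R₂ →+* Fk₁ × Fk₂ :=
  (R₁.red.comp (ssIncl₁ R₁ R₂)).prod (R₂.red.comp (ssIncl₂ R₁ R₂))

theorem ssRed_apply (R₁ : ConstRed A π Fk₁ F) (R₂ : ConstRed A π Fk₂ F) (x : ssBall R₁ R₂) :
    ssRed R₁ R₂ x = (R₁.red ⟨x.1, x.2.1⟩, R₂.red ⟨x.1, x.2.2⟩) := rfl


section Lat

variable {Fk : Type*} [Field Fk] [Algebra k Fk] (R : ConstRed A π Fk F)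

/-- the `A`-lattice `V ∩ O` -/
def ssLat (V : Submodule K F) : Submodule A F where
  carrier := {f | f ∈ V ∧ f ∈ R.O}
  add_mem' := fun ha hb => ⟨V.add_mem ha.1 hb.1, add_mem ha.2 hb.2⟩
  zero_mem' := ⟨V.zero_mem, zero_mem _⟩
  smul_mem' := fun a f hf => by
    refine ⟨V.smul_mem (a : K) hf.1, ?_⟩
    show (a : K) • f ∈ R.O
    rw [Algebra.smul_def]
    exact mul_mem (R.algebraMap_mem a) hf.2

theorem mem_ssLat (V : Submodule K F) (f : F) : f ∈ ssLat R V ↔ f ∈ V ∧ f ∈ R.O := Iff.rfl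

/-- an orthonormal basis is an `A`-basis of the lattice -/
theorem ssLat_eq_span {n : ℕ} (b : Fin n → R.O)
    (hb : LinearIndependent k (fun i => R.red (b i))) (V : Submodule K F)
    (hV : Submodule.span K (Set.range fun i => ((b i : R.O) : F)) = V) :
    ssLat R V = Submodule.span A (Set.range fun i => ((b i : R.O) : F)) := by
  classical
  apply le_antisymm
  · rintro f ⟨hfV, hfO⟩
    rw [← hV] at hfV
    obtain ⟨g, hg⟩ := (Submodule.mem_span_range_iff_exists_fun K).mp hfV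
    have hmem : ∀ i ∈ (Finset.univ : Finset (Fin n)), g i ∈ A :=
      R.coeff_mem_of_sum_mem b hb Finset.univ g (by rw [hg]; exact hfO)
    rw [← hg]
    refine Submodule.sum_mem _ fun i _ => ?_
    have : g i • ((b i : R.O) : F) = (⟨g i, hmem i (Finset.mem_univ i)⟩ : A) • ((b i : R.O) : F) :=
      rfl
    rw [this]
    exact Submodule.smul_mem _ _ (Submodule.subset_span ⟨i, rfl⟩)
  · rw [Submodule.span_le]
    rintro _ ⟨i, rfl⟩
    refine ⟨?_, (b i).2⟩
    rw [← hV]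
    exact Submodule.subset_span ⟨i, rfl⟩

theorem ssLat_fg (V : Submodule K F) [Module.Finite K V] : (ssLat R V).FG := by
  obtain ⟨n, b, hbs, hb⟩ := R.exists_orthonormal V inferInstance
  rw [ssLat_eq_span R b hb V hbs]
  exact Submodule.fg_span (Set.finite_range _)

/-- if `red y = 0` and `y ≠ 0`, a scaling `φ y` which is a unit of `O` has `φ ∉ A` -/
theorem ss_scale_not_mem (y : R.O) (hy : R.red y = 0) (φ : K)
    (hmem : algebraMap K F φ * (y : F) ∈ R.O) (hinv : (algebraMap K F φ * (y : F))⁻¹ ∈ R.O)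
    (hne : algebraMap K F φ * (y : F) ≠ 0) : φ ∉ A := by
  intro hφ
  have h1 : R.red ⟨algebraMap K F φ * (y : F), hmem⟩ = 0 := by
    have : (⟨algebraMap K F φ * (y : F), hmem⟩ : R.O) =
        ⟨algebraMap K F ((⟨φ, hφ⟩ : A) : K), R.algebraMap_mem ⟨φ, hφ⟩⟩ * y := Subtype.ext rfl
    rw [this, map_mul, hy, mul_zero]
  rw [R.red_eq_zero_iff, ValuationSubring.mem_nonunits_iff_or] at h1
  rcases h1 with h1 | h1
  · exact hne h1
  · exact h1 hinv

end Lat

section Main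

variable (R₁ : ConstRed A π Fk₁ F) (R₂ : ConstRed A π Fk₂ F)

/-- simultaneous scaling into both unit balls, by the scaling of one of them -/
theorem ss_exists_scale (f : F) (hf : f ≠ 0) :
    ∃ φ : K, φ ≠ 0 ∧ algebraMap K F φ * f ∈ R₁.O ∧ algebraMap K F φ * f ∈ R₂.O ∧
      ((algebraMap K F φ * f)⁻¹ ∈ R₁.O ∨ (algebraMap K F φ * f)⁻¹ ∈ R₂.O) := by
  obtain ⟨φ₁, h10, h1m, h1i⟩ := R₁.exists_unit_smul f hf
  obtain ⟨φ₂, h20, h2m, h2i⟩ := R₂.exists_unit_smul f hf
  rcases le_total (A.valuation φ₁) (A.valuation φ₂) with hle | hle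
  · refine ⟨φ₁, h10, h1m, ?_, Or.inl h1i⟩
    have hq : φ₁ / φ₂ ∈ A := by
      rw [← A.valuation_le_one_iff, map_div₀]
      exact div_le_one_of_le₀ hle zero_le
    have : algebraMap K F φ₁ * f = algebraMap K F (φ₁ / φ₂) * (algebraMap K F φ₂ * f) := by
      rw [← mul_assoc, ← map_mul, div_mul_cancel₀ _ h20]
    rw [this]
    exact mul_mem (R₂.algebraMap_mem ⟨_, hq⟩) h2m
  · refine ⟨φ₂, h20, ?_, h2m, Or.inr h2i⟩
    have hq : φ₂ / φ₁ ∈ A := by
      rw [← A.valuation_le_one_iff, map_div₀]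
      exact div_le_one_of_le₀ hle zero_le
    have : algebraMap K F φ₂ * f = algebraMap K F (φ₂ / φ₁) * (algebraMap K F φ₁ * f) := by
      rw [← mul_assoc, ← map_mul, div_mul_cancel₀ _ h10]
    rw [this]
    exact mul_mem (R₁.algebraMap_mem ⟨_, hq⟩) h1m

/-- an element of `V ∩ O` with zero reduction is `c·h`, `c ∈ 𝔪_A`, `h ∈ V ∩ O` -/
theorem ss_exists_factor (V : Submodule K F) (y : F) (hyV : y ∈ V) (hy₁ : y ∈ R₁.O)
    (hy₂ : y ∈ R₂.O) (hr₁ : R₁.red ⟨y, hy₁⟩ = 0) (hr₂ : R₂.red ⟨y, hy₂⟩ = 0) :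
    ∃ (c : A) (h : F), π c = 0 ∧ h ∈ V ∧ h ∈ R₁.O ∧ h ∈ R₂.O ∧ y = (c : K) • h := by
  by_cases hy0 : y = 0
  · exact ⟨0, 0, map_zero π, V.zero_mem, zero_mem _, zero_mem _, by simp [hy0]⟩
  obtain ⟨φ, hφ0, hm₁, hm₂, hinv⟩ := ss_exists_scale R₁ R₂ y hy0
  have hne : algebraMap K F φ * y ≠ 0 :=
    mul_ne_zero (by simpa using hφ0) hy0
  have hφA : φ ∉ A := by
    rcases hinv with hinv | hinv
    · exact ss_scale_not_mem R₁ ⟨y, hy₁⟩ hr₁ φ hm₁ hinv hne
    · exact ss_scale_not_mem R₂ ⟨y, hy₂⟩ hr₂ φ hm₂ hinv hne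
  have hinvA : φ⁻¹ ∈ A := (A.mem_or_inv_mem φ).resolve_left hφA
  have hnu : φ⁻¹ ∈ A.nonunits := by
    rw [ValuationSubring.mem_nonunits_iff_or]
    right
    rwa [inv_inv]
  refine ⟨⟨φ⁻¹, hinvA⟩, algebraMap K F φ * y, (R₁.π_eq_zero_iff ⟨φ⁻¹, hinvA⟩).mpr hnu, ?_, hm₁,
    hm₂, ?_⟩
  · rw [← Algebra.smul_def]
    exact V.smul_mem φ hyV
  · show y = φ⁻¹ • (algebraMap K F φ * y)
    rw [Algebra.smul_def, ← mul_assoc, ← map_mul, inv_mul_cancel₀ hφ0, map_one, one_mul]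

/-- **orthonormal bases for the sup-norm** -/
theorem ss_exists_orthonormal (V : Submodule K F) (hV : Module.Finite K V) :
    ∃ (n : ℕ) (b : Fin n → ssBall R₁ R₂),
      Submodule.span K (Set.range fun i => ((b i : ssBall R₁ R₂) : F)) = V ∧
      LinearIndependent k (fun i => ssRed R₁ R₂ (b i)) := by
  classical
  set Λ : Submodule A F := ssLat R₁ V ⊓ ssLat R₂ V with hΛ
  have hfg : Λ.FG := ss_inf_fg _ _ (ssLat_fg R₁ V) (ssLat_fg R₂ V)
  have hfin : Module.Finite A Λ := Module.Finite.iff_fg.mpr hfg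
  have hfree : Module.Free A Λ := ss_free_of_finite_torsionFree A Λ
  let e := Module.finBasis A Λ
  have hmemΛ : ∀ x : Λ, (x : F) ∈ V ∧ (x : F) ∈ R₁.O ∧ (x : F) ∈ R₂.O :=
    fun x => ⟨x.2.1.1, x.2.1.2, x.2.2.2⟩
  let b : Fin (Module.finrank A Λ) → ssBall R₁ R₂ :=
    fun i => ⟨(e i : F), (hmemΛ (e i)).2.1, (hmemΛ (e i)).2.2⟩
  -- every element of `Λ` is a combination of the `e i`
  have hrepr : ∀ x : Λ, (x : F) = ∑ i, ((e.repr x i : A) : K) • ((e i : Λ) : F) := by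
    intro x
    have h := congrArg (Subtype.val : Λ → F) (e.sum_repr x)
    rw [← h]
    rw [AddSubmonoidClass.coe_finsetSum]
    rfl
  refine ⟨Module.finrank A Λ, b, ?_, ?_⟩
  · apply le_antisymm
    · rw [Submodule.span_le]
      rintro _ ⟨i, rfl⟩
      exact (hmemΛ (e i)).1
    · intro f hf
      by_cases hf0 : f = 0
      · rw [hf0]; exact Submodule.zero_mem _
      obtain ⟨φ, hφ0, hm₁, hm₂, -⟩ := ss_exists_scale R₁ R₂ f hf0
      have hφV : algebraMap K F φ * f ∈ V := by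
        rw [← Algebra.smul_def]
        exact V.smul_mem φ hf
      have hx : algebraMap K F φ * f ∈ Λ := ⟨⟨hφV, hm₁⟩, ⟨hφV, hm₂⟩⟩
      have h1 : algebraMap K F φ * f ∈
          Submodule.span K (Set.range fun i => ((b i : ssBall R₁ R₂) : F)) := by
        have h0 := hrepr ⟨_, hx⟩
        rw [show ((⟨algebraMap K F φ * f, hx⟩ : Λ) : F) = algebraMap K F φ * f from rfl] at h0
        rw [h0]
        exact Submodule.sum_mem _ fun i _ =>
          Submodule.smul_mem _ _ (Submodule.subset_span ⟨i, rfl⟩)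
      have h2 : f = φ⁻¹ • (algebraMap K F φ * f) := by
        rw [Algebra.smul_def, ← mul_assoc, ← map_mul, inv_mul_cancel₀ hφ0, map_one, one_mul]
      rw [h2]
      exact Submodule.smul_mem _ _ h1
  · rw [Fintype.linearIndependent_iff]
    intro g hg i
    obtain ⟨x, hx⟩ : ∃ x : Fin (Module.finrank A Λ) → A, ∀ j, π (x j) = g j :=
      ⟨fun j => (R₁.π_surjective (g j)).choose, fun j => (R₁.π_surjective (g j)).choose_spec⟩
    set y : Λ := ∑ j, x j • e j with hy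
    have hyF : (y : F) = ∑ j, ((x j : A) : K) • ((e j : Λ) : F) := by
      rw [hy, AddSubmonoidClass.coe_finsetSum]
      rfl
    have hg₁ : ∑ j, g j • R₁.red ⟨(e j : F), (hmemΛ (e j)).2.1⟩ = 0 := by
      have := congrArg Prod.fst hg
      simpa [ssRed_apply, b, Prod.fst_sum] using this
    have hg₂ : ∑ j, g j • R₂.red ⟨(e j : F), (hmemΛ (e j)).2.2⟩ = 0 := by
      have := congrArg Prod.snd hg
      simpa [ssRed_apply, b, Prod.snd_sum] using this
    have hr₁ : R₁.red ⟨(y : F), (hmemΛ y).2.1⟩ = 0 := by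
      rw [R₁.red_sum_smul (fun j => ⟨(e j : F), (hmemΛ (e j)).2.1⟩) Finset.univ x
        ⟨(y : F), (hmemΛ y).2.1⟩ hyF]
      rw [← hg₁]
      exact Finset.sum_congr rfl fun j _ => by rw [hx j]
    have hr₂ : R₂.red ⟨(y : F), (hmemΛ y).2.2⟩ = 0 := by
      rw [R₂.red_sum_smul (fun j => ⟨(e j : F), (hmemΛ (e j)).2.2⟩) Finset.univ x
        ⟨(y : F), (hmemΛ y).2.2⟩ hyF]
      rw [← hg₂]
      exact Finset.sum_congr rfl fun j _ => by rw [hx j]
    obtain ⟨c, h, hπc, hhV, hh₁, hh₂, hyh⟩ :=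
      ss_exists_factor R₁ R₂ V (y : F) (hmemΛ y).1 (hmemΛ y).2.1 (hmemΛ y).2.2 hr₁ hr₂
    have hhΛ : h ∈ Λ := ⟨⟨hhV, hh₁⟩, ⟨hhV, hh₂⟩⟩
    have hyc : y = c • (⟨h, hhΛ⟩ : Λ) := Subtype.ext hyh
    have hrepr_y : e.repr y i = x i := by
      rw [hy, e.repr_sum_self]
    have hrepr_c : e.repr y i = c * e.repr ⟨h, hhΛ⟩ i := by
      rw [hyc, map_smul]
      rfl
    rw [← hx i, ← hrepr_y, hrepr_c, map_mul, hπc, zero_mul]

/-- **the semistable reduction datum of two constant reductions** -/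
def SSRed.ofPair : SSRed A π (Fk₁ × Fk₂) F where
  O := ssBall R₁ R₂
  red := ssRed R₁ R₂
  π_surjective := R₁.π_surjective
  algebraMap_mem := fun a => ⟨R₁.algebraMap_mem a, R₂.algebraMap_mem a⟩
  red_algebraMap := fun a => by
    rw [ssRed_apply, Prod.algebraMap_apply]
    exact Prod.ext (R₁.red_algebraMap a) (R₂.red_algebraMap a)
  exists_orthonormal := fun V hV => ss_exists_orthonormal R₁ R₂ V hV

theorem SSRed.ofPair_O : (SSRed.ofPair R₁ R₂).O = ssBall R₁ R₂ := rfl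

theorem SSRed.ofPair_red (x : ssBall R₁ R₂) :
    (SSRed.ofPair R₁ R₂).red x = (R₁.red ⟨x.1, x.2.1⟩, R₂.red ⟨x.1, x.2.2⟩) := rfl

theorem SSRed.mem_ofPair_O (x : F) : x ∈ (SSRed.ofPair R₁ R₂).O ↔ x ∈ R₁.O ∧ x ∈ R₂.O := Iff.rfl

end Main

end Fermat.Agent.S34lib

end
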