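/-
Item 79 (S34), piece (K1)/(R)/(I) (helper4): inertia acts trivially on the residue fields of the
constant reductions.

Abstract part (any constant reduction `R : ConstRed A π Fk F`, any `g : SemilinearAut K F`):
* `IsInertial R g` : `g` preserves the valuation of `K`, maps `O` into `O` and `red (g • x) = red x`;
* `inertialSubgroup R` : these `g` form a subgroup;
* `IsInertial.exists_const` : for `f ≠ 0` the function `g • f / f` is a unit of `O` with CONSTANT
  reduction `π a` (`a` a unit of `A`) ("tame character");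
* `IsInertial.comm_mem`, `IsInertial.red_comm` : for inertial `g`, `h` and `f ≠ 0` the function
  `w = h • u / u`, `u = g • f / f` ("`(h - 1)(g - 1) f`") lies in `O` and `red w = 1`;
* `inred_ss_comm_mem`, `inred_ss_red_comm` : the same for the sup-norm datum `SSRed.ofPair R₁ R₂`;
* `inredComap R w` : transport of a constant reduction along an isomorphism `w : F' ≃ₐ[K] F`
  (`v₀ = v_∞ ∘ w_q`), `IsInertial.inredComap` : inertial elements stay inertial if they commute
  with `w`.

Concrete part (`K = Q̄`, `F = laurentBaseChange Q̄ F₀`, `R` with `IsSeriesRed`, `HasPrimFrac`):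
* `inred_decomp` : for `g` in the decomposition group of `A`, `g • O ⊆ O` and
  `red (g • x) = ḡ (red x)` coefficientwise;
* `inred_isInertial` : elements of the inertia group `A.inertiaSubgroupIn ℚ` are inertial.
-/
import Mathlib
import Fermat.Agent.GoodRed.DescTower
import Fermat.Agent.S34lib.CruxSSBuild
import Fermat.Agent.S37lib.GalRed

set_option autoImplicit false
set_option synthInstance.maxHeartbeats 400000

noncomputable section

namespace Fermat.Agent.S34lib

open AlgebraicCurve Fermat.Agent.GoodRed ModularCurve HahnSeries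

section Abstract

variable {K F k Fk : Type*} [Field K] [Field F] [Algebra K F] [Field k] [Field Fk] [Algebra k Fk]
variable {A : ValuationSubring K} {π : A →+* k}

/-- `g` is *inertial* for the constant reduction `R`: it preserves the valuation of the constant
field, maps the unit ball `O` into itself and acts trivially on the residue field. -/
def IsInertial (R : ConstRed A π Fk F) (g : SemilinearAut K F) : Prop :=
  (∀ c : K, c ≠ 0 → SemilinearAut.baseAut g c / c ∈ A) ∧
    ∀ x : R.O, ∃ h : g • (x : F) ∈ R.O, R.red ⟨g • (x : F), h⟩ = R.red x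

namespace IsInertial

variable {R : ConstRed A π Fk F} {g h : SemilinearAut K F}

theorem base_div_mem (hg : IsInertial R g) {c : K} (hc : c ≠ 0) :
    SemilinearAut.baseAut g c / c ∈ A := hg.1 c hc

theorem smul_mem (hg : IsInertial R g) {x : F} (hx : x ∈ R.O) : g • x ∈ R.O :=
  (hg.2 ⟨x, hx⟩).1

theorem red_smul (hg : IsInertial R g) {x : F} (hx : x ∈ R.O) :
    R.red ⟨g • x, hg.smul_mem hx⟩ = R.red ⟨x, hx⟩ :=
  (hg.2 ⟨x, hx⟩).2

theorem base_ne_zero (g : SemilinearAut K F) {c : K} (hc : c ≠ 0) :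
    SemilinearAut.baseAut g c ≠ 0 := fun h0 =>
  hc ((SemilinearAut.baseAut g).injective (by rw [h0, map_zero]))

theorem div_base_mem (hg : IsInertial R g) {c : K} (hc : c ≠ 0) :
    c / SemilinearAut.baseAut g c ∈ A := by
  have h1 := hg.1 c⁻¹ (inv_ne_zero hc)
  rw [map_inv₀] at h1
  have h2 : (SemilinearAut.baseAut g c)⁻¹ / c⁻¹ = c / SemilinearAut.baseAut g c := by
    rw [div_eq_mul_inv, inv_inv, mul_comm, div_eq_mul_inv]
  rwa [h2] at h1

protected theorem one : IsInertial R 1 := by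
  refine ⟨fun c hc => ?_, fun x => ⟨?_, ?_⟩⟩
  · rw [SemilinearAut.baseAut_one, RingAut.one_apply, div_self hc]
    exact A.one_mem
  · rw [one_smul]
    exact x.2
  · exact congrArg R.red (Subtype.ext (one_smul _ _))

protected theorem mul (hg : IsInertial R g) (hh : IsInertial R h) : IsInertial R (g * h) := by
  refine ⟨fun c hc => ?_, fun x => ⟨?_, ?_⟩⟩
  · have hc' := base_ne_zero h hc
    have e : SemilinearAut.baseAut (g * h) c / c
        = SemilinearAut.baseAut g (SemilinearAut.baseAut h c) / SemilinearAut.baseAut h c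
          * (SemilinearAut.baseAut h c / c) := by
      rw [SemilinearAut.baseAut_mul, RingAut.mul_apply, div_mul_div_cancel₀ hc']
    rw [e]
    exact A.mul_mem _ _ (hg.1 _ hc') (hh.1 c hc)
  · rw [mul_smul]
    exact hg.smul_mem (hh.smul_mem x.2)
  · have e : (⟨(g * h) • (x : F), by rw [mul_smul]; exact hg.smul_mem (hh.smul_mem x.2)⟩ : R.O)
        = ⟨g • (h • (x : F)), hg.smul_mem (hh.smul_mem x.2)⟩ := Subtype.ext (mul_smul _ _ _)
    rw [e, hg.red_smul (hh.smul_mem x.2), hh.red_smul x.2]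

/-- an inertial automorphism reflects membership in `O` -/
theorem mem_of_smul_mem (hg : IsInertial R g) {x : F} (hx : g • x ∈ R.O) : x ∈ R.O := by
  by_contra hx'
  have hxi : x⁻¹ ∈ R.O := (R.O.mem_or_inv_mem x).resolve_left hx'
  have hnu : x⁻¹ ∈ R.O.nonunits := by
    rw [ValuationSubring.mem_nonunits_iff_or]
    right
    rwa [inv_inv]
  have h0 : R.red ⟨x⁻¹, hxi⟩ = 0 := (R.red_eq_zero_iff ⟨x⁻¹, hxi⟩).mpr hnu
  have hx0 : x ≠ 0 := fun h => hx' (h ▸ R.O.zero_mem)
  have hmul : (⟨g • x, hx⟩ : R.O) * ⟨g • x⁻¹, hg.smul_mem hxi⟩ = 1 := by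
    apply Subtype.ext
    show g • x * g • x⁻¹ = 1
    rw [← smul_mul', mul_inv_cancel₀ hx0, smul_one]
  have := congrArg R.red hmul
  rw [map_mul, hg.red_smul hxi, h0, mul_zero, map_one] at this
  exact zero_ne_one this

theorem smul_mem_iff (hg : IsInertial R g) {x : F} : g • x ∈ R.O ↔ x ∈ R.O :=
  ⟨hg.mem_of_smul_mem, hg.smul_mem⟩

protected theorem inv (hg : IsInertial R g) : IsInertial R g⁻¹ := by
  refine ⟨fun c hc => ?_, fun x => ?_⟩
  · have hc' : (SemilinearAut.baseAut g).symm c ≠ 0 := fun h0 =>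
      hc ((SemilinearAut.baseAut g).symm.injective (by rw [h0, map_zero]))
    have h1 := hg.div_base_mem hc'
    rwa [RingEquiv.apply_symm_apply] at h1
  · have hmem : g⁻¹ • (x : F) ∈ R.O := hg.mem_of_smul_mem (by rw [smul_inv_smul]; exact x.2)
    refine ⟨hmem, ?_⟩
    rw [← hg.red_smul hmem]
    congr 1
    exact Subtype.ext (smul_inv_smul _ _)

end IsInertial

/-- the inertial automorphisms form a subgroup -/
def inertialSubgroup (R : ConstRed A π Fk F) : Subgroup (SemilinearAut K F) where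
  carrier := {g | IsInertial R g}
  mul_mem' := fun hg hh => hg.mul hh
  one_mem' := IsInertial.one
  inv_mem' := fun hg => hg.inv

theorem mem_inertialSubgroup (R : ConstRed A π Fk F) (g : SemilinearAut K F) :
    g ∈ inertialSubgroup R ↔ IsInertial R g := Iff.rfl

namespace IsInertial

variable {R : ConstRed A π Fk F} {g h : SemilinearAut K F}

/-- `g` preserves the valuation ring of the constant field -/
theorem baseAut_mem (hg : IsInertial R g) {a : K} (ha : a ∈ A) :
    SemilinearAut.baseAut g a ∈ A := by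
  rw [← R.algebraMap_mem_iff, ← SemilinearAut.smul_algebraMap]
  exact hg.smul_mem (R.algebraMap_mem ⟨a, ha⟩)

/-- `g` acts trivially on the residue field of the constant field -/
theorem π_baseAut (hg : IsInertial R g) (a : A) :
    π ⟨SemilinearAut.baseAut g (a : K), hg.baseAut_mem a.2⟩ = π a := by
  apply (algebraMap k Fk).injective
  rw [← R.red_algebraMap, ← R.red_algebraMap, ← hg.red_smul (R.algebraMap_mem a)]
  congr 1
  exact Subtype.ext (SemilinearAut.smul_algebraMap g (a : K)).symm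

/-- `(g - 1) u` for a unit `u` of `O` -/
theorem smul_div_mem (hg : IsInertial R g) {u : F} (hu : u ∈ R.O) (hu' : u⁻¹ ∈ R.O) :
    g • u / u ∈ R.O := by
  rw [div_eq_mul_inv]
  exact R.O.mul_mem _ _ (hg.smul_mem hu) hu'

/-- `(g - 1) u ≡ 1` for a unit `u` of `O` -/
theorem red_smul_div (hg : IsInertial R g) {u : F} (hu0 : u ≠ 0) (hu : u ∈ R.O)
    (hu' : u⁻¹ ∈ R.O) : R.red ⟨g • u / u, hg.smul_div_mem hu hu'⟩ = 1 := by
  have e : (⟨g • u / u, hg.smul_div_mem hu hu'⟩ : R.O)
      = ⟨g • u, hg.smul_mem hu⟩ * ⟨u⁻¹, hu'⟩ := Subtype.ext (div_eq_mul_inv _ _)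
  rw [e, map_mul, hg.red_smul hu, ← map_mul]
  have e1 : (⟨u, hu⟩ : R.O) * ⟨u⁻¹, hu'⟩ = 1 := Subtype.ext (mul_inv_cancel₀ hu0)
  rw [e1, map_one]

/-- the inverse of `(g - 1) f` -/
theorem smul_div_inv (g : SemilinearAut K F) (f : F) : (g • f / f)⁻¹ = g⁻¹ • (g • f) / g • f := by
  rw [inv_smul_smul, inv_div]

/-- **tame character**: for `f ≠ 0` the function `g • f / f` is a unit of `O` whose reduction is
a nonzero constant. -/
theorem exists_const (hg : IsInertial R g) {f : F} (hf : f ≠ 0) :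
    ∃ a : A, π a ≠ 0 ∧ ∃ hm : g • f / f ∈ R.O,
      R.red ⟨g • f / f, hm⟩ = algebraMap k Fk (π a) := by
  obtain ⟨c, hc, hu, hu'⟩ := R.exists_unit_smul f hf
  set u : F := algebraMap K F c * f with hudef
  have hcF : algebraMap K F c ≠ 0 := fun h0 =>
    hc ((algebraMap K F).injective (by rw [h0, map_zero]))
  have hu0 : u ≠ 0 := mul_ne_zero hcF hf
  have hgc0 := base_ne_zero g hc
  have hgcF : algebraMap K F (SemilinearAut.baseAut g c) ≠ 0 := fun h0 =>
    hgc0 ((algebraMap K F).injective (by rw [h0, map_zero]))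
  have hgf0 : g • f ≠ 0 := fun h0 => hf (by
    have := congrArg (g⁻¹ • ·) h0
    simpa using this)
  -- the constant
  have hcA : c / SemilinearAut.baseAut g c ∈ A := hg.div_base_mem hc
  have hcA' : SemilinearAut.baseAut g c / c ∈ A := hg.base_div_mem hc
  have key : g • f / f = g • u / u * algebraMap K F (c / SemilinearAut.baseAut g c) := by
    rw [hudef, smul_mul', SemilinearAut.smul_algebraMap, map_div₀]
    field_simp
  have hm : g • f / f ∈ R.O := by
    rw [key]
    exact R.O.mul_mem _ _ (hg.smul_div_mem hu hu') (R.algebraMap_mem ⟨_, hcA⟩)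
  refine ⟨⟨_, hcA⟩, ?_, hm, ?_⟩
  · intro h0
    have h1 : (⟨c / SemilinearAut.baseAut g c, hcA⟩ : A) * ⟨SemilinearAut.baseAut g c / c, hcA'⟩
        = 1 := by
      apply Subtype.ext
      show c / SemilinearAut.baseAut g c * (SemilinearAut.baseAut g c / c) = 1
      rw [div_mul_div_cancel₀ hgc0, div_self hc]
    have := congrArg π h1
    rw [map_mul, h0, zero_mul, map_one] at this
    exact zero_ne_one this
  · have e : (⟨g • f / f, hm⟩ : R.O)
        = ⟨g • u / u, hg.smul_div_mem hu hu'⟩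
          * ⟨algebraMap K F (c / SemilinearAut.baseAut g c), R.algebraMap_mem ⟨_, hcA⟩⟩ :=
      Subtype.ext key
    rw [e, map_mul, hg.red_smul_div hu0 hu hu', one_mul]
    exact R.red_algebraMap ⟨_, hcA⟩

/-- `g • f / f` is a unit of `O` -/
theorem smul_div_mem' (hg : IsInertial R g) {f : F} (hf : f ≠ 0) : g • f / f ∈ R.O := by
  obtain ⟨_, _, hm, _⟩ := hg.exists_const hf
  exact hm

theorem smul_div_inv_mem (hg : IsInertial R g) {f : F} (hf : f ≠ 0) :
    (g • f / f)⁻¹ ∈ R.O := by
  have hgf0 : g • f ≠ 0 := fun h0 => hf (by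
    have := congrArg (g⁻¹ • ·) h0
    simpa using this)
  rw [smul_div_inv]
  exact hg.inv.smul_div_mem' hgf0

theorem smul_div_ne_zero (g : SemilinearAut K F) {f : F} (hf : f ≠ 0) : g • f / f ≠ 0 := by
  have hgf0 : g • f ≠ 0 := fun h0 => hf (by
    have := congrArg (g⁻¹ • ·) h0
    simpa using this)
  exact div_ne_zero hgf0 hf

/-- **(K2)**: `(h - 1)(g - 1) f` lies in `O` -/
theorem comm_mem (hg : IsInertial R g) (hh : IsInertial R h) {f : F} (hf : f ≠ 0) :
    h • (g • f / f) / (g • f / f) ∈ R.O :=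
  hh.smul_div_mem (hg.smul_div_mem' hf) (hg.smul_div_inv_mem hf)

/-- **(K2)**: `(h - 1)(g - 1) f ≡ 1` -/
theorem red_comm (hg : IsInertial R g) (hh : IsInertial R h) {f : F} (hf : f ≠ 0) :
    R.red ⟨h • (g • f / f) / (g • f / f), hg.comm_mem hh hf⟩ = 1 :=
  hh.red_smul_div (smul_div_ne_zero g hf) (hg.smul_div_mem' hf) (hg.smul_div_inv_mem hf)

end IsInertial

/-! ### the sup-norm of two constant reductions -/

section Pair

variable {Fk₂ : Type*} [Field Fk₂] [Algebra k Fk₂]
variable {R₁ : ConstRed A π Fk F} {R₂ : ConstRed A π Fk₂ F} {g h : SemilinearAut K F}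

/-- inertial automorphisms preserve the unit ball of the sup-norm -/
theorem inred_ss_smul_mem (hg₁ : IsInertial R₁ g) (hg₂ : IsInertial R₂ g) {x : F}
    (hx : x ∈ ssBall R₁ R₂) : g • x ∈ ssBall R₁ R₂ :=
  ⟨hg₁.smul_mem hx.1, hg₂.smul_mem hx.2⟩

theorem inred_ss_smul_mem_iff (hg₁ : IsInertial R₁ g) (hg₂ : IsInertial R₂ g) {x : F} :
    g • x ∈ ssBall R₁ R₂ ↔ x ∈ ssBall R₁ R₂ :=
  ⟨fun hx => ⟨hg₁.mem_of_smul_mem hx.1, hg₂.mem_of_smul_mem hx.2⟩,
    fun hx => inred_ss_smul_mem hg₁ hg₂ hx⟩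

/-- inertial automorphisms act trivially on the residue ring of the sup-norm -/
theorem inred_ss_red_smul (hg₁ : IsInertial R₁ g) (hg₂ : IsInertial R₂ g) {x : F}
    (hx : x ∈ ssBall R₁ R₂) :
    ssRed R₁ R₂ ⟨g • x, inred_ss_smul_mem hg₁ hg₂ hx⟩ = ssRed R₁ R₂ ⟨x, hx⟩ := by
  rw [ssRed_apply, ssRed_apply]
  exact Prod.ext (hg₁.red_smul hx.1) (hg₂.red_smul hx.2)

/-- **(K2)** for the sup-norm: `(h - 1)(g - 1) f` lies in the unit ball -/
theorem inred_ss_comm_mem (hg₁ : IsInertial R₁ g) (hg₂ : IsInertial R₂ g)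
    (hh₁ : IsInertial R₁ h) (hh₂ : IsInertial R₂ h) {f : F} (hf : f ≠ 0) :
    h • (g • f / f) / (g • f / f) ∈ ssBall R₁ R₂ :=
  ⟨hg₁.comm_mem hh₁ hf, hg₂.comm_mem hh₂ hf⟩

/-- **(K2)** for the sup-norm: `(h - 1)(g - 1) f ≡ (1, 1)` -/
theorem inred_ss_red_comm (hg₁ : IsInertial R₁ g) (hg₂ : IsInertial R₂ g)
    (hh₁ : IsInertial R₁ h) (hh₂ : IsInertial R₂ h) {f : F} (hf : f ≠ 0) :
    ssRed R₁ R₂ ⟨h • (g • f / f) / (g • f / f), inred_ss_comm_mem hg₁ hg₂ hh₁ hh₂ hf⟩ = 1 := by
  rw [ssRed_apply]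
  exact Prod.ext (hg₁.red_comm hh₁ hf) (hg₂.red_comm hh₂ hf)

/-- **(K2)** for `SSRed.ofPair`, in the form needed by `SSRed.crux` -/
theorem inred_ofPair_red_comm (hg₁ : IsInertial R₁ g) (hg₂ : IsInertial R₂ g)
    (hh₁ : IsInertial R₁ h) (hh₂ : IsInertial R₂ h) {f : F} (hf : f ≠ 0) :
    ∃ hm : h • (g • f / f) / (g • f / f) ∈ (SSRed.ofPair R₁ R₂).O,
      (SSRed.ofPair R₁ R₂).red ⟨h • (g • f / f) / (g • f / f), hm⟩ = 1 :=
  ⟨inred_ss_comm_mem hg₁ hg₂ hh₁ hh₂ hf, inred_ss_red_comm hg₁ hg₂ hh₁ hh₂ hf⟩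

/-- the tame characters at the two valuations: `g • f / f` is a unit of the sup-norm ball with
reduction a pair of nonzero constants -/
theorem inred_ss_exists_const (hg₁ : IsInertial R₁ g) (hg₂ : IsInertial R₂ g) {f : F}
    (hf : f ≠ 0) :
    ∃ a b : A, π a ≠ 0 ∧ π b ≠ 0 ∧ ∃ hm : g • f / f ∈ ssBall R₁ R₂,
      ssRed R₁ R₂ ⟨g • f / f, hm⟩ = (algebraMap k Fk (π a), algebraMap k Fk₂ (π b)) := by
  obtain ⟨a, ha, hm₁, h₁⟩ := hg₁.exists_const hf
  obtain ⟨b, hb, hm₂, h₂⟩ := hg₂.exists_const hf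
  refine ⟨a, b, ha, hb, ⟨hm₁, hm₂⟩, ?_⟩
  rw [ssRed_apply]
  exact Prod.ext h₁ h₂

end Pair

/-! ### divisors and Riemann–Roch spaces -/

section RR

/-- `g • L(D) ⊆ L(g • D)` -/
theorem inred_smul_mem_riemannRochSpace (g : SemilinearAut K F) {D : Divisor K F} {f : F}
    (hf : f ∈ riemannRochSpace (K := K) D) : g • f ∈ riemannRochSpace (K := K) (g • D) := by
  rw [mem_riemannRochSpace_iff] at hf ⊢
  intro v
  rcases hf (g⁻¹ • v) with h0 | h1
  · left
    rw [h0, smul_zero]
  · right
    rw [SemilinearAut.divisor_smul_apply]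
    have h2 := SemilinearAut.ord_smul g (g⁻¹ • v) f
    rw [smul_inv_smul] at h2
    rw [h2]
    exact h1

theorem inred_smul_mem_riemannRochSpace_iff (g : SemilinearAut K F) {D : Divisor K F} {f : F} :
    g • f ∈ riemannRochSpace (K := K) (g • D) ↔ f ∈ riemannRochSpace (K := K) D := by
  refine ⟨fun hf => ?_, inred_smul_mem_riemannRochSpace g⟩
  have := inred_smul_mem_riemannRochSpace g⁻¹ hf
  rwa [inv_smul_smul, inv_smul_smul] at this

end RR

/-! ### transport along an isomorphism (`v₀ = v_∞ ∘ w_q`) -/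

section Transport

variable {F' : Type*} [Field F'] [Algebra K F']

/-- the restriction of an isomorphism `w : F' ≃ₐ[K] F` to the unit balls -/
def inredComapHom (R : ConstRed A π Fk F) (w : F' ≃ₐ[K] F) :
    (R.O.comap ((w : F' →ₐ[K] F) : F' →+* F)) →+* R.O where
  toFun x := ⟨w (x : F'), x.2⟩
  map_one' := Subtype.ext (map_one w)
  map_mul' x y := Subtype.ext (map_mul w _ _)
  map_zero' := Subtype.ext (map_zero w)
  map_add' x y := Subtype.ext (map_add w _ _)

theorem coe_inredComapHom (R : ConstRed A π Fk F) (w : F' ≃ₐ[K] F)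
    (x : R.O.comap ((w : F' →ₐ[K] F) : F' →+* F)) :
    ((inredComapHom R w x : R.O) : F) = w (x : F') := rfl

/-- transport of a constant reduction along an isomorphism `w : F' ≃ₐ[K] F`: the unit ball is
`w⁻¹(O)` and the reduction map is `red ∘ w`. -/
def inredComap (R : ConstRed A π Fk F) (w : F' ≃ₐ[K] F) : ConstRed A π Fk F' where
  O := R.O.comap ((w : F' →ₐ[K] F) : F' →+* F)
  red := R.red.comp (inredComapHom R w)
  π_surjective := R.π_surjective
  red_surjective := by
    intro y
    obtain ⟨x, hx⟩ := R.red_surjective y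
    refine ⟨⟨w.symm (x : F), ?_⟩, ?_⟩
    · show w (w.symm (x : F)) ∈ R.O
      rw [AlgEquiv.apply_symm_apply]
      exact x.2
    · rw [← hx]
      show R.red _ = R.red x
      congr 1
      exact Subtype.ext (AlgEquiv.apply_symm_apply w _)
  algebraMap_mem := by
    intro a
    show w (algebraMap K F' (a : K)) ∈ R.O
    rw [AlgEquiv.commutes]
    exact R.algebraMap_mem a
  red_algebraMap := by
    intro a
    rw [← R.red_algebraMap a]
    show R.red _ = R.red _
    congr 1
    exact Subtype.ext (AlgEquiv.commutes w _)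
  exists_unit_smul := by
    intro f hf
    have hwf : w f ≠ 0 := fun h0 => hf (w.injective (by rw [h0, map_zero]))
    obtain ⟨c, hc, h1, h2⟩ := R.exists_unit_smul (w f) hwf
    refine ⟨c, hc, ?_, ?_⟩
    · show w (algebraMap K F' c * f) ∈ R.O
      rw [map_mul, AlgEquiv.commutes]
      exact h1
    · show w (algebraMap K F' c * f)⁻¹ ∈ R.O
      rw [map_inv₀, map_mul, AlgEquiv.commutes]
      exact h2
  exists_orthonormal := by
    intro V hV
    haveI := hV
    have hfin : Module.Finite K (V.map (w : F' →ₐ[K] F).toLinearMap) := by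
      exact Module.Finite.map V _
    obtain ⟨n, b, hspan, hli⟩ := R.exists_orthonormal _ hfin
    have hb : ∀ i, w (w.symm ((b i : R.O) : F)) = ((b i : R.O) : F) := fun i =>
      AlgEquiv.apply_symm_apply w _
    refine ⟨n, fun i => ⟨w.symm ((b i : R.O) : F), ?_⟩, ?_, ?_⟩
    · show w (w.symm ((b i : R.O) : F)) ∈ R.O
      rw [hb i]
      exact (b i).2
    · apply Submodule.map_injective_of_injective
        (f := (w : F' →ₐ[K] F).toLinearMap) w.injective
      rw [← hspan, Submodule.map_span]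
      congr 1
      ext y
      constructor
      · rintro ⟨x, ⟨i, rfl⟩, rfl⟩
        exact ⟨i, (hb i).symm⟩
      · rintro ⟨i, rfl⟩
        exact ⟨_, ⟨i, rfl⟩, hb i⟩
    · have e : (fun i => R.red (inredComapHom R w ⟨w.symm ((b i : R.O) : F),
          show w (w.symm ((b i : R.O) : F)) ∈ R.O by rw [hb i]; exact (b i).2⟩))
          = fun i => R.red (b i) := by
        funext i
        congr 1
        exact Subtype.ext (hb i)
      show LinearIndependent k (fun i => R.red (inredComapHom R w _))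
      rw [e]
      exact hli

theorem mem_inredComap_O (R : ConstRed A π Fk F) (w : F' ≃ₐ[K] F) (x : F') :
    x ∈ (inredComap R w).O ↔ w x ∈ R.O := Iff.rfl

theorem inredComap_red (R : ConstRed A π Fk F) (w : F' ≃ₐ[K] F) (x : F')
    (hx : x ∈ (inredComap R w).O) :
    (inredComap R w).red ⟨x, hx⟩ = R.red ⟨w x, hx⟩ := rfl

/-- inertial automorphisms stay inertial under transport along an equivariant isomorphism -/
theorem IsInertial.inredComap {R : ConstRed A π Fk F} {g : SemilinearAut K F}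
    (hg : IsInertial R g) (w : F' ≃ₐ[K] F) (g' : SemilinearAut K F')
    (hw : ∀ x : F', w (g' • x) = g • w x) : IsInertial (inredComap R w) g' := by
  have hbase : ∀ c : K, SemilinearAut.baseAut g' c = SemilinearAut.baseAut g c := by
    intro c
    apply (algebraMap K F).injective
    rw [← SemilinearAut.smul_algebraMap g c, ← AlgEquiv.commutes w c, ← hw,
      SemilinearAut.smul_algebraMap, AlgEquiv.commutes]
  refine ⟨fun c hc => ?_, fun x => ⟨?_, ?_⟩⟩
  · rw [hbase]
    exact hg.base_div_mem hc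
  · show w (g' • (x : F')) ∈ R.O
    rw [hw]
    exact hg.smul_mem x.2
  · show R.red ⟨w (g' • (x : F')), _⟩ = R.red ⟨w (x : F'), x.2⟩
    rw [← hg.red_smul (x := w (x : F')) x.2]
    congr 1
    exact Subtype.ext (hw _)

end Transport

end Abstract

/-! ### the decomposition group preserves the valuation of `Q̄` -/

section Base

variable {L : Type*} [Field L] [Algebra ℚ L] [Algebra.IsAlgebraic ℚ L]

/-- every element of an algebraic extension of `ℚ` is fixed by a positive power of a given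
automorphism -/
theorem inred_exists_pow_fix (σ : L ≃ₐ[ℚ] L) (c : L) : ∃ n : ℕ, 0 < n ∧ (σ ^ n) c = c := by
  classical
  have hc : IsAlgebraic ℚ c := Algebra.IsAlgebraic.isAlgebraic c
  have hint : IsIntegral ℚ c := hc.isIntegral
  have hp0 : minpoly ℚ c ≠ 0 := minpoly.ne_zero hint
  have hfin : ((minpoly ℚ c).rootSet L).Finite := Polynomial.rootSet_finite _ _
  have hmem : ∀ i : ℕ, (σ ^ i) c ∈ (minpoly ℚ c).rootSet L := by
    intro i
    rw [Polynomial.mem_rootSet]
    refine ⟨hp0, ?_⟩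
    have h1 := Polynomial.aeval_algHom_apply ((σ ^ i : L ≃ₐ[ℚ] L) : L →ₐ[ℚ] L) c (minpoly ℚ c)
    rw [minpoly.aeval, map_zero] at h1
    exact h1
  have : Finite ((minpoly ℚ c).rootSet L) := hfin.to_subtype
  obtain ⟨i, j, hij, hEq⟩ := Finite.exists_ne_map_eq_of_infinite
    (fun i : ℕ => (⟨(σ ^ i) c, hmem i⟩ : (minpoly ℚ c).rootSet L))
  have hEq' : (σ ^ i) c = (σ ^ j) c := congrArg Subtype.val hEq
  have key : ∀ a b : ℕ, a < b → (σ ^ a) c = (σ ^ b) c → ∃ n : ℕ, 0 < n ∧ (σ ^ n) c = c := by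
    intro a b hab h
    refine ⟨b - a, Nat.sub_pos_of_lt hab, ?_⟩
    have hb : b = a + (b - a) := by omega
    rw [hb, _root_.pow_add, AlgEquiv.mul_apply] at h
    exact ((σ ^ a).injective h).symm
  rcases lt_or_gt_of_ne hij with h | h
  · exact key i j h hEq'
  · exact key j i h hEq'.symm

variable (A : ValuationSubring L)

theorem inred_decomp_mem (g : A.decompositionSubgroup ℚ) {x : L} (hx : x ∈ A) :
    (g : L ≃ₐ[ℚ] L) x ∈ A :=
  (MulSemiringAction.toRingHom (A.decompositionSubgroup ℚ) A g ⟨x, hx⟩).2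

theorem inred_decomp_pow_mem (g : A.decompositionSubgroup ℚ) (n : ℕ) {x : L} (hx : x ∈ A) :
    ((g : L ≃ₐ[ℚ] L) ^ n) x ∈ A := by
  have := inred_decomp_mem A (g ^ n) hx
  rwa [Subgroup.coe_pow] at this

/-- the decomposition group preserves the valuation: `σ c / c` is integral -/
theorem inred_decomp_div_mem (g : A.decompositionSubgroup ℚ) {c : L} (hc : c ≠ 0) :
    (g : L ≃ₐ[ℚ] L) c / c ∈ A := by
  by_contra hcon
  set σ : L ≃ₐ[ℚ] L := (g : L ≃ₐ[ℚ] L) with hσ
  have hσc : σ c ≠ 0 := fun h0 => hc (σ.injective (by rw [h0, map_zero]))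
  -- `t = c / σ c` is a nonunit of `A`
  set t : L := c / σ c with ht
  have htinv : t⁻¹ = σ c / c := by rw [ht, inv_div]
  have htA : t ∈ A := by
    rcases A.mem_or_inv_mem t with h | h
    · exact h
    · exact absurd (htinv ▸ h) hcon
  have ht0 : t ≠ 0 := div_ne_zero hc hσc
  -- telescoping product
  have hprod : ∀ n : ℕ, (∏ i ∈ Finset.range n, (σ ^ i) t) = c / (σ ^ n) c := by
    intro n
    induction n with
    | zero => simp [div_self hc]
    | succ n ih =>
      have hn0 : (σ ^ n) c ≠ 0 := fun h0 => hc ((σ ^ n).injective (by rw [h0, map_zero]))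
      rw [Finset.prod_range_succ, ih, ht, map_div₀, pow_succ, AlgEquiv.mul_apply,
        div_mul_div_cancel₀ hn0]
  have hmem : ∀ n : ℕ, (∏ i ∈ Finset.range n, (σ ^ i) t) ∈ A := by
    intro n
    exact Subring.prod_mem A.toSubring fun i _ => inred_decomp_pow_mem A g i htA
  obtain ⟨n, hn, hfix⟩ := inred_exists_pow_fix σ c
  -- `t⁻¹ = ∏_{1 ≤ i < n} σ^i t ∈ A`
  have h1 : t * (∏ i ∈ Finset.range (n - 1), (σ ^ (i + 1)) t) = 1 := by
    have h2 := hprod n
    rw [hfix, div_self hc] at h2
    obtain ⟨m, rfl⟩ : ∃ m, n = m + 1 := ⟨n - 1, by omega⟩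
    rw [Finset.prod_range_succ'] at h2
    simp only [pow_zero, AlgEquiv.one_apply, Nat.add_sub_cancel] at h2 ⊢
    rw [mul_comm]
    exact h2
  have h3 : (∏ i ∈ Finset.range (n - 1), (σ ^ (i + 1)) t) ∈ A :=
    Subring.prod_mem A.toSubring fun i _ => inred_decomp_pow_mem A g (i + 1) htA
  have h4 : t⁻¹ = ∏ i ∈ Finset.range (n - 1), (σ ^ (i + 1)) t :=
    (eq_inv_of_mul_eq_one_right h1).symm
  apply hcon
  rw [← htinv, h4]
  exact h3

end Base

/-! ### the modular constant reductions -/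

section Concrete

variable (F₀ : IntermediateField ℚ (LaurentSeries ℚ))
variable {A : ValuationSubring (AlgebraicClosure ℚ)}

local notation "Kb" => AlgebraicClosure ℚ
local notation "kA" => IsLocalRing.ResidueField A

variable {Fk : IntermediateField (IsLocalRing.ResidueField A)
  (LaurentSeries (IsLocalRing.ResidueField A))}
variable {R : ConstRed A (IsLocalRing.residue A) (↥Fk) (↥(laurentBaseChange Kb F₀))}

/-- conjugating a representation `x = a / b` by an element of the decomposition group -/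
theorem inred_isRep_smul (g : A.decompositionSubgroup ℚ) {x : ↥(laurentBaseChange Kb F₀)}
    {a b : LaurentSeries A} (h : IsRep A (laurentBaseChange Kb F₀) (x : LaurentSeries Kb) a b) :
    IsRep A (laurentBaseChange Kb F₀)
      ((arithmeticGalois F₀ (g : Kb ≃ₐ[ℚ] Kb) • x : ↥(laurentBaseChange Kb F₀)) : LaurentSeries Kb)
      (coeffMap (Fermat.Agent.S37lib.decompHom A g) a)
      (coeffMap (Fermat.Agent.S37lib.decompHom A g) b) := by
  obtain ⟨ha, hb, hpb, hab⟩ := h
  refine ⟨?_, ?_, ?_, ?_⟩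
  · rw [Fermat.Agent.S37lib.coeffMap_subtype_decompHom]
    exact coeffMap_mem_laurentBaseChange _ ha
  · rw [Fermat.Agent.S37lib.coeffMap_subtype_decompHom]
    exact coeffMap_mem_laurentBaseChange _ hb
  · rw [Fermat.Agent.S37lib.coeffMap_residue_decompHom]
    intro h0
    apply hpb
    have := congrArg (coeffMap (((Fermat.Agent.S37lib.decompResAut A g).symm : kA ≃+* kA) :
      kA →+* kA)) h0
    rw [coeffMap_coeffMap, map_zero,
      coeffMap_congr (g := RingHom.id kA)
        (RingHom.ext fun a => (Fermat.Agent.S37lib.decompResAut A g).symm_apply_apply a),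
      coeffMap_id] at this
    exact this
  · rw [coe_arithmeticGalois_smul, Fermat.Agent.S37lib.coeffMap_subtype_decompHom,
      Fermat.Agent.S37lib.coeffMap_subtype_decompHom, ← map_mul, hab]

/-- **decomposition group**: `O` is stable and the reduction map is equivariant for the
coefficientwise action of the induced automorphism of the residue field. -/
theorem inred_decomp (hR : IsSeriesRed R) (hfrac : HasPrimFrac A (laurentBaseChange Kb F₀))
    (g : A.decompositionSubgroup ℚ) (x : R.O) :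
    ∃ h : arithmeticGalois F₀ (g : Kb ≃ₐ[ℚ] Kb) • (x : ↥(laurentBaseChange Kb F₀)) ∈ R.O,
      ((R.red ⟨_, h⟩ : ↥Fk) : LaurentSeries kA)
        = coeffMap ((Fermat.Agent.S37lib.decompResAut A g : kA ≃+* kA) : kA →+* kA)
            ((R.red x : ↥Fk) : LaurentSeries kA) := by
  obtain ⟨a, b, hrep⟩ := hR.exists_isRep hfrac x.2
  have hrep' := inred_isRep_smul F₀ g hrep
  have hmem := hR.mem_of_isRep hrep'
  refine ⟨hmem, ?_⟩
  rw [hR.red_of_isRep hrep' hmem, hR.red_of_isRep hrep x.2,
    Fermat.Agent.S37lib.coeffMap_residue_decompHom,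
    Fermat.Agent.S37lib.coeffMap_residue_decompHom, map_div₀]

/-- **(K1)**: the inertia group acts trivially on the residue field of a modular constant
reduction. -/
theorem inred_isInertial (hR : IsSeriesRed R) (hfrac : HasPrimFrac A (laurentBaseChange Kb F₀))
    (σ : Kb ≃ₐ[ℚ] Kb) (hσ : σ ∈ A.inertiaSubgroupIn ℚ) :
    IsInertial R (arithmeticGalois F₀ σ) := by
  obtain ⟨g, hg, rfl⟩ := hσ
  have h1 : Fermat.Agent.S37lib.decompResAut A g = 1 := hg
  change IsInertial R (arithmeticGalois F₀ (g : Kb ≃ₐ[ℚ] Kb))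
  haveI : Algebra.IsAlgebraic ℚ Kb := AlgebraicClosure.isAlgebraic ℚ
  refine ⟨fun c hc => ?_, fun x => ?_⟩
  · rw [baseAut_arithmeticGalois]
    exact inred_decomp_div_mem A g hc
  · obtain ⟨hm, hred⟩ := inred_decomp F₀ hR hfrac g x
    refine ⟨hm, Subtype.ext ?_⟩
    rw [hred, h1]
    exact coeffMap_id _

end Concrete

end Fermat.Agent.S34lib

end
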