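/-
Item 79 (S34), piece (K1) at the second valuation `v₀ = v_∞ ∘ w_q` (helper4).

* `inred_al_comm` : the Atkin–Lehner involution `w_q` of `FF N` (helper24, `atkinLehnerFF`) commutes
  with the arithmetic Galois action;
* `inredZero R` : the constant reduction `R₀ := inredComap R w_q` (unit ball `w_q⁻¹ O`, reduction
  `red ∘ w_q`);
* `inred_isInertial_zero` : the inertia group is inertial for `R₀`;
* `inred_al_red_comm` : **(K2)** for the pair `(R, R₀)`: for `σ, τ ∈ I` and `f ≠ 0` the function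
  `w = τ u / u`, `u = σ f / f` lies in the unit ball of `SSRed.ofPair R R₀` and reduces to `1`;
* `inred_al_exists_const` : `σ f / f` has constant reduction `(π a, π b)`, `π a, π b ≠ 0`.
-/
import Mathlib
import Fermat.Agent.S34lib.InertiaRed
import Fermat.Agent.S34lib.VAtkinLehner

set_option autoImplicit false
set_option synthInstance.maxHeartbeats 400000

noncomputable section

namespace Fermat.Agent.S34lib

open AlgebraicCurve Fermat.Agent.GoodRed ModularCurve HahnSeries Fermat.Agent.S24lib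

section

variable (N : ℕ) [NeZero N] (q : ℕ) (hq : q.Prime) (hqN : q ∣ N) (hq2 : ¬ q ^ 2 ∣ N)

/-- the arithmetic Galois action fixes the functions `j_d` -/
theorem inred_smul_jdF (σ : Kbar ≃ₐ[ℚ] Kbar) (d : ℕ) [NeZero d] (hd : d ∣ N) :
    arithmeticGalois (modularFunctionFieldFull N) σ • jdF N d hd = jdF N d hd :=
  Subtype.ext (coeffMap_coeffEmb σ _)

/-- `w_q` commutes with the arithmetic Galois action -/
theorem inred_al_comm (σ : Kbar ≃ₐ[ℚ] Kbar) (x : FF N) :
    atkinLehnerFF N q hq hqN hq2 (arithmeticGalois (modularFunctionFieldFull N) σ • x)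
      = arithmeticGalois (modularFunctionFieldFull N) σ • atkinLehnerFF N q hq hqN hq2 x :=
  atkinLehnerFF_comm N q hq hqN hq2
    ((arithmeticRingAut (modularFunctionFieldFull N) σ : FF N ≃+* FF N) : FF N →+* FF N)
    (fun c => ⟨σ c, arithmeticRingAut_algebraMap (modularFunctionFieldFull N) σ c⟩)
    (fun d _ hd => inred_smul_jdF N σ d hd) x

variable {A : ValuationSubring Kbar}
variable {Fk : IntermediateField (IsLocalRing.ResidueField A)
  (LaurentSeries (IsLocalRing.ResidueField A))}

/-- the constant reduction at the second valuation `v₀ = v_∞ ∘ w_q` -/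
def inredZero (R : ConstRed A (IsLocalRing.residue A) (↥Fk) (FF N)) :
    ConstRed A (IsLocalRing.residue A) (↥Fk) (FF N) :=
  inredComap R (atkinLehnerFF N q hq hqN hq2)

variable {N q} in
theorem mem_inredZero_O (R : ConstRed A (IsLocalRing.residue A) (↥Fk) (FF N)) (x : FF N) :
    x ∈ (inredZero N q hq hqN hq2 R).O ↔ atkinLehnerFF N q hq hqN hq2 x ∈ R.O := Iff.rfl

variable {N q} in
theorem inredZero_red (R : ConstRed A (IsLocalRing.residue A) (↥Fk) (FF N)) (x : FF N)
    (hx : x ∈ (inredZero N q hq hqN hq2 R).O) :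
    (inredZero N q hq hqN hq2 R).red ⟨x, hx⟩ = R.red ⟨atkinLehnerFF N q hq hqN hq2 x, hx⟩ := rfl

variable {R : ConstRed A (IsLocalRing.residue A) (↥Fk) (FF N)}

/-- **(K1)** at `v_∞`: the inertia group is inertial for `R` -/
theorem inred_isInertial_inf (hR : IsSeriesRed R) (hfrac : HasPrimFrac A (modularFunctionFieldBar N))
    (σ : Kbar ≃ₐ[ℚ] Kbar) (hσ : σ ∈ A.inertiaSubgroupIn ℚ) :
    IsInertial R (arithmeticGalois (modularFunctionFieldFull N) σ) :=
  inred_isInertial (modularFunctionFieldFull N) hR hfrac σ hσ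

/-- **(K1)** at `v₀`: the inertia group is inertial for `R₀` -/
theorem inred_isInertial_zero (hR : IsSeriesRed R)
    (hfrac : HasPrimFrac A (modularFunctionFieldBar N))
    (σ : Kbar ≃ₐ[ℚ] Kbar) (hσ : σ ∈ A.inertiaSubgroupIn ℚ) :
    IsInertial (inredZero N q hq hqN hq2 R) (arithmeticGalois (modularFunctionFieldFull N) σ) :=
  (inred_isInertial (modularFunctionFieldFull N) hR hfrac σ hσ).inredComap
    (atkinLehnerFF N q hq hqN hq2) _ (inred_al_comm N q hq hqN hq2 σ)

/-- **(R)**: inertia preserves the unit ball of the sup-norm and acts trivially on its residue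
ring -/
theorem inred_al_red_smul (hR : IsSeriesRed R)
    (hfrac : HasPrimFrac A (modularFunctionFieldBar N))
    (σ : Kbar ≃ₐ[ℚ] Kbar) (hσ : σ ∈ A.inertiaSubgroupIn ℚ)
    (x : (SSRed.ofPair R (inredZero N q hq hqN hq2 R)).O) :
    ∃ hm : arithmeticGalois (modularFunctionFieldFull N) σ • (x : FF N)
        ∈ (SSRed.ofPair R (inredZero N q hq hqN hq2 R)).O,
      (SSRed.ofPair R (inredZero N q hq hqN hq2 R)).red ⟨_, hm⟩
        = (SSRed.ofPair R (inredZero N q hq hqN hq2 R)).red x :=
  ⟨inred_ss_smul_mem (inred_isInertial_inf N hR hfrac σ hσ)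
      (inred_isInertial_zero N q hq hqN hq2 hR hfrac σ hσ) x.2,
    inred_ss_red_smul (inred_isInertial_inf N hR hfrac σ hσ)
      (inred_isInertial_zero N q hq hqN hq2 hR hfrac σ hσ) x.2⟩

/-- **(K2)**, tame characters: for `f ≠ 0` and `σ ∈ I` the function `σ f / f` is a unit of the
sup-norm ball with reduction a pair of nonzero constants. -/
theorem inred_al_exists_const (hR : IsSeriesRed R)
    (hfrac : HasPrimFrac A (modularFunctionFieldBar N))
    (σ : Kbar ≃ₐ[ℚ] Kbar) (hσ : σ ∈ A.inertiaSubgroupIn ℚ) {f : FF N} (hf : f ≠ 0) :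
    ∃ a b : A, IsLocalRing.residue A a ≠ 0 ∧ IsLocalRing.residue A b ≠ 0 ∧
      ∃ hm : arithmeticGalois (modularFunctionFieldFull N) σ • f / f
          ∈ (SSRed.ofPair R (inredZero N q hq hqN hq2 R)).O,
        (SSRed.ofPair R (inredZero N q hq hqN hq2 R)).red ⟨_, hm⟩
          = (algebraMap (IsLocalRing.ResidueField A) (↥Fk) (IsLocalRing.residue A a),
              algebraMap (IsLocalRing.ResidueField A) (↥Fk) (IsLocalRing.residue A b)) :=
  inred_ss_exists_const (inred_isInertial_inf N hR hfrac σ hσ)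
    (inred_isInertial_zero N q hq hqN hq2 hR hfrac σ hσ) hf

/-- **(K2)**: for `σ, τ ∈ I` and `f ≠ 0` the function `(τ - 1)(σ - 1) f` reduces to `(1, 1)`. -/
theorem inred_al_red_comm (hR : IsSeriesRed R)
    (hfrac : HasPrimFrac A (modularFunctionFieldBar N))
    (σ τ : Kbar ≃ₐ[ℚ] Kbar) (hσ : σ ∈ A.inertiaSubgroupIn ℚ) (hτ : τ ∈ A.inertiaSubgroupIn ℚ)
    {f : FF N} (hf : f ≠ 0) :
    ∃ hm : arithmeticGalois (modularFunctionFieldFull N) τ
          • (arithmeticGalois (modularFunctionFieldFull N) σ • f / f)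
          / (arithmeticGalois (modularFunctionFieldFull N) σ • f / f)
        ∈ (SSRed.ofPair R (inredZero N q hq hqN hq2 R)).O,
      (SSRed.ofPair R (inredZero N q hq hqN hq2 R)).red ⟨_, hm⟩ = 1 :=
  inred_ofPair_red_comm (inred_isInertial_inf N hR hfrac σ hσ)
    (inred_isInertial_zero N q hq hqN hq2 hR hfrac σ hσ)
    (inred_isInertial_inf N hR hfrac τ hτ)
    (inred_isInertial_zero N q hq hqN hq2 hR hfrac τ hτ) hf

end

end Fermat.Agent.S34lib

end
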