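/-
Item 79 (S34), block F, piece (V) part 3 (helper24): the two-valuation inequality, abstract form.

`K` a field with a valuation ring `A` (residue field `k`), `F/K` a field, `t ∈ F`,
`O₁, O₂ ⊂ F` subrings containing the image of `A` and `t`, with ring homs `redᵢ : Oᵢ → Lᵢ` into
fields over `k`, compatible with the residue map of `A`.
If `u : ι₁ → O₁ ∩ 𝔪₂` has reductions in `L₁` polynomially independent over `k[red₁ t]` and
`z : ι₂ → O₂ ∩ 𝔪₁` has reductions in `L₂` polynomially independent over `k[red₂ t]`, then the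
family `(u, z)` is polynomially independent over `K[t]`; hence `|ι₁| + |ι₂| ≤ [F : K(t)]`.
Helper lemmas are prefixed `vtv_`.
-/
import Mathlib

set_option autoImplicit false

noncomputable section

namespace Fermat.Agent.S34lib

open Polynomial IntermediateField

/-- polynomial-linear independence of a family `w` over `K[t]` -/
def VPolyLI (K : Type*) [CommRing K] {E : Type*} [CommRing E] [Algebra K E] {ι : Type*}
    [Fintype ι] (t : E) (w : ι → E) : Prop :=
  ∀ P : ι → K[X], ∑ s, aeval t (P s) * w s = 0 → P = 0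

section Prim

variable {K : Type*} [Field K] (A : ValuationSubring K)

/-- lift of a polynomial with coefficients in `A` -/
def vtv_liftPoly (P : K[X]) (h : ∀ m, P.coeff m ∈ A) : (↥A)[X] :=
  ∑ m ∈ P.support, Polynomial.monomial m (⟨P.coeff m, h m⟩ : A)

theorem vtv_map_liftPoly (P : K[X]) (h : ∀ m, P.coeff m ∈ A) :
    (vtv_liftPoly A P h).map A.subtype = P := by
  rw [vtv_liftPoly, Polynomial.map_sum]
  simp only [Polynomial.map_monomial]
  exact (P.as_sum_support).symm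

theorem vtv_coeff_liftPoly (P : K[X]) (h : ∀ m, P.coeff m ∈ A) (m : ℕ) :
    (((vtv_liftPoly A P h).coeff m : A) : K) = P.coeff m := by
  have := congrArg (fun Q => Q.coeff m) (vtv_map_liftPoly A P h)
  simpa [Polynomial.coeff_map] using this

/-- a nonzero finite family of polynomials over `K` can be scaled to a primitive family
over `A` -/
theorem vtv_exists_primitive {ι : Type*} [Fintype ι] (P : ι → K[X]) (hP : P ≠ 0) :
    ∃ (c : K) (Q : ι → (↥A)[X]), c ≠ 0 ∧ (∀ i, (Q i).map A.subtype = Polynomial.C c * P i) ∧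
      ∃ i, (Q i).map (IsLocalRing.residue A) ≠ 0 := by
  classical
  set T : Finset (Σ _ : ι, ℕ) := Finset.univ.sigma fun i => (P i).support with hT
  have hne : T.Nonempty := by
    obtain ⟨i, hi⟩ : ∃ i, P i ≠ 0 := by
      by_contra hcon
      push Not at hcon
      exact hP (funext hcon)
    obtain ⟨m, hm⟩ : ∃ m, (P i).coeff m ≠ 0 := by
      by_contra hcon
      push Not at hcon
      exact hi (Polynomial.ext fun m => by rw [hcon m, Polynomial.coeff_zero])
    exact ⟨⟨i, m⟩, Finset.mem_sigma.mpr ⟨Finset.mem_univ _, Polynomial.mem_support_iff.mpr hm⟩⟩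
  obtain ⟨⟨i₀, m₀⟩, h₀, hmax⟩ :=
    Finset.exists_max_image T (fun p => A.valuation ((P p.1).coeff p.2)) hne
  have hc₀ : (P i₀).coeff m₀ ≠ 0 :=
    Polynomial.mem_support_iff.mp (Finset.mem_sigma.mp h₀).2
  set c : K := ((P i₀).coeff m₀)⁻¹ with hc
  have hcne : c ≠ 0 := inv_ne_zero hc₀
  have hmem : ∀ i m, (Polynomial.C c * P i).coeff m ∈ A := by
    intro i m
    rw [Polynomial.coeff_C_mul]
    by_cases h0 : (P i).coeff m = 0
    · rw [h0, mul_zero]; exact A.zero_mem
    · have hle := hmax ⟨i, m⟩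
        (Finset.mem_sigma.mpr ⟨Finset.mem_univ _, Polynomial.mem_support_iff.mpr h0⟩)
      rw [← A.valuation_le_one_iff, map_mul, hc, map_inv₀]
      have hpos : A.valuation ((P i₀).coeff m₀) ≠ 0 := (_root_.map_ne_zero _).mpr hc₀
      rw [inv_mul_le_iff₀ (zero_lt_iff.mpr hpos), mul_one]
      exact hle
  refine ⟨c, fun i => vtv_liftPoly A (Polynomial.C c * P i) (hmem i), hcne,
    fun i => vtv_map_liftPoly A _ _, i₀, fun h0 => ?_⟩
  have h1 := congrArg (fun Q => Q.coeff m₀) h0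
  simp only [Polynomial.coeff_map, Polynomial.coeff_zero] at h1
  have h2 : (vtv_liftPoly A (Polynomial.C c * P i₀) (hmem i₀)).coeff m₀ = 1 := by
    apply Subtype.ext
    rw [vtv_coeff_liftPoly, Polynomial.coeff_C_mul, hc, inv_mul_cancel₀ hc₀]
    rfl
  rw [h2, map_one] at h1
  exact one_ne_zero h1

end Prim

section Abstract

variable {K : Type*} [Field K] (A : ValuationSubring K)
variable {F : Type*} [Field F] [Algebra K F]
variable {L : Type*} [Field L] [Algebra (IsLocalRing.ResidueField A) L]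

/-- the constants of `A` as elements of a subring `O ⊂ F` -/
def vtv_const (O : Subring F) (hA : ∀ a : A, algebraMap K F (a : K) ∈ O) : A →+* O :=
  ((algebraMap K F).comp A.subtype).codRestrict O hA

/-- evaluation of polynomials over `A` at `t ∈ O` -/
def vtv_ev (O : Subring F) (hA : ∀ a : A, algebraMap K F (a : K) ∈ O) (t : F) (ht : t ∈ O) :
    (↥A)[X] →+* O :=
  Polynomial.eval₂RingHom (vtv_const A O hA) ⟨t, ht⟩

theorem vtv_coe_ev (O : Subring F) (hA : ∀ a : A, algebraMap K F (a : K) ∈ O) (t : F)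
    (ht : t ∈ O) (Q : (↥A)[X]) :
    ((vtv_ev A O hA t ht Q : O) : F) = aeval t (Q.map A.subtype) := by
  have h1 : ((vtv_ev A O hA t ht Q : O) : F) = O.subtype (vtv_ev A O hA t ht Q) := rfl
  rw [h1, vtv_ev, Polynomial.coe_eval₂RingHom, Polynomial.hom_eval₂, Polynomial.aeval_def,
    Polynomial.eval₂_map]
  rfl

theorem vtv_red_ev (O : Subring F) (hA : ∀ a : A, algebraMap K F (a : K) ∈ O) (red : O →+* L)
    (hr : ∀ a : A, red ⟨algebraMap K F (a : K), hA a⟩ =
      algebraMap (IsLocalRing.ResidueField A) L (IsLocalRing.residue A a))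
    (t : F) (ht : t ∈ O) (Q : (↥A)[X]) :
    red (vtv_ev A O hA t ht Q) = aeval (red ⟨t, ht⟩) (Q.map (IsLocalRing.residue A)) := by
  rw [vtv_ev, Polynomial.coe_eval₂RingHom, Polynomial.hom_eval₂, Polynomial.aeval_def,
    Polynomial.eval₂_map]
  congr 1
  ext a
  exact hr a

variable {L₁ L₂ : Type*} [Field L₁] [Algebra (IsLocalRing.ResidueField A) L₁]
  [Field L₂] [Algebra (IsLocalRing.ResidueField A) L₂]

/-- **the two-valuation independence lemma** -/
theorem twoVal_polyLI (O₁ O₂ : Subring F) (red₁ : O₁ →+* L₁) (red₂ : O₂ →+* L₂)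
    (hA₁ : ∀ a : A, algebraMap K F (a : K) ∈ O₁)
    (hr₁ : ∀ a : A, red₁ ⟨algebraMap K F (a : K), hA₁ a⟩ =
      algebraMap (IsLocalRing.ResidueField A) L₁ (IsLocalRing.residue A a))
    (hA₂ : ∀ a : A, algebraMap K F (a : K) ∈ O₂)
    (hr₂ : ∀ a : A, red₂ ⟨algebraMap K F (a : K), hA₂ a⟩ =
      algebraMap (IsLocalRing.ResidueField A) L₂ (IsLocalRing.residue A a))
    (t : F) (ht₁ : t ∈ O₁) (ht₂ : t ∈ O₂)
    {ι₁ ι₂ : Type*} [Fintype ι₁] [Fintype ι₂]
    (u : ι₁ → F) (hu₁ : ∀ i, u i ∈ O₁) (hu₂ : ∀ i, u i ∈ O₂)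
    (hu0 : ∀ i, red₂ ⟨u i, hu₂ i⟩ = 0)
    (z : ι₂ → F) (hz₁ : ∀ j, z j ∈ O₁) (hz₂ : ∀ j, z j ∈ O₂)
    (hz0 : ∀ j, red₁ ⟨z j, hz₁ j⟩ = 0)
    (hLI₁ : VPolyLI (IsLocalRing.ResidueField A) (red₁ ⟨t, ht₁⟩) (fun i => red₁ ⟨u i, hu₁ i⟩))
    (hLI₂ : VPolyLI (IsLocalRing.ResidueField A) (red₂ ⟨t, ht₂⟩) (fun j => red₂ ⟨z j, hz₂ j⟩)) :
    VPolyLI K t (Sum.elim u z) := by
  classical
  intro P hsum
  by_contra hP
  obtain ⟨c, Q, hc, hQ, s₀, hs₀⟩ := vtv_exists_primitive A P hP
  -- the relation with coefficients in `A[X]`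
  have hrel : ∑ s, aeval t ((Q s).map A.subtype) * Sum.elim u z s = 0 := by
    have : ∀ s, aeval t ((Q s).map A.subtype) * Sum.elim u z s =
        algebraMap K F c * (aeval t (P s) * Sum.elim u z s) := by
      intro s
      rw [hQ s, map_mul, Polynomial.aeval_C, mul_assoc]
    rw [Finset.sum_congr rfl fun s _ => this s, ← Finset.mul_sum, hsum, mul_zero]
  rw [Fintype.sum_sum_type] at hrel
  simp only [Sum.elim_inl, Sum.elim_inr] at hrel
  -- reduce in `L₁`
  have h1 : ∑ i, aeval (red₁ ⟨t, ht₁⟩) ((Q (Sum.inl i)).map (IsLocalRing.residue A)) *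
      red₁ ⟨u i, hu₁ i⟩ = 0 := by
    have e : (∑ i, vtv_ev A O₁ hA₁ t ht₁ (Q (Sum.inl i)) * ⟨u i, hu₁ i⟩ +
        ∑ j, vtv_ev A O₁ hA₁ t ht₁ (Q (Sum.inr j)) * ⟨z j, hz₁ j⟩ : O₁) = 0 := by
      apply Subtype.ext
      push_cast
      simp only [vtv_coe_ev]
      exact hrel
    have e' := congrArg red₁ e
    rw [map_add, map_sum, map_sum, map_zero] at e'
    simp only [map_mul, hz0, mul_zero, Finset.sum_const_zero, add_zero, vtv_red_ev A O₁ hA₁ red₁ hr₁] at e'
    exact e'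
  have h2 : ∑ j, aeval (red₂ ⟨t, ht₂⟩) ((Q (Sum.inr j)).map (IsLocalRing.residue A)) *
      red₂ ⟨z j, hz₂ j⟩ = 0 := by
    have e : (∑ i, vtv_ev A O₂ hA₂ t ht₂ (Q (Sum.inl i)) * ⟨u i, hu₂ i⟩ +
        ∑ j, vtv_ev A O₂ hA₂ t ht₂ (Q (Sum.inr j)) * ⟨z j, hz₂ j⟩ : O₂) = 0 := by
      apply Subtype.ext
      push_cast
      simp only [vtv_coe_ev]
      exact hrel
    have e' := congrArg red₂ e
    rw [map_add, map_sum, map_sum, map_zero] at e'
    simp only [map_mul, hu0, mul_zero, Finset.sum_const_zero, zero_add, vtv_red_ev A O₂ hA₂ red₂ hr₂] at e'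
    exact e'
  have k1 := hLI₁ _ h1
  have k2 := hLI₂ _ h2
  rcases s₀ with i | j
  · exact hs₀ (congrFun k1 i)
  · exact hs₀ (congrFun k2 j)

end Abstract

section Card

variable {K : Type*} [Field K] {F : Type*} [Field F] [Algebra K F]

/-- a polynomially independent family is linearly independent over `K(t)` -/
theorem VPolyLI.linearIndependent {ι : Type*} [Fintype ι] {t : F} {w : ι → F}
    (h : VPolyLI K t w) : LinearIndependent K⟮t⟯ w := by
  classical
  rw [Fintype.linearIndependent_iff]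
  intro g hg
  have hfrac : ∀ i, ∃ R S : K[X], Polynomial.aeval t S ≠ 0 ∧
      ((g i : K⟮t⟯) : F) * Polynomial.aeval t S = Polynomial.aeval t R := by
    intro i
    obtain ⟨R, S, hRS⟩ := (IntermediateField.mem_adjoin_simple_iff K ((g i : K⟮t⟯) : F)).mp
      (g i).2
    by_cases hS : Polynomial.aeval t S = 0
    · refine ⟨0, 1, by simp, ?_⟩
      rw [hRS, hS, div_zero]
      simp
    · exact ⟨R, S, hS, by rw [hRS, div_mul_cancel₀ _ hS]⟩
  choose R S hS hRS using hfrac
  set P : ι → K[X] := fun i => R i * ∏ l ∈ Finset.univ.erase i, S l with hP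
  have hD : ∀ i, Polynomial.aeval t (P i) =
      ((g i : K⟮t⟯) : F) * ∏ l, Polynomial.aeval t (S l) := by
    intro i
    rw [hP, map_mul, map_prod, ← hRS i, mul_assoc,
      Finset.mul_prod_erase Finset.univ (fun l => Polynomial.aeval t (S l)) (Finset.mem_univ i)]
  have hsum : ∑ i, Polynomial.aeval t (P i) * w i = 0 := by
    simp only [hD]
    have h2 : ∀ i, ((g i : K⟮t⟯) : F) * (∏ l, Polynomial.aeval t (S l)) * w i =
        (∏ l, Polynomial.aeval t (S l)) * (g i • w i) := by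
      intro i
      rw [IntermediateField.smul_def, smul_eq_mul]
      ring
    rw [Finset.sum_congr rfl fun i _ => h2 i, ← Finset.mul_sum, hg, mul_zero]
  have hP0 := h P hsum
  intro i
  have h4 : Polynomial.aeval t (P i) = 0 := by rw [congrFun hP0 i]; simp
  rw [hD i] at h4
  have h5 : (∏ l, Polynomial.aeval t (S l)) ≠ 0 := Finset.prod_ne_zero_iff.mpr fun l _ => hS l
  have h6 : ((g i : K⟮t⟯) : F) = 0 := (mul_eq_zero.mp h4).resolve_right h5
  exact Subtype.ext h6

theorem VPolyLI.card_le_finrank {ι : Type*} [Fintype ι] {t : F} {w : ι → F}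
    (h : VPolyLI K t w) [FiniteDimensional K⟮t⟯ F] :
    Fintype.card ι ≤ Module.finrank K⟮t⟯ F :=
  h.linearIndependent.fintype_card_le_finrank

/-- conversely, a family linearly independent over `K(t)` with `t` transcendental is
polynomially independent -/
theorem VPolyLI.of_linearIndependent {ι : Type*} [Fintype ι] {t : F} {w : ι → F}
    (ht : Transcendental K t) (h : LinearIndependent K⟮t⟯ w) : VPolyLI K t w := by
  classical
  intro P hsum
  rw [Fintype.linearIndependent_iff] at h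
  have h1 := h (fun i => ⟨aeval t (P i), by
    rw [Polynomial.aeval_eq_sum_range]
    exact sum_mem fun m _ => by
      rw [Algebra.smul_def]
      exact mul_mem (IntermediateField.algebraMap_mem _ _)
        (pow_mem (IntermediateField.mem_adjoin_simple_self K t) _)⟩) (by
    simp only [IntermediateField.smul_def, smul_eq_mul]
    exact hsum)
  funext i
  have h2 : aeval t (P i) = 0 := congrArg Subtype.val (h1 i)
  by_contra h0
  exact ht ⟨P i, h0, h2⟩

end Card

section Arch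

variable {K : Type*} [Field K] (A : ValuationSubring K)

/-- the archimedean property of the valuation of `A` -/
def VArch : Prop := ∀ a b : K, A.valuation a < 1 → ∃ M : ℕ, A.valuation (a ^ M * b) < 1

/-- a subring `O` of `F` over `A` with a reduction map to a field `L`, with the value group
of `A` -/
structure VRed (F : Type*) [Field F] [Algebra K F] (L : Type*) [Field L]
    [Algebra (IsLocalRing.ResidueField A) L] where
  /-- the ring of integers -/
  O : Subring F
  /-- the reduction map -/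
  red : O →+* L
  algebraMap_mem : ∀ a : A, algebraMap K F (a : K) ∈ O
  red_algebraMap : ∀ a : A, red ⟨algebraMap K F (a : K), algebraMap_mem a⟩ =
    algebraMap (IsLocalRing.ResidueField A) L (IsLocalRing.residue A a)
  exists_unit_smul : ∀ f : F, f ≠ 0 →
    ∃ c : K, c ≠ 0 ∧ algebraMap K F c * f ∈ O ∧ (algebraMap K F c * f)⁻¹ ∈ O

variable {A}
variable {F : Type*} [Field F] [Algebra K F]
variable {L : Type*} [Field L] [Algebra (IsLocalRing.ResidueField A) L]

theorem VRed.red_eq_zero_of_valuation_lt (R : VRed A F L) {d : K} (hd : A.valuation d < 1) :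
    ∃ h : algebraMap K F d ∈ R.O, R.red ⟨algebraMap K F d, h⟩ = 0 := by
  have hdA : d ∈ A := (A.valuation_le_one_iff d).mp hd.le
  refine ⟨R.algebraMap_mem ⟨d, hdA⟩, ?_⟩
  rw [R.red_algebraMap ⟨d, hdA⟩]
  have : IsLocalRing.residue A ⟨d, hdA⟩ = 0 := by
    rw [IsLocalRing.residue_eq_zero_iff]
    exact (A.valuation_lt_one_iff ⟨d, hdA⟩).mpr hd
  rw [this, map_zero]

/-- a unit of `O` has nonzero reduction -/
theorem VRed.red_ne_zero_of_inv_mem (R : VRed A F L) {x : F} (hx : x ∈ R.O) (hxi : x⁻¹ ∈ R.O)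
    (hx0 : x ≠ 0) : R.red ⟨x, hx⟩ ≠ 0 := by
  intro h
  have h1 : (⟨x, hx⟩ : R.O) * ⟨x⁻¹, hxi⟩ = 1 := Subtype.ext (mul_inv_cancel₀ hx0)
  have h2 := congrArg R.red h1
  rw [map_mul, h, zero_mul, map_one] at h2
  exact zero_ne_one h2

/-- **archimedean scaling**: powers of an element with zero reduction move every element into
the maximal ideal -/
theorem VRed.exists_pow_mul (R : VRed A F L) (harch : VArch A) (e : F) (he : e ∈ R.O)
    (hre : R.red ⟨e, he⟩ = 0) (y : F) :
    ∃ M₀ : ℕ, ∀ M, M₀ ≤ M → ∃ h : e ^ M * y ∈ R.O, R.red ⟨e ^ M * y, h⟩ = 0 := by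
  by_cases hy0 : y = 0
  · refine ⟨0, fun M _ => ?_⟩
    have h0 : e ^ M * y = 0 := by rw [hy0, mul_zero]
    refine ⟨h0 ▸ R.O.zero_mem, ?_⟩
    have : (⟨e ^ M * y, h0 ▸ R.O.zero_mem⟩ : R.O) = 0 := Subtype.ext h0
    rw [this, map_zero]
  by_cases he0 : e = 0
  · refine ⟨1, fun M hM => ?_⟩
    have h0 : e ^ M * y = 0 := by
      rw [he0, zero_pow (by omega), zero_mul]
    refine ⟨h0 ▸ R.O.zero_mem, ?_⟩
    have : (⟨e ^ M * y, h0 ▸ R.O.zero_mem⟩ : R.O) = 0 := Subtype.ext h0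
    rw [this, map_zero]
  obtain ⟨ce, hce, hue, huei⟩ := R.exists_unit_smul e he0
  obtain ⟨cy, hcy, huy, -⟩ := R.exists_unit_smul y hy0
  -- `v(ce⁻¹) < 1`
  have hlt : A.valuation ce⁻¹ < 1 := by
    by_contra hcon
    have h1 : 1 ≤ A.valuation ce⁻¹ := not_lt.mp hcon
    have hceA : ce ∈ A := by
      rw [← A.valuation_le_one_iff]
      rw [map_inv₀] at h1
      have hpos : 0 < A.valuation ce := zero_lt_iff.mpr ((_root_.map_ne_zero _).mpr hce)
      exact (one_le_inv₀ hpos).mp h1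
    have hne := R.red_ne_zero_of_inv_mem hue huei
      (mul_ne_zero ((_root_.map_ne_zero _).mpr hce) he0)
    apply hne
    have e1 : (⟨algebraMap K F ce * e, hue⟩ : R.O) =
        ⟨algebraMap K F ce, R.algebraMap_mem ⟨ce, hceA⟩⟩ * ⟨e, he⟩ := rfl
    rw [e1, map_mul, hre, mul_zero]
  obtain ⟨M₀, hM₀⟩ := harch ce⁻¹ cy⁻¹ hlt
  refine ⟨M₀, fun M hM => ?_⟩
  have hd : A.valuation (ce⁻¹ ^ M * cy⁻¹) < 1 := by
    obtain ⟨r, rfl⟩ := Nat.exists_eq_add_of_le hM
    have e1 : ce⁻¹ ^ (M₀ + r) * cy⁻¹ = ce⁻¹ ^ r * (ce⁻¹ ^ M₀ * cy⁻¹) := by ring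
    rw [e1, map_mul, map_pow]
    calc A.valuation ce⁻¹ ^ r * A.valuation (ce⁻¹ ^ M₀ * cy⁻¹)
        ≤ 1 * A.valuation (ce⁻¹ ^ M₀ * cy⁻¹) :=
          mul_le_mul_left (pow_le_one₀ zero_le hlt.le) _
      _ < 1 := by rw [one_mul]; exact hM₀
  obtain ⟨hdm, hdr⟩ := R.red_eq_zero_of_valuation_lt hd
  have hprod : e ^ M * y = algebraMap K F (ce⁻¹ ^ M * cy⁻¹) *
      ((algebraMap K F ce * e) ^ M * (algebraMap K F cy * y)) := by
    rw [map_mul, map_pow, map_inv₀, map_inv₀]
    have h1 : algebraMap K F ce ≠ 0 := (_root_.map_ne_zero _).mpr hce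
    have h2 : algebraMap K F cy ≠ 0 := (_root_.map_ne_zero _).mpr hcy
    have h3 : ((algebraMap K F ce)⁻¹ ^ M * (algebraMap K F cy)⁻¹) *
        ((algebraMap K F ce * e) ^ M * (algebraMap K F cy * y)) =
        ((algebraMap K F ce)⁻¹ * algebraMap K F ce) ^ M *
          ((algebraMap K F cy)⁻¹ * algebraMap K F cy) * (e ^ M * y) := by ring
    rw [h3, inv_mul_cancel₀ h1, inv_mul_cancel₀ h2, one_pow, one_mul, one_mul]
  have hmem : e ^ M * y ∈ R.O := by
    rw [hprod]
    exact R.O.mul_mem hdm (R.O.mul_mem (R.O.pow_mem hue M) huy)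
  refine ⟨hmem, ?_⟩
  have e2 : (⟨e ^ M * y, hmem⟩ : R.O) = ⟨algebraMap K F (ce⁻¹ ^ M * cy⁻¹), hdm⟩ *
      (⟨algebraMap K F ce * e, hue⟩ ^ M * ⟨algebraMap K F cy * y, huy⟩) :=
    Subtype.ext hprod
  rw [e2, map_mul, hdr, zero_mul]

variable {L₁ L₂ : Type*} [Field L₁] [Algebra (IsLocalRing.ResidueField A) L₁]
  [Field L₂] [Algebra (IsLocalRing.ResidueField A) L₂]

/-- **the two-valuation inequality** -/
theorem twoVal_card_add_le (R₁ : VRed A F L₁) (R₂ : VRed A F L₂) (harch : VArch A)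
    (e : F) (he₁ : e ∈ R₁.O) (hre₁ : R₁.red ⟨e, he₁⟩ = 0)
    (he₂ : 1 - e ∈ R₂.O) (hre₂ : R₂.red ⟨1 - e, he₂⟩ = 0)
    (t : F) (ht₁ : t ∈ R₁.O) (ht₂ : t ∈ R₂.O)
    {ι₁ ι₂ : Type*} [Fintype ι₁] [Fintype ι₂] (u : ι₁ → R₁.O) (z : ι₂ → R₂.O)
    (hLI₁ : VPolyLI (IsLocalRing.ResidueField A) (R₁.red ⟨t, ht₁⟩) (fun i => R₁.red (u i)))
    (hLI₂ : VPolyLI (IsLocalRing.ResidueField A) (R₂.red ⟨t, ht₂⟩) (fun j => R₂.red (z j)))
    [FiniteDimensional K⟮t⟯ F] :
    Fintype.card ι₁ + Fintype.card ι₂ ≤ Module.finrank K⟮t⟯ F := by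
  classical
  have h1e : (1 - e) ∈ R₁.O := R₁.O.sub_mem R₁.O.one_mem he₁
  have h2e : e ∈ R₂.O := by
    have : e = 1 - (1 - e) := by ring
    rw [this]
    exact R₂.O.sub_mem R₂.O.one_mem he₂
  have hr1e : R₁.red ⟨1 - e, h1e⟩ = 1 := by
    have : (⟨1 - e, h1e⟩ : R₁.O) = 1 - ⟨e, he₁⟩ := rfl
    rw [this, map_sub, map_one, hre₁, sub_zero]
  have hr2e : R₂.red ⟨e, h2e⟩ = 1 := by
    have : (⟨e, h2e⟩ : R₂.O) = 1 - ⟨1 - e, he₂⟩ := Subtype.ext (by
      show e = 1 - (1 - e)
      ring)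
    rw [this, map_sub, map_one, hre₂, sub_zero]
  have hA := fun i => R₂.exists_pow_mul harch (1 - e) he₂ hre₂ (u i : F)
  have hB := fun j => R₁.exists_pow_mul harch e he₁ hre₁ (z j : F)
  choose MA hMA using hA
  choose MB hMB using hB
  set M : ℕ := ∑ i, MA i + ∑ j, MB j with hM
  have hMAle : ∀ i, MA i ≤ M := fun i =>
    (Finset.single_le_sum (f := MA) (fun _ _ => Nat.zero_le _) (Finset.mem_univ i)).trans
      (Nat.le_add_right _ _)
  have hMBle : ∀ j, MB j ≤ M := fun j =>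
    (Finset.single_le_sum (f := MB) (fun _ _ => Nat.zero_le _) (Finset.mem_univ j)).trans
      (Nat.le_add_left _ _)
  have key := twoVal_polyLI A R₁.O R₂.O R₁.red R₂.red R₁.algebraMap_mem R₁.red_algebraMap
    R₂.algebraMap_mem R₂.red_algebraMap t ht₁ ht₂
    (fun i => (1 - e) ^ M * (u i : F))
    (fun i => R₁.O.mul_mem (R₁.O.pow_mem h1e M) (u i).2)
    (fun i => (hMA i M (hMAle i)).1)
    (fun i => (hMA i M (hMAle i)).2)
    (fun j => e ^ M * (z j : F))
    (fun j => (hMB j M (hMBle j)).1)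
    (fun j => R₂.O.mul_mem (R₂.O.pow_mem h2e M) (z j).2)
    (fun j => (hMB j M (hMBle j)).2)
    (by
      have : (fun i => R₁.red ⟨(1 - e) ^ M * (u i : F),
          R₁.O.mul_mem (R₁.O.pow_mem h1e M) (u i).2⟩) = fun i => R₁.red (u i) := by
        funext i
        have e1 : (⟨(1 - e) ^ M * (u i : F), R₁.O.mul_mem (R₁.O.pow_mem h1e M) (u i).2⟩ : R₁.O) =
            ⟨1 - e, h1e⟩ ^ M * u i := rfl
        rw [e1, map_mul, map_pow, hr1e, one_pow, one_mul]
      rw [this]
      exact hLI₁)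
    (by
      have : (fun j => R₂.red ⟨e ^ M * (z j : F),
          R₂.O.mul_mem (R₂.O.pow_mem h2e M) (z j).2⟩) = fun j => R₂.red (z j) := by
        funext j
        have e1 : (⟨e ^ M * (z j : F), R₂.O.mul_mem (R₂.O.pow_mem h2e M) (z j).2⟩ : R₂.O) =
            ⟨e, h2e⟩ ^ M * z j := rfl
        rw [e1, map_mul, map_pow, hr2e, one_pow, one_mul]
      rw [this]
      exact hLI₂)
  have := key.card_le_finrank
  rwa [Fintype.card_sum] at this

/-- transport of a `VRed` along an automorphism -/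
def VRed.comap (R : VRed A F L) (w : F ≃ₐ[K] F) : VRed A F L where
  O := R.O.comap (w : F →+* F)
  red := R.red.comp (((w : F →+* F).restrict (R.O.comap (w : F →+* F)) R.O) fun _ hx => hx)
  algebraMap_mem a := by
    show w (algebraMap K F (a : K)) ∈ R.O
    rw [w.commutes]
    exact R.algebraMap_mem a
  red_algebraMap a := by
    have : ((((w : F →+* F).restrict (R.O.comap (w : F →+* F)) R.O) fun _ hx => hx)
        ⟨algebraMap K F (a : K), by
          show w (algebraMap K F (a : K)) ∈ R.O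
          rw [w.commutes]
          exact R.algebraMap_mem a⟩ : R.O) = ⟨algebraMap K F (a : K), R.algebraMap_mem a⟩ :=
      Subtype.ext (w.commutes _)
    rw [RingHom.comp_apply, this]
    exact R.red_algebraMap a
  exists_unit_smul f hf := by
    obtain ⟨c, hc, h1, h2⟩ := R.exists_unit_smul (w f) ((_root_.map_ne_zero _).mpr hf)
    refine ⟨c, hc, ?_, ?_⟩
    · show w (algebraMap K F c * f) ∈ R.O
      rw [map_mul, w.commutes]
      exact h1
    · show w ((algebraMap K F c * f)⁻¹) ∈ R.O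
      rw [map_inv₀, map_mul, w.commutes]
      exact h2

theorem VRed.mem_comap (R : VRed A F L) (w : F ≃ₐ[K] F) (x : F) :
    x ∈ (R.comap w).O ↔ w x ∈ R.O := Iff.rfl

theorem VRed.comap_red (R : VRed A F L) (w : F ≃ₐ[K] F) (x : F) (hx : x ∈ (R.comap w).O) :
    (R.comap w).red ⟨x, hx⟩ = R.red ⟨w x, hx⟩ := rfl

end Arch

end Fermat.Agent.S34lib

end
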