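/-
Item 79 (S34), block F, piece (V) part 5 (helper24): polynomial independence over `k[x^q]`.

If `w` is polynomially independent over `k[x]` then `(w_i x^c)_{i, c < q}` is polynomially
independent over `k[x^q]`.
-/
import Mathlib
import Fermat.Agent.S34lib.VTwoVal

set_option autoImplicit false

noncomputable section

namespace Fermat.Agent.S34lib

open Polynomial

variable {k : Type*} [Field k] {L : Type*} [Field L] [Algebra k L]

/-- the coefficient of `X^(q m + c)` in `∑_{c' < q} P_{c'}(X^q) X^{c'}` is the `m`-th coefficient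
of `P_c` -/
theorem vpp_coeff_sum (q : ℕ) (hq : 0 < q) (P : Fin q → k[X]) (m : ℕ) (c : Fin q) :
    (∑ c' : Fin q, Polynomial.expand k q (P c') * X ^ (c' : ℕ)).coeff (q * m + c) =
      (P c).coeff m := by
  classical
  rw [Polynomial.finset_sum_coeff]
  rw [Finset.sum_eq_single c]
  · rw [Polynomial.coeff_mul_X_pow, mul_comm q m, Polynomial.coeff_expand_mul hq]
  · intro c' _ hc'
    rw [Polynomial.coeff_mul_X_pow']
    split_ifs with hle
    · rw [Polynomial.coeff_expand hq]
      rw [if_neg]
      intro hdvd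
      apply hc'
      obtain ⟨r, hr⟩ := hdvd
      have h1 : q * m + c = q * r + c' := by omega
      have h2 : (q * m + (c : ℕ)) % q = (c : ℕ) := by
        rw [Nat.mul_add_mod]
        exact Nat.mod_eq_of_lt c.2
      have h3 : (q * r + (c' : ℕ)) % q = (c' : ℕ) := by
        rw [Nat.mul_add_mod]
        exact Nat.mod_eq_of_lt c'.2
      rw [h1, h3] at h2
      exact Fin.ext h2
    · rfl
  · intro h
    exact absurd (Finset.mem_univ c) h

/-- **independence over `k[x^q]`** -/
theorem VPolyLI.pow {ι : Type*} [Fintype ι] {x : L} {w : ι → L} (h : VPolyLI k x w)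
    (q : ℕ) (hq : 0 < q) :
    VPolyLI k (x ^ q) (fun p : ι × Fin q => w p.1 * x ^ (p.2 : ℕ)) := by
  classical
  intro P hsum
  set Q : ι → k[X] := fun i => ∑ c : Fin q, Polynomial.expand k q (P (i, c)) * X ^ (c : ℕ)
    with hQ
  have hQev : ∀ i, aeval x (Q i) = ∑ c : Fin q, aeval (x ^ q) (P (i, c)) * x ^ (c : ℕ) := by
    intro i
    rw [hQ, map_sum]
    refine Finset.sum_congr rfl fun c _ => ?_
    rw [map_mul, Polynomial.expand_aeval, map_pow, aeval_X]
  have hQ0 : Q = 0 := by
    apply h
    rw [← hsum, Fintype.sum_prod_type]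
    refine Finset.sum_congr rfl fun i _ => ?_
    rw [hQev, Finset.sum_mul]
    refine Finset.sum_congr rfl fun c _ => ?_
    ring
  funext p
  obtain ⟨i, c⟩ := p
  ext m
  have := vpp_coeff_sum q hq (fun c => P (i, c)) m c
  rw [← this]
  have h1 : (∑ c' : Fin q, Polynomial.expand k q (P (i, c')) * X ^ (c' : ℕ)) = Q i := rfl
  rw [h1, hQ0]
  simp

end Fermat.Agent.S34lib

end
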