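/-
Item 79 (S34), block F, piece (V) part 4 (helper24): the unit ball of the Gauss valuation of a
subfield `F ⊂ K((q))` as a `VRed` (reduction into `k((q))`, no hypothesis on the residue field),
and the archimedean property of valuation rings of fields algebraic over `ℚ`.
Helper lemmas are prefixed `vub_`.
-/
import Mathlib
import Fermat.Agent.S34lib.VTwoVal
import Fermat.Agent.GoodRed.ModDatum
import Fermat.Agent.GoodRed.Discrete
import Fermat.Agent.GoodRed.Bounded

set_option autoImplicit false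

noncomputable section

namespace Fermat.Agent.S34lib

open ModularCurve Fermat.Agent.GoodRed

section UnitBall

variable {K : Type*} [Field K] {A : ValuationSubring K}
variable {F : IntermediateField K (LaurentSeries K)}

theorem vub_redInto_top : RedInto A F
    (⊤ : IntermediateField (IsLocalRing.ResidueField A)
      (LaurentSeries (IsLocalRing.ResidueField A))) :=
  fun _ _ => IntermediateField.mem_top

/-- the unit ball of the Gauss valuation with the reduction into `k((q))` -/
def vredOfUnitBall (hfrac : HasPrimFrac A F) :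
    VRed A F (LaurentSeries (IsLocalRing.ResidueField A)) where
  O := (unitBall hfrac).toSubring
  red := ((⊤ : IntermediateField (IsLocalRing.ResidueField A)
      (LaurentSeries (IsLocalRing.ResidueField A))).val : _ →+* _).comp
    (redHom hfrac vub_redInto_top)
  algebraMap_mem := algebraMap_mem_unitBall hfrac
  red_algebraMap a := by
    have h := redHom_algebraMap hfrac (vub_redInto_top (A := A) (F := F)) a
    rw [RingHom.comp_apply]
    have h2 := congrArg (fun x : (⊤ : IntermediateField (IsLocalRing.ResidueField A)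
      (LaurentSeries (IsLocalRing.ResidueField A))) =>
        (x : LaurentSeries (IsLocalRing.ResidueField A))) h
    exact h2
  exists_unit_smul := exists_unit_smul_unitBall hfrac

theorem vredOfUnitBall_mem_iff (hfrac : HasPrimFrac A F) (x : F) :
    x ∈ (vredOfUnitBall hfrac).O ↔ ∃ a b, IsRep A F (x : LaurentSeries K) a b := Iff.rfl

theorem vredOfUnitBall_red_eq (hfrac : HasPrimFrac A F) (x : F)
    (hx : x ∈ (vredOfUnitBall hfrac).O) {a b : LaurentSeries A}
    (h : IsRep A F (x : LaurentSeries K) a b) :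
    (vredOfUnitBall hfrac).red ⟨x, hx⟩ =
      coeffMap (IsLocalRing.residue A) a / coeffMap (IsLocalRing.residue A) b :=
  redHom_eq hfrac vub_redInto_top ⟨x, hx⟩ h

/-- integral series lie in the unit ball and reduce coefficientwise -/
theorem vredOfUnitBall_series (hfrac : HasPrimFrac A F) (y : LaurentSeries A)
    (hy : coeffMap A.subtype y ∈ F) :
    ∃ h : (⟨coeffMap A.subtype y, hy⟩ : F) ∈ (vredOfUnitBall hfrac).O,
      (vredOfUnitBall hfrac).red ⟨_, h⟩ = coeffMap (IsLocalRing.residue A) y := by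
  have hrep : IsRep A F (((⟨coeffMap A.subtype y, hy⟩ : F) : F) : LaurentSeries K) y 1 :=
    isRep_self hy
  have hmem : (⟨coeffMap A.subtype y, hy⟩ : F) ∈ (vredOfUnitBall hfrac).O :=
    (vredOfUnitBall_mem_iff hfrac _).mpr ⟨y, 1, hrep⟩
  refine ⟨hmem, ?_⟩
  have h := vredOfUnitBall_red_eq hfrac _ hmem hrep
  rw [map_one, div_one] at h
  exact h

/-- fractions of integral series with primitive denominator -/
theorem vredOfUnitBall_frac (hfrac : HasPrimFrac A F) (a b : LaurentSeries A)
    (ha : coeffMap A.subtype a ∈ F) (hb : coeffMap A.subtype b ∈ F)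
    (hb0 : coeffMap (IsLocalRing.residue A) b ≠ 0) :
    ∃ h : (⟨coeffMap A.subtype a, ha⟩ / ⟨coeffMap A.subtype b, hb⟩ : F) ∈
        (vredOfUnitBall hfrac).O,
      (vredOfUnitBall hfrac).red ⟨_, h⟩ =
        coeffMap (IsLocalRing.residue A) a / coeffMap (IsLocalRing.residue A) b := by
  have hbne : coeffMap A.subtype b ≠ 0 := by
    intro h0
    have : b = 0 := coeffMap_valSubtype_injective A (by rw [h0, map_zero])
    exact hb0 (by rw [this, map_zero])
  have hrep : IsRep A F (((⟨coeffMap A.subtype a, ha⟩ / ⟨coeffMap A.subtype b, hb⟩ : F) : F) :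
      LaurentSeries K) a b := by
    refine ⟨ha, hb, hb0, ?_⟩
    have : (((⟨coeffMap A.subtype a, ha⟩ / ⟨coeffMap A.subtype b, hb⟩ : F) : F) :
        LaurentSeries K) = coeffMap A.subtype a / coeffMap A.subtype b := rfl
    rw [this, div_mul_cancel₀ _ hbne]
  have hmem : (⟨coeffMap A.subtype a, ha⟩ / ⟨coeffMap A.subtype b, hb⟩ : F) ∈
      (vredOfUnitBall hfrac).O := (vredOfUnitBall_mem_iff hfrac _).mpr ⟨a, b, hrep⟩
  exact ⟨hmem, vredOfUnitBall_red_eq hfrac _ hmem hrep⟩

end UnitBall

section Arch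

variable {K : Type*} [Field K] [Algebra ℚ K] {A : ValuationSubring K}

/-- the valuation of a valuation ring of a field algebraic over `ℚ` (lying over a prime) is
archimedean -/
theorem vArch_of_algebraic (halg : ∀ c : K, IsIntegral ℚ c) {ℓ : ℕ} (hℓ : ℓ.Prime)
    (hlt : A.valuation (ℓ : K) < 1) : VArch A := by
  intro a b ha
  by_cases hb0 : b = 0
  · exact ⟨0, by rw [hb0, mul_zero, map_zero]; exact zero_lt_one⟩
  by_cases ha0 : a = 0
  · exact ⟨1, by rw [ha0, pow_one, zero_mul, map_zero]; exact zero_lt_one⟩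
  have hℓ0 : A.valuation (ℓ : K) ≠ 0 := by
    have : CharZero K := algebraRat.charZero K
    exact (map_ne_zero _).mpr (Nat.cast_ne_zero.mpr hℓ.ne_zero)
  have hℓpos : 0 < A.valuation (ℓ : K) := zero_lt_iff.mpr hℓ0
  obtain ⟨m, hm⟩ := valuation_pow_factorial_eq_zpow A hℓ hlt a ha0 (minpoly ℚ a).natDegree
    (minpoly ℚ a) (minpoly.ne_zero (halg a)) (minpoly.aeval ℚ a) le_rfl
  obtain ⟨m', hm'⟩ := valuation_pow_factorial_eq_zpow A hℓ hlt b hb0 (minpoly ℚ b).natDegree
    (minpoly ℚ b) (minpoly.ne_zero (halg b)) (minpoly.aeval ℚ b) le_rfl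
  set da := (minpoly ℚ a).natDegree.factorial with hda
  set db := (minpoly ℚ b).natDegree.factorial with hdb
  have hda0 : da ≠ 0 := Nat.factorial_ne_zero _
  have hdb0 : db ≠ 0 := Nat.factorial_ne_zero _
  -- `m ≥ 1`
  have hm1 : 1 ≤ m := by
    by_contra hcon
    have hm0 : m ≤ 0 := by omega
    have h1 : (1 : _) ≤ A.valuation (ℓ : K) ^ m := by
      have : A.valuation (ℓ : K) ^ m = (A.valuation (ℓ : K) ^ (-m).toNat)⁻¹ := by
        rw [← zpow_natCast, ← zpow_neg, Int.toNat_of_nonneg (by omega), neg_neg]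
      rw [this]
      exact (one_le_inv₀ (pow_pos hℓpos _)).mpr (pow_le_one₀ zero_le hlt.le)
    rw [← hm] at h1
    exact absurd (pow_lt_one₀ zero_le ha hda0) (not_lt.mpr h1)
  refine ⟨da * (m'.natAbs + 1), ?_⟩
  by_contra hcon
  have hge : 1 ≤ A.valuation (a ^ (da * (m'.natAbs + 1)) * b) := not_lt.mp hcon
  have hge' : 1 ≤ A.valuation (a ^ (da * (m'.natAbs + 1)) * b) ^ db := one_le_pow₀ hge
  have e : A.valuation (a ^ (da * (m'.natAbs + 1)) * b) ^ db =
      A.valuation (ℓ : K) ^ (m * ((m'.natAbs + 1 : ℕ) : ℤ) * (db : ℤ) + m') := by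
    have e1 : A.valuation (a ^ (da * (m'.natAbs + 1)) * b) ^ db =
        (A.valuation a ^ da) ^ ((m'.natAbs + 1) * db) * A.valuation b ^ db := by
      rw [map_mul, map_pow, mul_pow, ← pow_mul, ← pow_mul, mul_assoc]
    have e2 : A.valuation (ℓ : K) ^ (m * ((m'.natAbs + 1 : ℕ) : ℤ) * (db : ℤ) + m') =
        (A.valuation (ℓ : K) ^ m) ^ ((m'.natAbs + 1) * db) * A.valuation (ℓ : K) ^ m' := by
      rw [zpow_add₀ hℓ0, mul_assoc, zpow_mul, ← Nat.cast_mul, zpow_natCast]
    rw [e1, e2, hm, hm']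
  rw [e] at hge'
  have hpos : 0 < m * ((m'.natAbs + 1 : ℕ) : ℤ) * (db : ℤ) + m' := by
    have h1 : (1 : ℤ) ≤ (db : ℤ) := by exact_mod_cast Nat.one_le_iff_ne_zero.mpr hdb0
    have h2 : ((m'.natAbs + 1 : ℕ) : ℤ) = |m'| + 1 := by
      push_cast
      rw [Int.abs_eq_natAbs]
    have h3 : -|m'| ≤ m' := neg_abs_le m'
    have h4 : (|m'| + 1) ≤ m * (|m'| + 1) * db := by
      have h5 : 0 ≤ |m'| + 1 := by positivity
      calc |m'| + 1 = 1 * (|m'| + 1) * 1 := by ring
        _ ≤ m * (|m'| + 1) * db := by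
          apply mul_le_mul _ h1 (by norm_num) (by positivity)
          exact mul_le_mul_of_nonneg_right hm1 h5
    rw [h2]
    omega
  have hlt' : A.valuation (ℓ : K) ^ (m * ((m'.natAbs + 1 : ℕ) : ℤ) * (db : ℤ) + m') < 1 := by
    have : (m * ((m'.natAbs + 1 : ℕ) : ℤ) * (db : ℤ) + m') =
        (((m * ((m'.natAbs + 1 : ℕ) : ℤ) * (db : ℤ) + m').toNat : ℕ) : ℤ) :=
      (Int.toNat_of_nonneg hpos.le).symm
    rw [this, zpow_natCast]
    apply pow_lt_one₀ zero_le hlt
    intro h0
    rw [h0] at this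
    simp at this
    omega
  exact absurd hlt' (not_lt.mpr hge')

omit [Algebra ℚ K] in
/-- `VArch` in the form "`a ∈ 𝔪`, `c` arbitrary: `a^r c ∈ A` for some `r`" -/
theorem VArch.exists_pow_mul_mem (h : VArch A) (a c : K) (ha : a ∈ A.nonunits) :
    ∃ r : ℕ, a ^ r * c ∈ A := by
  obtain ⟨M, hM⟩ := h a c ha
  exact ⟨M, (A.valuation_le_one_iff _).mp hM.le⟩

/-- every valuation ring of a field algebraic over `ℚ` is archimedean, in the form
"`a ∈ 𝔪`, `c` arbitrary: `a^r c ∈ A` for some `r`" (this is `GssArch A` of `GrowthSS.lean`) -/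
theorem exists_pow_mul_mem_of_algebraic (halg : ∀ c : K, IsIntegral ℚ c) (A : ValuationSubring K)
    (a c : K) (ha : a ∈ A.nonunits) : ∃ r : ℕ, a ^ r * c ∈ A := by
  by_cases hA : A = ⊤
  · exact ⟨0, by rw [hA]; exact ValuationSubring.mem_top _⟩
  · obtain ⟨ℓ, hℓ, hlt⟩ := exists_prime_valuation_lt_one halg hA
    exact (vArch_of_algebraic halg hℓ hlt).exists_pow_mul_mem a c ha

end Arch

end Fermat.Agent.S34lib

end
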