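/-
Item 79 (S34), block F, piece (V) part 6 / blueprint C2 (helper24): **hred at `q ‖ N`**.

For a prime `q ‖ N`, `N' = N / q`, and a valuation ring `A ⊂ ℚ̄` over `q` with residue field `k`:
the coefficientwise reduction of every `A`-integral `q`-expansion lying in `F_N` lies in
`F_{N',k}` (`hred_semistable`).

Proof: two-valuation inequality for `v_∞` (Gauss valuation of the `q`-expansion) and
`v_0 = v_∞ ∘ w_q` over the Gauss valuation of `ℚ̄(j)`: the residue field of `v_∞` contains
`F_{N',k}` (degree `ψ(N')` over `k(j̄)`), that of `v_0` contains `F_{N',k}` as an extension of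
`k(j̄^q)` (degree `q ψ(N')`), and `[F_N : ℚ̄(j)] = ψ(N) = (q + 1) ψ(N')`.
Helper lemmas are prefixed `vri_`.
-/
import Mathlib
import Fermat.Agent.S34lib.VAtkinLehner
import Fermat.Agent.S34lib.VUnitBall
import Fermat.Agent.S34lib.VPolyPow
import Fermat.Agent.GoodRed.HredMain
import Fermat.Agent.S37lib.FrobQ

set_option autoImplicit false
set_option synthInstance.maxHeartbeats 400000

noncomputable section

namespace Fermat.Agent.S34lib

open ModularCurve Fermat.Agent.GoodRed Fermat.Agent.GM Fermat.Agent.S24lib IntermediateField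
open Polynomial

/-! ### generalities on `k((q))` -/

section Series

variable {k : Type*} [Field k]

theorem vri_aeval_eq_ev (x : LaurentSeries k) (P : k[X]) : aeval x P = hr_ev x P := by
  rw [hr_ev_apply, Polynomial.aeval_def]
  congr 1
  ext a : 1
  rw [algebraMap_laurentSeries_eq_single, HahnSeries.C_apply]

theorem vri_aeval_injective {x : LaurentSeries k} (hx : x.order < 0) {P : k[X]}
    (h : aeval x P = 0) : P = 0 := by
  rw [vri_aeval_eq_ev] at h
  exact hr_ev_injective hx (by rw [h, map_zero])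

theorem vri_aeval_mem (Fk : IntermediateField k (LaurentSeries k)) {x : LaurentSeries k}
    (hx : x ∈ Fk) (P : k[X]) : aeval x P ∈ Fk := by
  rw [vri_aeval_eq_ev]
  exact hr_ev_mem Fk hx P

/-- a basis of `Fk` over `k(x)`, scaled by `B ≠ 0`, is polynomially independent over `k[x]` -/
theorem vri_polyLI_basis (Fk : IntermediateField k (LaurentSeries k)) {x : LaurentSeries k}
    (hx : x ∈ Fk) (hord : x.order < 0) {n : ℕ}
    (b : Module.Basis (Fin n) k⟮(⟨x, hx⟩ : Fk)⟯ Fk) (B : LaurentSeries k) (hB : B ≠ 0) :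
    VPolyLI k x (fun i => ((b i : Fk) : LaurentSeries k) * B) := by
  intro P hsum
  have hsum' : (∑ i, aeval x (P i) * ((b i : Fk) : LaurentSeries k)) * B = 0 := by
    rw [← hsum, Finset.sum_mul]
    refine Finset.sum_congr rfl fun i _ => ?_
    ring
  have hsum2 := (mul_eq_zero.mp hsum').resolve_right hB
  have hmem : ∀ Q : k[X], aeval (⟨x, hx⟩ : Fk) Q ∈ k⟮(⟨x, hx⟩ : Fk)⟯ := fun Q =>
    IntermediateField.algebra_adjoin_le_adjoin _ _ (Polynomial.aeval_mem_adjoin_singleton _ _)
  have hcoe : ∀ Q : k[X], ((aeval (⟨x, hx⟩ : Fk) Q : Fk) : LaurentSeries k) = aeval x Q :=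
    fun Q => by
      rw [vri_aeval_eq_ev, ← hr_coe_aeval Fk (⟨x, hx⟩ : Fk)]
  have hrel : ∑ i, (⟨aeval (⟨x, hx⟩ : Fk) (P i), hmem _⟩ : k⟮(⟨x, hx⟩ : Fk)⟯) • b i = 0 := by
    apply Subtype.ext
    rw [show ((0 : Fk) : LaurentSeries k) = 0 from rfl, ← hsum2]
    push_cast
    refine Finset.sum_congr rfl fun i _ => ?_
    rw [IntermediateField.smul_def, smul_eq_mul]
    push_cast
    rw [hcoe]
  have hzero := Fintype.linearIndependent_iff.mp b.linearIndependent _ hrel
  funext i
  have h1 := hzero i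
  have h2 : aeval (⟨x, hx⟩ : Fk) (P i) = 0 := congrArg Subtype.val h1
  have h3 : aeval x (P i) = 0 := by rw [← hcoe, h2]; rfl
  exact vri_aeval_injective hord h3

/-- adding an element outside `Fk` keeps polynomial independence -/
theorem vri_polyLI_snoc (Fk : IntermediateField k (LaurentSeries k)) {x : LaurentSeries k}
    (hx : x ∈ Fk) (hord : x.order < 0) {n : ℕ}
    (b : Module.Basis (Fin n) k⟮(⟨x, hx⟩ : Fk)⟯ Fk) (B : LaurentSeries k) (hB : B ≠ 0)
    (y : LaurentSeries k) (hy : y ∉ Fk) :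
    VPolyLI k x (Fin.snoc (fun i => ((b i : Fk) : LaurentSeries k) * B) (y * B) :
      Fin (n + 1) → LaurentSeries k) := by
  intro P hsum
  rw [Fin.sum_univ_castSucc] at hsum
  simp only [Fin.snoc_last, Fin.snoc_castSucc] at hsum
  have hsum' : (∑ i : Fin n, aeval x (P i.castSucc) * ((b i : Fk) : LaurentSeries k) +
      aeval x (P (Fin.last n)) * y) * B = 0 := by
    rw [← hsum, add_mul, Finset.sum_mul]
    congr 1
    · refine Finset.sum_congr rfl fun i _ => ?_
      ring
    · ring
  have hsum2 := (mul_eq_zero.mp hsum').resolve_right hB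
  have hlast : P (Fin.last n) = 0 := by
    by_contra hQ
    have hev : aeval x (P (Fin.last n)) ≠ 0 := fun h0 => hQ (vri_aeval_injective hord h0)
    apply hy
    have h1 : y = -(∑ i : Fin n, aeval x (P i.castSucc) * ((b i : Fk) : LaurentSeries k)) *
        (aeval x (P (Fin.last n)))⁻¹ := by
      field_simp
      linear_combination hsum2
    rw [h1]
    exact Fk.mul_mem (Fk.neg_mem (Fk.sum_mem fun i _ => Fk.mul_mem (vri_aeval_mem Fk hx _)
      (b i).2)) (Fk.inv_mem (vri_aeval_mem Fk hx _))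
  rw [hlast, map_zero, zero_mul, add_zero] at hsum2
  have hB' : VPolyLI k x (fun i => ((b i : Fk) : LaurentSeries k) * B) :=
    vri_polyLI_basis Fk hx hord b B hB
  have h0 := hB' (fun i => P i.castSucc) (by
    rw [← zero_mul B, ← hsum2, Finset.sum_mul]
    refine Finset.sum_congr rfl fun i _ => ?_
    ring)
  funext j
  refine Fin.lastCases ?_ (fun i => ?_) j
  · exact hlast
  · exact congrFun h0 i

end Series

/-! ### the two valuations -/

section Main

variable (N q : ℕ) [NeZero N] (hq : q.Prime) (hqN : q ∣ N) (hq2 : ¬ q ^ 2 ∣ N)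
variable (A : ValuationSubring Kbar) (hA : A.LiesOverPrime q)

theorem vri_halg : ∀ c : Kbar, IsIntegral ℚ c := fun c =>
  ((AlgebraicClosure.isAlgebraic ℚ).isAlgebraic c).isIntegral

include hA in
theorem vri_hlt : A.valuation (q : Kbar) < 1 := hA

include hq hA in
theorem vri_hfrac : HasPrimFrac A (modularFunctionFieldBar N) :=
  hasPrimFrac_of_isFracNF hq (vri_hlt q A hA) (fun _ hf => isFracNF_of_mem vri_halg hf)

include hq hA in
theorem vri_arch : VArch A := vArch_of_algebraic vri_halg hq (vri_hlt q A hA)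

/-- the Gauss valuation `v_∞` of the `q`-expansion at `∞`, with its reduction into `k((q))` -/
def vredInf (hq : q.Prime) (hA : A.LiesOverPrime q) :
    VRed A (FF N) (LaurentSeries (IsLocalRing.ResidueField A)) :=
  vredOfUnitBall (vri_hfrac N q hq A hA)

/-- the second valuation `v_0 = v_∞ ∘ w_q` -/
def vredZero (hq : q.Prime) (hqN : q ∣ N) (hq2 : ¬ q ^ 2 ∣ N) (hA : A.LiesOverPrime q) :
    VRed A (FF N) (LaurentSeries (IsLocalRing.ResidueField A)) :=
  (vredInf N q A hq hA).comap (atkinLehnerFF N q hq hqN hq2)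

theorem vri_mem_J : coeffMap A.subtype (jqModC A) ∈ modularFunctionFieldBar N := by
  have := hr_gen_mem_bar N A (qExpand A 1 (jqModC A)) ⟨1, inferInstance, one_dvd N, rfl⟩
  rwa [qExpand_one_apply] at this

theorem vri_jF_eq : jF N = ⟨coeffMap A.subtype (jqModC A), vri_mem_J N A⟩ := by
  apply Subtype.ext
  show coeffEmb Kbar jq = coeffMap A.subtype (jqModC A)
  rw [coeffMap_jqModC, ← jqModC_rat]
  exact coeffMap_jqModC (algebraMap ℚ Kbar)

theorem vri_mem_Jd (d : ℕ) [NeZero d] (hd : d ∣ N) :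
    coeffMap A.subtype (qExpand A d (jqModC A)) ∈ modularFunctionFieldBar N :=
  hr_gen_mem_bar N A _ ⟨d, inferInstance, hd, rfl⟩

theorem vri_jdF_eq (d : ℕ) [NeZero d] (hd : d ∣ N) :
    jdF N d hd = ⟨coeffMap A.subtype (qExpand A d (jqModC A)), vri_mem_Jd N A d hd⟩ := by
  apply Subtype.ext
  rw [coe_jdF]
  show coeffEmb Kbar (qExpand ℚ d jq) = coeffMap A.subtype (qExpand A d (jqModC A))
  rw [hr_coeffMap_gen, ← jqModC_rat]
  exact hr_coeffMap_gen (algebraMap ℚ Kbar) d

/-- Kronecker's congruence for `j`: `j(q^ℓ) = j(q)^ℓ` in characteristic `ℓ` -/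
theorem vri_kron (k : Type*) [Field k] (ℓ : ℕ) [Fact ℓ.Prime] [CharP k ℓ] :
    haveI : NeZero ℓ := ⟨(Fact.out : ℓ.Prime).ne_zero⟩
    qExpand k ℓ (jqModC k) = jqModC k ^ ℓ := by
  haveI : NeZero ℓ := ⟨(Fact.out : ℓ.Prime).ne_zero⟩
  rw [Fermat.Agent.Kron.kc_pow_char ℓ (jqModC k), coeffMap_jqModC]

theorem vri_j_ne_pow (k : Type*) [Field k] {n : ℕ} (hn : 1 < n) :
    jqModC k - (jqModC k) ^ n ≠ 0 := by
  intro h
  have hord := hr_order_jqModC k
  have hj0 : jqModC k ≠ 0 := by
    intro h0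
    rw [h0, HahnSeries.order_zero] at hord
    exact lt_irrefl _ hord
  have h1 : jqModC k = jqModC k ^ n := sub_eq_zero.mp h
  have h2 := congrArg HahnSeries.order h1
  rw [HahnSeries.order_pow] at h2
  have h3 : ((n : ℤ) - 1) * (jqModC k).order = 0 := by
    rw [sub_mul, one_mul, sub_eq_zero]
    rw [nsmul_eq_mul] at h2
    exact h2.symm
  rcases mul_eq_zero.mp h3 with h4 | h4
  · have : (n : ℤ) = 1 := by linarith
    have : n = 1 := by exact_mod_cast this
    omega
  · rw [h4] at hord
    exact lt_irrefl _ hord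

end Main

end Fermat.Agent.S34lib

end
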