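/-
Item 79 (S34), piece INF (helper8): the place at infinity of a function field given by Laurent
series.  No sorry.

For an intermediate field `F` of `K((X))/K` containing an element of order `-1`:
* `infPlace F hF : Place K F`, the restriction of the `X`-adic valuation;
* `infPlace_ord`: `(infPlace F hF).ord f = (f : K((X))).order`  (the order of the expansion);
* `infPlace_mem_iff`, `infPlace_ord_nonneg_iff`.
Instances: `infPlaceC k N` (the cusp `∞` of `F_{N,k} = modularFunctionFieldFullC k N`, any field
`k`) and `infPlaceBar N` (the cusp `∞` of `modularFunctionFieldBar N` over `ℚ̄`), with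
`infPlaceC_ord`, `infPlaceBar_ord`.
-/
import Mathlib
import Fermat.Agent.S24lib.AlgIndex
import Fermat.Prelude.Def_ModularCurve_X0ModL
import Fermat.Prelude.Def_ModularCurve_ArithmeticGalois

set_option autoImplicit false

noncomputable section

namespace Fermat.Agent.S34lib

open AlgebraicCurve Fermat.Agent.S24lib WithZero ModularCurve

section Generic

variable {K : Type} [Field K] (F : IntermediateField K (LaurentSeries K))

/-- the inclusion of `F` into Laurent series, as a ring hom -/
def infIncl : F →+* LaurentSeries K := F.toSubfield.subtype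

theorem infIncl_apply (f : F) : infIncl F f = (f : LaurentSeries K) := rfl

theorem inf_order_algebraMap (a : K) : (infIncl F (algebraMap K F a)).order = 0 := by
  rw [infIncl_apply]
  show (algebraMap K (LaurentSeries K) a).order = 0
  rw [LaurentSeries.algebraMap_apply]
  exact HahnSeries.order_C

theorem inf_ne_zero_of_order {f : F} (hf : (f : LaurentSeries K).order = -1) : f ≠ 0 := by
  rintro rfl
  rw [ZeroMemClass.coe_zero, HahnSeries.order_zero] at hf
  omega

theorem inf_order_inv {f : F} (hf : f ≠ 0) :
    ((f⁻¹ : F) : LaurentSeries K).order = -(f : LaurentSeries K).order := by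
  have hf' : (f : LaurentSeries K) ≠ 0 := fun h0 => hf (Subtype.ext h0)
  have hmul := HahnSeries.order_mul hf' (inv_ne_zero hf')
  rw [mul_inv_cancel₀ hf', HahnSeries.order_one] at hmul
  have : ((f⁻¹ : F) : LaurentSeries K) = (f : LaurentSeries K)⁻¹ := rfl
  rw [this]
  omega

/-- **the place at infinity**: the restriction of the `X`-adic valuation to `F`. -/
def infPlace (hF : ∃ f : F, (f : LaurentSeries K).order = -1) : Place K F :=
  ffPlaceOfVal (algVal (infIncl F))
    (fun a => by
      by_cases ha : a = 0
      · rw [ha, map_zero, map_zero]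
        exact zero_le_one
      · have hne : algebraMap K F a ≠ 0 := (map_ne_zero _).mpr ha
        rw [algVal_apply_of_ne _ hne, inf_order_algebraMap]
        simp)
    (by
      obtain ⟨f, hf⟩ := hF
      refine ⟨f, ?_⟩
      rw [algVal_apply_of_ne _ (inf_ne_zero_of_order F hf), infIncl_apply, hf]
      simp [← WithZero.exp_zero])

/-- the order at the place at infinity is the order of the Laurent expansion. -/
theorem infPlace_ord (hF : ∃ f : F, (f : LaurentSeries K).order = -1) (f : F) :
    (infPlace F hF).ord f = (f : LaurentSeries K).order := by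
  rcases eq_or_ne f 0 with rfl | hf
  · simp
  obtain ⟨j, hj⟩ := hF
  have hj0 : j ≠ 0 := inf_ne_zero_of_order F hj
  have h := ffOrd_eq_neg_log (infPlace F ⟨j, hj⟩) (algVal (infIncl F)) rfl ⟨j⁻¹, by
    rw [algVal_apply_of_ne _ (inv_ne_zero hj0), infIncl_apply, inf_order_inv F hj0, hj]
    rfl⟩ f
  rw [h, algVal_log _ hf, infIncl_apply]

theorem infPlace_mem_iff (hF : ∃ f : F, (f : LaurentSeries K).order = -1) (f : F) :
    f ∈ (infPlace F hF).toValuationSubring ↔ 0 ≤ (f : LaurentSeries K).order := by
  show f ∈ (algVal (infIncl F)).valuationSubring ↔ _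
  rw [Valuation.mem_valuationSubring_iff]
  rcases eq_or_ne f 0 with rfl | hf
  · simp
  rw [algVal_apply_of_ne _ hf, infIncl_apply, ← WithZero.exp_zero, WithZero.exp_le_exp]
  omega

end Generic

section Modular

/-- the leading term of `j`: order `-1`. -/
theorem inf_order_jqModC (K : Type) [Field K] : (jqModC K).order = -1 := by
  have hcoeff : ∀ n : ℤ, (jqModC K).coeff n = ((jqModC ℤ).coeff n : K) := by
    intro n
    rw [jqModC_eq_map_intCast K, HahnSeries.map_coeff]
    rfl
  have hcoeffQ : ∀ n : ℤ, (jq).coeff n = (((jqModC ℤ).coeff n : ℤ) : ℚ) := by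
    intro n
    rw [← jqModC_rat, jqModC_eq_map_intCast ℚ, HahnSeries.map_coeff]
    rfl
  have h1 : (jqModC ℤ).coeff (-1) = 1 := by
    have := hcoeffQ (-1)
    rw [coeff_jq_neg_one] at this
    exact_mod_cast this.symm
  have h2 : ∀ n : ℤ, n < -1 → (jqModC ℤ).coeff n = 0 := by
    intro n hn
    have := hcoeffQ n
    rw [coeff_jq_of_lt hn] at this
    exact_mod_cast this.symm
  have hK1 : (jqModC K).coeff (-1) = 1 := by rw [hcoeff, h1]; simp
  have hne : jqModC K ≠ 0 := by
    intro h
    rw [h, HahnSeries.coeff_zero] at hK1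
    exact zero_ne_one hK1
  apply le_antisymm
  · exact HahnSeries.order_le_of_coeff_ne_zero (by rw [hK1]; exact one_ne_zero)
  · by_contra hlt
    have hlt' := not_le.mp hlt
    have h3 : (jqModC K).coeff (jqModC K).order = 0 := by
      rw [hcoeff, h2 _ hlt']
      simp
    exact hne (HahnSeries.coeff_order_eq_zero.mp h3)

variable (k : Type) [Field k] (N : ℕ)

/-- the cusp `∞` of `F_{N,k}`. -/
def infPlaceC : Place k (modularFunctionFieldFullC k N) :=
  infPlace (modularFunctionFieldFullC k N) ⟨⟨jqModC k, jqModC_mem_full k N⟩, inf_order_jqModC k⟩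

theorem infPlaceC_ord (f : modularFunctionFieldFullC k N) :
    (infPlaceC k N).ord f = (f : LaurentSeries k).order :=
  infPlace_ord _ _ f

theorem infPlaceC_mem_iff (f : modularFunctionFieldFullC k N) :
    f ∈ (infPlaceC k N).toValuationSubring ↔ 0 ≤ (f : LaurentSeries k).order :=
  infPlace_mem_iff _ _ f

/-- the expansion of `j` over `ℚ̄`: order `-1`. -/
theorem inf_order_coeffEmb_jq (L : Type) [Field L] [Algebra ℚ L] : (coeffEmb L jq).order = -1 := by
  have h1 : (coeffEmb L jq).coeff (-1) = 1 := by
    rw [coeffEmb_coeff, coeff_jq_neg_one, map_one]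
  have hne : coeffEmb L jq ≠ 0 := by
    intro h
    rw [h, HahnSeries.coeff_zero] at h1
    exact zero_ne_one h1
  apply le_antisymm
  · exact HahnSeries.order_le_of_coeff_ne_zero (by rw [h1]; exact one_ne_zero)
  · by_contra hlt
    have hlt' := not_le.mp hlt
    have h2 : (coeffEmb L jq).coeff (coeffEmb L jq).order = 0 := by
      rw [coeffEmb_coeff, coeff_jq_of_lt hlt', map_zero]
    exact hne (HahnSeries.coeff_order_eq_zero.mp h2)

/-- `j` as an element of `modularFunctionFieldBar N`. -/
def infJBar [NeZero N] : modularFunctionFieldBar N :=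
  ⟨coeffEmb (AlgebraicClosure ℚ) jq, coeffEmb_mem_laurentBaseChange (AlgebraicClosure ℚ) (by
    have h := jqd_mem_full N (one_dvd N)
    rwa [qExpand_one_apply] at h)⟩

/-- the cusp `∞` of `X₀(N)` over `ℚ̄`. -/
def infPlaceBar [NeZero N] : Place (AlgebraicClosure ℚ) (modularFunctionFieldBar N) :=
  infPlace (modularFunctionFieldBar N) ⟨infJBar N, inf_order_coeffEmb_jq (AlgebraicClosure ℚ)⟩

theorem infPlaceBar_ord [NeZero N] (f : modularFunctionFieldBar N) :
    (infPlaceBar N).ord f = (f : LaurentSeries (AlgebraicClosure ℚ)).order :=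
  infPlace_ord _ _ f

theorem infPlaceBar_mem_iff [NeZero N] (f : modularFunctionFieldBar N) :
    f ∈ (infPlaceBar N).toValuationSubring ↔ 0 ≤ (f : LaurentSeries (AlgebraicClosure ℚ)).order :=
  infPlace_mem_iff _ _ f

end Modular

end Fermat.Agent.S34lib

end
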