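/-
Item 79 (S34), piece C8 (+ the part of C4 about `P₀`) (helper4): the two cusps `P∞`, `P₀ = w_q P∞`
of `X₀(N)` over `ℚ̄`, their invariance under the arithmetic Galois action, and the Galois
equivariance of the Riemann–Roch spaces `L(a P∞ + b P₀ + E)`.

* `alSemi N q _ _ _ : SemilinearAut Kbar (FF N)` : the Atkin–Lehner involution `w_q`;
* `cuspZero N q _ _ _ : Place Kbar (FF N)` : the cusp `P₀ := w_q • P∞`, `cuspZero_ord`;
* `galrr_comm` : `galFF N σ * w_q = w_q * galFF N σ`;
* `galFF_smul_infPlaceBar`, `galFF_smul_cuspZero` : both cusps are fixed by Galois;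
* `alSemi_smul_infPlaceBar`, `alSemi_smul_cuspZero` : `w_q` swaps them;
* `infPlaceBar_ne_cuspZero` : `P∞ ≠ P₀`;
* `cuspDiv N q _ _ _ a b = a • P∞ + b • P₀`, `galFF_smul_cuspDiv`, `alSemi_smul_cuspDiv`;
* `galrr_mem_iff` **(GAL)** : `σ f ∈ L(a P∞ + b P₀ + σ E) ↔ f ∈ L(a P∞ + b P₀ + E)`;
* `galrr_al_mem_iff` : `w_q f ∈ L(b P∞ + a P₀ + w_q E) ↔ f ∈ L(a P∞ + b P₀ + E)`.
-/
import Mathlib
import Fermat.Agent.S34lib.InertiaRedAL
import Fermat.Agent.S34lib.InfPlace
import Fermat.Agent.S34lib.UnipK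

set_option autoImplicit false
set_option synthInstance.maxHeartbeats 400000

noncomputable section

namespace Fermat.Agent.S34lib

open AlgebraicCurve Fermat.Agent.GoodRed ModularCurve HahnSeries Fermat.Agent.S24lib

section Order

/-- an injective ring homomorphism preserves the order of a Laurent series -/
theorem galrr_order_coeffMap {R S : Type*} [CommRing R] [CommRing S] (φ : R →+* S)
    (hφ : Function.Injective φ) (x : LaurentSeries R) : (coeffMap φ x).order = x.order := by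
  rcases eq_or_ne x 0 with rfl | hx
  · rw [map_zero, HahnSeries.order_zero, HahnSeries.order_zero]
  have hx' : coeffMap φ x ≠ 0 := by
    intro h0
    apply hx
    ext n
    have := congrArg (fun y : LaurentSeries S => y.coeff n) h0
    simp only [coeffMap_coeff, HahnSeries.coeff_zero] at this
    rw [HahnSeries.coeff_zero]
    exact hφ (by rw [this, map_zero])
  apply le_antisymm
  · apply HahnSeries.order_le_of_coeff_ne_zero
    rw [coeffMap_coeff]
    intro h0
    exact (HahnSeries.coeff_order_eq_zero.not.mpr hx) (hφ (by rw [h0, map_zero]))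
  · apply HahnSeries.order_le_of_coeff_ne_zero
    intro h0
    apply HahnSeries.coeff_order_eq_zero.not.mpr hx'
    rw [coeffMap_coeff, h0, map_zero]

/-- the order of `f(X^N)` -/
theorem galrr_order_qExpand {R : Type*} [CommRing R] (N : ℕ) [NeZero N] {x : LaurentSeries R}
    (hx : x ≠ 0) : (qExpand R N x).order = (N : ℤ) * x.order := by
  have hN : (0 : ℤ) < N := by exact_mod_cast Nat.pos_of_ne_zero (NeZero.ne N)
  have hx' : qExpand R N x ≠ 0 := fun h0 => hx (qExpand_injective N (by rw [h0, map_zero]))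
  apply le_antisymm
  · apply HahnSeries.order_le_of_coeff_ne_zero
    rw [qExpand_coeff_mul]
    exact HahnSeries.coeff_order_eq_zero.not.mpr hx
  · have h1 := HahnSeries.coeff_order_eq_zero.not.mpr hx'
    by_cases hdvd : (N : ℤ) ∣ (qExpand R N x).order
    · obtain ⟨k, hk⟩ := hdvd
      rw [hk, qExpand_coeff_mul] at h1
      rw [hk]
      exact mul_le_mul_of_nonneg_left (HahnSeries.order_le_of_coeff_ne_zero h1) hN.le
    · exact absurd (qExpand_coeff_of_not_dvd N x hdvd) h1

end Order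

section Cusps

variable (N : ℕ) [NeZero N] (q : ℕ) (hq : q.Prime) (hqN : q ∣ N) (hq2 : ¬ q ^ 2 ∣ N)

/-- the Atkin–Lehner involution `w_q` as a semilinear automorphism of `FF N` -/
def alSemi : SemilinearAut Kbar (FF N) :=
  SemilinearAut.ofAlgAut (atkinLehnerFF N q hq hqN hq2)

theorem alSemi_smul (x : FF N) : alSemi N q hq hqN hq2 • x = atkinLehnerFF N q hq hqN hq2 x :=
  rfl

theorem alSemi_mul_self : alSemi N q hq hqN hq2 * alSemi N q hq hqN hq2 = 1 := by
  refine Subtype.ext (Prod.ext (RingEquiv.ext fun x => ?_) rfl)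
  exact atkinLehnerFF_involutive N q hq hqN hq2 x

theorem alSemi_inv : (alSemi N q hq hqN hq2)⁻¹ = alSemi N q hq hqN hq2 :=
  inv_eq_of_mul_eq_one_left (alSemi_mul_self N q hq hqN hq2)

/-- `w_q` commutes with the arithmetic Galois action -/
theorem galrr_comm (σ : Kbar ≃ₐ[ℚ] Kbar) :
    galFF N σ * alSemi N q hq hqN hq2 = alSemi N q hq hqN hq2 * galFF N σ := by
  refine Subtype.ext (Prod.ext (RingEquiv.ext fun x => ?_) ?_)
  · exact (inred_al_comm N q hq hqN hq2 σ x).symm
  · show σ.toRingEquiv * 1 = 1 * σ.toRingEquiv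
    rw [mul_one, one_mul]

/-- the cusp `∞` is fixed by the arithmetic Galois action -/
theorem galFF_smul_infPlaceBar (σ : Kbar ≃ₐ[ℚ] Kbar) :
    galFF N σ • infPlaceBar N = infPlaceBar N := by
  ext1
  rw [SemilinearAut.smul_toValuationSubring]
  ext x
  rw [ValuationSubring.mem_pointwise_smul_iff_inv_smul_mem, infPlaceBar_mem_iff,
    infPlaceBar_mem_iff]
  have h : (((galFF N σ)⁻¹ • x : FF N) : LaurentSeries Kbar)
      = coeffMap ((σ⁻¹ : Kbar ≃ₐ[ℚ] Kbar) : Kbar →+* Kbar) (x : LaurentSeries Kbar) := by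
    rw [← map_inv]
    rfl
  rw [h, galrr_order_coeffMap _ (σ⁻¹ : Kbar ≃ₐ[ℚ] Kbar).injective]

/-- the cusp `0_q := w_q • ∞` -/
def cuspZero : Place Kbar (FF N) := alSemi N q hq hqN hq2 • infPlaceBar N

theorem alSemi_smul_infPlaceBar :
    alSemi N q hq hqN hq2 • infPlaceBar N = cuspZero N q hq hqN hq2 := rfl

theorem alSemi_smul_cuspZero :
    alSemi N q hq hqN hq2 • cuspZero N q hq hqN hq2 = infPlaceBar N := by
  rw [cuspZero, ← mul_smul, alSemi_mul_self, one_smul]

/-- the order at `0_q` is the order of the expansion of `w_q f` -/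
theorem cuspZero_ord (f : FF N) :
    (cuspZero N q hq hqN hq2).ord f
      = ((atkinLehnerFF N q hq hqN hq2 f : FF N) : LaurentSeries Kbar).order := by
  rw [← infPlaceBar_ord, ← alSemi_smul, ← alSemi_smul_cuspZero N q hq hqN hq2]
  exact (SemilinearAut.ord_smul (alSemi N q hq hqN hq2) (cuspZero N q hq hqN hq2) f).symm

/-- the cusp `0_q` is fixed by the arithmetic Galois action -/
theorem galFF_smul_cuspZero (σ : Kbar ≃ₐ[ℚ] Kbar) :
    galFF N σ • cuspZero N q hq hqN hq2 = cuspZero N q hq hqN hq2 := by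
  rw [cuspZero, ← mul_smul, galrr_comm, mul_smul, galFF_smul_infPlaceBar]

/-- the two cusps are different -/
theorem infPlaceBar_ne_cuspZero : infPlaceBar N ≠ cuspZero N q hq hqN hq2 := by
  intro h
  have : NeZero q := ⟨hq.ne_zero⟩
  have h1 : (infPlaceBar N).ord (jF N) = -1 := by
    rw [infPlaceBar_ord]
    exact inf_order_coeffEmb_jq Kbar
  have h2 : (cuspZero N q hq hqN hq2).ord (jF N)
      = ((jdF N q hqN : FF N) : LaurentSeries Kbar).order := by
    rw [cuspZero_ord, atkinLehnerFF_jF]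
  have h3 : ((jdF N q hqN : FF N) : LaurentSeries Kbar).order = -(q : ℤ) := by
    show (coeffEmb Kbar (qExpand ℚ q jq)).order = _
    have hj : jq.order = -1 := by
      rw [← galrr_order_coeffMap (algebraMap ℚ Kbar) (algebraMap ℚ Kbar).injective jq]
      exact inf_order_coeffEmb_jq Kbar
    rw [coeffEmb, galrr_order_coeffMap _ (algebraMap ℚ Kbar).injective,
      galrr_order_qExpand q jq_ne_zero, hj]
    ring
  rw [h, h2, h3] at h1
  have := hq.two_le
  omega

/-! ### the divisors `a P∞ + b P₀` and the Riemann–Roch spaces -/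

/-- the divisor `a • P∞ + b • P₀` -/
def cuspDiv (a b : ℤ) : Divisor Kbar (FF N) :=
  Finsupp.single (infPlaceBar N) a + Finsupp.single (cuspZero N q hq hqN hq2) b

theorem galFF_smul_cuspDiv (σ : Kbar ≃ₐ[ℚ] Kbar) (a b : ℤ) :
    galFF N σ • cuspDiv N q hq hqN hq2 a b = cuspDiv N q hq hqN hq2 a b := by
  rw [cuspDiv, smul_add, SemilinearAut.smul_single, SemilinearAut.smul_single,
    galFF_smul_infPlaceBar, galFF_smul_cuspZero]

theorem alSemi_smul_cuspDiv (a b : ℤ) :
    alSemi N q hq hqN hq2 • cuspDiv N q hq hqN hq2 a b = cuspDiv N q hq hqN hq2 b a := by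
  rw [cuspDiv, smul_add, SemilinearAut.smul_single, SemilinearAut.smul_single,
    alSemi_smul_infPlaceBar, alSemi_smul_cuspZero, cuspDiv, add_comm]

/-- **(GAL)**: `σ • L(a P∞ + b P₀ + E) = L(a P∞ + b P₀ + σ • E)` -/
theorem galrr_mem_iff (σ : Kbar ≃ₐ[ℚ] Kbar) (a b : ℤ) (E : Divisor Kbar (FF N)) (f : FF N) :
    galFF N σ • f ∈ riemannRochSpace (K := Kbar) (cuspDiv N q hq hqN hq2 a b + galFF N σ • E)
      ↔ f ∈ riemannRochSpace (K := Kbar) (cuspDiv N q hq hqN hq2 a b + E) := by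
  have h := inred_smul_mem_riemannRochSpace_iff (galFF N σ)
    (D := cuspDiv N q hq hqN hq2 a b + E) (f := f)
  rw [smul_add, galFF_smul_cuspDiv] at h
  exact h

theorem galrr_smul_mem (σ : Kbar ≃ₐ[ℚ] Kbar) (a b : ℤ) {E : Divisor Kbar (FF N)} {f : FF N}
    (hf : f ∈ riemannRochSpace (K := Kbar) (cuspDiv N q hq hqN hq2 a b + E)) :
    galFF N σ • f ∈ riemannRochSpace (K := Kbar) (cuspDiv N q hq hqN hq2 a b + galFF N σ • E) :=
  (galrr_mem_iff N q hq hqN hq2 σ a b E f).mpr hf

/-- `σ • L(a P∞ + b P₀) = L(a P∞ + b P₀)` -/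
theorem galrr_mem_iff_zero (σ : Kbar ≃ₐ[ℚ] Kbar) (a b : ℤ) (f : FF N) :
    galFF N σ • f ∈ riemannRochSpace (K := Kbar) (cuspDiv N q hq hqN hq2 a b)
      ↔ f ∈ riemannRochSpace (K := Kbar) (cuspDiv N q hq hqN hq2 a b) := by
  have h := inred_smul_mem_riemannRochSpace_iff (galFF N σ)
    (D := cuspDiv N q hq hqN hq2 a b) (f := f)
  rw [galFF_smul_cuspDiv] at h
  exact h

/-- `w_q • L(a P∞ + b P₀ + E) = L(b P∞ + a P₀ + w_q • E)` -/
theorem galrr_al_mem_iff (a b : ℤ) (E : Divisor Kbar (FF N)) (f : FF N) :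
    atkinLehnerFF N q hq hqN hq2 f
        ∈ riemannRochSpace (K := Kbar)
          (cuspDiv N q hq hqN hq2 b a + alSemi N q hq hqN hq2 • E)
      ↔ f ∈ riemannRochSpace (K := Kbar) (cuspDiv N q hq hqN hq2 a b + E) := by
  have h := inred_smul_mem_riemannRochSpace_iff (alSemi N q hq hqN hq2)
    (D := cuspDiv N q hq hqN hq2 a b + E) (f := f)
  rw [smul_add, alSemi_smul_cuspDiv, alSemi_smul] at h
  exact h

omit [NeZero N] in
/-- the divisor of `σ f` is `σ • div f`, in terms of orders -/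
theorem galrr_ord_smul (σ : Kbar ≃ₐ[ℚ] Kbar) (P : Place Kbar (FF N)) (f : FF N) :
    (galFF N σ • P).ord (galFF N σ • f) = P.ord f :=
  SemilinearAut.ord_smul (galFF N σ) P f

/-- the orders of `σ f / f` at the two cusps vanish -/
theorem galrr_ord_inf_smul_div (σ : Kbar ≃ₐ[ℚ] Kbar) {f : FF N} (hf : f ≠ 0) :
    (infPlaceBar N).ord (galFF N σ • f / f) = 0 := by
  have hgf : galFF N σ • f ≠ 0 := fun h0 => hf (by
    have := congrArg ((galFF N σ)⁻¹ • ·) h0
    simpa using this)
  rw [uk_ord_div _ hgf hf]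
  have h := galrr_ord_smul N σ (infPlaceBar N) f
  rw [galFF_smul_infPlaceBar] at h
  rw [h, sub_self]

theorem galrr_ord_zero_smul_div (σ : Kbar ≃ₐ[ℚ] Kbar) {f : FF N} (hf : f ≠ 0) :
    (cuspZero N q hq hqN hq2).ord (galFF N σ • f / f) = 0 := by
  have hgf : galFF N σ • f ≠ 0 := fun h0 => hf (by
    have := congrArg ((galFF N σ)⁻¹ • ·) h0
    simpa using this)
  rw [uk_ord_div _ hgf hf]
  have h := galrr_ord_smul N σ (cuspZero N q hq hqN hq2) f
  rw [galFF_smul_cuspZero] at h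
  rw [h, sub_self]

end Cusps

end Fermat.Agent.S34lib

end
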