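/-
Item 79 (S34) + item 82 (S35), block TWIST (helper16): the abstract core of the NO-ANNULI route
(NOTES/S34_route_helper16.md, NOTES/S34_blueprint.md A6).  No sorry in this file.

Setting: `S : SSRed A π R F` (helper26, `CruxSS.lean`), a "gluing" `G` on the `k`-algebra `R`
(a filtration `T a ⊂ R`, two evaluation maps `e₁ e₂ : R → kⁿ`, multiplicative on the filtration),
`D₁` a divisor of `F` with `(F3)`: `red (L(a D₁) ∩ O) = {t ∈ T a | e₁ t = e₂ t}` for `a ≥ a₀`.

* `tw_line_gen`: two linear functionals with proportional `m`-th powers are proportional.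
* `SSRed.redSp`: the reduction of a subspace, `finrank_redSp` (Cartesian).
* `Gluing`, `Gluing.glued ζ a = G_ζ(a)`, `TwistHyp` (root closure, (F3), evaluation onto, RR).
* `tw_exists_zeta` (i, TWISTED GLUING): if `m E = div u`, `red u` an invertible constant, then
  `red (L(a D₁ + E) ∩ O) = G_ζ(a)` for some `ζ`.
* `TwistAut S G D₁ g Q`: `g` preserves `O`, `D₁`, the filtration; evaluations go to `Q`-th powers.
* `tw_glued_smul_sub` (ii): `red (L(a D₁ + (g E − Q E)) ∩ O) = G_1(a)` for `a ≥ (Q + 1) a₀`.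
* `TwistCrux`: a second divisor `D₂ = (f)_0`, `div f = D₂ − n₂ D₁`; `tw_principal_of_glued` (iii).
* `tw_principal`: `g E − Q E` is principal.   `tw_kummer`: `g u = c · s^m · u^Q`.
-/
import Mathlib
import Fermat.Agent.S34lib.CruxSS
import Fermat.Agent.RRlib.Duality
import Fermat.Prelude.Def_AlgebraicCurve_BaseChangeGalois

set_option autoImplicit false

noncomputable section

namespace Fermat.Agent.S34lib

open AlgebraicCurve Fermat.Agent.RRlib

section Line

/-- two linear functionals with equal `m`-th powers differ by an `m`-th root of unity -/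
theorem tw_line {k M : Type*} [Field k] [AddCommGroup M] [Module k M] (m : ℕ) (hm : 0 < m)
    (φ ψ : M →ₗ[k] k) (h : ∀ w, φ w ^ m = ψ w ^ m) :
    ∃ ζ : k, ζ ^ m = 1 ∧ ∀ w, φ w = ζ * ψ w := by
  by_cases hψ : ∀ w, ψ w = 0
  · refine ⟨1, one_pow _, fun w => ?_⟩
    have h1 := h w
    rw [hψ w, zero_pow hm.ne'] at h1
    rw [hψ w, mul_zero]
    exact pow_eq_zero_iff hm.ne' |>.mp h1
  · obtain ⟨w₀, hw₀⟩ := not_forall.mp hψ
    refine ⟨φ w₀ / ψ w₀, ?_, fun w => ?_⟩
    · rw [div_pow, h w₀, div_self (pow_ne_zero _ hw₀)]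
    · have h1 := h (w - (ψ w / ψ w₀) • w₀)
      have h2 : ψ (w - (ψ w / ψ w₀) • w₀) = 0 := by
        rw [map_sub, map_smul, smul_eq_mul, div_mul_cancel₀ _ hw₀, sub_self]
      rw [h2, zero_pow hm.ne'] at h1
      have h3 : φ (w - (ψ w / ψ w₀) • w₀) = 0 := pow_eq_zero_iff hm.ne' |>.mp h1
      rw [map_sub, map_smul, smul_eq_mul, sub_eq_zero] at h3
      rw [h3]
      field_simp

/-- vector version of `tw_line` -/
theorem tw_line_pi {k M : Type*} [Field k] [AddCommGroup M] [Module k M] (m : ℕ) (hm : 0 < m)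
    {n : ℕ} (φ ψ : M →ₗ[k] (Fin n → k)) (h : ∀ w i, φ w i ^ m = ψ w i ^ m) :
    ∃ ζ : Fin n → k, (∀ i, ζ i ^ m = 1) ∧ ∀ w i, φ w i = ζ i * ψ w i := by
  have key : ∀ i, ∃ ζ : k, ζ ^ m = 1 ∧ ∀ w, φ w i = ζ * ψ w i := fun i =>
    tw_line m hm ((LinearMap.proj i).comp φ) ((LinearMap.proj i).comp ψ) (fun w => h w i)
  choose ζ hζ1 hζ2 using key
  exact ⟨ζ, hζ1, fun w i => hζ2 i w⟩

/-- generalised `tw_line`: if `φ^m = γ ψ^m` pointwise then `φ = ζ ψ` for a constant `ζ` -/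
theorem tw_line_gen {k M : Type*} [Field k] [AddCommGroup M] [Module k M] (m : ℕ) (hm : 0 < m)
    (γ : k) (φ ψ : M →ₗ[k] k) (h : ∀ w, φ w ^ m = γ * ψ w ^ m) :
    ∃ ζ : k, ∀ w, φ w = ζ * ψ w := by
  by_cases hψ : ∀ w, ψ w = 0
  · refine ⟨1, fun w => ?_⟩
    have h1 := h w
    rw [hψ w, zero_pow hm.ne', mul_zero] at h1
    rw [hψ w, mul_zero]
    exact pow_eq_zero_iff hm.ne' |>.mp h1
  · obtain ⟨w₀, hw₀⟩ := not_forall.mp hψ
    refine ⟨φ w₀ / ψ w₀, fun w => ?_⟩
    have h1 := h (w - (ψ w / ψ w₀) • w₀)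
    have h2 : ψ (w - (ψ w / ψ w₀) • w₀) = 0 := by
      rw [map_sub, map_smul, smul_eq_mul, div_mul_cancel₀ _ hw₀, sub_self]
    rw [h2, zero_pow hm.ne', mul_zero] at h1
    have h3 : φ (w - (ψ w / ψ w₀) • w₀) = 0 := pow_eq_zero_iff hm.ne' |>.mp h1
    rw [map_sub, map_smul, smul_eq_mul, sub_eq_zero] at h3
    rw [h3]
    field_simp

/-- vector version of `tw_line_gen` -/
theorem tw_line_pi_gen {k M : Type*} [Field k] [AddCommGroup M] [Module k M] (m : ℕ)
    (hm : 0 < m) {n : ℕ} (γ : Fin n → k) (φ ψ : M →ₗ[k] (Fin n → k))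
    (h : ∀ w i, φ w i ^ m = γ i * ψ w i ^ m) :
    ∃ ζ : Fin n → k, ∀ w i, φ w i = ζ i * ψ w i := by
  have key : ∀ i, ∃ ζ : k, ∀ w, φ w i = ζ * ψ w i := fun i =>
    tw_line_gen m hm (γ i) ((LinearMap.proj i).comp φ) ((LinearMap.proj i).comp ψ)
      (fun w => h w i)
  choose ζ hζ using key
  exact ⟨ζ, fun w i => hζ i w⟩

end Line

variable {K F k : Type*} [Field K] [Field F] [Algebra K F] [Field k]
variable {R : Type*} [CommRing R] [Algebra k R]
variable {A : ValuationSubring K} {π : A →+* k}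

namespace SSRed

variable (S : SSRed A π R F)

/-- the reduction `red (V ∩ O)` of a `K`-subspace, a `k`-subspace of `R` -/
def redSp (V : Submodule K F) : Submodule k R where
  carrier := {r | ∃ x : S.O, (x : F) ∈ V ∧ S.red x = r}
  zero_mem' := ⟨0, by simp, map_zero _⟩
  add_mem' := by
    rintro _ _ ⟨x, hx, rfl⟩ ⟨y, hy, rfl⟩
    exact ⟨x + y, V.add_mem hx hy, map_add _ _ _⟩
  smul_mem' := by
    rintro c _ ⟨x, hx, rfl⟩
    obtain ⟨a, rfl⟩ := S.π_surjective c
    refine ⟨S.C a * x, ?_, S.red_C_mul a x⟩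
    show algebraMap K F (a : K) * (x : F) ∈ V
    rw [← Algebra.smul_def]
    exact V.smul_mem _ hx

theorem mem_redSp {V : Submodule K F} {r : R} :
    r ∈ S.redSp V ↔ ∃ x : S.O, (x : F) ∈ V ∧ S.red x = r := Iff.rfl

theorem red_mem_redSp {V : Submodule K F} (x : S.O) (hx : (x : F) ∈ V) : S.red x ∈ S.redSp V :=
  ⟨x, hx, rfl⟩

theorem redSp_mono {V W : Submodule K F} (h : V ≤ W) : S.redSp V ≤ S.redSp W := by
  rintro _ ⟨x, hx, rfl⟩
  exact ⟨x, h hx, rfl⟩

/-- **Cartesian**: `dim_k red (V ∩ O) = dim_K V`. -/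
theorem finrank_redSp (V : Submodule K F) [Module.Finite K V] :
    Module.finrank k (S.redSp V) = Module.finrank K V := by
  classical
  obtain ⟨n, b, hb, hli⟩ := S.exists_orthonormal V inferInstance
  have hspan : S.redSp V = Submodule.span k (Set.range fun i => S.red (b i)) := by
    apply le_antisymm
    · rintro _ ⟨x, hx, rfl⟩
      exact S.red_mem_span b hli V hb x hx
    · rw [Submodule.span_le]
      rintro _ ⟨i, rfl⟩
      refine ⟨b i, ?_, rfl⟩
      rw [← hb]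
      exact Submodule.subset_span ⟨i, rfl⟩
  rw [hspan, finrank_span_eq_card hli, S.finrank_eq b hli V hb, Fintype.card_fin]

end SSRed

/-! ### Gluings -/

/-- A gluing on the `k`-algebra `R`: a filtration `T a` and two evaluation maps into `kⁿ`,
multiplicative on the filtration.  (Application: `R = κ × κ`, `T a = L(a∞̄) × L(a∞̄)`,
`e₁ (α, β) = (α (s_i))_i`, `e₂ (α, β) = (β (s'_i))_i`.) -/
structure Gluing (k R : Type*) [Field k] [CommRing R] [Algebra k R] where
  /-- the filtration -/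
  T : ℕ → Submodule k R
  /-- the number of nodes -/
  n : ℕ
  /-- evaluation on the first component -/
  e₁ : R →ₗ[k] (Fin n → k)
  /-- evaluation on the second component -/
  e₂ : R →ₗ[k] (Fin n → k)
  T_mono : ∀ {a b : ℕ}, a ≤ b → T a ≤ T b
  T_mul : ∀ {a b : ℕ} {x y : R}, x ∈ T a → y ∈ T b → x * y ∈ T (a + b)
  one_mem : (1 : R) ∈ T 0
  e₁_mul : ∀ {a b : ℕ} {x y : R}, x ∈ T a → y ∈ T b → e₁ (x * y) = e₁ x * e₁ y
  e₂_mul : ∀ {a b : ℕ} {x y : R}, x ∈ T a → y ∈ T b → e₂ (x * y) = e₂ x * e₂ y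
  e₁_one : e₁ 1 = 1
  e₂_one : e₂ 1 = 1
  T_finite : ∀ a, Module.Finite k (T a)

namespace Gluing

variable (G : Gluing k R)

/-- the twisted glued space `G_ζ(a) = {t ∈ T a | e₁ t = ζ e₂ t}` -/
def glued (ζ : Fin G.n → k) (a : ℕ) : Submodule k R where
  carrier := {t | t ∈ G.T a ∧ ∀ i, G.e₁ t i = ζ i * G.e₂ t i}
  zero_mem' := ⟨(G.T a).zero_mem, fun i => by simp⟩
  add_mem' := by
    rintro x y ⟨hx, hx'⟩ ⟨hy, hy'⟩
    refine ⟨(G.T a).add_mem hx hy, fun i => ?_⟩
    rw [map_add, map_add, Pi.add_apply, Pi.add_apply, hx' i, hy' i, mul_add]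
  smul_mem' := by
    rintro c x ⟨hx, hx'⟩
    refine ⟨(G.T a).smul_mem c hx, fun i => ?_⟩
    rw [map_smul, map_smul, Pi.smul_apply, Pi.smul_apply, hx' i, smul_eq_mul, smul_eq_mul]
    ring

theorem mem_glued {ζ : Fin G.n → k} {a : ℕ} {t : R} :
    t ∈ G.glued ζ a ↔ t ∈ G.T a ∧ ∀ i, G.e₁ t i = ζ i * G.e₂ t i := Iff.rfl

theorem glued_le (ζ : Fin G.n → k) (a : ℕ) : G.glued ζ a ≤ G.T a := fun _ h => h.1

theorem mem_glued_one {a : ℕ} {t : R} :
    t ∈ G.glued 1 a ↔ t ∈ G.T a ∧ G.e₁ t = G.e₂ t := by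
  rw [mem_glued]
  refine and_congr_right fun _ => ?_
  constructor
  · intro h
    funext i
    simpa using h i
  · intro h i
    simp [h]

theorem pow_mem_T {a : ℕ} {x : R} (hx : x ∈ G.T a) (j : ℕ) : x ^ j ∈ G.T (j * a) := by
  induction j with
  | zero => simpa using G.one_mem
  | succ j ih =>
    rw [pow_succ, Nat.succ_mul]
    exact G.T_mul ih hx

theorem e₁_pow {a : ℕ} {x : R} (hx : x ∈ G.T a) (j : ℕ) : G.e₁ (x ^ j) = G.e₁ x ^ j := by
  induction j with
  | zero => simpa using G.e₁_one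
  | succ j ih => rw [pow_succ, G.e₁_mul (G.pow_mem_T hx j) hx, ih, pow_succ]

theorem e₂_pow {a : ℕ} {x : R} (hx : x ∈ G.T a) (j : ℕ) : G.e₂ (x ^ j) = G.e₂ x ^ j := by
  induction j with
  | zero => simpa using G.e₂_one
  | succ j ih => rw [pow_succ, G.e₂_mul (G.pow_mem_T hx j) hx, ih, pow_succ]

theorem one_mem_glued_one (a : ℕ) : (1 : R) ∈ G.glued 1 a :=
  G.mem_glued_one.mpr ⟨G.T_mono (Nat.zero_le a) G.one_mem, by rw [G.e₁_one, G.e₂_one]⟩

instance (ζ : Fin G.n → k) (a : ℕ) : Module.Finite k (G.glued ζ a) :=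
  have := G.T_finite a
  Submodule.finiteDimensional_of_le (G.glued_le ζ a)

/-- the defect map `t ↦ e₁ t − ζ e₂ t` on `T a` -/
def defect (ζ : Fin G.n → k) (a : ℕ) : G.T a →ₗ[k] (Fin G.n → k) where
  toFun t := fun i => G.e₁ (t : R) i - ζ i * G.e₂ (t : R) i
  map_add' x y := by
    funext i
    simp only [Submodule.coe_add, map_add, Pi.add_apply]
    ring
  map_smul' c x := by
    funext i
    simp only [Submodule.coe_smul, map_smul, Pi.smul_apply, smul_eq_mul, RingHom.id_apply]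
    ring

/-- if the evaluations are jointly onto on `T a`, all twisted glued spaces have the same
dimension -/
theorem finrank_glued (a : ℕ)
    (hsurj : ∀ v w : Fin G.n → k, ∃ t ∈ G.T a, G.e₁ t = v ∧ G.e₂ t = w) (ζ : Fin G.n → k) :
    Module.finrank k (G.glued ζ a) + G.n = Module.finrank k (G.T a) := by
  have := G.T_finite a
  have hsur : Function.Surjective (G.defect ζ a) := by
    intro v
    obtain ⟨t, ht, h1, h2⟩ := hsurj v 0
    refine ⟨⟨t, ht⟩, ?_⟩
    funext i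
    show G.e₁ t i - ζ i * G.e₂ t i = v i
    rw [h1, h2]
    simp
  have hmap : G.glued ζ a = (LinearMap.ker (G.defect ζ a)).map (G.T a).subtype := by
    ext t
    constructor
    · rintro ⟨ht, h⟩
      refine ⟨⟨t, ht⟩, ?_, rfl⟩
      rw [SetLike.mem_coe, LinearMap.mem_ker]
      funext i
      show G.e₁ t i - ζ i * G.e₂ t i = 0
      rw [h i, sub_self]
    · rintro ⟨⟨t, ht⟩, hk, rfl⟩
      refine ⟨ht, fun i => ?_⟩
      have := congrFun (LinearMap.mem_ker.mp hk) i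
      exact sub_eq_zero.mp this
  have hker : Module.finrank k (LinearMap.ker (G.defect ζ a)) = Module.finrank k (G.glued ζ a) := by
    rw [hmap, Submodule.finrank_map_subtype_eq]
  have h := LinearMap.finrank_range_add_finrank_ker (G.defect ζ a)
  rw [LinearMap.range_eq_top.mpr hsur, finrank_top, Module.finrank_pi, Fintype.card_fin] at h
  omega

end Gluing

/-! ### Riemann–Roch spaces: small bookkeeping lemmas -/

section RRSpace

/-- `L(D)` is stable under a semilinear automorphism, with `D` replaced by `g • D` -/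
theorem tw_smul_mem_L (g : SemilinearAut K F) {D : Divisor K F} {h : F}
    (hh : h ∈ riemannRochSpace D) : g • h ∈ riemannRochSpace (g • D) := by
  rw [mem_riemannRochSpace_iff] at hh ⊢
  intro w
  rcases hh (g⁻¹ • w) with h0 | h1
  · left
    rw [h0, smul_zero]
  · right
    have e1 : (g • D) w = D (g⁻¹ • w) := SemilinearAut.divisor_smul_apply g D w
    have e2 : w.ord (g • h) = (g⁻¹ • w).ord h := by
      have := SemilinearAut.ord_smul g (g⁻¹ • w) h
      rwa [smul_inv_smul] at this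
    rw [e1, e2]
    exact h1

/-- membership in `L(D)` for a nonzero function -/
theorem tw_mem_L_iff {D : Divisor K F} {h : F} (hh : h ≠ 0) :
    h ∈ riemannRochSpace D ↔ ∀ v : Place K F, -D v ≤ v.ord h := by
  rw [mem_riemannRochSpace_iff]
  exact forall_congr' fun v => by simp [hh]

theorem tw_ord_pow (v : Place K F) (h : F) (j : ℕ) : v.ord (h ^ j) = j * v.ord h := by
  have := v.ord_zpow h (j : ℤ)
  simpa using this

/-- products of Riemann–Roch spaces -/
theorem tw_mul_mem_L {D D' : Divisor K F} {h h' : F} (hh : h ∈ riemannRochSpace D)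
    (hh' : h' ∈ riemannRochSpace D') : h * h' ∈ riemannRochSpace (D + D') := by
  by_cases h0 : h = 0
  · rw [h0, zero_mul]; exact Submodule.zero_mem _
  by_cases h0' : h' = 0
  · rw [h0', mul_zero]; exact Submodule.zero_mem _
  rw [tw_mem_L_iff (mul_ne_zero h0 h0')]
  intro v
  have h1 := (tw_mem_L_iff h0).mp hh v
  have h2 := (tw_mem_L_iff h0').mp hh' v
  rw [v.ord_mul h0 h0', Finsupp.add_apply]
  linarith

/-- powers in Riemann–Roch spaces -/
theorem tw_pow_mem_L {D : Divisor K F} {h : F} (hh : h ∈ riemannRochSpace D) (j : ℕ) :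
    h ^ j ∈ riemannRochSpace (j • D) := by
  induction j with
  | zero =>
    rw [pow_zero, zero_smul, tw_mem_L_iff one_ne_zero]
    intro v
    simp
  | succ j ih =>
    rw [pow_succ, succ_nsmul]
    exact tw_mul_mem_L ih hh

theorem tw_ord_smul (g : SemilinearAut K F) (v : Place K F) (h : F) :
    v.ord (g • h) = (g⁻¹ • v).ord h := by
  have := SemilinearAut.ord_smul g (g⁻¹ • v) h
  rwa [smul_inv_smul] at this

end RRSpace

/-! ### (i) the twisted gluing -/

/-- The hypotheses of the twisted gluing (to be supplied by the geometry):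
`root`: the filtration is closed under `m`-th roots; `f3`: the lifting property for the base
family `a • D₁`; `surj`: the evaluations are jointly onto on `T a`; `dimE`: Riemann–Roch. -/
structure TwistHyp (S : SSRed A π R F) (G : Gluing k R) (m : ℕ) (D₁ : Divisor K F) (a₀ : ℕ) :
    Prop where
  m_pos : 0 < m
  root : ∀ (a : ℕ) (r : R), r ^ m ∈ G.T (m * a) → r ∈ G.T a
  f3 : ∀ a, a₀ ≤ a → S.redSp (riemannRochSpace (a • D₁)) = G.glued 1 a
  surj : ∀ a, a₀ ≤ a → ∀ v w : Fin G.n → k, ∃ t ∈ G.T a, G.e₁ t = v ∧ G.e₂ t = w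
  dimE : ∀ a, a₀ ≤ a → ∀ E : Divisor K F, Divisor.degree E = 0 →
    Module.finrank K (riemannRochSpace (a • D₁ + E)) =
      Module.finrank K (riemannRochSpace (a • D₁))

section Twist

variable [RRBase K F] {S : SSRed A π R F} {G : Gluing k R} {m : ℕ} {D₁ : Divisor K F} {a₀ : ℕ}

omit [RRBase K F] in
/-- `u · h^m ∈ L(m a D₁)` for `h ∈ L(a D₁ + E)`, `div u = m E` -/
theorem tw_kummer_mul_pow_mem {a : ℕ} {E : Divisor K F} {u h : F} (hu0 : u ≠ 0)
    (hdiv : ∀ v : Place K F, v.ord u = m * E v) (hh : h ∈ riemannRochSpace (a • D₁ + E)) :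
    u * h ^ m ∈ riemannRochSpace ((m * a) • D₁) := by
  by_cases hm : m = 0
  · subst hm
    rw [pow_zero, mul_one, tw_mem_L_iff hu0]
    intro v
    rw [hdiv v]
    simp
  by_cases h0 : h = 0
  · rw [h0, zero_pow hm, mul_zero]; exact Submodule.zero_mem _
  rw [tw_mem_L_iff (mul_ne_zero hu0 (pow_ne_zero _ h0))]
  intro v
  have h1 := (tw_mem_L_iff h0).mp hh v
  rw [v.ord_mul hu0 (pow_ne_zero _ h0), tw_ord_pow, hdiv v]
  simp only [Finsupp.add_apply, Finsupp.smul_apply, nsmul_eq_mul, Nat.cast_mul] at h1 ⊢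
  have hm' : (0 : ℤ) ≤ (m : ℤ) := Int.natCast_nonneg m
  nlinarith [mul_le_mul_of_nonneg_left h1 hm']

/-- **(i) TWISTED GLUING.**  If `m E = div u` and `red u` is an invertible element of `T 0`
(a "constant"), then `red (L(a D₁ + E) ∩ O)` is a twisted glued space `G_ζ(a)`. -/
theorem tw_exists_zeta (hyp : TwistHyp S G m D₁ a₀) {a : ℕ} (ha : a₀ ≤ a) (E : Divisor K F)
    (hE : Divisor.degree E = 0) (u uinv : S.O) (huu : u * uinv = 1)
    (hT : S.red u ∈ G.T 0) (hT' : S.red uinv ∈ G.T 0)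
    (hdiv : ∀ v : Place K F, v.ord (u : F) = m * E v) :
    ∃ ζ : Fin G.n → k, S.redSp (riemannRochSpace (a • D₁ + E)) = G.glued ζ a := by
  have hma : a₀ ≤ m * a := le_trans ha (Nat.le_mul_of_pos_left a hyp.m_pos)
  have hcc : S.red u * S.red uinv = 1 := by rw [← map_mul, huu, map_one]
  have hu0 : (u : F) ≠ 0 := by
    intro h0
    have h1 : ((u * uinv : S.O) : F) = 1 := by rw [huu]; rfl
    rw [Subring.coe_mul, h0, zero_mul] at h1
    exact zero_ne_one h1
  -- Step A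
  have hA : ∀ r ∈ S.redSp (riemannRochSpace (a • D₁ + E)),
      r ∈ G.T a ∧ ∀ i, G.e₁ r i ^ m =
        (G.e₁ (S.red uinv) i * G.e₂ (S.red u) i) * G.e₂ r i ^ m := by
    rintro _ ⟨x, hx, rfl⟩
    have hw : ((u * x ^ m : S.O) : F) ∈ riemannRochSpace ((m * a) • D₁) := by
      have := tw_kummer_mul_pow_mem (D₁ := D₁) hu0 hdiv hx
      simpa using this
    have hred : S.red (u * x ^ m) = S.red u * S.red x ^ m := by rw [map_mul, map_pow]
    have hmem : S.red u * S.red x ^ m ∈ G.glued 1 (m * a) := by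
      rw [← hyp.f3 (m * a) hma, ← hred]
      exact S.red_mem_redSp _ hw
    obtain ⟨hT1, hglue⟩ := G.mem_glued_one.mp hmem
    have hpow : S.red x ^ m ∈ G.T (m * a) := by
      have h1 := G.T_mul hT' hT1
      rw [← mul_assoc, mul_comm (S.red uinv), hcc, one_mul, zero_add] at h1
      exact h1
    have hrT := hyp.root a _ hpow
    refine ⟨hrT, fun i => ?_⟩
    have h1 := congrFun hglue i
    rw [G.e₁_mul hT (G.pow_mem_T hrT m), G.e₂_mul hT (G.pow_mem_T hrT m),
      G.e₁_pow hrT, G.e₂_pow hrT] at h1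
    simp only [Pi.mul_apply, Pi.pow_apply] at h1
    have h2 : G.e₁ (S.red uinv) i * G.e₁ (S.red u) i = 1 := by
      have := congrFun (G.e₁_mul hT' hT) i
      rw [mul_comm (S.red uinv), hcc, G.e₁_one] at this
      simpa using this.symm
    calc G.e₁ (S.red x) i ^ m
        = (G.e₁ (S.red uinv) i * G.e₁ (S.red u) i) * G.e₁ (S.red x) i ^ m := by
          rw [h2, one_mul]
      _ = G.e₁ (S.red uinv) i * (G.e₁ (S.red u) i * G.e₁ (S.red x) i ^ m) := by ring
      _ = G.e₁ (S.red uinv) i * (G.e₂ (S.red u) i * G.e₂ (S.red x) i ^ m) := by rw [h1]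
      _ = _ := by ring
  -- Step B
  obtain ⟨ζ, hζ⟩ := tw_line_pi_gen m hyp.m_pos
    (fun i => G.e₁ (S.red uinv) i * G.e₂ (S.red u) i)
    (G.e₁.comp (S.redSp (riemannRochSpace (a • D₁ + E))).subtype)
    (G.e₂.comp (S.redSp (riemannRochSpace (a • D₁ + E))).subtype)
    (fun w i => (hA w.1 w.2).2 i)
  refine ⟨ζ, ?_⟩
  -- Step C
  have hle : S.redSp (riemannRochSpace (a • D₁ + E)) ≤ G.glued ζ a := fun r hr =>
    ⟨(hA r hr).1, fun i => hζ ⟨r, hr⟩ i⟩
  have : Module.Finite K (riemannRochSpace (a • D₁ + E)) := finite_riemannRochSpace _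
  have : Module.Finite K (riemannRochSpace (a • D₁)) := finite_riemannRochSpace _
  have h1 : Module.finrank k (S.redSp (riemannRochSpace (a • D₁ + E))) =
      Module.finrank k (G.glued 1 a) := by
    rw [S.finrank_redSp, hyp.dimE a ha E hE, ← S.finrank_redSp, hyp.f3 a ha]
  have h2 := G.finrank_glued a (hyp.surj a ha) ζ
  have h3 := G.finrank_glued a (hyp.surj a ha) 1
  exact Submodule.eq_of_le_of_finrank_eq hle (by omega)

/-! ### (ii) the automorphism -/

/-- An automorphism `g` of `F` compatible with the reduction: it preserves `O`, fixes `D₁`, and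
on reductions it preserves the filtration and raises the evaluations to the `Q`-th power.
(`Q = 1`, `red ∘ g = red`: inertia, S34.  `Q = q²`, `red ∘ g = Fr² ∘ red`: Frobenius, S35.) -/
structure TwistAut (S : SSRed A π R F) (G : Gluing k R) (D₁ : Divisor K F)
    (g : SemilinearAut K F) (Q : ℕ) : Prop where
  mem : ∀ x : F, x ∈ S.O → g • x ∈ S.O
  fixD : g • D₁ = D₁
  red_T : ∀ (a : ℕ) (x : S.O), S.red x ∈ G.T a → S.red ⟨g • (x : F), mem x x.2⟩ ∈ G.T a
  e₁_red : ∀ (a : ℕ) (x : S.O), S.red x ∈ G.T a →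
    ∀ i, G.e₁ (S.red ⟨g • (x : F), mem x x.2⟩) i = G.e₁ (S.red x) i ^ Q
  e₂_red : ∀ (a : ℕ) (x : S.O), S.red x ∈ G.T a →
    ∀ i, G.e₂ (S.red ⟨g • (x : F), mem x x.2⟩) i = G.e₂ (S.red x) i ^ Q

omit [RRBase K F] in
/-- the inertia case: `red ∘ g = red` gives a `TwistAut` with `Q = 1` -/
theorem TwistAut.of_red_eq {g : SemilinearAut K F} (hmem : ∀ x : F, x ∈ S.O → g • x ∈ S.O)
    (hfix : g • D₁ = D₁) (hred : ∀ x : S.O, S.red ⟨g • (x : F), hmem x x.2⟩ = S.red x) :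
    TwistAut S G D₁ g 1 where
  mem := hmem
  fixD := hfix
  red_T a x hx := by rw [hred]; exact hx
  e₁_red a x _ i := by rw [hred, pow_one]
  e₂_red a x _ i := by rw [hred, pow_one]

/-- **(ii) GALOIS.**  For `E` with Kummer function `u` (`div u = m E`, `red u` an invertible
constant) and a compatible automorphism `g`: the reduction of `L(a D₁ + (g E − Q E))` is the
UNTWISTED glued space, for `a ≥ (Q + 1) a₀`. -/
theorem tw_glued_smul_sub (hyp : TwistHyp S G m D₁ a₀) {g : SemilinearAut K F} {Q : ℕ}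
    (hg : TwistAut S G D₁ g Q) {a : ℕ} (ha : (Q + 1) * a₀ ≤ a) (E : Divisor K F)
    (hE : Divisor.degree E = 0) (u uinv : S.O) (huu : u * uinv = 1)
    (hT : S.red u ∈ G.T 0) (hT' : S.red uinv ∈ G.T 0)
    (hdiv : ∀ v : Place K F, v.ord (u : F) = m * E v) :
    S.redSp (riemannRochSpace (a • D₁ + (g • E - Q • E))) = G.glued 1 a := by
  have hQa : (Q + 1) * a₀ = Q * a₀ + a₀ := by ring
  obtain ⟨b, hab⟩ : ∃ b, a = b + Q * a₀ := ⟨a - Q * a₀, by omega⟩
  have hb : a₀ ≤ b := by omega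
  have ha' : a₀ ≤ a := by
    have : 0 ≤ Q * a₀ := Nat.zero_le _
    omega
  have huF : (u : F) * (uinv : F) = 1 := by
    have h1 : ((u * uinv : S.O) : F) = 1 := by rw [huu]; rfl
    simpa using h1
  have hu0 : (u : F) ≠ 0 := left_ne_zero_of_mul_eq_one huF
  have hui0 : (uinv : F) ≠ 0 := right_ne_zero_of_mul_eq_one huF
  have huinv : (uinv : F) = (u : F)⁻¹ := eq_inv_of_mul_eq_one_right huF
  have hdiv' : ∀ v : Place K F, v.ord (uinv : F) = m * (-E) v := by
    intro v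
    rw [huinv, v.ord_inv, hdiv, Finsupp.neg_apply]
    ring
  have huu' : uinv * u = 1 := by rw [mul_comm]; exact huu
  -- the three gluing constants
  obtain ⟨ζ, hζ⟩ := tw_exists_zeta hyp hb E hE u uinv huu hT hT' hdiv
  obtain ⟨ζ', hζ'⟩ := tw_exists_zeta hyp le_rfl (-E) (by rw [map_neg, hE, neg_zero])
    uinv u huu' hT' hT hdiv'
  let gu : S.O := ⟨g • (u : F), hg.mem _ u.2⟩
  let gui : S.O := ⟨g • (uinv : F), hg.mem _ uinv.2⟩
  have hgg : gu * gui = 1 := by
    apply Subtype.ext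
    show g • (u : F) * g • (uinv : F) = 1
    rw [← smul_mul', huF, smul_one]
  have hu'u' : (gu * uinv ^ Q) * (gui * u ^ Q) = 1 := by
    calc (gu * uinv ^ Q) * (gui * u ^ Q) = (gu * gui) * (uinv * u) ^ Q := by ring
      _ = 1 := by rw [hgg, huu', one_pow, one_mul]
  have hT1 : S.red (gu * uinv ^ Q) ∈ G.T 0 := by
    rw [map_mul, map_pow]
    have h1 := hg.red_T 0 u hT
    have h2 := G.pow_mem_T hT' Q
    have h3 := G.T_mul h1 h2
    rw [Nat.mul_zero, Nat.add_zero] at h3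
    exact h3
  have hT1' : S.red (gui * u ^ Q) ∈ G.T 0 := by
    rw [map_mul, map_pow]
    have h1 := hg.red_T 0 uinv hT'
    have h2 := G.pow_mem_T hT Q
    have h3 := G.T_mul h1 h2
    rw [Nat.mul_zero, Nat.add_zero] at h3
    exact h3
  have hdivE' : ∀ v : Place K F, v.ord ((gu * uinv ^ Q : S.O) : F) = m * (g • E - Q • E) v := by
    intro v
    show v.ord (g • (u : F) * (uinv : F) ^ Q) = _
    rw [v.ord_mul (by simpa using hu0) (pow_ne_zero _ hui0), tw_ord_smul, tw_ord_pow, hdiv,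
      hdiv', Finsupp.sub_apply, SemilinearAut.divisor_smul_apply, Finsupp.neg_apply,
      Finsupp.smul_apply]
    simp only [nsmul_eq_mul]
    ring
  have hE' : Divisor.degree (g • E - Q • E) = 0 := by
    rw [map_sub, SemilinearAut.degree_smul, map_nsmul, hE]
    simp
  obtain ⟨ζs, hζs⟩ := tw_exists_zeta hyp ha' (g • E - Q • E) hE' _ _ hu'u' hT1 hT1' hdivE'
  -- lifts with prescribed evaluations
  obtain ⟨t₁, ht₁, h11, h12⟩ := hyp.surj b hb ζ 1
  obtain ⟨t₂, ht₂, h21, h22⟩ := hyp.surj a₀ le_rfl ζ' 1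
  have ht₁g : t₁ ∈ G.glued ζ b := ⟨ht₁, fun i => by rw [h11, h12]; simp⟩
  have ht₂g : t₂ ∈ G.glued ζ' a₀ := ⟨ht₂, fun i => by rw [h21, h22]; simp⟩
  rw [← hζ] at ht₁g
  rw [← hζ'] at ht₂g
  obtain ⟨x₁, hx₁, hx₁r⟩ := ht₁g
  obtain ⟨x₂, hx₂, hx₂r⟩ := ht₂g
  -- `ζ ζ' = 1`
  have hprod : ∀ i, ζ i * ζ' i = 1 := by
    have hmem : ((x₁ * x₂ : S.O) : F) ∈ riemannRochSpace ((b + a₀) • D₁) := by
      have h := tw_mul_mem_L hx₁ hx₂
      have e : b • D₁ + E + (a₀ • D₁ + -E) = (b + a₀) • D₁ := by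
        rw [add_smul]; abel
      rw [e] at h
      exact h
    have h := S.red_mem_redSp _ hmem
    rw [hyp.f3 (b + a₀) (by omega), map_mul, hx₁r, hx₂r] at h
    obtain ⟨_, hglue⟩ := G.mem_glued_one.mp h
    intro i
    have := congrFun hglue i
    rw [G.e₁_mul ht₁ ht₂, G.e₂_mul ht₁ ht₂, h11, h12, h21, h22] at this
    simpa using this
  -- the test function `g(x₁) x₂^Q`
  let gx₁ : S.O := ⟨g • (x₁ : F), hg.mem _ x₁.2⟩
  have hy : ((gx₁ * x₂ ^ Q : S.O) : F) ∈ riemannRochSpace (a • D₁ + (g • E - Q • E)) := by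
    have h1 : g • (x₁ : F) ∈ riemannRochSpace (g • (b • D₁ + E)) := tw_smul_mem_L g hx₁
    have h2 : (x₂ : F) ^ Q ∈ riemannRochSpace (Q • (a₀ • D₁ + -E)) := tw_pow_mem_L hx₂ Q
    have h := tw_mul_mem_L h1 h2
    have e : g • (b • D₁ + E) + Q • (a₀ • D₁ + -E) = a • D₁ + (g • E - Q • E) := by
      rw [smul_add, smul_comm g b D₁, hg.fixD, hab, add_smul, smul_add, smul_neg, mul_smul]
      abel
    rw [e] at h
    exact h
  have hy' := S.red_mem_redSp _ hy
  rw [hζs, map_mul, map_pow, hx₂r] at hy'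
  obtain ⟨_, hyglue⟩ := hy'
  have hx₁T : S.red x₁ ∈ G.T b := by rw [hx₁r]; exact ht₁
  have hgT : S.red gx₁ ∈ G.T b := hg.red_T b x₁ hx₁T
  have hx₂Q : t₂ ^ Q ∈ G.T (Q * a₀) := G.pow_mem_T ht₂ Q
  have hζs1 : ζs = 1 := by
    funext i
    have h := hyglue i
    rw [G.e₁_mul hgT hx₂Q, G.e₂_mul hgT hx₂Q, G.e₁_pow ht₂, G.e₂_pow ht₂] at h
    simp only [Pi.mul_apply, Pi.pow_apply] at h
    rw [hg.e₁_red b x₁ hx₁T i, hg.e₂_red b x₁ hx₁T i, hx₁r, h11, h12, h21, h22] at h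
    rw [← mul_pow, hprod i] at h
    simpa using h.symm
  rw [hζs, hζs1]

end Twist

/-! ### (iii) the crux -/

/-- The data for the crux: a second effective divisor `D₂`, disjoint from `D₁`, with
`div f = D₂ − n₂ D₁`, `f` a unit of `O` whose reduction `φ` is glued and nonvanishing at the
nodes.  `cst`: "regular and glued ⇒ constant";  `pol`: pole orders at `D̄₁` and `D̄₂`. -/
structure TwistCrux (S : SSRed A π R F) (G : Gluing k R) (m : ℕ) (D₁ D₂ : Divisor K F) (n₂ : ℕ)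
    (f finv : S.O) : Prop where
  n₂_pos : 0 < n₂
  mk_ne : (m : k) ≠ 0
  unit : f * finv = 1
  D₁_nonneg : ∀ v, 0 ≤ D₁ v
  D₂_nonneg : ∀ v, 0 ≤ D₂ v
  disj : ∀ v, D₁ v = 0 ∨ D₂ v = 0
  ord_f : ∀ v : Place K F, v.ord (f : F) = D₂ v - n₂ * D₁ v
  f_glued : S.red f ∈ G.glued 1 n₂
  e₁_f : ∀ i, G.e₁ (S.red f) i ≠ 0
  cst : ∀ (a c : ℕ) (r : R), 0 < c → r ∈ G.T a → r * S.red f ^ c ∈ G.T (c * n₂) →
    G.e₁ r = G.e₂ r → r ∈ Set.range (algebraMap k R)
  pol : ∀ (a c : ℕ) (g₁ g₂ : R), g₁ ∈ G.T (m * a) →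
    g₂ * S.red f ^ (m * c) ∈ G.T (m * c * n₂) → (g₁ - g₂) * S.red f ^ c ∈ G.T (a + c * n₂) →
    g₁ ∈ G.T a ∧ g₂ * S.red f ^ c ∈ G.T (c * n₂)

section Crux

variable {S : SSRed A π R F} {G : Gluing k R} {m : ℕ} {D₁ D₂ : Divisor K F} {a₀ : ℕ}
variable {n₂ : ℕ} {f finv : S.O}

namespace TwistCrux

theorem coe_unit (hc : TwistCrux S G m D₁ D₂ n₂ f finv) : (f : F) * (finv : F) = 1 := by
  have h1 : ((f * finv : S.O) : F) = 1 := by rw [hc.unit]; rfl
  simpa using h1

theorem f_ne_zero (hc : TwistCrux S G m D₁ D₂ n₂ f finv) : (f : F) ≠ 0 :=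
  left_ne_zero_of_mul_eq_one hc.coe_unit

theorem finv_ne_zero (hc : TwistCrux S G m D₁ D₂ n₂ f finv) : (finv : F) ≠ 0 :=
  right_ne_zero_of_mul_eq_one hc.coe_unit

theorem ord_finv (hc : TwistCrux S G m D₁ D₂ n₂ f finv) (v : Place K F) :
    v.ord (finv : F) = n₂ * D₁ v - D₂ v := by
  have h : (finv : F) = (f : F)⁻¹ := eq_inv_of_mul_eq_one_right hc.coe_unit
  rw [h, v.ord_inv, hc.ord_f]
  ring

theorem red_unit (hc : TwistCrux S G m D₁ D₂ n₂ f finv) : S.red f * S.red finv = 1 := by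
  rw [← map_mul, hc.unit, map_one]

/-- `f^c L(c D₂ + E) ⊂ L(c n₂ D₁ + E)` -/
theorem mul_pow_mem (hc : TwistCrux S G m D₁ D₂ n₂ f finv) {c : ℕ} {E : Divisor K F} {x : F}
    (hx : x ∈ riemannRochSpace (c • D₂ + E)) :
    (f : F) ^ c * x ∈ riemannRochSpace ((c * n₂) • D₁ + E) := by
  by_cases hx0 : x = 0
  · rw [hx0, mul_zero]; exact Submodule.zero_mem _
  rw [tw_mem_L_iff (mul_ne_zero (pow_ne_zero _ hc.f_ne_zero) hx0)]
  intro v
  have h1 := (tw_mem_L_iff hx0).mp hx v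
  rw [v.ord_mul (pow_ne_zero _ hc.f_ne_zero) hx0, tw_ord_pow, hc.ord_f]
  simp only [Finsupp.add_apply, Finsupp.smul_apply, nsmul_eq_mul, Nat.cast_mul] at h1 ⊢
  have e : (c : ℤ) * (D₂ v - n₂ * D₁ v) = c * D₂ v - c * n₂ * D₁ v := by ring
  rw [e]
  linarith

/-- `f^{-c} L(c n₂ D₁ + E) ⊂ L(c D₂ + E)` -/
theorem inv_pow_mul_mem (hc : TwistCrux S G m D₁ D₂ n₂ f finv) {c : ℕ} {E : Divisor K F}
    {x : F} (hx : x ∈ riemannRochSpace ((c * n₂) • D₁ + E)) :
    (finv : F) ^ c * x ∈ riemannRochSpace (c • D₂ + E) := by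
  by_cases hx0 : x = 0
  · rw [hx0, mul_zero]; exact Submodule.zero_mem _
  rw [tw_mem_L_iff (mul_ne_zero (pow_ne_zero _ hc.finv_ne_zero) hx0)]
  intro v
  have h1 := (tw_mem_L_iff hx0).mp hx v
  rw [v.ord_mul (pow_ne_zero _ hc.finv_ne_zero) hx0, tw_ord_pow, hc.ord_finv]
  simp only [Finsupp.add_apply, Finsupp.smul_apply, nsmul_eq_mul, Nat.cast_mul] at h1 ⊢
  have e : (c : ℤ) * (n₂ * D₁ v - D₂ v) = c * n₂ * D₁ v - c * D₂ v := by ring
  rw [e]
  linarith

/-- `f^c ∈ L(c n₂ D₁)` -/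
theorem pow_mem (hc : TwistCrux S G m D₁ D₂ n₂ f finv) (c : ℕ) :
    (f : F) ^ c ∈ riemannRochSpace ((c * n₂) • D₁) := by
  have h1 : (1 : F) ∈ riemannRochSpace (c • D₂ + 0) := by
    rw [tw_mem_L_iff one_ne_zero]
    intro v
    have := hc.D₂_nonneg v
    have hc0 : (0 : ℤ) ≤ c := Int.natCast_nonneg c
    simp only [Finsupp.smul_apply, nsmul_eq_mul, add_zero, Place.ord_one]
    have := mul_nonneg hc0 this
    linarith
  have := hc.mul_pow_mem h1
  rwa [mul_one, add_zero] at this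

theorem one_mem_L {D : Divisor K F} (hD : ∀ v, 0 ≤ D v) (c : ℕ) :
    (1 : F) ∈ riemannRochSpace (c • D) := by
  rw [tw_mem_L_iff one_ne_zero]
  intro v
  have := hD v
  have hc0 : (0 : ℤ) ≤ c := Int.natCast_nonneg c
  simp only [Finsupp.smul_apply, nsmul_eq_mul, Place.ord_one]
  have := mul_nonneg hc0 this
  linarith

end TwistCrux

/-- **(iii) CRUX.**  A degree `0` divisor `E'` with a Kummer function `u` (`div u = m E'`,
`red u = 1`) whose reductions `red (L(a D₁ + E') ∩ O)` are the UNTWISTED glued spaces is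
principal. -/
theorem tw_principal_of_glued [RRBase K F] [Nontrivial R] (hyp : TwistHyp S G m D₁ a₀)
    (hc : TwistCrux S G m D₁ D₂ n₂ f finv) (E' : Divisor K F) (hE' : Divisor.degree E' = 0)
    (u : S.O) (hu0 : (u : F) ≠ 0) (hu : S.red u = 1)
    (hdiv : ∀ v : Place K F, v.ord (u : F) = m * E' v) (a₁ : ℕ)
    (hglue : ∀ a, a₁ ≤ a → S.redSp (riemannRochSpace (a • D₁ + E')) = G.glued 1 a) :
    E' ∈ Divisor.principal (K := K) (F := F) := by
  classical
  -- parameters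
  obtain ⟨a, haa₀, haa₁, hapos⟩ : ∃ a : ℕ, a₀ ≤ a ∧ a₁ ≤ a ∧ 0 < a :=
    ⟨a₀ + a₁ + 1, by omega, by omega, by omega⟩
  have hm := hyp.m_pos
  have hn₂ := hc.n₂_pos
  have han : a ≤ a * n₂ := Nat.le_mul_of_pos_right a hn₂
  have hma : a ≤ m * a := Nat.le_mul_of_pos_left a hm
  have hman : m * a ≤ m * a * n₂ := Nat.le_mul_of_pos_right _ hn₂
  have hmapos : 0 < m * a := Nat.mul_pos hm hapos
  have hψT : S.red f ∈ G.T n₂ := hc.f_glued.1
  have hψg : G.e₁ (S.red f) = G.e₂ (S.red f) := (G.mem_glued_one.mp hc.f_glued).2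
  have : Module.Finite K (riemannRochSpace (a • D₁ + E')) := finite_riemannRochSpace _
  have : Module.Finite K (riemannRochSpace (a • D₂ + E')) := finite_riemannRochSpace _
  have : Module.Finite K (riemannRochSpace ((m * a) • D₁)) := finite_riemannRochSpace _
  -- (H1)
  have h1 : (∃ s : S.O, (s : F) ∈ riemannRochSpace (a • D₁ + E') ∧ S.red s = 1) ∧
      ∃ s : S.O, (s : F) ∈ riemannRochSpace (a • D₂ + E') ∧ S.red s = 1 := by
    constructor
    · have h : (1 : R) ∈ S.redSp (riemannRochSpace (a • D₁ + E')) := by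
        rw [hglue a haa₁]; exact G.one_mem_glued_one a
      exact h
    · have h : S.red (f ^ a) ∈ S.redSp (riemannRochSpace ((a * n₂) • D₁)) :=
        S.red_mem_redSp (f ^ a) (hc.pow_mem a)
      rw [hyp.f3 _ (le_trans haa₀ han), ← hglue _ (le_trans haa₁ han)] at h
      obtain ⟨y, hy, hyr⟩ := h
      refine ⟨finv ^ a * y, hc.inv_pow_mul_mem hy, ?_⟩
      rw [map_mul, map_pow, hyr, map_pow, ← mul_pow, mul_comm, hc.red_unit, one_pow]
  -- (H2)
  have h2 : ∀ x₁ x₂ : S.O, (x₁ : F) ∈ riemannRochSpace (a • D₁ + E') →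
      (x₂ : F) ∈ riemannRochSpace (a • D₂ + E') → S.red x₁ = S.red x₂ →
      S.red x₁ ∈ Set.range (algebraMap k R) := by
    intro x₁ x₂ hx₁ hx₂ hred
    have hr : S.red x₁ ∈ G.glued 1 a := by
      rw [← hglue a haa₁]; exact S.red_mem_redSp _ hx₁
    obtain ⟨hrT, hrg⟩ := G.mem_glued_one.mp hr
    have hx : ((f ^ a * x₂ : S.O) : F) ∈ riemannRochSpace ((a * n₂) • D₁ + E') :=
      hc.mul_pow_mem hx₂
    have h := S.red_mem_redSp _ hx
    rw [hglue _ (le_trans haa₁ han), map_mul, map_pow, ← hred, mul_comm (S.red f ^ a)] at h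
    exact hc.cst a a _ hapos hrT h.1 hrg
  -- (H3)
  have h3 : (∀ s ∈ riemannRochSpace (a • D₁ + E'),
        ((u : S.O) : F) * s ^ m ∈ riemannRochSpace ((m * a) • D₁)) ∧
      (∀ s ∈ riemannRochSpace (a • D₂ + E'),
        ((u : S.O) : F) * s ^ m ∈ riemannRochSpace ((m * a) • D₂)) ∧
      (1 : F) ∈ riemannRochSpace ((m * a) • D₁) ∧ (1 : F) ∈ riemannRochSpace ((m * a) • D₂) :=
    ⟨fun s hs => tw_kummer_mul_pow_mem hu0 hdiv hs,
      fun s hs => tw_kummer_mul_pow_mem hu0 hdiv hs,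
      TwistCrux.one_mem_L hc.D₁_nonneg _, TwistCrux.one_mem_L hc.D₂_nonneg _⟩
  -- (H4)
  have h4 : ∀ x₁ x₂ : S.O, (x₁ : F) ∈ riemannRochSpace ((m * a) • D₁) →
      (x₂ : F) ∈ riemannRochSpace ((m * a) • D₂) → S.red x₁ = S.red x₂ →
      S.red x₁ ∈ Set.range (algebraMap k R) := by
    intro x₁ x₂ hx₁ hx₂ hred
    have hr : S.red x₁ ∈ G.glued 1 (m * a) := by
      rw [← hyp.f3 _ (le_trans haa₀ hma)]; exact S.red_mem_redSp _ hx₁
    obtain ⟨hrT, hrg⟩ := G.mem_glued_one.mp hr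
    have hx : ((f ^ (m * a) * x₂ : S.O) : F) ∈ riemannRochSpace ((m * a * n₂) • D₁) := by
      have hx₂' : (x₂ : F) ∈ riemannRochSpace ((m * a) • D₂ + 0) := by rwa [add_zero]
      have := hc.mul_pow_mem hx₂'
      rwa [add_zero] at this
    have h := S.red_mem_redSp _ hx
    rw [hyp.f3 _ (le_trans haa₀ (le_trans hma hman)), map_mul, map_pow, ← hred,
      mul_comm (S.red f ^ (m * a))] at h
    exact hc.cst (m * a) (m * a) _ hmapos hrT h.1 hrg
  -- (H5)
  have h5 : ∀ h₁ h₂ τ : S.O, (h₁ : F) ∈ riemannRochSpace ((m * a) • D₁) →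
      (h₂ : F) ∈ riemannRochSpace ((m * a) • D₂) →
      (τ : F) ∈ riemannRochSpace (a • D₁ + E') ⊔ riemannRochSpace (a • D₂ + E') →
      S.red h₁ - S.red h₂ = (m : R) * S.red τ →
      ∃ b₁ b₂ : S.O, (b₁ : F) ∈ riemannRochSpace (a • D₁ + E') ∧
        (b₂ : F) ∈ riemannRochSpace (a • D₂ + E') ∧ S.red τ = S.red b₁ - S.red b₂ := by
    intro h₁ h₂ τ hh₁ hh₂ hτ hrel
    have hmR : ∀ x : R, (m : R) * x = (m : k) • x := fun x => by
      rw [Algebra.smul_def, map_natCast]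
    have hg12 : (m : k)⁻¹ • S.red h₁ - (m : k)⁻¹ • S.red h₂ = S.red τ := by
      rw [← smul_sub, hrel, hmR, smul_smul, inv_mul_cancel₀ hc.mk_ne, one_smul]
    have hr₁ : S.red h₁ ∈ G.glued 1 (m * a) := by
      rw [← hyp.f3 _ (le_trans haa₀ hma)]; exact S.red_mem_redSp _ hh₁
    have hr₂ : S.red h₂ * S.red f ^ (m * a) ∈ G.glued 1 (m * a * n₂) := by
      have hx : ((f ^ (m * a) * h₂ : S.O) : F) ∈ riemannRochSpace ((m * a * n₂) • D₁) := by
        have hx₂' : (h₂ : F) ∈ riemannRochSpace ((m * a) • D₂ + 0) := by rwa [add_zero]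
        have := hc.mul_pow_mem hx₂'
        rwa [add_zero] at this
      have h := S.red_mem_redSp _ hx
      rw [hyp.f3 _ (le_trans haa₀ (le_trans hma hman)), map_mul, map_pow,
        mul_comm (S.red f ^ (m * a))] at h
      exact h
    have hrτ : S.red τ * S.red f ^ a ∈ G.T (a + a * n₂) := by
      obtain ⟨v₁, hv₁, v₂, hv₂, hsum⟩ := Submodule.mem_sup.mp hτ
      have hx : ((f ^ a * τ : S.O) : F) ∈ riemannRochSpace ((a + a * n₂) • D₁ + E') := by
        show (f : F) ^ a * (τ : F) ∈ _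
        rw [← hsum, mul_add]
        refine Submodule.add_mem _ ?_ ?_
        · have h := tw_mul_mem_L (hc.pow_mem a) hv₁
          have e : (a * n₂) • D₁ + (a • D₁ + E') = (a + a * n₂) • D₁ + E' := by
            rw [add_smul]; abel
          rw [e] at h
          exact h
        · have h := hc.mul_pow_mem hv₂
          refine riemannRochSpace_mono ?_ h
          rw [add_smul]
          intro v
          have h0 := hc.D₁_nonneg v
          have ha0 : (0 : ℤ) ≤ a := Int.natCast_nonneg a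
          have := mul_nonneg ha0 h0
          simp only [Finsupp.add_apply, Finsupp.smul_apply, nsmul_eq_mul]
          linarith
      have h := S.red_mem_redSp _ hx
      rw [hglue _ (le_trans haa₁ (Nat.le_add_right _ _)), map_mul, map_pow,
        mul_comm (S.red f ^ a)] at h
      exact h.1
    have hg₁T : (m : k)⁻¹ • S.red h₁ ∈ G.T (m * a) := (G.T _).smul_mem _ hr₁.1
    have hg₂T : ((m : k)⁻¹ • S.red h₂) * S.red f ^ (m * a) ∈ G.T (m * a * n₂) := by
      rw [smul_mul_assoc]; exact (G.T _).smul_mem _ hr₂.1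
    have hdT : ((m : k)⁻¹ • S.red h₁ - (m : k)⁻¹ • S.red h₂) * S.red f ^ a ∈
        G.T (a + a * n₂) := by rw [hg12]; exact hrτ
    obtain ⟨hp₁, hp₂⟩ := hc.pol a a _ _ hg₁T hg₂T hdT
    have hg₁g : (m : k)⁻¹ • S.red h₁ ∈ G.glued 1 a := G.mem_glued_one.mpr ⟨hp₁, by
      rw [map_smul, map_smul, (G.mem_glued_one.mp hr₁).2]⟩
    have hg₂g : ((m : k)⁻¹ • S.red h₂) * S.red f ^ a ∈ G.glued 1 (a * n₂) := by
      refine G.mem_glued_one.mpr ⟨hp₂, ?_⟩
      obtain ⟨j, hj⟩ : ∃ j, m * a = a + j := ⟨m * a - a, by omega⟩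
      have hsplit : ((m : k)⁻¹ • S.red h₂) * S.red f ^ (m * a) =
          (((m : k)⁻¹ • S.red h₂) * S.red f ^ a) * S.red f ^ j := by
        rw [hj, pow_add, mul_assoc]
      have hE : G.e₁ (((m : k)⁻¹ • S.red h₂) * S.red f ^ (m * a)) =
          G.e₂ (((m : k)⁻¹ • S.red h₂) * S.red f ^ (m * a)) := by
        rw [smul_mul_assoc, map_smul, map_smul, (G.mem_glued_one.mp hr₂).2]
      rw [hsplit, G.e₁_mul hp₂ (G.pow_mem_T hψT j), G.e₂_mul hp₂ (G.pow_mem_T hψT j),
        G.e₁_pow hψT, G.e₂_pow hψT, ← hψg] at hE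
      funext i
      have hi := congrFun hE i
      simp only [Pi.mul_apply, Pi.pow_apply] at hi
      exact mul_right_cancel₀ (pow_ne_zero j (hc.e₁_f i)) hi
    rw [← hglue a haa₁] at hg₁g
    rw [← hglue (a * n₂) (le_trans haa₁ han)] at hg₂g
    obtain ⟨b₁, hb₁, hb₁r⟩ := hg₁g
    obtain ⟨y, hy, hyr⟩ := hg₂g
    refine ⟨b₁, finv ^ a * y, hb₁, hc.inv_pow_mul_mem hy, ?_⟩
    rw [hb₁r, map_mul, map_pow, hyr, ← hg12]
    have e : S.red finv ^ a * (((m : k)⁻¹ • S.red h₂) * S.red f ^ a) = (m : k)⁻¹ • S.red h₂ := by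
      rw [mul_comm _ (S.red f ^ a), ← mul_assoc, ← mul_pow, mul_comm (S.red finv), hc.red_unit,
        one_pow, one_mul]
    rw [e]
  -- the crux
  have key := S.crux (riemannRochSpace (a • D₁ + E')) (riemannRochSpace (a • D₂ + E'))
    (riemannRochSpace ((m * a) • D₁)) (riemannRochSpace ((m * a) • D₂)) u hu m h1 h2 h3 h4 h5
  obtain ⟨h, hh, hh0⟩ := (Submodule.ne_bot_iff _).mp key
  obtain ⟨hh1, hh2⟩ := Submodule.mem_inf.mp hh
  have hL : h ∈ riemannRochSpace E' := by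
    rw [tw_mem_L_iff hh0] at hh1 hh2 ⊢
    intro v
    have e1 := hh1 v
    have e2 := hh2 v
    simp only [Finsupp.add_apply, Finsupp.smul_apply, nsmul_eq_mul] at e1 e2
    rcases hc.disj v with h0 | h0
    · rw [h0] at e1; simpa using e1
    · rw [h0] at e2; simpa using e2
  have hnonneg : 0 ≤ E' + divOf (K := K) h := (mem_riemannRochSpace_iff_divOf hh0 E').mp hL
  have hzero : E' + divOf (K := K) h = 0 :=
    eq_zero_of_nonneg_of_degree_le hnonneg (by rw [map_add, hE', degree_divOf]; simp)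
  refine ⟨h⁻¹, inv_ne_zero hh0, fun v => ?_⟩
  have hv := DFunLike.congr_fun hzero v
  rw [Finsupp.add_apply, divOf_apply hh0, Finsupp.zero_apply] at hv
  rw [v.ord_inv]
  linarith

end Crux

/-! ### the final statements -/

section Final

variable [RRBase K F] {S : SSRed A π R F} {G : Gluing k R} {m : ℕ} {D₁ D₂ : Divisor K F}
variable {a₀ n₂ : ℕ} {f finv : S.O}

/-- **TWIST, divisor form.**  If `m E = div u` with `u` a unit of `O` whose reduction is a
constant (`red u, red u⁻¹ ∈ T 0`) and `red (g u) = (red u)^Q`, then `g E − Q E` is principal.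
(`Q = 1`: the inertia acts trivially on the toric part `T'`, S34.  `Q = q²`: S35.) -/
theorem tw_principal [Nontrivial R] (hyp : TwistHyp S G m D₁ a₀)
    (hc : TwistCrux S G m D₁ D₂ n₂ f finv) {g : SemilinearAut K F} {Q : ℕ}
    (hg : TwistAut S G D₁ g Q) (E : Divisor K F) (hE : Divisor.degree E = 0) (u uinv : S.O)
    (huu : u * uinv = 1) (hT : S.red u ∈ G.T 0) (hT' : S.red uinv ∈ G.T 0)
    (hdiv : ∀ v : Place K F, v.ord (u : F) = m * E v)
    (hgu : S.red ⟨g • (u : F), hg.mem _ u.2⟩ = S.red u ^ Q) :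
    g • E - Q • E ∈ Divisor.principal (K := K) (F := F) := by
  have huF : (u : F) * (uinv : F) = 1 := by
    have h1 : ((u * uinv : S.O) : F) = 1 := by rw [huu]; rfl
    simpa using h1
  have hu0 : (u : F) ≠ 0 := left_ne_zero_of_mul_eq_one huF
  have hui0 : (uinv : F) ≠ 0 := right_ne_zero_of_mul_eq_one huF
  have huinv : (uinv : F) = (u : F)⁻¹ := eq_inv_of_mul_eq_one_right huF
  have hgu0 : g • (u : F) ≠ 0 := by simpa using hu0
  have hE' : Divisor.degree (g • E - Q • E) = 0 := by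
    rw [map_sub, SemilinearAut.degree_smul, map_nsmul, hE]
    simp
  have hdivE' : ∀ v : Place K F,
      v.ord (((⟨g • (u : F), hg.mem _ u.2⟩ : S.O) * uinv ^ Q : S.O) : F) =
        m * (g • E - Q • E) v := by
    intro v
    show v.ord (g • (u : F) * (uinv : F) ^ Q) = _
    rw [v.ord_mul hgu0 (pow_ne_zero _ hui0), tw_ord_smul, tw_ord_pow, hdiv, huinv, v.ord_inv,
      hdiv, Finsupp.sub_apply, SemilinearAut.divisor_smul_apply, Finsupp.smul_apply]
    simp only [nsmul_eq_mul]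
    ring
  have hu'0 : (((⟨g • (u : F), hg.mem _ u.2⟩ : S.O) * uinv ^ Q : S.O) : F) ≠ 0 :=
    mul_ne_zero hgu0 (pow_ne_zero _ hui0)
  have hu'1 : S.red ((⟨g • (u : F), hg.mem _ u.2⟩ : S.O) * uinv ^ Q) = 1 := by
    rw [map_mul, map_pow, hgu, ← mul_pow, ← map_mul, huu, map_one, one_pow]
  exact tw_principal_of_glued hyp hc (g • E - Q • E) hE' _ hu'0 hu'1 hdivE' ((Q + 1) * a₀)
    (fun a ha => tw_glued_smul_sub hyp hg ha E hE u uinv huu hT hT' hdiv)

/-- **TWIST, Kummer form.**  If all orders of the unit `u` of `O` are divisible by `m`, its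
reduction is a constant and `red (g u) = (red u)^Q`, then `g u / u^Q` is a constant times an
`m`-th power. -/
theorem tw_kummer [Nontrivial R] (hyp : TwistHyp S G m D₁ a₀)
    (hc : TwistCrux S G m D₁ D₂ n₂ f finv) {g : SemilinearAut K F} {Q : ℕ}
    (hg : TwistAut S G D₁ g Q) (u uinv : S.O)
    (huu : u * uinv = 1) (hT : S.red u ∈ G.T 0) (hT' : S.red uinv ∈ G.T 0)
    (hdvd : ∀ v : Place K F, (m : ℤ) ∣ v.ord (u : F))
    (hgu : S.red ⟨g • (u : F), hg.mem _ u.2⟩ = S.red u ^ Q) :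
    ∃ (c : K) (s : F), s ≠ 0 ∧ g • (u : F) = algebraMap K F c * s ^ m * (u : F) ^ Q := by
  have huF : (u : F) * (uinv : F) = 1 := by
    have h1 : ((u * uinv : S.O) : F) = 1 := by rw [huu]; rfl
    simpa using h1
  have hu0 : (u : F) ≠ 0 := left_ne_zero_of_mul_eq_one huF
  have hgu0 : g • (u : F) ≠ 0 := by simpa using hu0
  have hm0 : (m : ℤ) ≠ 0 := by exact_mod_cast hyp.m_pos.ne'
  -- the divisor `E = div u / m`
  let E : Divisor K F := Finsupp.mapRange (fun z : ℤ => z / (m : ℤ)) (by simp)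
    (divOf (K := K) (u : F))
  have hEv : ∀ v : Place K F, v.ord (u : F) = m * E v := by
    intro v
    show _ = (m : ℤ) * (Finsupp.mapRange _ _ _) v
    rw [Finsupp.mapRange_apply, divOf_apply hu0, Int.mul_ediv_cancel' (hdvd v)]
  have hmE : m • E = divOf (K := K) (u : F) := by
    ext v
    rw [Finsupp.smul_apply, divOf_apply hu0, hEv v, nsmul_eq_mul]
  have hE : Divisor.degree E = 0 := by
    have h1 : Divisor.degree (m • E) = 0 := by rw [hmE, degree_divOf]
    rw [map_nsmul, nsmul_eq_mul] at h1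
    rcases mul_eq_zero.mp h1 with h | h
    · exact absurd h hm0
    · exact h
  obtain ⟨s, hs0, hs⟩ := tw_principal hyp hc hg E hE u uinv huu hT hT' hEv hgu
  -- the quotient has trivial divisor
  have hq0 : g • (u : F) * ((u : F) ^ Q)⁻¹ * (s ^ m)⁻¹ ≠ 0 :=
    mul_ne_zero (mul_ne_zero hgu0 (inv_ne_zero (pow_ne_zero _ hu0)))
      (inv_ne_zero (pow_ne_zero _ hs0))
  have hord : ∀ v : Place K F, 0 ≤ v.ord (g • (u : F) * ((u : F) ^ Q)⁻¹ * (s ^ m)⁻¹) := by
    intro v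
    rw [v.ord_mul (mul_ne_zero hgu0 (inv_ne_zero (pow_ne_zero _ hu0)))
      (inv_ne_zero (pow_ne_zero _ hs0)), v.ord_mul hgu0 (inv_ne_zero (pow_ne_zero _ hu0)),
      v.ord_inv, v.ord_inv, tw_ord_pow, tw_ord_pow, tw_ord_smul, hEv, hEv, ← hs v,
      Finsupp.sub_apply, SemilinearAut.divisor_smul_apply, Finsupp.smul_apply]
    simp only [nsmul_eq_mul]
    apply le_of_eq
    ring
  obtain ⟨c, hcq⟩ := RRBase.const_of_forall_ord_nonneg (K := K) _ hord
  refine ⟨c, s, hs0, ?_⟩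
  rw [hcq]
  field_simp

end Final

end Fermat.Agent.S34lib

end
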