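/-
Item 79 (S34), piece C4 part 2 (helper8): the two cusps `P∞`, `P0 = w_q P∞` of `X₀(N)` over `ℚ̄`
(`q ‖ N`) and the orders of functions there.  No sorry.

* `inf_order_qExpand`, `inf_order_coeffMap`, `inf_order_coeffEmb` (orders of expansions);
* `zeroPlaceBar N q hq hqN hq2 : Place ℚ̄ (FF N)`, `:= w_q • infPlaceBar N`
  (`zeroPlaceBar_eq_ofAlgAut_smul`: the same with the `SemilinearAut` action);
* `zeroPlaceBar_ord`: `ord_{P0} f = order of the expansion of w_q f`;
* `zeroPlaceBar_ord_atkinLehner`, `infPlaceBar_ord_atkinLehner`, `atkinLehnerFF_smul_zeroPlaceBar`;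
* `infPlaceBar_ord_jF = -1`, `infPlaceBar_ord_jdF = -d`, `zeroPlaceBar_ord_jF = -q`,
  `zeroPlaceBar_ord_jdF_self = -1`;
* `infPlaceBar_ne_zeroPlaceBar : P∞ ≠ P0`;
* degeneracy maps `α, β : FF M' → FF (M' q)` (`q ∤ M'`): `atkinLehnerFF_alpha` (`w ∘ α = β`),
  `atkinLehnerFF_beta` (`w ∘ β = α`), and the four order formulas
  `infPlaceBar_ord_alpha`, `infPlaceBar_ord_beta`, `zeroPlaceBar_ord_alpha`, `zeroPlaceBar_ord_beta`.
-/
import Mathlib
import Fermat.Agent.S34lib.InfPlace
import Fermat.Agent.S34lib.VAtkinLehner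
import Fermat.Prelude.Def_ModularCurve_HeckeOperator

set_option autoImplicit false

noncomputable section

namespace Fermat.Agent.S34lib

open AlgebraicCurve Fermat.Agent.S24lib ModularCurve

open scoped Pointwise

section Orders

theorem inf_order_qExpand {R : Type*} [CommRing R] (N : ℕ) [NeZero N] (f : LaurentSeries R) :
    (qExpand R N f).order = (N : ℤ) * f.order := by
  by_cases hf : f = 0
  · rw [hf, map_zero, HahnSeries.order_zero, mul_zero]
  have hc : (qExpand R N f).coeff ((N : ℤ) * f.order) ≠ 0 := by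
    rw [qExpand_coeff_mul]
    exact HahnSeries.coeff_order_eq_zero.not.mpr hf
  apply le_antisymm
  · exact HahnSeries.order_le_of_coeff_ne_zero hc
  · by_contra hlt
    have hlt := not_le.mp hlt
    have hne : qExpand R N f ≠ 0 := HahnSeries.ne_zero_of_coeff_ne_zero hc
    have h1 := HahnSeries.coeff_order_eq_zero.not.mpr hne
    by_cases hd : (N : ℤ) ∣ (qExpand R N f).order
    · obtain ⟨m, hm⟩ := hd
      rw [hm, qExpand_coeff_mul] at h1
      have hNpos : (0 : ℤ) < N := by exact_mod_cast Nat.pos_of_ne_zero (NeZero.ne N)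
      have hlt' : m < f.order := by
        rw [hm] at hlt
        exact lt_of_mul_lt_mul_left hlt hNpos.le
      exact h1 (HahnSeries.coeff_eq_zero_of_lt_order hlt')
    · exact h1 (qExpand_coeff_of_not_dvd N f hd)

theorem inf_order_coeffMap {K L : Type*} [Field K] [Field L] (ι : K →+* L)
    (y : LaurentSeries K) : (coeffMap ι y).order = y.order := by
  by_cases hy : y = 0
  · subst hy
    rw [map_zero, HahnSeries.order_zero, HahnSeries.order_zero]
  · have hc : (coeffMap ι y).coeff y.order ≠ 0 := by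
      rw [coeffMap_coeff]
      exact (map_ne_zero ι).mpr (HahnSeries.coeff_order_eq_zero.not.mpr hy)
    have hy' : coeffMap ι y ≠ 0 := HahnSeries.ne_zero_of_coeff_ne_zero hc
    apply le_antisymm
    · exact HahnSeries.order_le_of_coeff_ne_zero hc
    · by_contra hlt
      have hlt := not_le.mp hlt
      have h1 := HahnSeries.coeff_order_eq_zero.not.mpr hy'
      rw [coeffMap_coeff] at h1
      exact h1 (by rw [HahnSeries.coeff_eq_zero_of_lt_order hlt, map_zero])

theorem inf_order_coeffEmb (L : Type*) [Field L] [Algebra ℚ L] (y : LaurentSeries ℚ) :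
    (coeffEmb L y).order = y.order :=
  inf_order_coeffMap _ y

end Orders

section Zero

variable (N q : ℕ) [NeZero N] (hq : q.Prime) (hqN : q ∣ N) (hq2 : ¬ q ^ 2 ∣ N)

/-- **the cusp `0`** of `X₀(N)` over `ℚ̄`, as the image of the cusp `∞` under the Atkin–Lehner
involution `w_q` (`q ‖ N`). -/
def zeroPlaceBar : Place Kbar (FF N) := atkinLehnerFF N q hq hqN hq2 • infPlaceBar N

theorem zeroPlaceBar_eq_ofAlgAut_smul :
    zeroPlaceBar N q hq hqN hq2 =
      SemilinearAut.ofAlgAut (atkinLehnerFF N q hq hqN hq2) • infPlaceBar N := by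
  apply Place.ext
  ext x
  rfl

/-- `ord_{P0} (w f) = ord_{P∞} f` -/
theorem zeroPlaceBar_ord_atkinLehner (f : FF N) :
    (zeroPlaceBar N q hq hqN hq2).ord (atkinLehnerFF N q hq hqN hq2 f) = (infPlaceBar N).ord f :=
  Place.ord_smul (atkinLehnerFF N q hq hqN hq2) (infPlaceBar N) f

/-- `ord_{P0} f = ord_{P∞} (w f)` -/
theorem zeroPlaceBar_ord_eq (f : FF N) :
    (zeroPlaceBar N q hq hqN hq2).ord f =
      (infPlaceBar N).ord (atkinLehnerFF N q hq hqN hq2 f) := by
  rw [← zeroPlaceBar_ord_atkinLehner N q hq hqN hq2, atkinLehnerFF_involutive]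

/-- `ord_{P∞} (w f) = ord_{P0} f` -/
theorem infPlaceBar_ord_atkinLehner (f : FF N) :
    (infPlaceBar N).ord (atkinLehnerFF N q hq hqN hq2 f) = (zeroPlaceBar N q hq hqN hq2).ord f :=
  (zeroPlaceBar_ord_eq N q hq hqN hq2 f).symm

/-- **the order at the cusp `0`** is the order of the expansion of `w_q f`. -/
theorem zeroPlaceBar_ord (f : FF N) :
    (zeroPlaceBar N q hq hqN hq2).ord f =
      ((atkinLehnerFF N q hq hqN hq2 f : FF N) : LaurentSeries Kbar).order := by
  rw [zeroPlaceBar_ord_eq, infPlaceBar_ord]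

theorem zeroPlaceBar_mem_iff (f : FF N) :
    f ∈ (zeroPlaceBar N q hq hqN hq2).toValuationSubring ↔
      0 ≤ ((atkinLehnerFF N q hq hqN hq2 f : FF N) : LaurentSeries Kbar).order := by
  rw [← infPlaceBar_mem_iff]
  show f ∈ atkinLehnerFF N q hq hqN hq2 • (infPlaceBar N).toValuationSubring ↔ _
  rw [ValuationSubring.mem_pointwise_smul_iff_inv_smul_mem]
  have : (atkinLehnerFF N q hq hqN hq2)⁻¹ • f = atkinLehnerFF N q hq hqN hq2 f := by
    show (atkinLehnerFF N q hq hqN hq2).symm f = _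
    rw [atkinLehnerFF_symm]
  rw [this]

/-- `w • P0 = P∞` -/
theorem atkinLehnerFF_smul_zeroPlaceBar :
    atkinLehnerFF N q hq hqN hq2 • zeroPlaceBar N q hq hqN hq2 = infPlaceBar N := by
  rw [zeroPlaceBar, ← mul_smul]
  have : atkinLehnerFF N q hq hqN hq2 * atkinLehnerFF N q hq hqN hq2 = 1 := by
    refine AlgEquiv.ext fun x => ?_
    exact atkinLehnerFF_involutive N q hq hqN hq2 x
  rw [this, one_smul]

theorem atkinLehnerFF_smul_infPlaceBar :
    atkinLehnerFF N q hq hqN hq2 • infPlaceBar N = zeroPlaceBar N q hq hqN hq2 := rfl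

/-- `ord_{P∞} j = -1` -/
theorem infPlaceBar_ord_jF : (infPlaceBar N).ord (jF N) = -1 := by
  rw [infPlaceBar_ord, coe_jF, inf_order_coeffEmb_jq]

/-- `ord_{P∞} j(q^d) = -d` -/
theorem infPlaceBar_ord_jdF (d : ℕ) [NeZero d] (hd : d ∣ N) :
    (infPlaceBar N).ord (jdF N d hd) = -(d : ℤ) := by
  rw [infPlaceBar_ord, coe_jdF, inf_order_coeffEmb, inf_order_qExpand,
    ← inf_order_coeffEmb Kbar jq, inf_order_coeffEmb_jq]
  ring

/-- `ord_{P0} j = -q` -/
theorem zeroPlaceBar_ord_jF : (zeroPlaceBar N q hq hqN hq2).ord (jF N) = -(q : ℤ) := by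
  have : NeZero q := ⟨hq.ne_zero⟩
  rw [zeroPlaceBar_ord_eq, atkinLehnerFF_jF, infPlaceBar_ord_jdF]

/-- `ord_{P0} j(q^q) = -1` -/
theorem zeroPlaceBar_ord_jdF_self [NeZero q] :
    (zeroPlaceBar N q hq hqN hq2).ord (jdF N q hqN) = -1 := by
  rw [← atkinLehnerFF_jF N q hq hqN hq2, zeroPlaceBar_ord_atkinLehner, infPlaceBar_ord_jF]

/-- **the cusps `∞` and `0` are different** -/
theorem infPlaceBar_ne_zeroPlaceBar : infPlaceBar N ≠ zeroPlaceBar N q hq hqN hq2 := by
  intro h
  have h1 := infPlaceBar_ord_jF N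
  have h2 := zeroPlaceBar_ord_jF N q hq hqN hq2
  rw [← h, h1] at h2
  have := hq.one_lt
  omega

end Zero

section Degeneracy

variable (M' q : ℕ) [NeZero M'] [NeZero q] (hq : q.Prime) (hqM : ¬ q ∣ M')

omit [NeZero M'] [NeZero q] in
include hq hqM in
theorem inf_not_sq_dvd : ¬ q ^ 2 ∣ M' * q := by
  intro h
  rw [pow_two] at h
  exact hqM (Nat.dvd_of_mul_dvd_mul_right hq.pos h)

/-- `ord_{P∞} (α x) = ord_{∞'} x` -/
theorem infPlaceBar_ord_alpha (x : FF M') :
    (infPlaceBar (M' * q)).ord (heckeAlphaBar Kbar M' q x) = (infPlaceBar M').ord x := by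
  rw [infPlaceBar_ord, infPlaceBar_ord, coe_heckeAlphaBar]

/-- `ord_{P∞} (β x) = q · ord_{∞'} x` -/
theorem infPlaceBar_ord_beta (x : FF M') :
    (infPlaceBar (M' * q)).ord (heckeBetaBar Kbar M' q x) = (q : ℤ) * (infPlaceBar M').ord x := by
  rw [infPlaceBar_ord, infPlaceBar_ord, coe_heckeBetaBar, inf_order_qExpand]

theorem inf_alpha_jdF (d : ℕ) [NeZero d] (hd : d ∣ M') :
    heckeAlphaBar Kbar M' q (jdF M' d hd) = jdF (M' * q) d (hd.mul_right q) := by
  apply Subtype.ext
  rw [coe_heckeAlphaBar, coe_jdF, coe_jdF]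

omit [NeZero M'] in
theorem inf_beta_jdF (d : ℕ) [NeZero d] (hd : d ∣ M') [NeZero (d * q)] :
    heckeBetaBar Kbar M' q (jdF M' d hd) = jdF (M' * q) (d * q) (Nat.mul_dvd_mul_right hd q) := by
  apply Subtype.ext
  rw [coe_heckeBetaBar, coe_jdF, coe_jdF]
  ext k
  by_cases hk : (q : ℤ) ∣ k
  · obtain ⟨m, rfl⟩ := hk
    rw [qExpand_coeff_mul, coeffEmb_coeff, coeffEmb_coeff]
    by_cases hm : (d : ℤ) ∣ m
    · obtain ⟨m', rfl⟩ := hm
      have : (q : ℤ) * ((d : ℤ) * m') = ((d * q : ℕ) : ℤ) * m' := by push_cast; ring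
      rw [this, qExpand_coeff_mul, qExpand_coeff_mul]
    · rw [qExpand_coeff_of_not_dvd d _ hm, qExpand_coeff_of_not_dvd (d * q) _]
      intro hdvd
      apply hm
      push_cast at hdvd
      have hq0 : (q : ℤ) ≠ 0 := by exact_mod_cast NeZero.ne q
      rw [mul_comm (d : ℤ) (q : ℤ)] at hdvd
      exact (mul_dvd_mul_iff_left hq0).mp hdvd
  · rw [qExpand_coeff_of_not_dvd q _ hk, coeffEmb_coeff, qExpand_coeff_of_not_dvd (d * q) _,
      map_zero]
    intro hdvd
    apply hk
    push_cast at hdvd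
    exact dvd_trans (dvd_mul_left _ _) hdvd

/-- **`w_q ∘ α = β`** -/
theorem atkinLehnerFF_alpha (x : FF M') :
    atkinLehnerFF (M' * q) q hq (dvd_mul_left q M') (inf_not_sq_dvd M' q hq hqM)
      (heckeAlphaBar Kbar M' q x) = heckeBetaBar Kbar M' q x := by
  have h : ((atkinLehnerFF (M' * q) q hq (dvd_mul_left q M')
      (inf_not_sq_dvd M' q hq hqM) : FF (M' * q) →+* FF (M' * q)).comp
        (heckeAlphaBar Kbar M' q : FF M' →+* FF (M' * q))) =
      (heckeBetaBar Kbar M' q : FF M' →+* FF (M' * q)) := by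
    apply FF_ringHom_ext
    · intro c
      show atkinLehnerFF (M' * q) q hq _ _ (heckeAlphaBar Kbar M' q (algebraMap Kbar (FF M') c)) =
        heckeBetaBar Kbar M' q (algebraMap Kbar (FF M') c)
      rw [AlgHom.commutes, AlgHom.commutes, AlgEquiv.commutes]
    · intro d _ hd
      have : NeZero (d * q) := ⟨mul_ne_zero (NeZero.ne d) (NeZero.ne q)⟩
      show atkinLehnerFF (M' * q) q hq _ _ (heckeAlphaBar Kbar M' q (jdF M' d hd)) =
        heckeBetaBar Kbar M' q (jdF M' d hd)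
      rw [inf_alpha_jdF, inf_beta_jdF]
      exact atkinLehnerFF_jdF_of_not_dvd (M' * q) q hq _ _ d _
        (fun hqd => hqM (dvd_trans hqd hd)) _
  exact RingHom.congr_fun h x

/-- **`w_q ∘ β = α`** -/
theorem atkinLehnerFF_beta (x : FF M') :
    atkinLehnerFF (M' * q) q hq (dvd_mul_left q M') (inf_not_sq_dvd M' q hq hqM)
      (heckeBetaBar Kbar M' q x) = heckeAlphaBar Kbar M' q x := by
  rw [← atkinLehnerFF_alpha M' q hq hqM, atkinLehnerFF_involutive]

/-- `ord_{P0} (α x) = q · ord_{∞'} x` -/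
theorem zeroPlaceBar_ord_alpha (x : FF M') :
    (zeroPlaceBar (M' * q) q hq (dvd_mul_left q M') (inf_not_sq_dvd M' q hq hqM)).ord
      (heckeAlphaBar Kbar M' q x) = (q : ℤ) * (infPlaceBar M').ord x := by
  rw [zeroPlaceBar_ord_eq, atkinLehnerFF_alpha M' q hq hqM, infPlaceBar_ord_beta]

/-- `ord_{P0} (β x) = ord_{∞'} x` -/
theorem zeroPlaceBar_ord_beta (x : FF M') :
    (zeroPlaceBar (M' * q) q hq (dvd_mul_left q M') (inf_not_sq_dvd M' q hq hqM)).ord
      (heckeBetaBar Kbar M' q x) = (infPlaceBar M').ord x := by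
  rw [zeroPlaceBar_ord_eq, atkinLehnerFF_beta M' q hq hqM, infPlaceBar_ord_alpha]

end Degeneracy

section ModC

/-- the order at the cusp `∞` of `F_{N,k}` of a `q`-expansion substitution `X ↦ X^q` -/
theorem infPlaceC_ord_qExpand (k : Type) [Field k] (N q : ℕ) [NeZero q]
    (x y : modularFunctionFieldFullC k N) (h : (y : LaurentSeries k) = qExpand k q x) :
    (infPlaceC k N).ord y = (q : ℤ) * (infPlaceC k N).ord x := by
  rw [infPlaceC_ord, infPlaceC_ord, h, inf_order_qExpand]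

/-- the order at the cusp `∞` over `ℚ̄` of a `q`-expansion substitution `X ↦ X^q` -/
theorem infPlaceBar_ord_qExpand (N q : ℕ) [NeZero N] [NeZero q]
    (x y : FF N) (h : (y : LaurentSeries Kbar) = qExpand Kbar q x) :
    (infPlaceBar N).ord y = (q : ℤ) * (infPlaceBar N).ord x := by
  rw [infPlaceBar_ord, infPlaceBar_ord, h, inf_order_qExpand]

end ModC

end Fermat.Agent.S34lib

end
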