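/-
Item 79 (S34), piece C6a, part (U) (helper27): a CHARACTERISTIC ZERO statement on the cusps of
`X₀(M)`.  No sorry.

`cuspU`: a place `P` of `FF M` (over `ℚ̄`) at which `j` has a simple pole and `j_M = j(q^M)` has a
pole of order `≥ M` is the cusp `∞` (`infPlaceBar M`).

Proof: by `FiberData.exists_index` (S24lib) `P` is the place of the `q_M`-expansion `σ_i` at the
cusp of a coset `i ∈ SL(2,ℤ)/Γ₀(M)`, with ramification index `M`; the conjugate
`j(M · (g⁻¹ z)) = j((a z + b)/δ)` (`a δ = M`, Hermite normal form) has `q_M`-order `-a²`, so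
`a = M` and `g ∈ Γ₀(M)`.
-/
import Mathlib
import Fermat.Agent.S24lib.Final
import Fermat.Agent.S24lib.ConjKRat
import Fermat.Agent.S34lib.InfPlace
import Fermat.Agent.S34lib.GalRR

set_option autoImplicit false

noncomputable section

namespace Fermat.Agent.S34lib

open UpperHalfPlane ModularForm CongruenceSubgroup ModularCurve AlgebraicCurve
open Fermat.Agent.S24lib Fermat.Agent.S20lib
open scoped MatrixGroups

/-- `conj_hermite` (S24lib) with the divisibility `a ∣ g₁₀` made explicit. -/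
theorem cuspU_hermite (d : ℕ) [NeZero d] (g : SL(2, ℤ)) :
    ∃ (a δ : ℕ) (b : ℤ) (ha : 0 < a) (hδ : 0 < δ),
      a * δ = d ∧ 0 ≤ b ∧ b < δ ∧ (a : ℤ) ∣ g 1 0 ∧
      ∀ z : ℍ, jH (nmulH d (g • z)) = jH (affH a δ b ha hδ z) := by
  have hgdet : g 0 0 * g 1 1 - g 0 1 * g 1 0 = 1 := by
    have := g.det_coe
    rw [Matrix.det_fin_two] at this
    exact this
  have hd : (0 : ℤ) < d := by exact_mod_cast Nat.pos_of_ne_zero (NeZero.ne d)
  obtain ⟨p, q, r, s, a, δ, b, hdet, ha, hδ, haδ, hb0, hb1, e00, e01, e10, e11⟩ :=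
    conj_hermite_int d hd (g 0 0) (g 0 1) (g 1 0) (g 1 1) hgdet
  lift a to ℕ using ha.le
  lift δ to ℕ using hδ.le
  have ha' : 0 < a := by exact_mod_cast ha
  have hδ' : 0 < δ := by exact_mod_cast hδ
  let γ' : SL(2, ℤ) := ⟨!![p, q; r, s], by rw [Matrix.det_fin_two_of]; exact hdet⟩
  refine ⟨a, δ, b, ha', hδ', by exact_mod_cast haδ, hb0, hb1, ⟨r, by rw [e10]; ring⟩,
    fun z => ?_⟩
  have key : nmulH d (g • z) = γ' • affH a δ b ha' hδ' z := by
    apply UpperHalfPlane.ext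
    rw [coe_nmulH, UpperHalfPlane.coe_specialLinearGroup_apply,
      UpperHalfPlane.coe_specialLinearGroup_apply, coe_affH]
    simp only [algebraMap_int_eq, eq_intCast, Complex.ofReal_intCast]
    have hγ00 : γ' 0 0 = p := rfl
    have hγ01 : γ' 0 1 = q := rfl
    have hγ10 : γ' 1 0 = r := rfl
    have hγ11 : γ' 1 1 = s := rfl
    rw [hγ00, hγ01, hγ10, hγ11]
    have hδC : (δ : ℂ) ≠ 0 := by exact_mod_cast hδ'.ne'
    have hden1 : ((g 1 0 : ℤ) : ℂ) * (z : ℂ) + ((g 1 1 : ℤ) : ℂ) ≠ 0 :=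
      dist_lin_ne_zero (g 1 0) (g 1 1) (by
        by_contra hcon
        rw [not_or, not_not, not_not] at hcon
        rw [hcon.1, hcon.2] at hgdet
        simp at hgdet) z
    have hden2 : ((r : ℤ) : ℂ) * (((a : ℂ) * (z : ℂ) + (b : ℂ)) / (δ : ℂ)) + ((s : ℤ) : ℂ)
        ≠ 0 := by
      have := dist_lin_ne_zero r s (by
        by_contra hcon
        rw [not_or, not_not, not_not] at hcon
        rw [hcon.1, hcon.2] at hdet
        simp at hdet) (affH a δ b ha' hδ' z)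
      simpa using this
    have E00 : ((d : ℂ)) * ((g 0 0 : ℤ) : ℂ) = (p : ℂ) * (a : ℂ) := by exact_mod_cast e00
    have E01 : ((d : ℂ)) * ((g 0 1 : ℤ) : ℂ) = (p : ℂ) * (b : ℂ) + (q : ℂ) * (δ : ℂ) := by
      exact_mod_cast e01
    have E10 : ((g 1 0 : ℤ) : ℂ) = (r : ℂ) * (a : ℂ) := by exact_mod_cast e10
    have E11 : ((g 1 1 : ℤ) : ℂ) = (r : ℂ) * (b : ℂ) + (s : ℂ) * (δ : ℂ) := by exact_mod_cast e11
    rw [mul_div_assoc', div_eq_div_iff hden1 hden2]
    field_simp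
    rw [E10, E11]
    linear_combination ((r : ℂ) * ((a : ℂ) * (z : ℂ) + (b : ℂ)) + (s : ℂ) * (δ : ℂ)) *
      ((z : ℂ) * E00 + E01)
  rw [key, jH_smul]

/-- the order of a Laurent series `X^(-e) · (c₀ + c₁ X + ⋯)` with `c₀ ≠ 0` -/
theorem cuspU_order_single_mul (e : ℕ) (C : ℕ → ℂ) (hC : C 0 ≠ 0) :
    (HahnSeries.single (-(e : ℤ)) (1 : ℂ) *
      HahnSeries.ofPowerSeries ℤ ℂ (PowerSeries.mk C)).order = -(e : ℤ) := by
  set x := HahnSeries.single (-(e : ℤ)) (1 : ℂ) *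
      HahnSeries.ofPowerSeries ℤ ℂ (PowerSeries.mk C) with hx
  have hcoeff : ∀ k : ℤ, x.coeff k =
      (HahnSeries.ofPowerSeries ℤ ℂ (PowerSeries.mk C)).coeff (k + e) := by
    intro k
    rw [hx, HahnSeries.coeff_single_mul, one_mul, sub_neg_eq_add]
  have h0 : x.coeff (-(e : ℤ)) = C 0 := by
    rw [hcoeff, neg_add_cancel]
    have := HahnSeries.ofPowerSeries_apply_coeff (Γ := ℤ) (R := ℂ) (PowerSeries.mk C) 0
    simpa using this
  have hx0 : x ≠ 0 := HahnSeries.ne_zero_of_coeff_ne_zero (by rw [h0]; exact hC)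
  apply le_antisymm
  · exact HahnSeries.order_le_of_coeff_ne_zero (by rw [h0]; exact hC)
  · by_contra hlt
    rw [not_le] at hlt
    have h2 : x.coeff x.order = 0 := by
      rw [hcoeff]
      exact ofPowerSeries_coeff_neg _ (by omega)
    exact (HahnSeries.coeff_order_eq_zero.not.mpr hx0) h2

/-- **the order of the conjugates of `j_N`**: for `g' ∈ SL(2,ℤ)` the `q_N`-expansion of
`g' • j_N` has order `-a · (N/δ)` where `a δ = N` and `a ∣ (g'⁻¹)₁₀`. -/
theorem cuspU_order (N : ℕ) [NeZero N] (g' : SL(2, ℤ)) :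
    ∃ a δ : ℕ, 0 < a ∧ a * δ = N ∧ (a : ℤ) ∣ (g'⁻¹ : SL(2, ℤ)) 1 0 ∧
      (expInf N (g' • jdWH N N dvd_rfl)).order = -((a * (N / δ) : ℕ) : ℤ) := by
  obtain ⟨a, δ, b, ha, hδ, haδ, -, -, hdiv, hj⟩ := cuspU_hermite N g'⁻¹
  refine ⟨a, δ, ha, haδ, hdiv, ?_⟩
  have hδN : δ ∣ N := Dvd.intro_left a haδ
  have hN : 0 < N := Nat.pos_of_ne_zero (NeZero.ne N)
  obtain ⟨e, he_def⟩ : ∃ e : ℕ, e = a * (N / δ) := ⟨_, rfl⟩
  have he : 0 < e := by
    rw [he_def]
    exact Nat.mul_pos ha (Nat.div_pos (Nat.le_of_dvd hN hδN) hδ)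
  obtain ⟨u, hu⟩ : ∃ u : ℂ, u = zetaC δ ^ b := ⟨_, rfl⟩
  have hune : u ≠ 0 := by
    rw [hu]
    exact zpow_ne_zero _ (Complex.exp_ne_zero _)
  obtain ⟨c', hc'⟩ : ∃ c' : ℕ → ℂ, c' = fun n : ℕ =>
      ((ModularCurve.jq.coeff ((n : ℤ) - 1) : ℚ) : ℂ) * u ^ ((n : ℤ) - 1) := ⟨_, rfl⟩
  have hsum : ∀ z : ℍ, HasSum (fun k : ℕ => (if e ∣ k then c' (k / e) else 0) *
        Function.Periodic.qParam (N : ℝ) (z : ℂ) ^ k)
      (Function.Periodic.qParam (N : ℝ) (z : ℂ) ^ e *
        ((g' • jdWH N N dvd_rfl : WH N) : ℍ → ℂ) z) := by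
    intro z
    apply hasSum_pow_reindex e he c'
    have h := hasSum_jH_affH N a δ b ha hδ hN hδN z
    rw [← hu, ← he_def] at h
    have h2 := h.mul_left (u⁻¹)
    have hval : ((g' • jdWH N N dvd_rfl : WH N) : ℍ → ℂ) z = jH (affH a δ b ha hδ z) := by
      rw [wh_smul_apply]
      show jH (ofComplex ((N : ℂ) * ((g'⁻¹ • z : ℍ) : ℂ))) = _
      rw [jd_raw_eq, hj z]
    have hS : u⁻¹ * (u * Function.Periodic.qParam N (z : ℂ) ^ e * jH (affH a δ b ha hδ z)) =
        Function.Periodic.qParam N (z : ℂ) ^ e *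
          ((g' • jdWH N N dvd_rfl : WH N) : ℍ → ℂ) z := by
      rw [hval]
      field_simp
    have hF : (fun i : ℕ => u⁻¹ * (((ModularCurve.jq.coeff ((i : ℤ) - 1) : ℚ) : ℂ) *
        (u * Function.Periodic.qParam N (z : ℂ) ^ e) ^ i)) =
        fun n : ℕ => c' n * (Function.Periodic.qParam N (z : ℂ) ^ e) ^ n := by
      funext n
      rw [hc']
      simp only
      rw [mul_pow, zpow_sub_one₀ hune, zpow_natCast]
      ring
    rw [hS, hF] at h2
    exact h2
  rw [expInf_eq_of_hasSum N (g' • jdWH N N dvd_rfl) e _ hsum, ← he_def]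
  apply cuspU_order_single_mul
  rw [if_pos (dvd_zero e), Nat.zero_div, hc']
  simp only [Nat.cast_zero, zero_sub]
  rw [coeff_jq_neg_one]
  simp only [Rat.cast_one, one_mul]
  exact zpow_ne_zero _ hune

/-- at a coset represented in `Γ₀(M)` the expansion `σInf` is the `q`-expansion -/
theorem cuspU_σInf_of_mem (M : ℕ) [NeZero M] (i : SL(2, ℤ) ⧸ Gamma0 M) (hi : i.out ∈ Gamma0 M)
    (f : FF M) : σInf M i f = inclL M (f : LaurentSeries Kbar) := by
  have h : σInf M i = embF M (expInf M) (expInf_injective M) := by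
    apply FF_ringHom_ext
    · intro c
      unfold σInf
      rw [embF_const, embF_const, twist_apply, smul_whC]
    · intro d _ hd
      unfold σInf
      rw [embF_jdF, embF_jdF, twist_apply, smul_jdWH hd _ hi]
  rw [h]
  unfold embF
  rw [RingHom.comp_apply, liftMF_ιF]

/-- **(U)**: a place of `FF M` at which `j` has a simple pole and `j_M` a pole of order `≥ M`
is the cusp `∞`. -/
theorem cuspU (M : ℕ) [NeZero M] (P : Place Kbar (FF M)) (h1 : P.ord (jF M) = -1)
    (h2 : P.ord (jdF M M dvd_rfl) ≤ -(M : ℤ)) : P = infPlaceBar M := by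
  letI : Algebra Kbar ℂ := ιC.toAlgebra
  have hMpos : 0 < M := Nat.pos_of_ne_zero (NeZero.ne M)
  have hM0 : (0 : ℤ) < M := by exact_mod_cast hMpos
  have hj0 : jF M ≠ 0 := by
    intro h
    rw [h, Place.ord_zero] at h1
    norm_num at h1
  have hjM0 : jdF M M dvd_rfl ≠ 0 := by
    intro h
    rw [h, Place.ord_zero] at h2
    omega
  have hv : 0 < P.ord (jF M)⁻¹ := by
    rw [P.ord_inv, h1]
    norm_num
  obtain ⟨i, m, hm, hall⟩ := (fiberInf M).exists_index P hv
  have hmM : (m : ℤ) = M := by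
    have h := hall (jF M)⁻¹ (inv_ne_zero hj0)
    rw [(fiberInf M).order_u i, P.ord_inv, h1] at h
    have hs : (fiberInf M).s = M := rfl
    rw [hs] at h
    simp only [neg_neg, mul_one] at h
    exact h.symm
  have hσ : (fiberInf M).σ i (jdF M M dvd_rfl) = expInf M (i.out • jdWH M M dvd_rfl) := by
    show σInf M i _ = _
    unfold σInf
    rw [embF_jdF, twist_apply]
  obtain ⟨a, δ, ha, haδ, hdiv, hord⟩ := cuspU_order M i.out
  have h3 := hall (jdF M M dvd_rfl) hjM0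
  rw [hσ, hord, hmM] at h3
  have hδpos : 0 < δ := by
    rcases Nat.eq_zero_or_pos δ with h0 | h0
    · rw [h0, mul_zero] at haδ
      exact absurd haδ.symm (NeZero.ne M)
    · exact h0
  have hMδ : M / δ = a := by
    rw [← haδ]
    exact Nat.mul_div_cancel a hδpos
  rw [hMδ] at h3
  have h4 : (M : ℤ) * M ≤ a * a := by
    have h5 : (M : ℤ) * P.ord (jdF M M dvd_rfl) ≤ M * (-(M : ℤ)) :=
      mul_le_mul_of_nonneg_left h2 hM0.le
    push_cast at h3
    nlinarith
  have haM : a = M := by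
    have hale : a ≤ M := Nat.le_of_dvd hMpos (Dvd.intro δ haδ)
    have hale' : (a : ℤ) ≤ M := by exact_mod_cast hale
    have ha0 : (0 : ℤ) ≤ a := Int.natCast_nonneg a
    have : (M : ℤ) ≤ a := by nlinarith
    omega
  have hmem : i.out ∈ Gamma0 M := by
    have h5 : (i.out⁻¹ : SL(2, ℤ)) ∈ Gamma0 M := by
      rw [Gamma0_mem]
      rw [haM] at hdiv
      exact (ZMod.intCast_zmod_eq_zero_iff_dvd _ _).mpr hdiv
    have h6 := inv_mem h5
    rwa [inv_inv] at h6
  have hinf : ∀ f : FF M, f ≠ 0 →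
      ((fiberInf M).σ i f).order = m * (infPlaceBar M).ord f := by
    intro f hf
    show (σInf M i f).order = _
    rw [cuspU_σInf_of_mem M i hmem f, infPlaceBar_ord, hmM]
    have hf' : (f : LaurentSeries Kbar) ≠ 0 := fun h0 => hf (Subtype.ext h0)
    have hc : coeffMap ιC (f : LaurentSeries Kbar) ≠ 0 := by
      intro h0
      have := galrr_order_coeffMap ιC ιC_injective (f : LaurentSeries Kbar)
      apply hf'
      ext n
      have h7 := congrArg (fun y : LaurentSeries ℂ => y.coeff n) h0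
      simp only [coeffMap_coeff, HahnSeries.coeff_zero] at h7
      rw [HahnSeries.coeff_zero]
      exact ιC_injective (by rw [h7, map_zero])
    unfold inclL
    rw [RingHom.comp_apply, galrr_order_qExpand M hc, galrr_order_coeffMap ιC ιC_injective]
  rw [← (fiberInf M).place_eq_of_index hm hall, (fiberInf M).place_eq_of_index hm hinf]

end Fermat.Agent.S34lib

end
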