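/-
Item 79 (S34), piece C6a, FORMAL part (helper18): the place reduction at an auxiliary level sends
exactly one cusp `P₁` to `Q∞ = infPlaceC k M`, and `P₁` satisfies `ord j = -1`,
`ord j_d ≤ -d` for all `d ∣ M`.  Together with the characteristic-zero uniqueness statement (U)
(helper27, `cuspU`) this gives `r (infPlaceBar M) = infPlaceC k M`.

* `liftInf_exists_cusp`;
* `liftInf_hrInf_of_unique` : `r (infPlaceBar M) = infPlaceC k M` from (U) as a hypothesis.
No sorry.
-/
import Mathlib
import Fermat.Agent.S34lib.LiftInf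
import Fermat.Agent.GM.RedInstSym
import Fermat.Agent.GM.RedGenBase
import Fermat.Agent.S16lib.UERTail
import Fermat.Agent.S28lib.IntAlg

set_option autoImplicit false
set_option linter.style.haveILetI false
set_option synthInstance.maxHeartbeats 400000

noncomputable section

namespace Fermat.Agent.S34lib

open AlgebraicCurve ModularCurve IntermediateField CongruenceSubgroup
open Fermat.Agent.S24lib Fermat.Agent.S28lib Fermat.Agent.FFlib Fermat.Agent.RRlib
  Fermat.Agent.GoodRed Fermat.Agent.GM Fermat.Agent.S16lib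
open scoped MatrixGroups

variable {M : ℕ} [NeZero M] {A : ValuationSubring Kbar}

/-! ### `j_d` in characteristic zero -/

theorem liftInf_jdF_isIntegral (d : ℕ) [NeZero d] (hd : d ∣ M) :
    IsIntegral ↥(Algebra.adjoin Kbar ({jF M} : Set (FF M))) (jdF M d hd) := by
  rw [isIntegral_adjoin_singleton_iff (R := Kbar) (jF M) (jdF M d hd)]
  exact jdK_isIntegralElem M ⟨d, hd⟩

/-- the poles of `j_d` are cusps -/
theorem liftInf_ord_jdF_nonneg (P : Place Kbar (FF M)) (hP : 0 ≤ P.ord (jF M))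
    (d : ℕ) [NeZero d] (hd : d ∣ M) : 0 ≤ P.ord (jdF M d hd) :=
  uert_ord_nonneg_of_isIntegral P hP (liftInf_jdF_isIntegral d hd)

theorem liftInf_series_mem (d : ℕ) [NeZero d] (hd : d ∣ M) :
    coeffMap A.subtype (qExpand A d (jqModC A)) ∈ modularFunctionFieldBar M :=
  hr_gen_mem_bar M A _ ⟨d, inferInstance, hd, rfl⟩

theorem liftInf_jdF_eq (d : ℕ) [NeZero d] (hd : d ∣ M) :
    jdF M d hd = ⟨coeffMap A.subtype (qExpand A d (jqModC A)), liftInf_series_mem d hd⟩ := by
  apply Subtype.ext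
  rw [coe_jdF]
  show coeffEmb Kbar (qExpand ℚ d jq) = coeffMap A.subtype (qExpand A d (jqModC A))
  rw [hr_coeffMap_gen, ← jqModC_rat]
  exact hr_coeffMap_gen (algebraMap ℚ Kbar) d

variable {R : ConstRed A (IsLocalRing.residue A) (Fk (IsLocalRing.ResidueField A) M) (FF M)}

/-- `j_d ∈ O` -/
theorem liftInf_jdF_mem (hR : IsSeriesRed R) (d : ℕ) [NeZero d] (hd : d ∣ M) :
    jdF M d hd ∈ R.O := by
  rw [liftInf_jdF_eq (A := A) d hd]
  exact hR.mem _ (liftInf_series_mem d hd)

/-- `red j_d = j̄_d` -/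
theorem liftInf_coe_red_jdF (hR : IsSeriesRed R) (d : ℕ) [NeZero d] (hd : d ∣ M) :
    ((R.red ⟨jdF M d hd, liftInf_jdF_mem hR d hd⟩ : Fk (IsLocalRing.ResidueField A) M) :
      LaurentSeries (IsLocalRing.ResidueField A))
      = qExpand (IsLocalRing.ResidueField A) d (jqModC (IsLocalRing.ResidueField A)) := by
  have h := hR.red (qExpand A d (jqModC A)) (liftInf_series_mem d hd)
  have e : (⟨jdF M d hd, liftInf_jdF_mem hR d hd⟩ : R.O)
      = ⟨⟨coeffMap A.subtype (qExpand A d (jqModC A)), liftInf_series_mem d hd⟩,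
          hR.mem _ (liftInf_series_mem d hd)⟩ :=
    Subtype.ext (liftInf_jdF_eq (A := A) d hd)
  rw [e, h, hr_coeffMap_gen]

theorem liftInf_order_red_jdF (hR : IsSeriesRed R) (d : ℕ) [NeZero d] (hd : d ∣ M) :
    ((R.red ⟨jdF M d hd, liftInf_jdF_mem hR d hd⟩ : Fk (IsLocalRing.ResidueField A) M) :
      LaurentSeries (IsLocalRing.ResidueField A)).order = -(d : ℤ) := by
  rw [liftInf_coe_red_jdF hR d hd, rg_order_qExpand, rg_order_jqModC]
  ring

section Places

variable [IsAlgClosed (IsLocalRing.ResidueField A)]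
variable [RRHyp Kbar (FF M)] [RRHyp (IsLocalRing.ResidueField A) (Fk (IsLocalRing.ResidueField A) M)]
variable {r : Place Kbar (FF M) →
    Place (IsLocalRing.ResidueField A) (Fk (IsLocalRing.ResidueField A) M)}

/-- the pole divisors of `j` and `j̄` have the same degree -/
theorem liftInf_exists_poles (hR : IsSeriesRed R)
    (hD : Nonempty (FiberData (IsLocalRing.ResidueField A) (Fk (IsLocalRing.ResidueField A) M)
      (IsLocalRing.ResidueField A) ((jk (IsLocalRing.ResidueField A) M)⁻¹)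
      (SL(2, ℤ) ⧸ Gamma0 M) ModularGroup.T)) :
    ∃ (D : Divisor Kbar (FF M))
      (X : Divisor (IsLocalRing.ResidueField A) (Fk (IsLocalRing.ResidueField A) M)),
      (∀ v : Place Kbar (FF M),
        D v = max 0 (-(v.ord (((⟨jF M, dw_jF_mem hR⟩ : R.O) : R.O) : FF M)))) ∧
      (∀ w : Place (IsLocalRing.ResidueField A) (Fk (IsLocalRing.ResidueField A) M),
        X w = max 0 (-(w.ord (R.red ⟨jF M, dw_jF_mem hR⟩)))) ∧
      Divisor.degree D ≤ Divisor.degree X := by
  classical
  set D : Divisor Kbar (FF M) := (-divOf (K := Kbar) (jF M)) ⊔ 0 with hDdef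
  set X : Divisor (IsLocalRing.ResidueField A) (Fk (IsLocalRing.ResidueField A) M) :=
    (-divOf (K := IsLocalRing.ResidueField A) (jk (IsLocalRing.ResidueField A) M)) ⊔ 0
    with hXdef
  have hD' : ∀ v : Place Kbar (FF M), D v = max 0 (-(v.ord (jF M))) := by
    intro v
    rw [hDdef, Finsupp.sup_apply, Finsupp.neg_apply, divOf_apply', Finsupp.coe_zero,
      Pi.zero_apply, max_comm]
  have hX' : ∀ w : Place (IsLocalRing.ResidueField A) (Fk (IsLocalRing.ResidueField A) M),
      X w = max 0 (-(w.ord (jk (IsLocalRing.ResidueField A) M))) := by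
    intro w
    rw [hXdef, Finsupp.sup_apply, Finsupp.neg_apply, divOf_apply', Finsupp.coe_zero,
      Pi.zero_apply, max_comm]
  refine ⟨D, X, hD', ?_, ?_⟩
  · intro w
    rw [dw_red_jF hR]
    exact hX' w
  · rw [dd_degree_poles_jF M D hD', dd_degree_poles_jk M hD X hX']

/-- **exactly one cusp over `Q∞`**: there is a place `P` with `r P = Q∞`, `ord_P j = -1` and
`ord_P j_d ≤ -d` for all `d ∣ M`. -/
theorem liftInf_exists_cusp (hR : IsSeriesRed R)
    (hD : Nonempty (FiberData (IsLocalRing.ResidueField A) (Fk (IsLocalRing.ResidueField A) M)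
      (IsLocalRing.ResidueField A) ((jk (IsLocalRing.ResidueField A) M)⁻¹)
      (SL(2, ℤ) ⧸ Gamma0 M) ModularGroup.T))
    (hr : R.IsPlaceRed r) :
    ∃ P : Place Kbar (FF M), r P = infPlaceC (IsLocalRing.ResidueField A) M ∧
      P.ord (jF M) = -1 ∧
      ∀ (d : ℕ) [NeZero d] (hd : d ∣ M), P.ord (jdF M d hd) ≤ -(d : ℤ) := by
  classical
  set k := IsLocalRing.ResidueField A with hk
  set Q := infPlaceC k M with hQ
  obtain ⟨D, X, hD', hX', hdeg⟩ := liftInf_exists_poles hR hD
  have hnc : R.red ⟨jF M, dw_jF_mem hR⟩ ∉ Set.range (algebraMap k (Fk k M)) := by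
    rw [dw_red_jF hR]
    exact dd_jk_nonconst M
  have hmap := hr.mapDomain_poles ⟨jF M, dw_jF_mem hR⟩ hnc hD' hX' hdeg
  have hXQ : X Q = 1 := by
    rw [hX', dw_red_jF hR, hQ, infPlaceC_ord, coe_jk, inf_order_jqModC]
    norm_num
  have hDnn : ∀ v, 0 ≤ D v := fun v => by rw [hD']; exact le_max_left _ _
  set f : Place Kbar (FF M) → ℤ := fun P => if r P = Q then D P else 0 with hf
  have hfnn : ∀ P, 0 ≤ f P := by
    intro P
    rw [hf]
    show 0 ≤ (if r P = Q then D P else 0)
    split_ifs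
    · exact hDnn P
    · exact le_refl _
  have hsum : ∑ P ∈ D.support, f P = 1 := by
    have h := dz_mapDomain_apply r D Q
    rw [hmap, hXQ] at h
    exact h.symm
  -- the cusp over `Q`
  obtain ⟨P₁, hP₁s, hP₁⟩ : ∃ P ∈ D.support, f P ≠ 0 := by
    by_contra hcon
    have : ∑ P ∈ D.support, f P = 0 := by
      refine Finset.sum_eq_zero fun P hP => ?_
      by_contra h0
      exact hcon ⟨P, hP, h0⟩
    rw [this] at hsum
    exact zero_ne_one hsum
  have hrP₁ : r P₁ = Q := by
    by_contra h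
    apply hP₁
    rw [hf]
    show (if r P₁ = Q then D P₁ else 0) = 0
    rw [if_neg h]
  have hfP₁ : f P₁ = D P₁ := by
    rw [hf]
    show (if r P₁ = Q then D P₁ else 0) = D P₁
    rw [if_pos hrP₁]
  have hsplit := Finset.add_sum_erase D.support f hP₁s
  have hrest : 0 ≤ ∑ P ∈ D.support.erase P₁, f P := Finset.sum_nonneg fun P _ => hfnn P
  have hfP₁pos : 0 < f P₁ := lt_of_le_of_ne (hfnn P₁) (Ne.symm hP₁)
  have hfP₁1 : f P₁ = 1 := by omega
  have hrest0 : ∑ P ∈ D.support.erase P₁, f P = 0 := by omega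
  have hother : ∀ P, r P = Q → P ≠ P₁ → 0 ≤ P.ord (jF M) := by
    intro P hP hne
    have hDP : D P = 0 := by
      by_cases hPs : P ∈ D.support
      · have hmem : P ∈ D.support.erase P₁ := Finset.mem_erase.mpr ⟨hne, hPs⟩
        have h0 := (Finset.sum_eq_zero_iff_of_nonneg (fun P _ => hfnn P)).mp hrest0 P hmem
        rw [hf] at h0
        have h1 : (if r P = Q then D P else 0) = 0 := h0
        rwa [if_pos hP] at h1
      · exact Finsupp.notMem_support_iff.mp hPs
    rw [hD'] at hDP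
    have h1 : -(P.ord (jF M)) ≤ 0 := by
      have := le_max_right 0 (-(P.ord (jF M)))
      have h2 : max 0 (-(P.ord (((⟨jF M, dw_jF_mem hR⟩ : R.O) : R.O) : FF M))) = 0 := hDP
      have h3 : max 0 (-(P.ord (jF M))) = 0 := h2
      omega
    omega
  have hord₁ : P₁.ord (jF M) = -1 := by
    have h1 : D P₁ = 1 := by rw [← hfP₁]; exact hfP₁1
    rw [hD'] at h1
    have h2 : max 0 (-(P₁.ord (jF M))) = 1 := h1
    rcases max_cases 0 (-(P₁.ord (jF M))) with ⟨h3, _⟩ | ⟨h3, _⟩
    · rw [h3] at h2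
      exact absurd h2 (by norm_num)
    · rw [h3] at h2
      omega
  refine ⟨P₁, hrP₁, hord₁, ?_⟩
  intro d _ hd
  set y : R.O := ⟨jdF M d hd, liftInf_jdF_mem hR d hd⟩ with hy
  have hordy : Q.ord (R.red y) = -(d : ℤ) := by
    rw [hQ, infPlaceC_ord, hy, liftInf_order_red_jdF hR d hd]
  have hdpos : (0 : ℤ) < d := by exact_mod_cast Nat.pos_of_ne_zero (NeZero.ne d)
  have hy0 : R.red y ≠ 0 := by
    intro h0
    rw [h0, Place.ord_zero] at hordy
    omega
  have hAx := hr.2 y hy0 Q
  rw [hordy, dz_mapDomain_apply] at hAx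
  set E := divOf (K := Kbar) ((y : R.O) : FF M) with hE
  set g : Place Kbar (FF M) → ℤ := fun P => if r P = Q then E P else 0 with hg
  have hgnn : ∀ P, P ≠ P₁ → 0 ≤ g P := by
    intro P hne
    rw [hg]
    show 0 ≤ (if r P = Q then E P else 0)
    split_ifs with h
    · rw [hE, divOf_apply']
      exact liftInf_ord_jdF_nonneg P (hother P h hne) d hd
    · exact le_refl _
  have hgP₁ : g P₁ = P₁.ord (jdF M d hd) := by
    rw [hg]
    show (if r P₁ = Q then E P₁ else 0) = _
    rw [if_pos hrP₁, hE, divOf_apply']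
  have hle : g P₁ ≤ ∑ P ∈ E.support, g P := by
    by_cases hPs : P₁ ∈ E.support
    · have hsplit2 := Finset.add_sum_erase E.support g hPs
      have hrest2 : 0 ≤ ∑ P ∈ E.support.erase P₁, g P :=
        Finset.sum_nonneg fun P hP => hgnn P (Finset.ne_of_mem_erase hP)
      omega
    · have h0 : g P₁ = 0 := by
        rw [hg]
        show (if r P₁ = Q then E P₁ else 0) = 0
        rw [if_pos hrP₁]
        exact Finsupp.notMem_support_iff.mp hPs
      rw [h0]
      exact Finset.sum_nonneg fun P hP => hgnn P (fun h => hPs (h ▸ hP))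
  rw [hgP₁] at hle
  have hAx' : ∑ P ∈ E.support, g P = -(d : ℤ) := hAx
  omega

/-- **C6a from (U)**: if `infPlaceBar M` is the only place with `ord j = -1` and `ord j_d ≤ -d`
for all `d ∣ M`, the place reduction sends it to `infPlaceC k M`. -/
theorem liftInf_hrInf_of_unique (hR : IsSeriesRed R)
    (hD : Nonempty (FiberData (IsLocalRing.ResidueField A) (Fk (IsLocalRing.ResidueField A) M)
      (IsLocalRing.ResidueField A) ((jk (IsLocalRing.ResidueField A) M)⁻¹)
      (SL(2, ℤ) ⧸ Gamma0 M) ModularGroup.T))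
    (hr : R.IsPlaceRed r)
    (hU : ∀ P : Place Kbar (FF M), P.ord (jF M) = -1 →
      (∀ (d : ℕ) [NeZero d] (hd : d ∣ M), P.ord (jdF M d hd) ≤ -(d : ℤ)) → P = infPlaceBar M) :
    r (infPlaceBar M) = infPlaceC (IsLocalRing.ResidueField A) M := by
  obtain ⟨P, hP, h1, h2⟩ := liftInf_exists_cusp hR hD hr
  rw [← hU P h1 h2]
  exact hP

end Places

end Fermat.Agent.S34lib

end
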