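/-
Item 79 (S34), pieces C6 + C6a, FINAL form (helper18): at an auxiliary level `M` (`IsAuxLevel q M`),
for EVERY constant reduction `R` of `FF M` along `A ∣ q` that is compatible with `q`-expansions
(`IsSeriesRed R`):

* `liftInf_hrInf`      : a place reduction sends `infPlaceBar M` to `infPlaceC k M`;
* `liftInf_exists_r`   : there is `r` with (Ax), (F3) and `r (infPlaceBar M) = infPlaceC k M`;
* `liftInf_lift`       : every `a ∈ L(n • Q∞)` is `red x`, `x ∈ L(max n (2g) • P∞) ∩ O`;
* `liftInf_order`      : for `2 g ≤ n` some `x ∈ L(n • P∞) ∩ O` has `red x` of `X`-adic order `-n`.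
Uses `cuspU` (helper27).  No sorry.
-/
import Mathlib
import Fermat.Agent.S34lib.LiftInfCusp
import Fermat.Agent.S34lib.CuspU

set_option autoImplicit false
set_option linter.style.haveILetI false
set_option synthInstance.maxHeartbeats 400000

noncomputable section

namespace Fermat.Agent.S34lib

open AlgebraicCurve ModularCurve IntermediateField CongruenceSubgroup
open Fermat.Agent.S24lib Fermat.Agent.FFlib Fermat.Agent.RRlib Fermat.Agent.GoodRed
  Fermat.Agent.GM
open scoped MatrixGroups

variable {M : ℕ} [NeZero M] {A : ValuationSubring Kbar}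
variable {R : ConstRed A (IsLocalRing.residue A) (Fk (IsLocalRing.ResidueField A) M) (FF M)}

/-- **C6a**: the place reduction sends the cusp `∞` to the cusp `∞`. -/
theorem liftInf_hrInf [IsAlgClosed (IsLocalRing.ResidueField A)]
    [RRHyp Kbar (FF M)] [RRHyp (IsLocalRing.ResidueField A) (Fk (IsLocalRing.ResidueField A) M)]
    {r : Place Kbar (FF M) →
      Place (IsLocalRing.ResidueField A) (Fk (IsLocalRing.ResidueField A) M)}
    (hR : IsSeriesRed R)
    (hD : Nonempty (FiberData (IsLocalRing.ResidueField A) (Fk (IsLocalRing.ResidueField A) M)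
      (IsLocalRing.ResidueField A) ((jk (IsLocalRing.ResidueField A) M)⁻¹)
      (SL(2, ℤ) ⧸ Gamma0 M) ModularGroup.T))
    (hr : R.IsPlaceRed r) :
    r (infPlaceBar M) = infPlaceC (IsLocalRing.ResidueField A) M :=
  liftInf_hrInf_of_unique hR hD hr (fun P h1 h => cuspU M P h1 (h M dvd_rfl))

/-- **C6, the place reduction with all its properties**, for every `IsSeriesRed` reduction at an
auxiliary level. -/
theorem liftInf_exists_r (q : ℕ) [Fact q.Prime] (haux : IsAuxLevel q M)
    (hA : A.LiesOverPrime q) (hR : IsSeriesRed R) :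
    haveI : IsAlgClosed (IsLocalRing.ResidueField A) := isAlgClosed_residueField A
    haveI : RRHyp Kbar (FF M) := mod_rrHyp M
    haveI : RRHyp (IsLocalRing.ResidueField A) (Fk (IsLocalRing.ResidueField A) M) :=
      mr_rrHyp (IsLocalRing.ResidueField A) M
    ∃ r : Place Kbar (FF M) →
        Place (IsLocalRing.ResidueField A) (Fk (IsLocalRing.ResidueField A) M),
      R.IsPlaceRed r ∧
      (∀ D : Divisor Kbar (FF M), 2 * (genusFF Kbar (FF M) : ℤ) - 2 < Divisor.degree D →
        R.W D = riemannRochSpace (K := IsLocalRing.ResidueField A) (Finsupp.mapDomain r D)) ∧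
      genusFF (IsLocalRing.ResidueField A) (Fk (IsLocalRing.ResidueField A) M)
        = genusFF Kbar (FF M) ∧
      r (infPlaceBar M) = infPlaceC (IsLocalRing.ResidueField A) M := by
  haveI : IsAlgClosed (IsLocalRing.ResidueField A) := isAlgClosed_residueField A
  haveI : Infinite (IsLocalRing.ResidueField A) := IsAlgClosed.instInfinite
  haveI : RRHyp Kbar (FF M) := mod_rrHyp M
  haveI : RRHyp (IsLocalRing.ResidueField A) (Fk (IsLocalRing.ResidueField A) M) :=
    mr_rrHyp (IsLocalRing.ResidueField A) M
  have hg := genusFF_le_modL M haux A hA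
  obtain ⟨r, hr, hW⟩ := R.exists_isPlaceRed hg
  exact ⟨r, hr, hW, le_antisymm (R.genusFF_le) hg,
    liftInf_hrInf hR (exists_fiberData_modL' M haux.1 A hA) hr⟩

/-- **C6, lifting with pole control**: every function of `F_{M,k}` with a pole of order `≤ n` at
`Q∞` and no other pole is the reduction of an element of `O` with a pole of order
`≤ max n (2g)` at `P∞` and no other pole. -/
theorem liftInf_lift (q : ℕ) [Fact q.Prime] (haux : IsAuxLevel q M)
    (hA : A.LiesOverPrime q) (hR : IsSeriesRed R) (n : ℤ)
    (a : Fk (IsLocalRing.ResidueField A) M)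
    (ha : a ∈ riemannRochSpace (K := IsLocalRing.ResidueField A)
      (Finsupp.single (infPlaceC (IsLocalRing.ResidueField A) M) n)) :
    ∃ x : R.O, ((x : R.O) : FF M) ∈ riemannRochSpace (K := Kbar)
        (Finsupp.single (infPlaceBar M) (max n (2 * (genusFF Kbar (FF M) : ℤ)))) ∧
      R.red x = a := by
  haveI : IsAlgClosed (IsLocalRing.ResidueField A) := isAlgClosed_residueField A
  haveI : RRHyp Kbar (FF M) := mod_rrHyp M
  haveI : RRHyp (IsLocalRing.ResidueField A) (Fk (IsLocalRing.ResidueField A) M) :=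
    mr_rrHyp (IsLocalRing.ResidueField A) M
  obtain ⟨r, _, hW, _, hrInf⟩ := liftInf_exists_r q haux hA hR
  exact liftInf_exists_lift hW hrInf n a ha

/-- **C6, exact pole order**: for `2 g ≤ n` there is `x ∈ L(n • P∞) ∩ O` whose reduction has
`X`-adic order exactly `-n`. -/
theorem liftInf_order (q : ℕ) [Fact q.Prime] (haux : IsAuxLevel q M)
    (hA : A.LiesOverPrime q) (hR : IsSeriesRed R) (n : ℕ)
    (hn : 2 * genusFF Kbar (FF M) ≤ n) :
    ∃ x : R.O, ((x : R.O) : FF M) ∈ riemannRochSpace (K := Kbar)
        (Finsupp.single (infPlaceBar M) (n : ℤ)) ∧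
      ((R.red x : Fk (IsLocalRing.ResidueField A) M) :
        LaurentSeries (IsLocalRing.ResidueField A)).order = -(n : ℤ) := by
  haveI : IsAlgClosed (IsLocalRing.ResidueField A) := isAlgClosed_residueField A
  haveI : RRHyp Kbar (FF M) := mod_rrHyp M
  haveI : RRHyp (IsLocalRing.ResidueField A) (Fk (IsLocalRing.ResidueField A) M) :=
    mr_rrHyp (IsLocalRing.ResidueField A) M
  obtain ⟨r, _, hW, hgeq, hrInf⟩ := liftInf_exists_r q haux hA hR
  exact liftInf_exists_order hW hrInf hgeq n hn

end Fermat.Agent.S34lib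

end
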