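/-
Item 79 (S34), piece C12 KUMMER-U (helper4): the Kummer function `u = σ f / f` of the class
`(σ - 1) [D]`, `m D = div f`, as input of the twisted gluing (`Twist.lean`, helper16).

Abstract part (`[RRBase K F]`, `R₁ R₂ : ConstRed` on `F`, `S = SSRed.ofPair R₁ R₂`):
* `kummerU_exists_div` : `m ∣ ord_P f` for all `P` ⇒ `∃ D, ∀ v, v.ord f = m * D v`;
* `kummerU_ord` : `ord_v (g • f / f) = m * (g • D - D) v`;
* `kummerU_exists` : for `g` inertial for `R₁`, `R₂`: `u, uinv : S.O`, `u * uinv = 1`,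
  `(u : F) = g • f / f`, `S.red u = (π a, π b)`, `S.red uinv = ((π a)⁻¹, (π b)⁻¹)`,
  `ord_v u = m * E v`, `E = g • D - D`, `deg E = 0`;
* `kummerU_twistAut` : an inertial `h` with `h • D₁ = D₁` is a `TwistAut S G D₁ h 1`;
* `kummerU_of_principal` : `div u = m E`, `h E - Q E = div s` ⇒ `h • u / u ^ Q = c · s ^ m`.

Concrete part (`FF N`, `q ‖ N`, `R₀ = inredZero R`, `D₁ = cuspDiv 1 1`, `σ, τ ∈ I_A`):
* `kummerU_exists_al`, `kummerU_twistAut_al`, `kummerU_kummerComm` (the Kummer form of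
  `UnipK` from the principality of `τ E - E`).
-/
import Mathlib
import Fermat.Agent.S34lib.GalRR
import Fermat.Agent.S34lib.Twist

set_option autoImplicit false
set_option synthInstance.maxHeartbeats 400000

noncomputable section

namespace Fermat.Agent.S34lib

open AlgebraicCurve Fermat.Agent.GoodRed Fermat.Agent.RRlib ModularCurve HahnSeries
  Fermat.Agent.S24lib

section Abstract

variable {K F k Fk Fk₂ : Type*} [Field K] [Field F] [Algebra K F] [Field k] [Field Fk]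
  [Algebra k Fk] [Field Fk₂] [Algebra k Fk₂]
variable {A : ValuationSubring K} {π : A →+* k}

/-- a function all of whose orders are divisible by `m` has a divisor of the form `m • D` -/
theorem kummerU_exists_div [RRBase K F] {f : F} (hf : f ≠ 0) {m : ℕ} (hm : m ≠ 0)
    (hdiv : ∀ P : Place K F, (m : ℤ) ∣ P.ord f) :
    ∃ D : Divisor K F, ∀ v : Place K F, v.ord f = m * D v := by
  refine ⟨(divOf (K := K) f).mapRange (fun n => n / (m : ℤ)) (by simp), fun v => ?_⟩
  rw [Finsupp.mapRange_apply, divOf_apply hf]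
  exact (Int.mul_ediv_cancel' (hdiv v)).symm

/-- the same, with `deg D = 0` -/
theorem kummerU_exists_div_deg [RRBase K F] {f : F} (hf : f ≠ 0) {m : ℕ} (hm : m ≠ 0)
    (hdiv : ∀ P : Place K F, (m : ℤ) ∣ P.ord f) :
    ∃ D : Divisor K F, (∀ v : Place K F, v.ord f = m * D v) ∧ Divisor.degree D = 0 := by
  obtain ⟨D, hD⟩ := kummerU_exists_div hf hm hdiv
  refine ⟨D, hD, ?_⟩
  have h1 : m • D = divOf (K := K) f := by
    ext v
    rw [Finsupp.smul_apply, divOf_apply hf, hD, nsmul_eq_mul]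
  have h2 : (m : ℤ) * Divisor.degree D = 0 := by
    rw [← nsmul_eq_mul, ← map_nsmul, h1, degree_divOf]
  rcases mul_eq_zero.mp h2 with h | h
  · exact absurd (by exact_mod_cast h) hm
  · exact h

theorem kummerU_smul_ne_zero (g : SemilinearAut K F) {f : F} (hf : f ≠ 0) : g • f ≠ 0 :=
  fun h0 => hf (by
    have := congrArg (g⁻¹ • ·) h0
    simpa using this)

/-- the divisor of `g • f / f` is `m (g • D - D)` -/
theorem kummerU_ord (g : SemilinearAut K F) {f : F} (hf : f ≠ 0) {m : ℕ} {D : Divisor K F}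
    (hD : ∀ v : Place K F, v.ord f = m * D v) (v : Place K F) :
    v.ord (g • f / f) = m * (g • D - D) v := by
  rw [uk_ord_div v (kummerU_smul_ne_zero g hf) hf, uk_ord_smul' g v, hD, hD,
    Finsupp.sub_apply, SemilinearAut.divisor_smul_apply]
  ring

/-- `g • D - D` has degree `0` -/
theorem kummerU_degree (g : SemilinearAut K F) (D : Divisor K F) :
    Divisor.degree (g • D - D) = 0 := by
  rw [map_sub, SemilinearAut.degree_smul, sub_self]

/-- **KUMMER-U**: the Kummer function `u = g • f / f` as a unit of the sup-norm ball with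
constant reduction. -/
theorem kummerU_exists [RRBase K F] {R₁ : ConstRed A π Fk F} {R₂ : ConstRed A π Fk₂ F}
    {g : SemilinearAut K F} (hg₁ : IsInertial R₁ g) (hg₂ : IsInertial R₂ g)
    {f : F} (hf : f ≠ 0) {m : ℕ} (hm : m ≠ 0) (hdiv : ∀ P : Place K F, (m : ℤ) ∣ P.ord f) :
    ∃ (D : Divisor K F) (u uinv : (SSRed.ofPair R₁ R₂).O) (a b : A),
      (∀ v : Place K F, v.ord f = m * D v) ∧ Divisor.degree (g • D - D) = 0 ∧
      ((u : (SSRed.ofPair R₁ R₂).O) : F) = g • f / f ∧ u * uinv = 1 ∧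
      π a ≠ 0 ∧ π b ≠ 0 ∧
      (SSRed.ofPair R₁ R₂).red u = (algebraMap k Fk (π a), algebraMap k Fk₂ (π b)) ∧
      (SSRed.ofPair R₁ R₂).red uinv = (algebraMap k Fk (π a)⁻¹, algebraMap k Fk₂ (π b)⁻¹) ∧
      ∀ v : Place K F, v.ord ((u : (SSRed.ofPair R₁ R₂).O) : F) = m * (g • D - D) v := by
  obtain ⟨D, hD⟩ := kummerU_exists_div hf hm hdiv
  obtain ⟨a, b, ha, hb, hmem, hred⟩ := inred_ss_exists_const hg₁ hg₂ hf
  have hu0 : g • f / f ≠ 0 := div_ne_zero (kummerU_smul_ne_zero g hf) hf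
  have hinv : (g • f / f)⁻¹ ∈ ssBall R₁ R₂ :=
    ⟨hg₁.smul_div_inv_mem hf, hg₂.smul_div_inv_mem hf⟩
  set u : (SSRed.ofPair R₁ R₂).O := ⟨g • f / f, hmem⟩ with hu
  set uinv : (SSRed.ofPair R₁ R₂).O := ⟨(g • f / f)⁻¹, hinv⟩ with huinv
  have huu : u * uinv = 1 := Subtype.ext (mul_inv_cancel₀ hu0)
  have hredu : (SSRed.ofPair R₁ R₂).red u
      = (algebraMap k Fk (π a), algebraMap k Fk₂ (π b)) := hred
  refine ⟨D, u, uinv, a, b, hD, kummerU_degree g D, rfl, huu, ha, hb, hredu, ?_,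
    fun v => kummerU_ord g hf hD v⟩
  -- the reduction of the inverse
  have h1 : (SSRed.ofPair R₁ R₂).red u * (SSRed.ofPair R₁ R₂).red uinv = 1 := by
    rw [← map_mul, huu, map_one]
  rw [hredu] at h1
  have ha' : algebraMap k Fk (π a) ≠ 0 := fun h0 =>
    ha ((algebraMap k Fk).injective (by rw [h0, map_zero]))
  have hb' : algebraMap k Fk₂ (π b) ≠ 0 := fun h0 =>
    hb ((algebraMap k Fk₂).injective (by rw [h0, map_zero]))
  have h2 := congrArg Prod.fst h1
  have h3 := congrArg Prod.snd h1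
  simp only [Prod.fst_mul, Prod.snd_mul, Prod.fst_one, Prod.snd_one] at h2 h3
  refine Prod.ext ?_ ?_
  · show ((SSRed.ofPair R₁ R₂).red uinv).1 = algebraMap k Fk (π a)⁻¹
    rw [map_inv₀]
    exact eq_inv_of_mul_eq_one_right h2
  · show ((SSRed.ofPair R₁ R₂).red uinv).2 = algebraMap k Fk₂ (π b)⁻¹
    rw [map_inv₀]
    exact eq_inv_of_mul_eq_one_right h3

/-- an inertial automorphism fixing `D₁` is a `TwistAut` with `Q = 1` -/
theorem kummerU_twistAut {R₁ : ConstRed A π Fk F} {R₂ : ConstRed A π Fk₂ F}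
    {h : SemilinearAut K F} (hh₁ : IsInertial R₁ h) (hh₂ : IsInertial R₂ h)
    (G : Gluing k (Fk × Fk₂)) {D₁ : Divisor K F} (hfix : h • D₁ = D₁) :
    TwistAut (SSRed.ofPair R₁ R₂) G D₁ h 1 :=
  TwistAut.of_red_eq (fun _ hx => inred_ss_smul_mem hh₁ hh₂ hx) hfix
    (fun x => inred_ss_red_smul hh₁ hh₂ x.2)

/-- **principal ⇒ Kummer form**: if `div u = m E` and `h E - Q E = div s`, then
`h • u / u ^ Q` is a constant times `s ^ m`. -/
theorem kummerU_of_principal [RRBase K F] (h : SemilinearAut K F) {u s : F} (hu : u ≠ 0)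
    (hs : s ≠ 0) {m Q : ℕ} {E : Divisor K F} (hdiv : ∀ v : Place K F, v.ord u = m * E v)
    (hprin : ∀ v : Place K F, (h • E - Q • E) v = v.ord s) :
    ∃ c : K, h • u / u ^ Q = algebraMap K F c * s ^ m := by
  have hhu : h • u ≠ 0 := kummerU_smul_ne_zero h hu
  have huQ : u ^ Q ≠ 0 := pow_ne_zero _ hu
  have hsm : s ^ m ≠ 0 := pow_ne_zero _ hs
  have hw0 : h • u / u ^ Q ≠ 0 := div_ne_zero hhu huQ
  have hord : ∀ v : Place K F, 0 ≤ v.ord (h • u / u ^ Q / s ^ m) := by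
    intro v
    rw [uk_ord_div v hw0 hsm, uk_ord_div v hhu huQ, uk_ord_smul' h v, tw_ord_pow, tw_ord_pow,
      hdiv, hdiv, ← hprin v, Finsupp.sub_apply, SemilinearAut.divisor_smul_apply,
      Finsupp.smul_apply]
    apply le_of_eq
    simp only [nsmul_eq_mul]
    ring
  obtain ⟨c, hc⟩ := RRBase.const_of_forall_ord_nonneg (K := K) _ hord
  refine ⟨c, ?_⟩
  rw [hc, div_mul_cancel₀ _ hsm]

end Abstract

section Concrete

variable (N : ℕ) [NeZero N] (q : ℕ) (hq : q.Prime) (hqN : q ∣ N) (hq2 : ¬ q ^ 2 ∣ N)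
variable {A : ValuationSubring Kbar}
variable {Fk : IntermediateField (IsLocalRing.ResidueField A)
  (LaurentSeries (IsLocalRing.ResidueField A))}
variable {R : ConstRed A (IsLocalRing.residue A) (↥Fk) (FF N)}

/-- **KUMMER-U** at level `N`, `q ‖ N`: for `σ ∈ I_A` and `f ≠ 0` with `m ∣ div f`. -/
theorem kummerU_exists_al [RRBase Kbar (FF N)] (hR : IsSeriesRed R)
    (hfrac : HasPrimFrac A (modularFunctionFieldBar N))
    (σ : Kbar ≃ₐ[ℚ] Kbar) (hσ : σ ∈ A.inertiaSubgroupIn ℚ)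
    {f : FF N} (hf : f ≠ 0) {m : ℕ} (hm : m ≠ 0)
    (hdiv : ∀ P : Place Kbar (FF N), (m : ℤ) ∣ P.ord f) :
    ∃ (D : Divisor Kbar (FF N)) (u uinv : (SSRed.ofPair R (inredZero N q hq hqN hq2 R)).O)
      (a b : A),
      (∀ v : Place Kbar (FF N), v.ord f = m * D v) ∧
      Divisor.degree (galFF N σ • D - D) = 0 ∧
      ((u : (SSRed.ofPair R (inredZero N q hq hqN hq2 R)).O) : FF N) = galFF N σ • f / f ∧
      u * uinv = 1 ∧
      IsLocalRing.residue A a ≠ 0 ∧ IsLocalRing.residue A b ≠ 0 ∧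
      (SSRed.ofPair R (inredZero N q hq hqN hq2 R)).red u
        = (algebraMap (IsLocalRing.ResidueField A) (↥Fk) (IsLocalRing.residue A a),
            algebraMap (IsLocalRing.ResidueField A) (↥Fk) (IsLocalRing.residue A b)) ∧
      (SSRed.ofPair R (inredZero N q hq hqN hq2 R)).red uinv
        = (algebraMap (IsLocalRing.ResidueField A) (↥Fk) (IsLocalRing.residue A a)⁻¹,
            algebraMap (IsLocalRing.ResidueField A) (↥Fk) (IsLocalRing.residue A b)⁻¹) ∧
      ∀ v : Place Kbar (FF N),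
        v.ord ((u : (SSRed.ofPair R (inredZero N q hq hqN hq2 R)).O) : FF N)
          = m * (galFF N σ • D - D) v :=
  kummerU_exists (inred_isInertial_inf N hR hfrac σ hσ)
    (inred_isInertial_zero N q hq hqN hq2 hR hfrac σ hσ) hf hm hdiv

/-- **TwistAut** for `τ ∈ I_A`, `D₁ = a P∞ + b P₀`. -/
theorem kummerU_twistAut_al (hR : IsSeriesRed R)
    (hfrac : HasPrimFrac A (modularFunctionFieldBar N))
    (τ : Kbar ≃ₐ[ℚ] Kbar) (hτ : τ ∈ A.inertiaSubgroupIn ℚ)
    (G : Gluing (IsLocalRing.ResidueField A) (↥Fk × ↥Fk)) (a b : ℤ) :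
    TwistAut (SSRed.ofPair R (inredZero N q hq hqN hq2 R)) G (cuspDiv N q hq hqN hq2 a b)
      (galFF N τ) 1 :=
  kummerU_twistAut (inred_isInertial_inf N hR hfrac τ hτ)
    (inred_isInertial_zero N q hq hqN hq2 hR hfrac τ hτ) G
    (galFF_smul_cuspDiv N q hq hqN hq2 τ a b)

omit [NeZero N] in
/-- **the Kummer form of `UnipK`** from the principality of `τ E - E`, `E = σ D - D`. -/
theorem kummerU_kummerComm [RRBase Kbar (FF N)] (σ τ : Kbar ≃ₐ[ℚ] Kbar)
    {f : FF N} (hf : f ≠ 0) {m : ℕ} {D : Divisor Kbar (FF N)}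
    (hD : ∀ v : Place Kbar (FF N), v.ord f = m * D v) {s : FF N} (hs : s ≠ 0)
    (hprin : ∀ v : Place Kbar (FF N),
      (galFF N τ • (galFF N σ • D - D) - (galFF N σ • D - D)) v = v.ord s) :
    ∃ c : Kbar, kummerComm N σ τ f = algebraMap Kbar (FF N) c * s ^ m := by
  have hu0 : galFF N σ • f / f ≠ 0 := div_ne_zero (kummerU_smul_ne_zero _ hf) hf
  have h := kummerU_of_principal (galFF N τ) (Q := 1) hu0 hs
    (fun v => kummerU_ord (galFF N σ) hf hD v)
    (fun v => by rw [one_smul]; exact hprin v)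
  rw [pow_one] at h
  exact h

end Concrete

end Fermat.Agent.S34lib

end
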