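/-
Item 79 (S34), piece E = APPLY, part 1 (helper26): `UnipK` from the Kummer form of TWIST.

`TwistKummer N q … R m`: the OUTPUT wanted from TWIST + the concrete inputs (blueprint
NOTES/S34_blueprint.md §4), for the sup-norm datum `SSRed.ofPair R R₀`, `R₀ = inredZero R`:
for `τ` in the inertia group and every `u ≠ 0` in the unit ball with all orders divisible by `m`
and with reduction a pair of nonzero constants, `τ u / u` is a constant times an `m`-th power.

`unipK_of_twistKummer`: `TwistKummer → UnipK N m A` (with helper4's (K1)/(K2), `InertiaRedAL`).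
No sorry.
-/
import Mathlib
import Fermat.Agent.S34lib.UnipK
import Fermat.Agent.S34lib.InertiaRedAL

set_option autoImplicit false
set_option synthInstance.maxHeartbeats 400000

noncomputable section

namespace Fermat.Agent.S34lib

open AlgebraicCurve Fermat.Agent.GoodRed ModularCurve HahnSeries Fermat.Agent.S24lib
  Fermat.Agent.RRlib

section

variable (N : ℕ) [NeZero N] (q : ℕ) (hq : q.Prime) (hqN : q ∣ N) (hq2 : ¬ q ^ 2 ∣ N)
variable {A : ValuationSubring Kbar}
variable {Fk : IntermediateField (IsLocalRing.ResidueField A)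
  (LaurentSeries (IsLocalRing.ResidueField A))}

set_option maxHeartbeats 1000000 in
/-- the Kummer form of TWIST for the sup-norm of `R` and `R₀ = R ∘ w_q` -/
def TwistKummer (R : ConstRed A (IsLocalRing.residue A) (↥Fk) (FF N)) (m : ℕ) : Prop :=
  ∀ τ ∈ A.inertiaSubgroupIn ℚ, ∀ u : FF N, u ≠ 0 →
    (∀ P : Place Kbar (FF N), (m : ℤ) ∣ P.ord u) →
    ∀ (hu : u ∈ (SSRed.ofPair R (inredZero N q hq hqN hq2 R)).O) (a b : A),
      IsLocalRing.residue A a ≠ 0 → IsLocalRing.residue A b ≠ 0 →
      (SSRed.ofPair R (inredZero N q hq hqN hq2 R)).red ⟨u, hu⟩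
        = (algebraMap (IsLocalRing.ResidueField A) (↥Fk) (IsLocalRing.residue A a),
            algebraMap (IsLocalRing.ResidueField A) (↥Fk) (IsLocalRing.residue A b)) →
      ∃ (c : Kbar) (s : FF N), galFF N τ • u / u = algebraMap Kbar (FF N) c * s ^ m

variable {N q}

set_option maxHeartbeats 1000000 in
/-- **APPLY, part 1**: the Kummer form of TWIST gives `UnipK`. -/
theorem unipK_of_twistKummer {R : ConstRed A (IsLocalRing.residue A) (↥Fk) (FF N)}
    (hR : IsSeriesRed R) (hfrac : HasPrimFrac A (modularFunctionFieldBar N)) (m : ℕ)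
    (h : TwistKummer N q hq hqN hq2 R m) : UnipK N m A := by
  intro f hf hdiv σ hσ τ hτ
  obtain ⟨a, b, ha, hb, hm, hred⟩ := inred_al_exists_const N q hq hqN hq2 hR hfrac σ hσ hf
  have hgf0 : galFF N σ • f ≠ 0 := by simpa using hf
  have hu0 : galFF N σ • f / f ≠ 0 := div_ne_zero hgf0 hf
  have hdivu : ∀ P : Place Kbar (FF N), (m : ℤ) ∣ P.ord (galFF N σ • f / f) := by
    intro P
    rw [uk_ord_div P hgf0 hf, uk_ord_smul']
    exact dvd_sub (hdiv _) (hdiv _)
  exact h τ hτ _ hu0 hdivu hm a b ha hb hred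

end

section KummerOfPrincipal

variable {K F : Type*} [Field K] [Field F] [Algebra K F]

/-- a function all of whose orders vanish is a nonzero constant -/
theorem ua_const_of_ord_eq_zero [RRBase K F] {w : F} (hw : ∀ v : Place K F, v.ord w = 0) :
    ∃ c : K, w = algebraMap K F c := by
  obtain ⟨c, hc⟩ := RRBase.const_of_forall_ord_nonneg (K := K) w (fun v => (hw v).ge)
  exact ⟨c, hc.symm⟩

/-- **Kummer form from a principal divisor**: if `div u = m E` and `g E - Q E = div s`, then
`g u / u ^ Q` is a constant times `s ^ m`. -/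
theorem ua_kummer_of_principal [RRBase K F] (m Q : ℕ) (g : SemilinearAut K F) {u : F} (hu : u ≠ 0)
    (E : Divisor K F) (hE : ∀ v : Place K F, v.ord u = m * E v)
    (hprin : g • E - Q • E ∈ Divisor.principal (K := K) (F := F)) :
    ∃ (c : K) (s : F), g • u / u ^ Q = algebraMap K F c * s ^ m := by
  obtain ⟨s, hs0, hs⟩ := hprin
  have hgu0 : g • u ≠ 0 := by simpa using hu
  have huQ : u ^ Q ≠ 0 := pow_ne_zero _ hu
  have hsm : s ^ m ≠ 0 := pow_ne_zero _ hs0
  have hw : ∀ v : Place K F, v.ord ((g • u / u ^ Q) / s ^ m) = 0 := by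
    intro v
    rw [uk_ord_div v (div_ne_zero hgu0 huQ) hsm, uk_ord_div v hgu0 huQ, uk_ord_smul' g v,
      Fermat.Agent.S18lib.ord_pow_nat, Fermat.Agent.S18lib.ord_pow_nat, hE, hE, ← hs v]
    simp only [Finsupp.sub_apply, Finsupp.smul_apply, SemilinearAut.divisor_smul_apply,
      nsmul_eq_mul]
    ring
  obtain ⟨c, hc⟩ := ua_const_of_ord_eq_zero hw
  refine ⟨c, s, ?_⟩
  rw [← hc, div_mul_cancel₀ _ hsm]

end KummerOfPrincipal

end Fermat.Agent.S34lib

end
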