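import Mathlib
import Fermat.Agent.S34lib.UnipK
import Fermat.Agent.S18lib.Transfer
import Fermat.Agent.HeckeBar.GaloisHecke
import Fermat.Agent.S20_Comb

/-!
# Item 79 (S34), piece D (helper3): DESCENT of the Kummer form of UNIP

* `unipK_descent` : `UnipK M m A → UnipK N m A` for `M = N e`, `ψ(M) < 2 e ψ(N)`
  (by `S18lib.exists_root_of_inclBar`; no divisor is transported).
* `unipK_of_aux` : for `N = N' q`, `q ∤ N'` prime: there is an auxiliary level `M'`
  (`GM.IsAuxLevel q M'`, `N' ∣ M'`) with `UnipK (M' * q) m A → UnipK (N' * q) m A`.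
-/

set_option autoImplicit false

noncomputable section

namespace Fermat.Agent.S34lib

open ModularCurve AlgebraicCurve
open Fermat.Agent.S24lib Fermat.Agent.HeckeBar Fermat.Agent.GM

/-- `σ` intertwines the inclusion `F_N ⊂ F_M` -/
theorem ud_intertwines_incl (N M : ℕ) [NeZero N] [NeZero M] (h : N ∣ M)
    (σ : Kbar ≃ₐ[ℚ] Kbar) :
    SemilinearAut.IntertwinesAlong (inclBar N M h).toRingHom
      (arithmeticGalois (modularFunctionFieldFull N) σ)
      (arithmeticGalois (modularFunctionFieldFull M) σ) := by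
  intro x
  apply Subtype.ext
  show ((arithmeticGalois (modularFunctionFieldFull M) σ • (inclBar N M h x) :
      laurentBaseChange Kbar (modularFunctionFieldFull M)) : LaurentSeries Kbar) =
    ((inclBar N M h (arithmeticGalois (modularFunctionFieldFull N) σ • x) :
      laurentBaseChange Kbar (modularFunctionFieldFull M)) : LaurentSeries Kbar)
  rw [coe_arithmeticGalois_smul, coe_inclBar, coe_inclBar, coe_arithmeticGalois_smul]

theorem ud_incl_smul (N M : ℕ) [NeZero N] [NeZero M] (h : N ∣ M)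
    (σ : Kbar ≃ₐ[ℚ] Kbar) (x : FF N) :
    inclBar N M h (galFF N σ • x) = galFF M σ • inclBar N M h x :=
  (ud_intertwines_incl N M h σ x).symm

/-- the Kummer commutator commutes with the inclusion `F_N ⊂ F_M` -/
theorem ud_incl_kummerComm (N M : ℕ) [NeZero N] [NeZero M] (h : N ∣ M)
    (σ τ : Kbar ≃ₐ[ℚ] Kbar) (f : FF N) :
    inclBar N M h (kummerComm N σ τ f) = kummerComm M σ τ (inclBar N M h f) := by
  unfold kummerComm
  rw [map_div₀, ud_incl_smul, map_div₀, ud_incl_smul]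

/-- divisibility of all orders goes up along `F_N ⊂ F_M` -/
theorem ud_dvd_ord_incl (N M : ℕ) [NeZero N] [NeZero M] (h : N ∣ M) (m : ℕ) (f : FF N)
    (hdiv : ∀ P : Place Kbar (FF N), (m : ℤ) ∣ P.ord f)
    (Q : Place Kbar (FF M)) : (m : ℤ) ∣ Q.ord (inclBar N M h f) := by
  rw [Place.ord_restrictAlong (inclBar N M h) (isIntegral_inclBar N M h) Q f]
  exact Dvd.dvd.mul_left (hdiv _) _

/-- divisibility of all orders passes to the Kummer commutator -/
theorem ud_dvd_ord_kummerComm (N : ℕ) (m : ℕ) (σ τ : Kbar ≃ₐ[ℚ] Kbar) (f : FF N)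
    (hf : f ≠ 0) (hdiv : ∀ P : Place Kbar (FF N), (m : ℤ) ∣ P.ord f)
    (P : Place Kbar (FF N)) : (m : ℤ) ∣ P.ord (kummerComm N σ τ f) := by
  have hsf : galFF N σ • f ≠ 0 := by simpa using hf
  have hu : galFF N σ • f / f ≠ 0 := div_ne_zero hsf hf
  have htu : galFF N τ • (galFF N σ • f / f) ≠ 0 := by simpa using hu
  have h1 : ∀ Q : Place Kbar (FF N), (m : ℤ) ∣ Q.ord (galFF N σ • f / f) := by
    intro Q
    rw [uk_ord_div Q hsf hf, uk_ord_smul']
    exact dvd_sub (hdiv _) (hdiv _)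
  show (m : ℤ) ∣ P.ord ((galFF N τ • (galFF N σ • f / f)) / (galFF N σ • f / f))
  rw [uk_ord_div P htu hu, uk_ord_smul']
  exact dvd_sub (h1 _) (h1 _)

theorem ud_kummerComm_ne_zero (N : ℕ) (σ τ : Kbar ≃ₐ[ℚ] Kbar) (f : FF N) (hf : f ≠ 0) :
    kummerComm N σ τ f ≠ 0 := by
  have hsf : galFF N σ • f ≠ 0 := by simpa using hf
  have hu : galFF N σ • f / f ≠ 0 := div_ne_zero hsf hf
  have htu : galFF N τ • (galFF N σ • f / f) ≠ 0 := by simpa using hu
  exact div_ne_zero htu hu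

/-- **Piece D.** descent of the Kummer form of UNIP from level `M = N e` to level `N`,
when `ψ(M) < 2 e ψ(N)`. -/
theorem unipK_descent (N M e : ℕ) [NeZero N] [NeZero M] (hM : M = N * e)
    (hdeg : dedekindPsi M < 2 * e * dedekindPsi N) (m : ℕ)
    (A : ValuationSubring (AlgebraicClosure ℚ)) (h : UnipK M m A) : UnipK N m A := by
  intro f hf hdiv σ hσ τ hτ
  have hNM : N ∣ M := hM ▸ dvd_mul_right N e
  have hιf : inclBar N M hNM f ≠ 0 := (map_ne_zero _).2 hf
  obtain ⟨c, s, hcs⟩ := h (inclBar N M hNM f) hιf (ud_dvd_ord_incl N M hNM m f hdiv) σ hσ τ hτ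
  rw [← ud_incl_kummerComm N M hNM σ τ f] at hcs
  rcases Nat.eq_zero_or_pos m with hm0 | hm
  · -- `m = 0`: the commutator is a constant
    subst hm0
    refine ⟨c, 1, ?_⟩
    rw [pow_zero, mul_one] at hcs ⊢
    have hinj : Function.Injective (inclBar N M hNM) := (inclBar N M hNM).toRingHom.injective
    apply hinj
    rw [hcs, AlgHom.commutes]
  · obtain ⟨g₀, c₀, h0⟩ := Fermat.Agent.S18lib.exists_root_of_inclBar N M e hM hdeg m hm
      (kummerComm N σ τ f) (ud_kummerComm_ne_zero N σ τ f hf)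
      (ud_dvd_ord_kummerComm N m σ τ f hf hdiv) s c hcs
    exact ⟨c₀, g₀, h0⟩

/-- **Piece D, numerics.** for `q` prime, `q ∤ N'`: the level `N' q` is reached by descent from
`M' q` with `M' = lcm(N', baseLevel q)` an auxiliary level. -/
theorem unipK_of_aux (N' q : ℕ) [NeZero N'] (hq : q.Prime) (hqN : ¬ q ∣ N') :
    ∃ M' : ℕ, M' ≠ 0 ∧ N' ∣ M' ∧ IsAuxLevel q M' ∧
      ∀ (m : ℕ) (A : ValuationSubring (AlgebraicClosure ℚ)),
        UnipK (M' * q) m A → UnipK (N' * q) m A := by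
  obtain ⟨e, hlcm, hdeg, haux⟩ := Fermat.Agent.S18lib.dedekindPsi_lcm_lt N' q hq hqN
  have hN0 : N' ≠ 0 := NeZero.ne N'
  have hM0 : Nat.lcm N' (baseLevel q) ≠ 0 := by
    intro h0
    rw [h0] at haux
    exact haux.1 (dvd_zero q)
  refine ⟨Nat.lcm N' (baseLevel q), hM0, Nat.dvd_lcm_left _ _, haux, ?_⟩
  intro m A h
  have : NeZero (N' * q) := ⟨Nat.mul_ne_zero hN0 hq.ne_zero⟩
  have : NeZero (Nat.lcm N' (baseLevel q) * q) := ⟨Nat.mul_ne_zero hM0 hq.ne_zero⟩
  have hM : Nat.lcm N' (baseLevel q) * q = N' * q * e := by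
    rw [hlcm]
    ring
  refine unipK_descent (N' * q) (Nat.lcm N' (baseLevel q) * q) e hM ?_ m A h
  rw [mul_comm (Nat.lcm N' (baseLevel q)) q, mul_comm N' q,
    Fermat.Agent.S20lib.dedekindPsi_prime_mul_of_not_dvd hq hM0 haux.1,
    Fermat.Agent.S20lib.dedekindPsi_prime_mul_of_not_dvd hq hN0 hqN]
  have hq1 : 0 < q + 1 := Nat.succ_pos q
  calc (q + 1) * dedekindPsi (Nat.lcm N' (baseLevel q))
      < (q + 1) * (2 * e * dedekindPsi N') := Nat.mul_lt_mul_of_pos_left hdeg hq1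
    _ = 2 * e * ((q + 1) * dedekindPsi N') := by ring

/-- **Piece D, wiring.** `UnipStatement` from the Kummer form at the auxiliary levels `M' q`
(`IsAuxLevel q M'`, `q` prime, exponents `p ^ n` with `p ≠ q` prime). -/
theorem unipStatement_of_unipK_aux
    (h : ∀ (q M' p n : ℕ), q.Prime → p.Prime → q ≠ p → M' ≠ 0 → IsAuxLevel q M' →
      ∀ A : ValuationSubring (AlgebraicClosure ℚ), A.LiesOverPrime q →
        UnipK (M' * q) (p ^ n) A) : UnipStatement := by
  intro N _ p q hp hq hqp hqN hq2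
  obtain ⟨N', rfl⟩ := hqN
  have hN0 : q * N' ≠ 0 := NeZero.ne _
  have hN'0 : N' ≠ 0 := fun h0 => hN0 (by rw [h0, mul_zero])
  have hqN' : ¬ q ∣ N' := by
    rintro ⟨k, rfl⟩
    exact hq2 ⟨k, by ring⟩
  have : NeZero N' := ⟨hN'0⟩
  obtain ⟨M', hM'0, -, haux, hdesc⟩ := unipK_of_aux N' q hq hqN'
  rw [mul_comm q N']
  exact unip_of_unipK (N' * q) p q
    (fun A hA n => hdesc (p ^ n) A (h q M' p n hq hp hqp hM'0 haux A hA)) hp.ne_zero

end Fermat.Agent.S34lib

end
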