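/-
Item 82 (S35), piece (K1F) (helper4): Frobenius lifts act on the residue fields of the constant
reductions through the coefficientwise Frobenius.

Abstract part (any `R : ConstRed A π Fk F`, `g : SemilinearAut K F`, `Φ : Fk →+* Fk`):
* `IsRedEquivariant R g Φ` : `g • O ⊆ O` and `red (g • x) = Φ (red x)`;
* `IsRedEquivariant.mul`, `.inredComap` (transport along `w`), `inred_ss_equivariant`,
  `inred_ofPair_equivariant` (sup-norm datum, `Φ = Φ₁ × Φ₂`).

Concrete part (`Kb = Q̄`, `F = laurentBaseChange Kb F₀`, `Fk = modularFunctionFieldFullC k M'`,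
`R` with `IsSeriesRed`, `HasPrimFrac`):
* `inred_isRedEquivariant_decomp` : `g` in the decomposition group acts through
  `coeffRingAutC k M' ḡ`;
* `inredFrobAut A σ hσ : k ≃+* k` for a Frobenius lift `σ` (`A.IsFrobeniusAt σ q`),
  `inredFrobAut_apply : inredFrobAut A σ hσ x = x ^ q`;
* `inred_frob` **(K1F)** : `galFF σ • x ∈ R.O` and
  `red (σ • x) = coeffMap (inredFrobAut A σ hσ) (red x)` (series level);
  `inred_frob_frobenius` : the same with `coeffMap (frobenius k q)` (`[ExpChar k q]`);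
* `inred_frob_zero`, `inred_frob_zero_frobenius` : the same for `R₀ = inredZero R`;
* `inred_frob_ofPair` : on `SSRed.ofPair R R₀` a Frobenius lift acts through `Φ × Φ`,
  `Φ = coeffRingAutC k M' (inredFrobAut A σ hσ)`; `inred_frob_sq_ofPair` : `σ²` acts through
  `Φ² × Φ²`.
-/
import Mathlib
import Fermat.Agent.S34lib.InertiaRedAL

set_option autoImplicit false
set_option synthInstance.maxHeartbeats 400000

noncomputable section

namespace Fermat.Agent.S34lib

open AlgebraicCurve Fermat.Agent.GoodRed ModularCurve HahnSeries Fermat.Agent.S24lib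

section Abstract

variable {K F k Fk : Type*} [Field K] [Field F] [Algebra K F] [Field k] [Field Fk] [Algebra k Fk]
variable {A : ValuationSubring K} {π : A →+* k}

/-- `g` maps the unit ball `O` of `R` into itself and acts on the residue field through `Φ`. -/
def IsRedEquivariant (R : ConstRed A π Fk F) (g : SemilinearAut K F) (Φ : Fk →+* Fk) : Prop :=
  ∀ x : R.O, ∃ h : g • (x : F) ∈ R.O, R.red ⟨g • (x : F), h⟩ = Φ (R.red x)

namespace IsRedEquivariant

variable {R : ConstRed A π Fk F} {g h : SemilinearAut K F} {Φ Ψ : Fk →+* Fk}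

theorem smul_mem (hg : IsRedEquivariant R g Φ) {x : F} (hx : x ∈ R.O) : g • x ∈ R.O :=
  (hg ⟨x, hx⟩).1

theorem red_smul (hg : IsRedEquivariant R g Φ) {x : F} (hx : x ∈ R.O) :
    R.red ⟨g • x, hg.smul_mem hx⟩ = Φ (R.red ⟨x, hx⟩) :=
  (hg ⟨x, hx⟩).2

protected theorem mul (hg : IsRedEquivariant R g Φ) (hh : IsRedEquivariant R h Ψ) :
    IsRedEquivariant R (g * h) (Φ.comp Ψ) := by
  intro x
  have hm : (g * h) • (x : F) ∈ R.O := by
    rw [mul_smul]
    exact hg.smul_mem (hh.smul_mem x.2)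
  refine ⟨hm, ?_⟩
  have e : (⟨(g * h) • (x : F), hm⟩ : R.O)
      = ⟨g • (h • (x : F)), hg.smul_mem (hh.smul_mem x.2)⟩ := Subtype.ext (mul_smul _ _ _)
  rw [e, hg.red_smul (hh.smul_mem x.2), hh.red_smul x.2, RingHom.comp_apply]

/-- a unit of `O` is mapped to a unit of `O` -/
theorem smul_inv_mem (hg : IsRedEquivariant R g Φ) {x : F} (hx : x⁻¹ ∈ R.O) :
    (g • x)⁻¹ ∈ R.O := by
  have h := hg.smul_mem hx
  rwa [smul_inv''] at h

theorem of_isInertial (hg : IsInertial R g) : IsRedEquivariant R g (RingHom.id Fk) :=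
  fun x => ⟨hg.smul_mem x.2, hg.red_smul x.2⟩

/-- transport along an equivariant isomorphism -/
protected theorem inredComap {F' : Type*} [Field F'] [Algebra K F']
    (hg : IsRedEquivariant R g Φ) (w : F' ≃ₐ[K] F) (g' : SemilinearAut K F')
    (hw : ∀ x : F', w (g' • x) = g • w x) : IsRedEquivariant (inredComap R w) g' Φ := by
  intro x
  have hm : w (g' • (x : F')) ∈ R.O := by
    rw [hw]
    exact hg.smul_mem x.2
  refine ⟨hm, ?_⟩
  show R.red ⟨w (g' • (x : F')), _⟩ = Φ (R.red ⟨w (x : F'), x.2⟩)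
  rw [← hg.red_smul (x := w (x : F')) x.2]
  congr 1
  exact Subtype.ext (hw _)

end IsRedEquivariant

section Pair

variable {Fk₂ : Type*} [Field Fk₂] [Algebra k Fk₂]
variable {R₁ : ConstRed A π Fk F} {R₂ : ConstRed A π Fk₂ F} {g : SemilinearAut K F}
variable {Φ₁ : Fk →+* Fk} {Φ₂ : Fk₂ →+* Fk₂}

theorem inred_ss_equivariant_mem (hg₁ : IsRedEquivariant R₁ g Φ₁)
    (hg₂ : IsRedEquivariant R₂ g Φ₂) {x : F} (hx : x ∈ ssBall R₁ R₂) : g • x ∈ ssBall R₁ R₂ :=
  ⟨hg₁.smul_mem hx.1, hg₂.smul_mem hx.2⟩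

theorem inred_ss_equivariant (hg₁ : IsRedEquivariant R₁ g Φ₁)
    (hg₂ : IsRedEquivariant R₂ g Φ₂) {x : F} (hx : x ∈ ssBall R₁ R₂) :
    ssRed R₁ R₂ ⟨g • x, inred_ss_equivariant_mem hg₁ hg₂ hx⟩
      = Prod.map Φ₁ Φ₂ (ssRed R₁ R₂ ⟨x, hx⟩) := by
  rw [ssRed_apply, ssRed_apply]
  exact Prod.ext (hg₁.red_smul hx.1) (hg₂.red_smul hx.2)

/-- **(RΦ)** for `SSRed.ofPair`: `g` acts on the residue ring through `Φ₁ × Φ₂` -/
theorem inred_ofPair_equivariant (hg₁ : IsRedEquivariant R₁ g Φ₁)
    (hg₂ : IsRedEquivariant R₂ g Φ₂) (x : (SSRed.ofPair R₁ R₂).O) :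
    ∃ hm : g • (x : F) ∈ (SSRed.ofPair R₁ R₂).O,
      (SSRed.ofPair R₁ R₂).red ⟨g • (x : F), hm⟩
        = RingHom.prodMap Φ₁ Φ₂ ((SSRed.ofPair R₁ R₂).red x) :=
  ⟨inred_ss_equivariant_mem hg₁ hg₂ x.2, inred_ss_equivariant hg₁ hg₂ x.2⟩

end Pair

end Abstract

section Concrete

variable (F₀ : IntermediateField ℚ (LaurentSeries ℚ)) (M' : ℕ)
variable {A : ValuationSubring Kbar}
variable {R : ConstRed A (IsLocalRing.residue A)
  (↥(modularFunctionFieldFullC (IsLocalRing.ResidueField A) M'))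
  (↥(laurentBaseChange Kbar F₀))}

/-- **decomposition group**: `g` acts on the residue field through the coefficientwise action of
the induced automorphism of `k`. -/
theorem inred_isRedEquivariant_decomp (hR : IsSeriesRed R)
    (hfrac : HasPrimFrac A (laurentBaseChange Kbar F₀)) (g : A.decompositionSubgroup ℚ) :
    IsRedEquivariant R (arithmeticGalois F₀ (g : Kbar ≃ₐ[ℚ] Kbar))
      ((Fermat.Agent.S37lib.coeffRingAutC (IsLocalRing.ResidueField A) M'
        (Fermat.Agent.S37lib.decompResAut A g) :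
          modularFunctionFieldFullC (IsLocalRing.ResidueField A) M' ≃+* _) :
        modularFunctionFieldFullC (IsLocalRing.ResidueField A) M' →+* _) := by
  intro x
  obtain ⟨hm, hred⟩ := inred_decomp F₀ hR hfrac g x
  exact ⟨hm, Subtype.ext hred⟩

variable (A) in
/-- the automorphism of the residue field induced by a Frobenius lift -/
def inredFrobAut (σ : Kbar ≃ₐ[ℚ] Kbar) {q : ℕ} (hσ : A.IsFrobeniusAt σ q) :
    IsLocalRing.ResidueField A ≃+* IsLocalRing.ResidueField A :=
  Fermat.Agent.S37lib.decompResAut A ⟨σ, hσ.mem_decompositionSubgroup⟩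

theorem inredFrobAut_apply (σ : Kbar ≃ₐ[ℚ] Kbar) {q : ℕ} (hσ : A.IsFrobeniusAt σ q)
    (x : IsLocalRing.ResidueField A) : inredFrobAut A σ hσ x = x ^ q :=
  hσ.smul_residue_eq x

theorem inredFrobAut_eq_frobenius (σ : Kbar ≃ₐ[ℚ] Kbar) {q : ℕ} (hσ : A.IsFrobeniusAt σ q)
    [ExpChar (IsLocalRing.ResidueField A) q] :
    ((inredFrobAut A σ hσ : IsLocalRing.ResidueField A ≃+* IsLocalRing.ResidueField A) :
      IsLocalRing.ResidueField A →+* IsLocalRing.ResidueField A)
      = frobenius (IsLocalRing.ResidueField A) q :=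
  RingHom.ext fun x => by
    rw [frobenius_def]
    exact inredFrobAut_apply σ hσ x

/-- the coefficientwise Frobenius of `F_k` attached to a Frobenius lift -/
def inredFrobC (σ : Kbar ≃ₐ[ℚ] Kbar) {q : ℕ} (hσ : A.IsFrobeniusAt σ q) :
    modularFunctionFieldFullC (IsLocalRing.ResidueField A) M' →+*
      modularFunctionFieldFullC (IsLocalRing.ResidueField A) M' :=
  ((Fermat.Agent.S37lib.coeffRingAutC (IsLocalRing.ResidueField A) M' (inredFrobAut A σ hσ) :
    modularFunctionFieldFullC (IsLocalRing.ResidueField A) M' ≃+* _) :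
      modularFunctionFieldFullC (IsLocalRing.ResidueField A) M' →+* _)

theorem coe_inredFrobC (σ : Kbar ≃ₐ[ℚ] Kbar) {q : ℕ} (hσ : A.IsFrobeniusAt σ q)
    (x : modularFunctionFieldFullC (IsLocalRing.ResidueField A) M') :
    ((inredFrobC M' σ hσ x : modularFunctionFieldFullC (IsLocalRing.ResidueField A) M') :
      LaurentSeries (IsLocalRing.ResidueField A))
      = coeffMap ((inredFrobAut A σ hσ : IsLocalRing.ResidueField A ≃+* _) :
          IsLocalRing.ResidueField A →+* _) (x : LaurentSeries (IsLocalRing.ResidueField A)) :=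
  rfl

theorem coe_inredFrobC_frobenius (σ : Kbar ≃ₐ[ℚ] Kbar) {q : ℕ} (hσ : A.IsFrobeniusAt σ q)
    [ExpChar (IsLocalRing.ResidueField A) q]
    (x : modularFunctionFieldFullC (IsLocalRing.ResidueField A) M') :
    ((inredFrobC M' σ hσ x : modularFunctionFieldFullC (IsLocalRing.ResidueField A) M') :
      LaurentSeries (IsLocalRing.ResidueField A))
      = coeffMap (frobenius (IsLocalRing.ResidueField A) q)
          (x : LaurentSeries (IsLocalRing.ResidueField A)) := by
  rw [coe_inredFrobC, inredFrobAut_eq_frobenius]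

/-- **(K1F)**, equivariant form: a Frobenius lift acts on the residue field through the
coefficientwise Frobenius. -/
theorem inred_isRedEquivariant_frob (hR : IsSeriesRed R)
    (hfrac : HasPrimFrac A (laurentBaseChange Kbar F₀))
    (σ : Kbar ≃ₐ[ℚ] Kbar) {q : ℕ} (hσ : A.IsFrobeniusAt σ q) :
    IsRedEquivariant R (arithmeticGalois F₀ σ) (inredFrobC M' σ hσ) :=
  inred_isRedEquivariant_decomp F₀ M' hR hfrac ⟨σ, hσ.mem_decompositionSubgroup⟩

/-- **(K1F)**: `σ • O ⊆ O` and `red (σ • x) = Frob (red x)` coefficientwise. -/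
theorem inred_frob (hR : IsSeriesRed R) (hfrac : HasPrimFrac A (laurentBaseChange Kbar F₀))
    (σ : Kbar ≃ₐ[ℚ] Kbar) {q : ℕ} (hσ : A.IsFrobeniusAt σ q) (x : R.O) :
    ∃ h : arithmeticGalois F₀ σ • (x : ↥(laurentBaseChange Kbar F₀)) ∈ R.O,
      ((R.red ⟨_, h⟩ : modularFunctionFieldFullC (IsLocalRing.ResidueField A) M') :
          LaurentSeries (IsLocalRing.ResidueField A))
        = coeffMap ((inredFrobAut A σ hσ : IsLocalRing.ResidueField A ≃+* _) :
            IsLocalRing.ResidueField A →+* _)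
            ((R.red x : modularFunctionFieldFullC (IsLocalRing.ResidueField A) M') :
              LaurentSeries (IsLocalRing.ResidueField A)) := by
  obtain ⟨h, hred⟩ := inred_isRedEquivariant_frob F₀ M' hR hfrac σ hσ x
  exact ⟨h, congrArg Subtype.val hred⟩

/-- **(K1F)** with `frobenius k q`. -/
theorem inred_frob_frobenius (hR : IsSeriesRed R)
    (hfrac : HasPrimFrac A (laurentBaseChange Kbar F₀))
    (σ : Kbar ≃ₐ[ℚ] Kbar) {q : ℕ} (hσ : A.IsFrobeniusAt σ q)
    [ExpChar (IsLocalRing.ResidueField A) q] (x : R.O) :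
    ∃ h : arithmeticGalois F₀ σ • (x : ↥(laurentBaseChange Kbar F₀)) ∈ R.O,
      ((R.red ⟨_, h⟩ : modularFunctionFieldFullC (IsLocalRing.ResidueField A) M') :
          LaurentSeries (IsLocalRing.ResidueField A))
        = coeffMap (frobenius (IsLocalRing.ResidueField A) q)
            ((R.red x : modularFunctionFieldFullC (IsLocalRing.ResidueField A) M') :
              LaurentSeries (IsLocalRing.ResidueField A)) := by
  obtain ⟨h, hred⟩ := inred_frob F₀ M' hR hfrac σ hσ x
  refine ⟨h, ?_⟩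
  rw [hred, inredFrobAut_eq_frobenius]

end Concrete

section AtkinLehner

variable (N : ℕ) [NeZero N] (q : ℕ) (hq : q.Prime) (hqN : q ∣ N) (hq2 : ¬ q ^ 2 ∣ N) (M' : ℕ)
variable {A : ValuationSubring Kbar}
variable {R : ConstRed A (IsLocalRing.residue A)
  (↥(modularFunctionFieldFullC (IsLocalRing.ResidueField A) M')) (FF N)}

/-- decomposition group at `v₀` -/
theorem inred_isRedEquivariant_decomp_zero (hR : IsSeriesRed R)
    (hfrac : HasPrimFrac A (modularFunctionFieldBar N)) (g : A.decompositionSubgroup ℚ) :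
    IsRedEquivariant (inredZero N q hq hqN hq2 R)
      (arithmeticGalois (modularFunctionFieldFull N) (g : Kbar ≃ₐ[ℚ] Kbar))
      ((Fermat.Agent.S37lib.coeffRingAutC (IsLocalRing.ResidueField A) M'
        (Fermat.Agent.S37lib.decompResAut A g) :
          modularFunctionFieldFullC (IsLocalRing.ResidueField A) M' ≃+* _) :
        modularFunctionFieldFullC (IsLocalRing.ResidueField A) M' →+* _) :=
  (inred_isRedEquivariant_decomp (modularFunctionFieldFull N) M' hR hfrac g).inredComap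
    (atkinLehnerFF N q hq hqN hq2) _ (inred_al_comm N q hq hqN hq2 _)

/-- **(K1F)** at `v₀`, equivariant form -/
theorem inred_isRedEquivariant_frob_zero (hR : IsSeriesRed R)
    (hfrac : HasPrimFrac A (modularFunctionFieldBar N))
    (σ : Kbar ≃ₐ[ℚ] Kbar) {ℓ : ℕ} (hσ : A.IsFrobeniusAt σ ℓ) :
    IsRedEquivariant (inredZero N q hq hqN hq2 R)
      (arithmeticGalois (modularFunctionFieldFull N) σ) (inredFrobC M' σ hσ) :=
  inred_isRedEquivariant_decomp_zero N q hq hqN hq2 M' hR hfrac
    ⟨σ, hσ.mem_decompositionSubgroup⟩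

/-- **(K1F)** at `v₀`: `σ • O₀ ⊆ O₀` and `red₀ (σ • x) = Frob (red₀ x)` coefficientwise. -/
theorem inred_frob_zero (hR : IsSeriesRed R) (hfrac : HasPrimFrac A (modularFunctionFieldBar N))
    (σ : Kbar ≃ₐ[ℚ] Kbar) {ℓ : ℕ} (hσ : A.IsFrobeniusAt σ ℓ)
    (x : (inredZero N q hq hqN hq2 R).O) :
    ∃ h : arithmeticGalois (modularFunctionFieldFull N) σ • (x : FF N)
        ∈ (inredZero N q hq hqN hq2 R).O,
      (((inredZero N q hq hqN hq2 R).red ⟨_, h⟩ :
          modularFunctionFieldFullC (IsLocalRing.ResidueField A) M') :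
          LaurentSeries (IsLocalRing.ResidueField A))
        = coeffMap ((inredFrobAut A σ hσ : IsLocalRing.ResidueField A ≃+* _) :
            IsLocalRing.ResidueField A →+* _)
            (((inredZero N q hq hqN hq2 R).red x :
              modularFunctionFieldFullC (IsLocalRing.ResidueField A) M') :
              LaurentSeries (IsLocalRing.ResidueField A)) := by
  obtain ⟨h, hred⟩ := inred_isRedEquivariant_frob_zero N q hq hqN hq2 M' hR hfrac σ hσ x
  exact ⟨h, congrArg Subtype.val hred⟩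

/-- **(K1F)** at `v₀` with `frobenius k ℓ`. -/
theorem inred_frob_zero_frobenius (hR : IsSeriesRed R)
    (hfrac : HasPrimFrac A (modularFunctionFieldBar N))
    (σ : Kbar ≃ₐ[ℚ] Kbar) {ℓ : ℕ} (hσ : A.IsFrobeniusAt σ ℓ)
    [ExpChar (IsLocalRing.ResidueField A) ℓ]
    (x : (inredZero N q hq hqN hq2 R).O) :
    ∃ h : arithmeticGalois (modularFunctionFieldFull N) σ • (x : FF N)
        ∈ (inredZero N q hq hqN hq2 R).O,
      (((inredZero N q hq hqN hq2 R).red ⟨_, h⟩ :
          modularFunctionFieldFullC (IsLocalRing.ResidueField A) M') :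
          LaurentSeries (IsLocalRing.ResidueField A))
        = coeffMap (frobenius (IsLocalRing.ResidueField A) ℓ)
            (((inredZero N q hq hqN hq2 R).red x :
              modularFunctionFieldFullC (IsLocalRing.ResidueField A) M') :
              LaurentSeries (IsLocalRing.ResidueField A)) := by
  obtain ⟨h, hred⟩ := inred_frob_zero N q hq hqN hq2 M' hR hfrac σ hσ x
  refine ⟨h, ?_⟩
  rw [hred, inredFrobAut_eq_frobenius]

/-- **(RΦ)**: on `SSRed.ofPair R R₀` a Frobenius lift acts through `Φ × Φ`. -/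
theorem inred_frob_ofPair (hR : IsSeriesRed R)
    (hfrac : HasPrimFrac A (modularFunctionFieldBar N))
    (σ : Kbar ≃ₐ[ℚ] Kbar) {ℓ : ℕ} (hσ : A.IsFrobeniusAt σ ℓ)
    (x : (SSRed.ofPair R (inredZero N q hq hqN hq2 R)).O) :
    ∃ hm : arithmeticGalois (modularFunctionFieldFull N) σ • (x : FF N)
        ∈ (SSRed.ofPair R (inredZero N q hq hqN hq2 R)).O,
      (SSRed.ofPair R (inredZero N q hq hqN hq2 R)).red ⟨_, hm⟩
        = RingHom.prodMap (inredFrobC M' σ hσ) (inredFrobC M' σ hσ)
            ((SSRed.ofPair R (inredZero N q hq hqN hq2 R)).red x) :=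
  inred_ofPair_equivariant
    (inred_isRedEquivariant_frob (modularFunctionFieldFull N) M' hR hfrac σ hσ)
    (inred_isRedEquivariant_frob_zero N q hq hqN hq2 M' hR hfrac σ hσ) x

/-- **(RΦ)** for `σ²`: on `SSRed.ofPair R R₀` the square of a Frobenius lift acts through
`Φ² × Φ²`. -/
theorem inred_frob_sq_ofPair (hR : IsSeriesRed R)
    (hfrac : HasPrimFrac A (modularFunctionFieldBar N))
    (σ : Kbar ≃ₐ[ℚ] Kbar) {ℓ : ℕ} (hσ : A.IsFrobeniusAt σ ℓ)
    (x : (SSRed.ofPair R (inredZero N q hq hqN hq2 R)).O) :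
    ∃ hm : arithmeticGalois (modularFunctionFieldFull N) (σ * σ) • (x : FF N)
        ∈ (SSRed.ofPair R (inredZero N q hq hqN hq2 R)).O,
      (SSRed.ofPair R (inredZero N q hq hqN hq2 R)).red ⟨_, hm⟩
        = RingHom.prodMap ((inredFrobC M' σ hσ).comp (inredFrobC M' σ hσ))
            ((inredFrobC M' σ hσ).comp (inredFrobC M' σ hσ))
            ((SSRed.ofPair R (inredZero N q hq hqN hq2 R)).red x) := by
  have h1 := inred_isRedEquivariant_frob (modularFunctionFieldFull N) M' hR hfrac σ hσ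
  have h2 := inred_isRedEquivariant_frob_zero N q hq hqN hq2 M' hR hfrac σ hσ
  have h11 := h1.mul h1
  have h22 := h2.mul h2
  rw [← map_mul] at h11 h22
  exact inred_ofPair_equivariant h11 h22 x

end AtkinLehner

end Fermat.Agent.S34lib

end
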