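import Mathlib
import Fermat.Agent.S37lib.FrobQ
import Fermat.Agent.S34lib.InfPlaceAL
import Fermat.Agent.RRlib.Cor
import Fermat.Agent.GoodRed.ModRR

/-!
# Item 79 (S34), piece C9' AFF-FROB (helper3): the `k`-linear Frobenius on the affine ring

`k` perfect of characteristic `q`, `Fk = modularFunctionFieldFullC k N ⊂ k((X))`, `Q = infPlaceC k N`.

* `affFrobFk k q N : Fk →ₐ[k] Fk`, `x ↦ x(X^q)` (`coe_affFrobFk`);
* `affFrobFk_eq_pow` : `φ x = (τ⁻¹ x)^q`, `τ = frobK` the coefficientwise Frobenius;
* `coeffSemilinearC_smul_infPlaceC`, `frobK_smul_infPlaceC` : `Q` is fixed by coefficient maps;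
* `ord_affFrobFk` : `v.ord (φ x) = q · (τ v).ord x`;  `infPlaceC_ord_affFrobFk` : `ord_Q (φ x) = q · ord_Q x`;
* `affFrobFk_fix_iff` : `φ (φ x) = x ↔ x` is a constant;
* for a subalgebra `B` with `x ∈ B ↔ ∀ v ≠ Q, 0 ≤ v.ord x` (the affine ring of `Q`):
  `affFrob : B →ₐ[k] B`, `affFrob_hpow`, `affFrob_hne`, `affFrob_hne_of_nonconst`
  (= the hypotheses `F`, `hpow`, `hne` of `sw_exists`), `affFrob_ord`.
-/

set_option autoImplicit false
set_option linter.unusedSectionVars false

noncomputable section

namespace Fermat.Agent.S34lib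

open AlgebraicCurve ModularCurve HahnSeries Fermat.Agent.S37lib Fermat.Agent.RRlib

section Fix

variable {R : Type*} [CommRing R]

/-- a Laurent series fixed by `X ↦ X^n`, `n ≥ 2`, is a constant -/
theorem aff_qExpand_fix (n : ℕ) [NeZero n] (hn : 2 ≤ n) (y : LaurentSeries R)
    (h : qExpand R n y = y) : y = HahnSeries.C (y.coeff 0) := by
  have key : ∀ d : ℕ, ∀ m : ℤ, m.natAbs = d → m ≠ 0 → y.coeff m = 0 := by
    intro d
    induction d using Nat.strong_induction_on with
    | _ d ih =>
      intro m hm hm0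
      by_cases hd : (n : ℤ) ∣ m
      · obtain ⟨m', rfl⟩ := hd
        have hm'0 : m' ≠ 0 := by
          rintro rfl
          simp at hm0
        have hlt : m'.natAbs < d := by
          rw [← hm, Int.natAbs_mul, Int.natAbs_natCast]
          have : 0 < m'.natAbs := Int.natAbs_pos.mpr hm'0
          nlinarith
        have h1 := ih _ hlt m' rfl hm'0
        calc y.coeff ((n : ℤ) * m') = (qExpand R n y).coeff ((n : ℤ) * m') := by rw [h]
          _ = y.coeff m' := qExpand_coeff_mul n y m'
          _ = 0 := h1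
      · calc y.coeff m = (qExpand R n y).coeff m := by rw [h]
          _ = 0 := qExpand_coeff_of_not_dvd n y hd
  ext m
  by_cases hm : m = 0
  · subst hm
    simp
  · rw [key _ m rfl hm]
    simp [hm]

end Fix

section Field

variable (k : Type) [Field k] (q : ℕ) [Fact q.Prime] [CharP k q] [PerfectRing k q] [NeZero q]
  (N : ℕ) [NeZero N]

/-- the `k`-linear Frobenius `x ↦ x(X^q)` of `F_{N,k}` -/
def affFrobFk : modularFunctionFieldFullC k N →ₐ[k] modularFunctionFieldFullC k N where
  toFun x := ⟨qExpand k q (x : LaurentSeries k), qExpand_mem_fullC k q N x.2⟩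
  map_one' := Subtype.ext (map_one (qExpand k q))
  map_mul' x y := Subtype.ext (map_mul (qExpand k q) (x : LaurentSeries k) (y : LaurentSeries k))
  map_zero' := Subtype.ext (map_zero (qExpand k q))
  map_add' x y := Subtype.ext (map_add (qExpand k q) (x : LaurentSeries k) (y : LaurentSeries k))
  commutes' a := Subtype.ext (by
    show qExpand k q (algebraMap k (LaurentSeries k) a) = algebraMap k (LaurentSeries k) a
    rw [LaurentSeries.algebraMap_apply, qExpand_C])

@[simp]
theorem coe_affFrobFk (x : modularFunctionFieldFullC k N) :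
    ((affFrobFk k q N x : modularFunctionFieldFullC k N) : LaurentSeries k)
      = qExpand k q (x : LaurentSeries k) := rfl

theorem coe_frobK_inv_smul (x : modularFunctionFieldFullC k N) :
    (((frobK k q N)⁻¹ • x : modularFunctionFieldFullC k N) : LaurentSeries k)
      = coeffMap ((frobeniusEquiv k q).symm : k →+* k) (x : LaurentSeries k) := by
  unfold frobK
  rw [← map_inv]
  rfl

/-- `x(X^q) = (τ⁻¹ x)^q` -/
theorem affFrobFk_eq_pow (x : modularFunctionFieldFullC k N) :
    affFrobFk k q N x = ((frobK k q N)⁻¹ • x) ^ q := by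
  apply Subtype.ext
  rw [coe_affFrobFk]
  show _ = (((frobK k q N)⁻¹ • x : modularFunctionFieldFullC k N) : LaurentSeries k) ^ q
  rw [coe_frobK_inv_smul, Fermat.Agent.Kron.kc_pow_char q, coeffMap_coeffMap]
  have hid : (frobenius k q).comp ((frobeniusEquiv k q).symm : k →+* k) = RingHom.id k :=
    RingHom.ext fun a => frobenius_apply_frobeniusEquiv_symm k q a
  rw [coeffMap_congr hid, coeffMap_id]

/-- the cusp `∞` is fixed by every coefficientwise automorphism -/
theorem coeffSemilinearC_smul_infPlaceC (e : k ≃+* k) :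
    coeffSemilinearC k N e • infPlaceC k N = infPlaceC k N := by
  ext1
  rw [SemilinearAut.smul_toValuationSubring]
  ext x
  rw [ValuationSubring.mem_pointwise_smul_iff_inv_smul_mem, infPlaceC_mem_iff,
    infPlaceC_mem_iff]
  have h : (((coeffSemilinearC k N e)⁻¹ • x : modularFunctionFieldFullC k N) : LaurentSeries k)
      = coeffMap ((e⁻¹ : k ≃+* k) : k →+* k) (x : LaurentSeries k) := by
    rw [← map_inv]
    rfl
  rw [h, inf_order_coeffMap]

theorem frobK_smul_infPlaceC : frobK k q N • infPlaceC k N = infPlaceC k N :=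
  coeffSemilinearC_smul_infPlaceC k N _

theorem frobK_smul_ne_infPlaceC {v : Place k (modularFunctionFieldFullC k N)}
    (hv : v ≠ infPlaceC k N) : frobK k q N • v ≠ infPlaceC k N := by
  intro h
  apply hv
  have h2 : frobK k q N • v = frobK k q N • infPlaceC k N := by
    rw [h, frobK_smul_infPlaceC]
  exact MulAction.injective (frobK k q N) h2

/-- `ord_v (x(X^q)) = q · ord_{τ v} (x)` -/
theorem ord_affFrobFk (v : Place k (modularFunctionFieldFullC k N))
    (x : modularFunctionFieldFullC k N) :
    v.ord (affFrobFk k q N x) = (q : ℤ) * (frobK k q N • v).ord x :=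
  ord_qExpand k q N v x

/-- `ord_v (τ⁻¹ x) = ord_{τ v} (x)` -/
theorem ord_frobK_inv_smul (v : Place k (modularFunctionFieldFullC k N))
    (x : modularFunctionFieldFullC k N) :
    v.ord ((frobK k q N)⁻¹ • x) = (frobK k q N • v).ord x := by
  have h := SemilinearAut.ord_smul (frobK k q N) v ((frobK k q N)⁻¹ • x)
  rw [smul_inv_smul] at h
  exact h.symm

/-- `ord_Q (x(X^q)) = q · ord_Q (x)` -/
theorem infPlaceC_ord_affFrobFk
    (x : modularFunctionFieldFullC k N) :
    (infPlaceC k N).ord (affFrobFk k q N x) = (q : ℤ) * (infPlaceC k N).ord x :=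
  infPlaceC_ord_qExpand k N q x _ rfl

theorem frobK_inv_smul_ne_infPlaceC {v : Place k (modularFunctionFieldFullC k N)}
    (hv : v ≠ infPlaceC k N) : (frobK k q N)⁻¹ • v ≠ infPlaceC k N := by
  intro h
  apply hv
  have h2 : frobK k q N • ((frobK k q N)⁻¹ • v) = frobK k q N • infPlaceC k N := by rw [h]
  rwa [smul_inv_smul, frobK_smul_infPlaceC] at h2

/-- `ord_v (τ x) = ord_{τ⁻¹ v} (x)` -/
theorem ord_frobK_smul (v : Place k (modularFunctionFieldFullC k N))
    (x : modularFunctionFieldFullC k N) :
    v.ord (frobK k q N • x) = ((frobK k q N)⁻¹ • v).ord x := by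
  have h := SemilinearAut.ord_smul (frobK k q N) ((frobK k q N)⁻¹ • v) x
  rwa [smul_inv_smul] at h

/-- `τ (x(X^q)) = x^q` -/
theorem frobK_smul_affFrobFk (x : modularFunctionFieldFullC k N) :
    frobK k q N • affFrobFk k q N x = x ^ q := by
  apply Subtype.ext
  rw [coe_frobK_smul, coe_affFrobFk]
  exact coeffMap_frobenius_qExpand k q (x : LaurentSeries k)

/-- `φ (φ x) = x` exactly for the constants -/
theorem affFrobFk_fix_iff (x : modularFunctionFieldFullC k N) :
    affFrobFk k q N (affFrobFk k q N x) = x ↔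
      x ∈ Set.range (algebraMap k (modularFunctionFieldFullC k N)) := by
  constructor
  · intro h
    have hq2 : 2 ≤ q * q := by
      have := (Fact.out : q.Prime).two_le
      nlinarith
    have h1 : qExpand k (q * q) (x : LaurentSeries k) = (x : LaurentSeries k) := by
      have h0 := congrArg (fun y : modularFunctionFieldFullC k N => (y : LaurentSeries k)) h
      simp only [coe_affFrobFk] at h0
      rwa [qExpand_qExpand] at h0
    have h2 := aff_qExpand_fix (q * q) hq2 _ h1
    refine ⟨(x : LaurentSeries k).coeff 0, Subtype.ext ?_⟩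
    show algebraMap k (LaurentSeries k) _ = _
    rw [LaurentSeries.algebraMap_apply]
    exact h2.symm
  · rintro ⟨a, rfl⟩
    rw [AlgHom.commutes, AlgHom.commutes]

/-- `ord_Q (τ x) = ord_Q x` -/
theorem infPlaceC_ord_frobK_smul (x : modularFunctionFieldFullC k N) :
    (infPlaceC k N).ord (frobK k q N • x) = (infPlaceC k N).ord x := by
  have h := SemilinearAut.ord_smul (frobK k q N) (infPlaceC k N) x
  rwa [frobK_smul_infPlaceC] at h

/-- the coefficientwise Frobenius preserves `L(a Q)` -/
theorem frobK_smul_mem_rr (a : ℤ) {x : modularFunctionFieldFullC k N}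
    (hx : x ∈ riemannRochSpace (K := k) (Finsupp.single (infPlaceC k N) a)) :
    frobK k q N • x ∈ riemannRochSpace (K := k) (Finsupp.single (infPlaceC k N) a) := by
  classical
  rw [mem_riemannRochSpace_iff] at hx ⊢
  intro v
  rcases eq_or_ne x 0 with rfl | hx0
  · left
    simp
  right
  rw [ord_frobK_smul]
  by_cases hv : v = infPlaceC k N
  · subst hv
    have h1 : (frobK k q N)⁻¹ • infPlaceC k N = infPlaceC k N := by
      conv_lhs => rw [← frobK_smul_infPlaceC k q N]
      rw [inv_smul_smul]
    rw [h1]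
    exact (hx _).resolve_left hx0
  · have h1 := (hx ((frobK k q N)⁻¹ • v)).resolve_left hx0
    rw [Finsupp.single_apply, if_neg (Ne.symm (frobK_inv_smul_ne_infPlaceC k q N hv))] at h1
    rw [Finsupp.single_apply, if_neg (Ne.symm hv)]
    exact h1

/-- the `k`-linear Frobenius maps `L(a Q)` into `L(q a Q)` -/
theorem affFrobFk_mem_rr (a : ℤ) {x : modularFunctionFieldFullC k N}
    (hx : x ∈ riemannRochSpace (K := k) (Finsupp.single (infPlaceC k N) a)) :
    affFrobFk k q N x ∈
      riemannRochSpace (K := k) (Finsupp.single (infPlaceC k N) ((q : ℤ) * a)) := by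
  classical
  rw [mem_riemannRochSpace_iff] at hx ⊢
  intro v
  rcases eq_or_ne x 0 with rfl | hx0
  · left
    simp
  right
  rw [ord_affFrobFk]
  have hq0 : (0 : ℤ) ≤ q := Int.natCast_nonneg q
  by_cases hv : v = infPlaceC k N
  · subst hv
    rw [frobK_smul_infPlaceC]
    have h1 := (hx (infPlaceC k N)).resolve_left hx0
    rw [Finsupp.single_eq_same] at h1 ⊢
    nlinarith
  · have h1 := (hx (frobK k q N • v)).resolve_left hx0
    rw [Finsupp.single_apply, if_neg (Ne.symm (frobK_smul_ne_infPlaceC k q N hv)), neg_zero] at h1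
    rw [Finsupp.single_apply, if_neg (Ne.symm hv), neg_zero]
    exact mul_nonneg hq0 h1

end Field

section AffGeneric

variable {K F : Type*} [Field K] [Field F] [Algebra K F]

/-- the affine ring of `Q`: `⋃ L(a Q) = {x | ord_v x ≥ 0 for all v ≠ Q}` -/
theorem aff_rr_iff_ord (Q : Place K F) (x : F) :
    (∃ a : ℕ, x ∈ riemannRochSpace (K := K) (Finsupp.single Q (a : ℤ))) ↔
      ∀ v : Place K F, v ≠ Q → 0 ≤ v.ord x := by
  classical
  constructor
  · rintro ⟨a, ha⟩ v hv
    rw [mem_riemannRochSpace_iff] at ha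
    rcases ha v with rfl | h
    · rw [Place.ord_zero]
    · rwa [Finsupp.single_apply, if_neg (Ne.symm hv), neg_zero] at h
  · intro h
    refine ⟨(-(Q.ord x)).toNat, ?_⟩
    rw [mem_riemannRochSpace_iff]
    intro v
    right
    by_cases hv : v = Q
    · subst hv
      rw [Finsupp.single_eq_same]
      have := Int.self_le_toNat (-(v.ord x))
      omega
    · rw [Finsupp.single_apply, if_neg (Ne.symm hv), neg_zero]
      exact h v hv

end AffGeneric

section Aff

variable (k : Type) [Field k] (q : ℕ) [Fact q.Prime] [CharP k q] [PerfectRing k q] [NeZero q]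
  (N : ℕ) [NeZero N]
  (B : Subalgebra k (modularFunctionFieldFullC k N))
  (hB : ∀ x : modularFunctionFieldFullC k N, x ∈ B ↔
    ∃ a : ℕ, x ∈ riemannRochSpace (K := k) (Finsupp.single (infPlaceC k N) (a : ℤ)))

include hB in
theorem affFrobFk_mem {x : modularFunctionFieldFullC k N} (hx : x ∈ B) :
    affFrobFk k q N x ∈ B := by
  rw [hB, aff_rr_iff_ord] at hx ⊢
  intro v hv
  rw [ord_affFrobFk]
  exact mul_nonneg (Int.natCast_nonneg q) (hx _ (frobK_smul_ne_infPlaceC k q N hv))

include hB in
theorem frobK_inv_smul_mem {x : modularFunctionFieldFullC k N} (hx : x ∈ B) :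
    (frobK k q N)⁻¹ • x ∈ B := by
  rw [hB, aff_rr_iff_ord] at hx ⊢
  intro v hv
  rw [ord_frobK_inv_smul]
  exact hx _ (frobK_smul_ne_infPlaceC k q N hv)

include hB in
theorem frobK_smul_mem {x : modularFunctionFieldFullC k N} (hx : x ∈ B) :
    frobK k q N • x ∈ B := by
  rw [hB, aff_rr_iff_ord] at hx ⊢
  intro v hv
  rw [ord_frobK_smul]
  exact hx _ (frobK_inv_smul_ne_infPlaceC k q N hv)

/-- **the `k`-linear Frobenius of the affine ring** `B = ⋃ L(a Q)` -/
def affFrob : B →ₐ[k] B :=
  ((affFrobFk k q N).comp B.val).codRestrict B (fun x => affFrobFk_mem k q N B hB x.2)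

@[simp]
theorem coe_affFrob (a : B) :
    ((affFrob k q N B hB a : B) : modularFunctionFieldFullC k N) = affFrobFk k q N a := rfl

theorem coe_coe_affFrob (a : B) :
    (((affFrob k q N B hB a : B) : modularFunctionFieldFullC k N) : LaurentSeries k)
      = qExpand k q ((a : modularFunctionFieldFullC k N) : LaurentSeries k) := rfl

/-- `φ a = g^q` with `g = τ⁻¹ a ∈ B` -/
theorem affFrob_eq_pow (a : B) :
    affFrob k q N B hB a
      = (⟨(frobK k q N)⁻¹ • (a : modularFunctionFieldFullC k N),
          frobK_inv_smul_mem k q N B hB a.2⟩ : B) ^ q :=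
  Subtype.ext (by
    rw [SubmonoidClass.coe_pow]
    exact affFrobFk_eq_pow k q N a)

/-- **(hpow)** of `sw_exists` -/
theorem affFrob_hpow (a : B) : ∃ (g : B) (n : ℕ), 2 ≤ n ∧ affFrob k q N B hB a = g ^ n :=
  ⟨_, q, (Fact.out : q.Prime).two_le, affFrob_eq_pow k q N B hB a⟩

/-- **(hne)** of `sw_exists`, from a non-constant element of `B` -/
theorem affFrob_hne_of_nonconst
    (h : ∃ f : B, (f : modularFunctionFieldFullC k N) ∉
      Set.range (algebraMap k (modularFunctionFieldFullC k N))) :
    ∃ f : B, affFrob k q N B hB (affFrob k q N B hB f) ≠ f := by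
  obtain ⟨f, hf⟩ := h
  refine ⟨f, fun h0 => hf ?_⟩
  rw [← affFrobFk_fix_iff k q N]
  exact congrArg Subtype.val h0

/-- **(hne)** of `sw_exists`, from Riemann–Roch -/
theorem affFrob_hne_of_rrHyp [RRHyp k (modularFunctionFieldFullC k N)] :
    ∃ f : B, affFrob k q N B hB (affFrob k q N B hB f) ≠ f := by
  obtain ⟨f, hf, hv, -⟩ := exists_pole_only_at (K := k) (infPlaceC k N)
  exact affFrob_hne_of_nonconst k q N B hB
    ⟨⟨f, (hB f).mpr ((aff_rr_iff_ord _ _).mpr hv)⟩, hf⟩

/-- **(hne)** of `sw_exists`, `k` algebraically closed -/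
theorem affFrob_hne [IsAlgClosed k] :
    ∃ f : B, affFrob k q N B hB (affFrob k q N B hB f) ≠ f :=
  haveI := Fermat.Agent.GoodRed.mr_rrHyp k N
  affFrob_hne_of_rrHyp k q N B hB

/-- `ord_Q (φ a) = q · ord_Q a` -/
theorem affFrob_ord (a : B) :
    (infPlaceC k N).ord ((affFrob k q N B hB a : B) : modularFunctionFieldFullC k N)
      = (q : ℤ) * (infPlaceC k N).ord (a : modularFunctionFieldFullC k N) :=
  infPlaceC_ord_affFrobFk k q N a

/-- the coefficientwise Frobenius `τ` of the affine ring (a ring endomorphism) -/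
def affCoeffFrob : B →+* B where
  toFun a := ⟨frobK k q N • (a : modularFunctionFieldFullC k N), frobK_smul_mem k q N B hB a.2⟩
  map_one' := Subtype.ext (by simp)
  map_mul' a b := Subtype.ext (by simp)
  map_zero' := Subtype.ext (by simp)
  map_add' a b := Subtype.ext (by simp)

@[simp]
theorem coe_affCoeffFrob (a : B) :
    ((affCoeffFrob k q N B hB a : B) : modularFunctionFieldFullC k N)
      = frobK k q N • (a : modularFunctionFieldFullC k N) := rfl

/-- `τ (φ a) = a^q` -/
theorem affCoeffFrob_affFrob (a : B) :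
    affCoeffFrob k q N B hB (affFrob k q N B hB a) = a ^ q :=
  Subtype.ext (by
    rw [SubmonoidClass.coe_pow]
    exact frobK_smul_affFrobFk k q N a)

/-- `τ` and `φ` commute -/
theorem affFrob_affCoeffFrob (a : B) :
    affFrob k q N B hB (affCoeffFrob k q N B hB a)
      = affCoeffFrob k q N B hB (affFrob k q N B hB a) := by
  apply Subtype.ext
  apply Subtype.ext
  show qExpand k q (coeffMap (frobenius k q) _) = coeffMap (frobenius k q) (qExpand k q _)
  rw [coeffMap_qExpand]
  rfl

/-- **(hFr)** of `sw_exists_frob`: `φ (τ r) = r^q` -/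
theorem affFrob_hFr (r : B) :
    affFrob k q N B hB (affCoeffFrob k q N B hB r) = r ^ q := by
  rw [affFrob_affCoeffFrob, affCoeffFrob_affFrob]

/-- `ord_Q (τ a) = ord_Q a` -/
theorem affCoeffFrob_ord (a : B) :
    (infPlaceC k N).ord ((affCoeffFrob k q N B hB a : B) : modularFunctionFieldFullC k N)
      = (infPlaceC k N).ord (a : modularFunctionFieldFullC k N) :=
  infPlaceC_ord_frobK_smul k q N a

end Aff

end Fermat.Agent.S34lib

end
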