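/-
Item 79 (S34), piece C9 AFF-RING (helper12): the affine coordinate ring of a function field
away from one place.  ABSTRACT in `(K, F, Q)`; only the elementary hypotheses `RRBase` are used
(no separability, any characteristic).

* `affRing Q : Subalgebra K F`, the functions regular outside `Q`
  (`mem_affRing_iff`, `mem_affRing_iff_rr`: `affRing Q = ⋃ L(aQ)`);
* `affRing_quot_finite`: `affRing Q ⧸ (a)` is finite over `K` for `a ≠ 0`;
* `affRing_isDedekindDomain`: `affRing Q` is a Dedekind domain;
* `affRing_residue_surjective`: its maximal ideals are `K`-rational (`K` algebraically closed).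
-/
import Mathlib
import Fermat.Agent.RRlib.Cor
import Fermat.Agent.S24lib.FFBasic

set_option autoImplicit false

noncomputable section

namespace Fermat.Agent.S34lib

open AlgebraicCurve Fermat.Agent.RRlib Fermat.Agent.S24lib

variable {K F : Type*} [Field K] [Field F] [Algebra K F]

/-- the ring of the functions regular outside `Q` -/
def affRing (Q : Place K F) : Subalgebra K F where
  carrier := {x | ∀ v : Place K F, v ≠ Q → 0 ≤ v.ord x}
  mul_mem' := by
    intro a b ha hb v hv
    rcases eq_or_ne a 0 with rfl | ha0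
    · simp
    rcases eq_or_ne b 0 with rfl | hb0
    · simp
    rw [v.ord_mul ha0 hb0]
    exact add_nonneg (ha v hv) (hb v hv)
  add_mem' := by
    intro a b ha hb v hv
    rcases eq_or_ne (a + b) 0 with h | h
    · rw [h]; simp
    exact ffOrd_add_ge v h (Or.inr (ha v hv)) (Or.inr (hb v hv))
  algebraMap_mem' := fun c v _ => (ffOrd_algebraMap v c).ge

theorem mem_affRing_iff {Q : Place K F} {x : F} :
    x ∈ affRing Q ↔ ∀ v : Place K F, v ≠ Q → 0 ≤ v.ord x := Iff.rfl

/-- `L(nQ) ⊆ affRing Q` -/
theorem affRing_of_mem_rr {Q : Place K F} {x : F} {n : ℤ}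
    (hx : x ∈ riemannRochSpace (K := K) (Finsupp.single Q n)) : x ∈ affRing Q := by
  intro v hv
  rcases (mem_riemannRochSpace_iff.mp hx) v with h | h
  · rw [h]; simp
  · rwa [Finsupp.single_eq_of_ne hv, neg_zero] at h

theorem affRing_mem_rr {Q : Place K F} {x : F} (hx : x ∈ affRing Q) {n : ℤ}
    (hn : -n ≤ Q.ord x) : x ∈ riemannRochSpace (K := K) (Finsupp.single Q n) := by
  rw [mem_riemannRochSpace_iff]
  intro v
  by_cases hv : v = Q
  · subst hv
    right
    rwa [Finsupp.single_eq_same]
  · right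
    rw [Finsupp.single_eq_of_ne hv, neg_zero]
    exact hx v hv

/-- `affRing Q = ⋃ₐ L(aQ)` -/
theorem mem_affRing_iff_rr {Q : Place K F} {x : F} :
    x ∈ affRing Q ↔ ∃ a : ℕ, x ∈ riemannRochSpace (K := K) (Finsupp.single Q (a : ℤ)) := by
  constructor
  · intro hx
    refine ⟨(-Q.ord x).toNat, affRing_mem_rr hx ?_⟩
    have := Int.self_le_toNat (-Q.ord x)
    omega
  · rintro ⟨a, ha⟩
    exact affRing_of_mem_rr ha

/-- a nonzero function regular outside `Q` has no zero at `Q` -/
theorem affRing_ord_nonpos [RRBase K F] {Q : Place K F} {x : F} (hx : x ∈ affRing Q)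
    (hx0 : x ≠ 0) : Q.ord x ≤ 0 := by
  by_contra h
  push Not at h
  have hall : ∀ v : Place K F, 0 ≤ v.ord x := by
    intro v
    by_cases hv : v = Q
    · subst hv; exact h.le
    · exact hx v hv
  obtain ⟨c, rfl⟩ := RRBase.const_of_forall_ord_nonneg (K := K) x hall
  rw [ffOrd_algebraMap] at h
  exact lt_irrefl _ h

/-- a function regular outside `Q` and at `Q` is constant -/
theorem affRing_const_of_ord_nonneg [RRBase K F] {Q : Place K F} {x : F} (hx : x ∈ affRing Q)
    (h : 0 ≤ Q.ord x) : x ∈ Set.range (algebraMap K F) := by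
  apply RRBase.const_of_forall_ord_nonneg (K := K) x
  intro v
  by_cases hv : v = Q
  · subst hv; exact h
  · exact hx v hv

/-! ### the quotients `affRing Q ⧸ (a)` are finite over `K` -/

section Quot

variable [RRBase K F] (Q : Place K F)

/-- the inclusion `L(nQ) → affRing Q` -/
def affInc (n : ℤ) : riemannRochSpace (K := K) (Finsupp.single Q n) →ₗ[K] affRing Q where
  toFun x := ⟨x.1, affRing_of_mem_rr x.2⟩
  map_add' _ _ := rfl
  map_smul' _ _ := rfl

omit [RRBase K F] in
theorem affInc_coe (n : ℤ) (x : riemannRochSpace (K := K) (Finsupp.single Q n)) :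
    ((affInc Q n x : affRing Q) : F) = x.1 := rfl

/-- the map `L(nQ) → affRing Q ⧸ (a)` -/
def affQuotMap (a : affRing Q) (n : ℤ) :
    riemannRochSpace (K := K) (Finsupp.single Q n) →ₗ[K] (affRing Q ⧸ Ideal.span {a}) :=
  ((Ideal.Quotient.mkₐ K (Ideal.span {a})).toLinearMap).comp (affInc Q n)

omit [RRBase K F] in
theorem affQuotMap_apply (a : affRing Q) (n : ℤ)
    (x : riemannRochSpace (K := K) (Finsupp.single Q n)) :
    affQuotMap Q a n x = Ideal.Quotient.mk (Ideal.span {a}) (affInc Q n x) := rfl

omit [RRBase K F] in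
theorem aff_mul_mem_rr {a : affRing Q} (ha : a ≠ 0) {n : ℤ} {g : F}
    (hg : g ∈ riemannRochSpace (K := K) (Finsupp.single Q (n + Q.ord (a : F)))) :
    (a : F) * g ∈ riemannRochSpace (K := K) (Finsupp.single Q n) := by
  have haF : (a : F) ≠ 0 := fun h => ha (Subtype.ext h)
  rcases eq_or_ne g 0 with rfl | hg0
  · rw [mul_zero]; exact zero_mem _
  have hgA : g ∈ affRing Q := affRing_of_mem_rr hg
  refine affRing_mem_rr ((affRing Q).mul_mem a.2 hgA) ?_
  rw [Q.ord_mul haF hg0]
  have := (mem_riemannRochSpace_iff.mp hg Q).resolve_left hg0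
  rw [Finsupp.single_eq_same] at this
  omega

/-- multiplication by `a` maps `L((n + ord_Q a) Q)` into the kernel of `L(nQ) → affRing Q ⧸ (a)` -/
def affMulKer (a : affRing Q) (ha : a ≠ 0) (n : ℤ) :
    riemannRochSpace (K := K) (Finsupp.single Q (n + Q.ord (a : F))) →ₗ[K]
      LinearMap.ker (affQuotMap Q a n) where
  toFun g := ⟨⟨(a : F) * g.1, aff_mul_mem_rr Q ha g.2⟩, by
    rw [LinearMap.mem_ker, affQuotMap_apply, Ideal.Quotient.eq_zero_iff_mem,
      Ideal.mem_span_singleton']
    exact ⟨⟨g.1, affRing_of_mem_rr g.2⟩, Subtype.ext (mul_comm _ _)⟩⟩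
  map_add' x y := by
    apply Subtype.ext
    apply Subtype.ext
    show (a : F) * (x.1 + y.1) = (a : F) * x.1 + (a : F) * y.1
    ring
  map_smul' c x := by
    apply Subtype.ext
    apply Subtype.ext
    show (a : F) * (c • x.1) = c • ((a : F) * x.1)
    rw [mul_smul_comm]

omit [RRBase K F] in
theorem affMulKer_injective (a : affRing Q) (ha : a ≠ 0) (n : ℤ) :
    Function.Injective (affMulKer Q a ha n) := by
  have haF : (a : F) ≠ 0 := fun h => ha (Subtype.ext h)
  intro x y h
  have h1 : (a : F) * x.1 = (a : F) * y.1 := congrArg (fun z => ((z.1 : _) : F)) h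
  exact Subtype.ext (mul_left_cancel₀ haF h1)

/-- the image of `L(nQ)` in `affRing Q ⧸ (a)` has dimension at most `-ord_Q a` -/
theorem aff_finrank_range_le (a : affRing Q) (ha : a ≠ 0) (n : ℤ) :
    (Module.finrank K (LinearMap.range (affQuotMap Q a n)) : ℤ) ≤ -Q.ord (a : F) := by
  have haF : (a : F) ≠ 0 := fun h => ha (Subtype.ext h)
  have hord : Q.ord (a : F) ≤ 0 := affRing_ord_nonpos a.2 haF
  have := finite_riemannRochSpace (K := K) (Finsupp.single Q n)
  have := finite_riemannRochSpace (K := K) (Finsupp.single Q (n + Q.ord (a : F)))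
  have hrn := LinearMap.finrank_range_add_finrank_ker (affQuotMap Q a n)
  have hker : Module.finrank K (riemannRochSpace (K := K) (Finsupp.single Q (n + Q.ord (a : F))))
      ≤ Module.finrank K (LinearMap.ker (affQuotMap Q a n)) :=
    LinearMap.finrank_le_finrank_of_injective (affMulKer_injective Q a ha n)
  have hle : (Finsupp.single Q (n + Q.ord (a : F)) : Divisor K F) ≤ Finsupp.single Q n := by
    rw [Finsupp.le_def]
    intro v
    by_cases hv : v = Q
    · subst hv
      rw [Finsupp.single_eq_same, Finsupp.single_eq_same]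
      omega
    · rw [Finsupp.single_eq_of_ne hv, Finsupp.single_eq_of_ne hv]
  have hell := ell_le_ell_add (K := K) hle
  rw [Divisor.degree_single, Divisor.degree_single, deg_eq_one] at hell
  simp only [ell] at hell
  push_cast at hell
  have h1 : (Module.finrank K (LinearMap.range (affQuotMap Q a n)) : ℤ) +
      Module.finrank K (LinearMap.ker (affQuotMap Q a n)) =
      Module.finrank K (riemannRochSpace (K := K) (Finsupp.single Q n)) := by
    exact_mod_cast hrn
  have h2 : (Module.finrank K (riemannRochSpace (K := K)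
      (Finsupp.single Q (n + Q.ord (a : F)))) : ℤ) ≤
      Module.finrank K (LinearMap.ker (affQuotMap Q a n)) := by
    exact_mod_cast hker
  linarith

omit [RRBase K F] in
theorem aff_range_mono (a : affRing Q) {n n' : ℤ} (h : n ≤ n') :
    LinearMap.range (affQuotMap Q a n) ≤ LinearMap.range (affQuotMap Q a n') := by
  rintro _ ⟨x, rfl⟩
  have hx : x.1 ∈ riemannRochSpace (K := K) (Finsupp.single Q n') := by
    refine riemannRochSpace_mono ?_ x.2
    rw [Finsupp.le_def]
    intro v
    by_cases hv : v = Q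
    · subst hv
      rw [Finsupp.single_eq_same, Finsupp.single_eq_same]
      exact h
    · rw [Finsupp.single_eq_of_ne hv, Finsupp.single_eq_of_ne hv]
  exact ⟨⟨x.1, hx⟩, rfl⟩

omit [RRBase K F] in
theorem aff_mem_range (a : affRing Q) (y : affRing Q ⧸ Ideal.span {a}) :
    ∃ n : ℕ, y ∈ LinearMap.range (affQuotMap Q a (n : ℤ)) := by
  obtain ⟨x, rfl⟩ := Ideal.Quotient.mk_surjective y
  obtain ⟨n, hn⟩ := mem_affRing_iff_rr.mp x.2
  exact ⟨n, ⟨⟨x.1, hn⟩, rfl⟩⟩

/-- **`affRing Q ⧸ (a)` is finite over `K`** for `a ≠ 0`. -/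
theorem affRing_quot_finite (a : affRing Q) (ha : a ≠ 0) :
    Module.Finite K (affRing Q ⧸ Ideal.span {a}) := by
  set f : ℕ → ℕ := fun n => Module.finrank K (LinearMap.range (affQuotMap Q a (n : ℤ))) with hf
  have hbound : ∀ n, (f n : ℤ) ≤ -Q.ord (a : F) := fun n => aff_finrank_range_le Q a ha n
  obtain ⟨n₀, hn₀⟩ : ∃ n₀, ∀ n, f n ≤ f n₀ := by
    by_contra hcon
    push Not at hcon
    have hunb : ∀ d : ℕ, ∃ n, d ≤ f n := by
      intro d
      induction d with
      | zero => exact ⟨0, Nat.zero_le _⟩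
      | succ d ih =>
        obtain ⟨n, hn⟩ := ih
        obtain ⟨n', hn'⟩ := hcon n
        exact ⟨n', by omega⟩
    obtain ⟨n, hn⟩ := hunb ((-Q.ord (a : F)).toNat + 1)
    have h1 := hbound n
    have h2 := Int.self_le_toNat (-Q.ord (a : F))
    have h3 : (((-Q.ord (a : F)).toNat + 1 : ℕ) : ℤ) ≤ f n := by exact_mod_cast hn
    push_cast at h3
    omega
  have htop : (⊤ : Submodule K (affRing Q ⧸ Ideal.span {a})) ≤
      LinearMap.range (affQuotMap Q a (n₀ : ℤ)) := by
    intro y _
    obtain ⟨n, hn⟩ := aff_mem_range Q a y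
    have hle : LinearMap.range (affQuotMap Q a (n₀ : ℤ)) ≤
        LinearMap.range (affQuotMap Q a ((max n n₀ : ℕ) : ℤ)) :=
      aff_range_mono Q a (by exact_mod_cast le_max_right n n₀)
    have hle' : LinearMap.range (affQuotMap Q a (n : ℤ)) ≤
        LinearMap.range (affQuotMap Q a ((max n n₀ : ℕ) : ℤ)) :=
      aff_range_mono Q a (by exact_mod_cast le_max_left n n₀)
    have := finite_riemannRochSpace (K := K) (Finsupp.single Q ((max n n₀ : ℕ) : ℤ))
    have heq := Submodule.eq_of_le_of_finrank_le hle (hn₀ (max n n₀))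
    rw [heq]
    exact hle' hn
  have := finite_riemannRochSpace (K := K) (Finsupp.single Q (n₀ : ℤ))
  exact Module.Finite.of_surjective (affQuotMap Q a (n₀ : ℤ))
    (LinearMap.range_eq_top.mp (top_le_iff.mp htop))

end Quot

/-! ### `affRing Q` is a Dedekind domain -/

section Dedekind

variable (Q : Place K F)

theorem affRing_isNoetherianRing [RRBase K F] : IsNoetherianRing (affRing Q) := by
  rw [isNoetherianRing_iff_ideal_fg]
  intro I
  by_cases hI : I = ⊥
  · rw [hI]; exact Submodule.fg_bot
  obtain ⟨a, haI, ha0⟩ := Submodule.exists_mem_ne_zero_of_ne_bot hI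
  have := affRing_quot_finite Q a ha0
  have hN : IsNoetherian (affRing Q) (affRing Q ⧸ Ideal.span {a}) :=
    isNoetherian_of_tower K inferInstance
  refine Submodule.fg_of_fg_map_of_fg_inf_ker (Ideal.span {a}).mkQ (hN.noetherian _) ?_
  rw [Submodule.ker_mkQ, inf_eq_right.mpr ((Ideal.span_singleton_le_iff_mem I).mpr haI)]
  exact ⟨{a}, by simp⟩

theorem affRing_quot_finite_of_ne_bot [RRBase K F] (P : Ideal (affRing Q)) (hP : P ≠ ⊥) :
    Module.Finite K (affRing Q ⧸ P) := by
  obtain ⟨a, haP, ha0⟩ := Submodule.exists_mem_ne_zero_of_ne_bot hP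
  have := affRing_quot_finite Q a ha0
  have hle : Ideal.span {a} ≤ P := (Ideal.span_singleton_le_iff_mem P).mpr haP
  exact Module.Finite.of_surjective (Ideal.Quotient.factorₐ K hle).toLinearMap
    (Ideal.Quotient.factor_surjective hle)

theorem affRing_dimensionLEOne [RRBase K F] : Ring.DimensionLEOne (affRing Q) := by
  refine ⟨fun {p} hp hprime => ?_⟩
  have := affRing_quot_finite_of_ne_bot Q p hp
  have : IsDomain (affRing Q ⧸ p) := Ideal.Quotient.isDomain p
  have hint : Algebra.IsIntegral K (affRing Q ⧸ p) := Algebra.IsIntegral.of_finite K _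
  exact Ideal.Quotient.maximal_of_isField p
    (isField_of_isIntegral_of_isField' (Field.toIsField K))

/-- `affRing Q` is integrally closed in `F` -/
theorem affRing_mem_of_isIntegral {x : F} (hx : IsIntegral (affRing Q) x) : x ∈ affRing Q := by
  intro v hv
  obtain ⟨p, hpm, hp⟩ := hx
  let φ : affRing Q →+* v.toValuationSubring :=
    (algebraMap (affRing Q) F).codRestrict v.toValuationSubring.toSubring
      (fun y => ffMem_of_ord_nonneg v (y.2 v hv))
  have hφ : (algebraMap v.toValuationSubring F).comp φ = algebraMap (affRing Q) F := by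
    ext y; rfl
  have hint' : IsIntegral v.toValuationSubring x := by
    refine ⟨p.map φ, hpm.map φ, ?_⟩
    rw [Polynomial.eval₂_map, hφ]
    exact hp
  obtain ⟨y, hy⟩ := IsIntegrallyClosed.algebraMap_eq_of_integral hint'
  rw [← hy]
  exact ffOrd_nonneg_of_mem v y.2

theorem affRing_isIntegrallyClosed : IsIntegrallyClosed (affRing Q) := by
  refine (isIntegrallyClosed_iff (FractionRing (affRing Q))).mpr fun {x} hx => ?_
  have hinj : Function.Injective (Algebra.ofId (affRing Q) F) := Subtype.val_injective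
  let ι : FractionRing (affRing Q) →ₐ[affRing Q] F := IsFractionRing.liftAlgHom hinj
  have h1 : IsIntegral (affRing Q) (ι x) := hx.map ι
  have h2 := affRing_mem_of_isIntegral Q h1
  refine ⟨⟨ι x, h2⟩, ?_⟩
  apply (ι : FractionRing (affRing Q) →+* F).injective
  show ι (algebraMap (affRing Q) (FractionRing (affRing Q)) ⟨ι x, h2⟩) = ι x
  rw [AlgHom.commutes]
  rfl

/-- **`affRing Q` is a Dedekind domain.** -/
instance affRing_isDedekindDomain [RRBase K F] : IsDedekindDomain (affRing Q) :=
  have hr := affRing_isNoetherianRing Q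
  have hd := affRing_dimensionLEOne Q
  have hi := affRing_isIntegrallyClosed Q
  { hr, hd, hi with }

end Dedekind

/-! ### the maximal ideals are `K`-rational -/

section Rational

variable [RRBase K F] (Q : Place K F)

/-- a unit of `affRing Q` is a constant -/
theorem affRing_const_of_isUnit {x : affRing Q} (hx : IsUnit x) :
    (x : F) ∈ Set.range (algebraMap K F) := by
  obtain ⟨u, rfl⟩ := hx
  have hmul : ((u : affRing Q) : F) * ((u⁻¹ : (affRing Q)ˣ) : affRing Q) = 1 := by
    exact congrArg (Subtype.val : affRing Q → F) u.mul_inv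
  have hu0 : ((u : affRing Q) : F) ≠ 0 := left_ne_zero_of_mul_eq_one hmul
  have hv0 : (((u⁻¹ : (affRing Q)ˣ) : affRing Q) : F) ≠ 0 := right_ne_zero_of_mul_eq_one hmul
  have hinv : (((u⁻¹ : (affRing Q)ˣ) : affRing Q) : F) = ((u : affRing Q) : F)⁻¹ :=
    eq_inv_of_mul_eq_one_right hmul
  apply affRing_const_of_ord_nonneg (u : affRing Q).2
  have h1 := affRing_ord_nonpos ((u⁻¹ : (affRing Q)ˣ) : affRing Q).2 hv0
  rw [hinv, Q.ord_inv] at h1
  omega

/-- **the maximal ideals of `affRing Q` are `K`-rational** (`K` algebraically closed). -/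
theorem affRing_residue_surjective [IsAlgClosed K] (P : Ideal (affRing Q)) (hP : P.IsMaximal) :
    Function.Surjective (algebraMap K (affRing Q ⧸ P)) := by
  by_cases hbot : P = ⊥
  · intro y
    obtain ⟨x, rfl⟩ := Ideal.Quotient.mk_surjective y
    suffices h : (x : F) ∈ Set.range (algebraMap K F) by
      obtain ⟨c, hc⟩ := h
      refine ⟨c, ?_⟩
      have : algebraMap K (affRing Q) c = x := Subtype.ext hc
      rw [← this]
      rfl
    rcases eq_or_ne x 0 with rfl | hx0
    · exact ⟨0, by simp⟩
    apply affRing_const_of_isUnit Q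
    rw [← Ideal.span_singleton_eq_top]
    by_contra hne
    have hle : P ≤ Ideal.span {x} := by rw [hbot]; exact bot_le
    have := hP.eq_of_le hne hle
    rw [hbot] at this
    exact hx0 (Ideal.span_singleton_eq_bot.mp this.symm)
  · have := affRing_quot_finite_of_ne_bot Q P hbot
    have := hP.isPrime
    have : IsDomain (affRing Q ⧸ P) := Ideal.Quotient.isDomain P
    have : Algebra.IsIntegral K (affRing Q ⧸ P) := Algebra.IsIntegral.of_finite K _
    exact (IsAlgClosed.algebraMap_bijective_of_isIntegral (k := K)).2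

end Rational

end Fermat.Agent.S34lib

end
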