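/-
Item 79 (S34), block F (helper19): the sup-norm of TWO constant reductions `R₁, R₂` of one
function field `F/K` (notation of `S34lib/CruxSSBuild.lean`).

* `gss_not_le`        : two different constant reductions are incomparable.
* `gss_exists_idem`   : there is `e ∈ O₁ ∩ O₂` with `red e = (1, 0)`.
* `gss_red_surjective`: (SURJ) if the valuation ring `A` of constants is archimedean (rank one), then
                        `red : O₁ ∩ O₂ → Fk₁ × Fk₂` is onto.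
* `gss_degree_le`     : (B)_ss, the joint growth lemma: for `f ∈ L(B) ∩ O₁ ∩ O₂`, `B ≥ 0`, the pole
                        divisors `X₁`, `X₂` of the two reductions satisfy `deg X₁ + deg X₂ ≤ deg B`.
Blueprint: NOTES/S34_F3dim_helper19.md.  No sorry in this file.
-/
import Mathlib
import Fermat.Agent.GoodRed.Growth
import Fermat.Agent.S34lib.CruxSSBuild

set_option autoImplicit false

noncomputable section

namespace Fermat.Agent.S34lib

open AlgebraicCurve Fermat.Agent.RRlib Fermat.Agent.GoodRed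

variable {K F k : Type*} [Field K] [Field F] [Algebra K F] [Field k]
variable {Fk₁ Fk₂ : Type*} [Field Fk₁] [Algebra k Fk₁] [Field Fk₂] [Algebra k Fk₂]
variable {A : ValuationSubring K} {π : A →+* k}

section Surj

/-- a constant of `K` is a nonunit of `O` iff it is a nonunit of `A` -/
theorem gss_algebraMap_mem_nonunits_iff {Fk : Type*} [Field Fk] [Algebra k Fk]
    (R : ConstRed A π Fk F) (a : K) :
    algebraMap K F a ∈ R.O.nonunits ↔ a ∈ A.nonunits := by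
  rw [ValuationSubring.mem_nonunits_iff_or, ValuationSubring.mem_nonunits_iff_or, ← map_inv₀,
    R.algebraMap_mem_iff]
  simp

/-- two different constant reductions of the same field are incomparable -/
theorem gss_not_le (R₁ : ConstRed A π Fk₁ F) (R₂ : ConstRed A π Fk₂ F) (h : R₁.O ≠ R₂.O) :
    ¬ R₁.O ≤ R₂.O := by
  intro hle
  apply h
  refine le_antisymm hle ?_
  intro x hx
  by_cases hx0 : x = 0
  · rw [hx0]; exact R₁.O.zero_mem
  obtain ⟨c, hc0, hc1, hc2⟩ := R₁.exists_unit_smul x hx0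
  have h1 : (algebraMap K F c * x)⁻¹ ∈ R₂.O := hle hc2
  have h2 : algebraMap K F c⁻¹ ∈ R₂.O := by
    have : algebraMap K F c⁻¹ = (algebraMap K F c * x)⁻¹ * x := by
      have hcF : algebraMap K F c ≠ 0 := by
        rwa [Ne, map_eq_zero]
      rw [map_inv₀]
      field_simp
    rw [this]
    exact R₂.O.mul_mem _ _ h1 hx
  have h3 : c⁻¹ ∈ A := (R₂.algebraMap_mem_iff c⁻¹).mp h2
  have h4 : algebraMap K F c⁻¹ ∈ R₁.O := R₁.algebraMap_mem ⟨c⁻¹, h3⟩
  have : x = algebraMap K F c⁻¹ * (algebraMap K F c * x) := by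
    have hcF : algebraMap K F c ≠ 0 := by
      rwa [Ne, map_eq_zero]
    rw [map_inv₀]
    field_simp
  rw [this]
  exact R₁.O.mul_mem _ _ h4 hc1

/-- an element `u` with `u ∈ 𝔪₁` and `u⁻¹ ∈ 𝔪₂` -/
theorem gss_exists_sep (R₁ : ConstRed A π Fk₁ F) (R₂ : ConstRed A π Fk₂ F) (h : R₁.O ≠ R₂.O) :
    ∃ u : F, u ≠ 0 ∧ u ∈ R₁.O.nonunits ∧ u⁻¹ ∈ R₂.O.nonunits := by
  have h12 := gss_not_le R₁ R₂ h
  have h21 := gss_not_le R₂ R₁ (Ne.symm h)
  obtain ⟨x, hx1, hx2⟩ := SetLike.not_le_iff_exists.mp h12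
  obtain ⟨y, hy2, hy1⟩ := SetLike.not_le_iff_exists.mp h21
  have hx0 : x ≠ 0 := fun h0 => hx2 (h0 ▸ R₂.O.zero_mem)
  have hy0 : y ≠ 0 := fun h0 => hy1 (h0 ▸ R₁.O.zero_mem)
  have hyi : y⁻¹ ∈ R₁.O.nonunits := by
    rw [ValuationSubring.mem_nonunits_iff_or]
    right
    rwa [inv_inv]
  have hxi : x⁻¹ ∈ R₂.O.nonunits := by
    rw [ValuationSubring.mem_nonunits_iff_or]
    right
    rwa [inv_inv]
  refine ⟨x * y⁻¹, mul_ne_zero hx0 (inv_ne_zero hy0), ?_, ?_⟩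
  · rw [ValuationSubring.mem_nonunits_iff] at hyi ⊢
    rw [map_mul]
    have hx1' : R₁.O.valuation x ≤ 1 := (R₁.O.valuation_le_one_iff x).mpr hx1
    calc R₁.O.valuation x * R₁.O.valuation y⁻¹ ≤ 1 * R₁.O.valuation y⁻¹ :=
          mul_le_mul' hx1' le_rfl
      _ = R₁.O.valuation y⁻¹ := one_mul _
      _ < 1 := hyi
  · rw [mul_inv, inv_inv]
    rw [ValuationSubring.mem_nonunits_iff] at hxi ⊢
    rw [map_mul]
    have hy2' : R₂.O.valuation y ≤ 1 := (R₂.O.valuation_le_one_iff y).mpr hy2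
    calc R₂.O.valuation x⁻¹ * R₂.O.valuation y ≤ R₂.O.valuation x⁻¹ * 1 :=
          mul_le_mul' le_rfl hy2'
      _ = R₂.O.valuation x⁻¹ := mul_one _
      _ < 1 := hxi

/-- `1 + u` is a unit of `O` for `u ∈ 𝔪`, and `(1 + u)⁻¹ ≡ 1` -/
theorem gss_inv_one_add {Fk : Type*} [Field Fk] [Algebra k Fk] (R : ConstRed A π Fk F) {u : F}
    (hu : u ∈ R.O.nonunits) :
    ∃ h : (1 + u)⁻¹ ∈ R.O, R.red ⟨(1 + u)⁻¹, h⟩ = 1 := by
  have huO : u ∈ R.O := ValuationSubring.nonunits_le hu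
  have hred : R.red ⟨u, huO⟩ = 0 := (R.red_eq_zero_iff ⟨u, huO⟩).mpr hu
  have h1 : (1 + u) ∈ R.O := R.O.add_mem _ _ R.O.one_mem huO
  have hred1 : R.red ⟨1 + u, h1⟩ = 1 := by
    have : (⟨1 + u, h1⟩ : R.O) = 1 + ⟨u, huO⟩ := rfl
    rw [this, map_add, map_one, hred, add_zero]
  have hnn : (1 + u) ∉ R.O.nonunits := by
    intro hc
    have := (R.red_eq_zero_iff ⟨1 + u, h1⟩).mpr hc
    rw [hred1] at this
    exact one_ne_zero this
  have h0 : (1 + u) ≠ 0 := by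
    intro h0
    apply hnn
    rw [h0, ValuationSubring.mem_nonunits_iff_or]
    left; rfl
  have hinv : (1 + u)⁻¹ ∈ R.O := by
    by_contra hc
    apply hnn
    rw [ValuationSubring.mem_nonunits_iff_or]
    right; exact hc
  refine ⟨hinv, ?_⟩
  have hmul : (⟨1 + u, h1⟩ : R.O) * ⟨(1 + u)⁻¹, hinv⟩ = 1 := by
    apply Subtype.ext
    show (1 + u) * (1 + u)⁻¹ = 1
    exact mul_inv_cancel₀ h0
  have := congrArg R.red hmul
  rw [map_mul, hred1, one_mul, map_one] at this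
  exact this

/-- there is `e ∈ O₁ ∩ O₂` with `red₁ e = 1` and `e ∈ 𝔪₂` -/
theorem gss_exists_idem (R₁ : ConstRed A π Fk₁ F) (R₂ : ConstRed A π Fk₂ F) (h : R₁.O ≠ R₂.O) :
    ∃ e : F, e ≠ 0 ∧ (∃ h₁ : e ∈ R₁.O, R₁.red ⟨e, h₁⟩ = 1) ∧ e ∈ R₂.O.nonunits := by
  obtain ⟨u, hu0, hu1, hu2⟩ := gss_exists_sep R₁ R₂ h
  obtain ⟨h₁, hr₁⟩ := gss_inv_one_add R₁ hu1
  obtain ⟨h₂, hr₂⟩ := gss_inv_one_add R₂ hu2
  have hne : (1 + u) ≠ 0 := by
    intro h0
    have : R₁.red ⟨(1 + u)⁻¹, h₁⟩ = 0 := by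
      have : (⟨(1 + u)⁻¹, h₁⟩ : R₁.O) = 0 := by
        apply Subtype.ext
        show (1 + u)⁻¹ = 0
        rw [h0, inv_zero]
      rw [this, map_zero]
    rw [hr₁] at this
    exact one_ne_zero this
  refine ⟨(1 + u)⁻¹, inv_ne_zero hne, ⟨h₁, hr₁⟩, ?_⟩
  -- `(1 + u)⁻¹ = u⁻¹ * (1 + u⁻¹)⁻¹`
  have hne' : (1 + u⁻¹) ≠ 0 := by
    intro h0
    apply hne
    have : 1 + u = u * (1 + u⁻¹) := by
      field_simp
      ring
    rw [this, h0, mul_zero]
  have hfac : (1 + u)⁻¹ = u⁻¹ * (1 + u⁻¹)⁻¹ := by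
    have h5 : u * (1 + u⁻¹) = 1 + u := by
      rw [mul_add, mul_one, mul_inv_cancel₀ hu0, add_comm]
    rw [← h5, mul_inv]
  rw [hfac, ValuationSubring.mem_nonunits_iff, map_mul]
  have h3 : R₂.O.valuation (1 + u⁻¹)⁻¹ ≤ 1 := (R₂.O.valuation_le_one_iff _).mpr h₂
  have h4 : R₂.O.valuation u⁻¹ < 1 := R₂.O.mem_nonunits_iff.mp hu2
  calc R₂.O.valuation u⁻¹ * R₂.O.valuation (1 + u⁻¹)⁻¹ ≤ R₂.O.valuation u⁻¹ * 1 :=
        mul_le_mul' le_rfl h3
    _ = R₂.O.valuation u⁻¹ := mul_one _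
    _ < 1 := h4

/-- nonunits form an ideal -/
theorem gss_mul_mem_nonunits (O : ValuationSubring F) {a b : F} (ha : a ∈ O)
    (hb : b ∈ O.nonunits) : a * b ∈ O.nonunits := by
  rw [ValuationSubring.mem_nonunits_iff] at hb ⊢
  rw [map_mul]
  have h1 : O.valuation a ≤ 1 := (O.valuation_le_one_iff a).mpr ha
  calc O.valuation a * O.valuation b ≤ 1 * O.valuation b := mul_le_mul' h1 le_rfl
    _ = O.valuation b := one_mul _
    _ < 1 := hb

/-- the valuation ring of constants is archimedean (rank one) -/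
def GssArch (A : ValuationSubring K) : Prop :=
  ∀ a c : K, a ∈ A.nonunits → ∃ r : ℕ, a ^ r * c ∈ A

/-- every residue class of `O₁` has a representative in `O₁ ∩ 𝔪₂` -/
theorem gss_exists_left (hA : GssArch A) (R₁ : ConstRed A π Fk₁ F) (R₂ : ConstRed A π Fk₂ F)
    (h : R₁.O ≠ R₂.O) (x : R₁.O) :
    ∃ z : F, (∃ h₁ : z ∈ R₁.O, R₁.red ⟨z, h₁⟩ = R₁.red x) ∧ z ∈ R₂.O.nonunits := by
  by_cases hx0 : (x : F) = 0
  · refine ⟨0, ⟨R₁.O.zero_mem, ?_⟩, ?_⟩
    · have : x = ⟨0, R₁.O.zero_mem⟩ := Subtype.ext hx0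
      rw [this]
    · rw [ValuationSubring.mem_nonunits_iff_or]
      left; rfl
  obtain ⟨e, he0, ⟨he1, hre1⟩, he2⟩ := gss_exists_idem R₁ R₂ h
  obtain ⟨c, hc0, hc1, -⟩ := R₂.exists_unit_smul (x : F) hx0
  obtain ⟨ce, hce0, hce1, hce2⟩ := R₂.exists_unit_smul e he0
  have hcF : algebraMap K F c ≠ 0 := by rwa [Ne, map_eq_zero]
  have hceF : algebraMap K F ce ≠ 0 := by rwa [Ne, map_eq_zero]
  -- `ce⁻¹` is a nonunit of `A`
  have hcenu : ce⁻¹ ∈ A.nonunits := by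
    rw [← gss_algebraMap_mem_nonunits_iff R₂]
    have : algebraMap K F ce⁻¹ = (algebraMap K F ce * e)⁻¹ * e := by
      rw [map_inv₀]
      field_simp
    rw [this]
    exact gss_mul_mem_nonunits R₂.O hce2 he2
  obtain ⟨r, hr⟩ := hA ce⁻¹ c⁻¹ hcenu
  have hrO : algebraMap K F (ce⁻¹ ^ r * c⁻¹) ∈ R₂.O := R₂.algebraMap_mem ⟨_, hr⟩
  refine ⟨(x : F) * e ^ (r + 1), ⟨R₁.O.mul_mem _ _ x.2 (R₁.O.pow_mem he1 _), ?_⟩, ?_⟩
  · have : (⟨(x : F) * e ^ (r + 1), R₁.O.mul_mem _ _ x.2 (R₁.O.pow_mem he1 _)⟩ : R₁.O)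
        = x * ⟨e, he1⟩ ^ (r + 1) := rfl
    rw [this, map_mul, map_pow, hre1, one_pow, mul_one]
  · have hfac : (x : F) * e ^ (r + 1)
        = (algebraMap K F (ce⁻¹ ^ r * c⁻¹) * (algebraMap K F c * (x : F))
            * (algebraMap K F ce * e) ^ r) * e := by
      rw [map_mul, map_pow, map_inv₀, map_inv₀, mul_pow, inv_pow]
      have hE : ((algebraMap K F ce) ^ r)⁻¹ * (algebraMap K F ce) ^ r = 1 :=
        inv_mul_cancel₀ (pow_ne_zero _ hceF)
      have hC : (algebraMap K F c)⁻¹ * algebraMap K F c = 1 := inv_mul_cancel₀ hcF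
      linear_combination (-(x : F) * e ^ (r + 1) * ((algebraMap K F c)⁻¹ * algebraMap K F c)) * hE
        + (-(x : F) * e ^ (r + 1)) * hC
    rw [hfac]
    exact gss_mul_mem_nonunits R₂.O
      (R₂.O.mul_mem _ _ (R₂.O.mul_mem _ _ hrO hc1) (R₂.O.pow_mem hce1 _)) he2

/-- **(SURJ)**: the reduction map of the sup-norm of two different constant reductions is onto
`Fk₁ × Fk₂` (approximation theorem; `A` archimedean). -/
theorem gss_red_surjective (hA : GssArch A) (R₁ : ConstRed A π Fk₁ F) (R₂ : ConstRed A π Fk₂ F)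
    (h : R₁.O ≠ R₂.O) : Function.Surjective (ssRed R₁ R₂) := by
  rintro ⟨a, b⟩
  obtain ⟨x₁, hx₁⟩ := R₁.red_surjective a
  obtain ⟨x₂, hx₂⟩ := R₂.red_surjective b
  obtain ⟨z₁, ⟨h11, hr11⟩, h12⟩ := gss_exists_left hA R₁ R₂ h x₁
  obtain ⟨z₂, ⟨h22, hr22⟩, h21⟩ := gss_exists_left hA R₂ R₁ (Ne.symm h) x₂
  have h12' : z₁ ∈ R₂.O := ValuationSubring.nonunits_le h12
  have h21' : z₂ ∈ R₁.O := ValuationSubring.nonunits_le h21
  have hr12 : R₂.red ⟨z₁, h12'⟩ = 0 := (R₂.red_eq_zero_iff ⟨z₁, h12'⟩).mpr h12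
  have hr21 : R₁.red ⟨z₂, h21'⟩ = 0 := (R₁.red_eq_zero_iff ⟨z₂, h21'⟩).mpr h21
  refine ⟨⟨z₁ + z₂, ⟨R₁.O.add_mem _ _ h11 h21', R₂.O.add_mem _ _ h12' h22⟩⟩, ?_⟩
  rw [ssRed_apply]
  refine Prod.ext ?_ ?_
  · show R₁.red ⟨z₁ + z₂, _⟩ = a
    have : (⟨z₁ + z₂, R₁.O.add_mem _ _ h11 h21'⟩ : R₁.O) = ⟨z₁, h11⟩ + ⟨z₂, h21'⟩ := rfl
    rw [this, map_add, hr11, hr21, add_zero, hx₁]
  · show R₂.red ⟨z₁ + z₂, _⟩ = b
    have : (⟨z₁ + z₂, R₂.O.add_mem _ _ h12' h22⟩ : R₂.O) = ⟨z₁, h12'⟩ + ⟨z₂, h22⟩ := rfl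
    rw [this, map_add, hr12, hr22, zero_add, hx₂]

end Surj

section Growth

variable (R₁ : ConstRed A π Fk₁ F) (R₂ : ConstRed A π Fk₂ F)

/-- lifts of `k`-independent elements of `Fk₁ × Fk₂` lying in `V` : their number is at most
`dim V` -/
theorem gss_card_le_finrank {ι : Type*} [Fintype ι] (V : Submodule K F) [Module.Finite K V]
    (x : ι → ssBall R₁ R₂) (hx : ∀ i, ((x i : ssBall R₁ R₂) : F) ∈ V)
    (h : LinearIndependent k (fun i => ssRed R₁ R₂ (x i))) :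
    Fintype.card ι ≤ Module.finrank K V := by
  have hindK := (SSRed.ofPair R₁ R₂).linearIndependent_of_red x h
  have hV : LinearIndependent K (fun i => (⟨((x i : ssBall R₁ R₂) : F), hx i⟩ : V)) := by
    apply LinearIndependent.of_comp V.subtype
    exact hindK
  exact hV.fintype_card_le_finrank

/-- the family `φʲ · z_{Q,a}` is independent, also for `φ = 0` (then `X = 0`) -/
theorem gss_linearIndependent {Fk : Type*} [Field Fk] [Algebra k Fk] [RRHyp k Fk]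
    {X : Divisor k Fk} {φ : Fk}
    (hX : ∀ Q : Place k Fk, X Q = max 0 (-(Q.ord φ))) (z : ↥(grIndex X) → Fk)
    (hzQ : ∀ p : ↥(grIndex X), z p ≠ 0 ∧ p.1.1.ord (z p) = (p.1.2 : ℤ))
    (hzQ' : ∀ p : ↥(grIndex X), ∀ Q' ∈ X.support, Q' ≠ p.1.1 → X Q' ≤ Q'.ord (z p))
    (m : ℕ) :
    LinearIndependent k (fun q : Fin (m + 1) × ↥(grIndex X) => φ ^ (q.1 : ℕ) * z q.2) := by
  classical
  have hX0 : 0 ≤ X := by
    intro Q
    rw [hX Q]
    exact le_max_left _ _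
  have hXs : ∀ Q ∈ X.support, X Q = -(Q.ord φ) := by
    intro Q hQ
    rw [Finsupp.mem_support_iff] at hQ
    have h1 := hX Q
    rcases max_cases (0 : ℤ) (-(Q.ord φ)) with h | h
    · rw [h.1] at h1
      exact absurd h1 hQ
    · rw [h.1] at h1
      exact h1
  by_cases hφ : φ = 0
  · -- then `X = 0` and the index set is empty
    have hempty : IsEmpty (Fin (m + 1) × ↥(grIndex X)) := by
      refine ⟨fun q => ?_⟩
      have h1 := (mem_grIndex.mp q.2.2).1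
      rw [Finsupp.mem_support_iff] at h1
      apply h1
      rw [hX, hφ, Place.ord_zero]
      simp
    exact linearIndependent_empty_type
  · exact gr_linearIndependent hφ hXs hX0 z hzQ hzQ' m

/-- **(B)_ss, the joint growth lemma**: if `f ∈ L(B) ∩ O₁ ∩ O₂`, `B ≥ 0`, then the pole divisors
`X₁`, `X₂` of the two reductions of `f` satisfy `deg X₁ + deg X₂ ≤ deg B`. -/
theorem gss_degree_le [RRHyp K F] [RRHyp k Fk₁] [RRHyp k Fk₂]
    (hsurj : Function.Surjective (ssRed R₁ R₂))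
    (f : ssBall R₁ R₂) {B : Divisor K F} (hB : 0 ≤ B)
    (hf : ((f : ssBall R₁ R₂) : F) ∈ riemannRochSpace (K := K) B)
    {X₁ : Divisor k Fk₁} {X₂ : Divisor k Fk₂}
    (hX₁ : ∀ Q : Place k Fk₁, X₁ Q = max 0 (-(Q.ord (ssRed R₁ R₂ f).1)))
    (hX₂ : ∀ Q : Place k Fk₂, X₂ Q = max 0 (-(Q.ord (ssRed R₁ R₂ f).2))) :
    Divisor.degree X₁ + Divisor.degree X₂ ≤ Divisor.degree B := by
  classical
  have hX₁0 : 0 ≤ X₁ := by
    intro Q
    rw [hX₁ Q]
    exact le_max_left _ _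
  have hX₂0 : 0 ≤ X₂ := by
    intro Q
    rw [hX₂ Q]
    exact le_max_left _ _
  -- the functions `zbar` and their lifts
  have hz₁ : ∀ p : ↥(grIndex X₁), ∃ z : Fk₁, z ≠ 0 ∧ p.1.1.ord z = (p.1.2 : ℤ) ∧
      ∀ Q' ∈ X₁.support, Q' ≠ p.1.1 → X₁ Q' ≤ Q'.ord z := fun p =>
    exists_ord_eq_of_finset k Fk₁ X₁.support p.1.1 (p.1.2 : ℤ) (fun Q' => X₁ Q')
  have hz₂ : ∀ p : ↥(grIndex X₂), ∃ z : Fk₂, z ≠ 0 ∧ p.1.1.ord z = (p.1.2 : ℤ) ∧
      ∀ Q' ∈ X₂.support, Q' ≠ p.1.1 → X₂ Q' ≤ Q'.ord z := fun p =>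
    exists_ord_eq_of_finset k Fk₂ X₂.support p.1.1 (p.1.2 : ℤ) (fun Q' => X₂ Q')
  choose zbar₁ hzbar₁0 hzbar₁Q hzbar₁Q' using hz₁
  choose zbar₂ hzbar₂0 hzbar₂Q hzbar₂Q' using hz₂
  have hl₁ : ∀ p : ↥(grIndex X₁), ∃ x : ssBall R₁ R₂, ssRed R₁ R₂ x = (zbar₁ p, 0) :=
    fun p => hsurj _
  have hl₂ : ∀ p : ↥(grIndex X₂), ∃ x : ssBall R₁ R₂, ssRed R₁ R₂ x = (0, zbar₂ p) :=
    fun p => hsurj _
  choose zl₁ hzl₁ using hl₁
  choose zl₂ hzl₂ using hl₂
  have hzl₁0 : ∀ p, ((zl₁ p : ssBall R₁ R₂) : F) ≠ 0 := by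
    intro p h0
    apply hzbar₁0 p
    have h1 := hzl₁ p
    rw [show zl₁ p = 0 from Subtype.ext h0, map_zero] at h1
    exact (congrArg Prod.fst h1).symm
  have hzl₂0 : ∀ p, ((zl₂ p : ssBall R₁ R₂) : F) ≠ 0 := by
    intro p h0
    apply hzbar₂0 p
    have h1 := hzl₂ p
    rw [show zl₂ p = 0 from Subtype.ext h0, map_zero] at h1
    exact (congrArg Prod.snd h1).symm
  -- a bound for the poles of the lifts
  set E₁ : Divisor K F :=
    ∑ p : ↥(grIndex X₁), ((-divOf (K := K) ((zl₁ p : ssBall R₁ R₂) : F)) ⊔ 0) with hE₁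
  set E₂ : Divisor K F :=
    ∑ p : ↥(grIndex X₂), ((-divOf (K := K) ((zl₂ p : ssBall R₁ R₂) : F)) ⊔ 0) with hE₂
  have hE₁0 : 0 ≤ E₁ := Finset.sum_nonneg fun p _ => le_sup_right
  have hE₂0 : 0 ≤ E₂ := Finset.sum_nonneg fun p _ => le_sup_right
  set E : Divisor K F := E₁ + E₂ with hE
  have hE0 : 0 ≤ E := add_nonneg hE₁0 hE₂0
  have hzl₁E : ∀ p, ((zl₁ p : ssBall R₁ R₂) : F) ∈ riemannRochSpace (K := K) E := by
    intro p
    rw [mem_riemannRochSpace_iff_divOf (hzl₁0 p)]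
    have h1 : (-divOf (K := K) ((zl₁ p : ssBall R₁ R₂) : F)) ⊔ 0 ≤ E₁ :=
      Finset.single_le_sum (f := fun p : ↥(grIndex X₁) =>
        ((-divOf (K := K) ((zl₁ p : ssBall R₁ R₂) : F)) ⊔ 0)) (fun p _ => le_sup_right)
        (Finset.mem_univ p)
    have h2 : -divOf (K := K) ((zl₁ p : ssBall R₁ R₂) : F) ≤ E :=
      (le_sup_left.trans h1).trans (le_add_of_nonneg_right hE₂0)
    have h3 := sub_nonneg.mpr h2
    rwa [sub_neg_eq_add] at h3
  have hzl₂E : ∀ p, ((zl₂ p : ssBall R₁ R₂) : F) ∈ riemannRochSpace (K := K) E := by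
    intro p
    rw [mem_riemannRochSpace_iff_divOf (hzl₂0 p)]
    have h1 : (-divOf (K := K) ((zl₂ p : ssBall R₁ R₂) : F)) ⊔ 0 ≤ E₂ :=
      Finset.single_le_sum (f := fun p : ↥(grIndex X₂) =>
        ((-divOf (K := K) ((zl₂ p : ssBall R₁ R₂) : F)) ⊔ 0)) (fun p _ => le_sup_right)
        (Finset.mem_univ p)
    have h2 : -divOf (K := K) ((zl₂ p : ssBall R₁ R₂) : F) ≤ E :=
      (le_sup_left.trans h1).trans (le_add_of_nonneg_left hE₁0)
    have h3 := sub_nonneg.mpr h2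
    rwa [sub_neg_eq_add] at h3
  have hdegE : 0 ≤ Divisor.degree E := degree_nonneg hE0
  have hdegB : 0 ≤ Divisor.degree B := degree_nonneg hB
  -- the growth estimate
  have hgrowth : ∀ m : ℕ, ((m : ℤ) + 1) * (Divisor.degree X₁ + Divisor.degree X₂)
      ≤ (m : ℤ) * Divisor.degree B + Divisor.degree E + 1 := by
    intro m
    have hfin := finite_riemannRochSpace (K := K) (m • B + E)
    -- the family
    let fam : (Fin (m + 1) × ↥(grIndex X₁)) ⊕ (Fin (m + 1) × ↥(grIndex X₂)) → ssBall R₁ R₂ :=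
      Sum.elim (fun q => f ^ (q.1 : ℕ) * zl₁ q.2) (fun q => f ^ (q.1 : ℕ) * zl₂ q.2)
    have hpow : ∀ j : Fin (m + 1),
        ((f : ssBall R₁ R₂) : F) ^ (j : ℕ) ∈ riemannRochSpace (K := K) (m • B) := fun j =>
      riemannRochSpace_mono (gr_nsmul_le hB (Nat.lt_succ_iff.mp j.2)) (gr_pow_mem hf _)
    have hmem : ∀ q, (((fam q : ssBall R₁ R₂)) : F) ∈ riemannRochSpace (K := K) (m • B + E) := by
      rintro (q | q)
      · have h2 := gr_mul_mem (hpow q.1) (hzl₁E q.2)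
        simpa [fam] using h2
      · have h2 := gr_mul_mem (hpow q.1) (hzl₂E q.2)
        simpa [fam] using h2
    have hind₁ := gss_linearIndependent (k := k) hX₁ zbar₁
      (fun p => ⟨hzbar₁0 p, hzbar₁Q p⟩) hzbar₁Q' m
    have hind₂ := gss_linearIndependent (k := k) hX₂ zbar₂
      (fun p => ⟨hzbar₂0 p, hzbar₂Q p⟩) hzbar₂Q' m
    have hind : LinearIndependent k (fun q => ssRed R₁ R₂ (fam q)) := by
      have := linearIndependent_inl_union_inr' hind₁ hind₂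
      convert this using 1
      funext q
      rcases q with q | q
      · simp only [fam, Sum.elim_inl, map_mul, map_pow, hzl₁, Function.comp_apply,
          LinearMap.inl_apply]
        refine Prod.ext ?_ ?_
        · simp
        · simp
      · simp only [fam, Sum.elim_inr, map_mul, map_pow, hzl₂, Function.comp_apply,
          LinearMap.inr_apply]
        refine Prod.ext ?_ ?_
        · simp
        · simp
    have hcard := gss_card_le_finrank R₁ R₂ (riemannRochSpace (K := K) (m • B + E)) fam hmem hind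
    rw [Fintype.card_sum, Fintype.card_prod, Fintype.card_prod, Fintype.card_fin,
      Fintype.card_coe, Fintype.card_coe] at hcard
    have hell : (ell (m • B + E) : ℤ) ≤ Divisor.degree (m • B + E) + 1 := by
      apply ell_le_degree_add_one
      rw [map_add, map_nsmul]
      have : 0 ≤ m • Divisor.degree B := nsmul_nonneg hdegB m
      linarith
    rw [map_add, map_nsmul, nsmul_eq_mul] at hell
    have hcard' : (((m + 1) * (grIndex X₁).card + (m + 1) * (grIndex X₂).card : ℕ) : ℤ)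
        ≤ (ell (m • B + E) : ℤ) := by
      exact_mod_cast hcard
    push_cast at hcard'
    rw [card_grIndex hX₁0, card_grIndex hX₂0] at hcard'
    linarith
  -- conclusion
  by_contra hcon
  rw [not_le] at hcon
  have h := hgrowth ((Divisor.degree E).toNat + 1)
  push_cast at h
  rw [Int.toNat_of_nonneg hdegE] at h
  have h5 : (0 : ℤ) ≤ (Divisor.degree E + 1 + 1) *
      (Divisor.degree X₁ + Divisor.degree X₂ - Divisor.degree B - 1) :=
    mul_nonneg (by linarith) (by linarith)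
  nlinarith

end Growth

end Fermat.Agent.S34lib

end
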