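/-
Item 79 (S34), block F (helper19): a valuation ring of `AlgebraicClosure ℚ` over a prime `q` is
archimedean (`GssArch`, rank one), hence (SURJ) holds for two different constant reductions over it.
Input: `GoodRed.valuation_pow_factorial_eq_zpow` (discreteness on algebraic elements).
No sorry in this file.
-/
import Mathlib
import Fermat.Agent.GoodRed.Discrete
import Fermat.Agent.S34lib.GrowthSS
import Fermat.Prelude.Def_FLTPrelim_Ramification

set_option autoImplicit false

noncomputable section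

namespace Fermat.Agent.S34lib

open Fermat.Agent.GoodRed

/-- **rank one**: if every element of `K` is algebraic over `ℚ` and `A` lies over a prime `q`,
then `A` is archimedean. -/
theorem gssArch_of_isAlgebraic {K : Type*} [Field K] [Algebra ℚ K] [Algebra.IsAlgebraic ℚ K]
    (A : ValuationSubring K) {q : ℕ} (hq : q.Prime) (hlt : A.valuation (q : K) < 1) :
    GssArch A := by
  classical
  intro a c ha
  by_cases hc : c = 0
  · exact ⟨0, by rw [hc, mul_zero]; exact A.zero_mem⟩
  by_cases ha0 : a = 0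
  · exact ⟨1, by rw [ha0, pow_one, zero_mul]; exact A.zero_mem⟩
  have : CharZero K := algebraRat.charZero K
  have hq0 : A.valuation (q : K) ≠ 0 :=
    (map_ne_zero _).mpr (Nat.cast_ne_zero.mpr hq.ne_zero)
  have hva : A.valuation a < 1 := (A.mem_nonunits_iff).mp ha
  have hva0 : A.valuation a ≠ 0 := (map_ne_zero _).mpr ha0
  have hvc0 : A.valuation c ≠ 0 := (map_ne_zero _).mpr hc
  have halg : ∀ x : K, ∃ p : Polynomial ℚ, p ≠ 0 ∧ Polynomial.aeval x p = 0 := fun x =>
    (Algebra.IsAlgebraic.isAlgebraic (R := ℚ) x)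
  obtain ⟨pa, hpa0, hpa⟩ := halg a
  obtain ⟨pc, hpc0, hpc⟩ := halg c
  obtain ⟨ma, hma⟩ := valuation_pow_factorial_eq_zpow A hq hlt a ha0 pa.natDegree pa hpa0 hpa le_rfl
  obtain ⟨mc, hmc⟩ := valuation_pow_factorial_eq_zpow A hq hlt c hc pc.natDegree pc hpc0 hpc le_rfl
  set Da := pa.natDegree.factorial with hDa
  set Dc := pc.natDegree.factorial with hDc
  have hDa0 : 0 < Da := Nat.factorial_pos _
  have hDc0 : 0 < Dc := Nat.factorial_pos _
  -- `ma > 0`
  have hma0 : 0 < ma := by
    by_contra hcon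
    rw [not_lt] at hcon
    have h1 : A.valuation a ^ Da < 1 := pow_lt_one₀ zero_le hva hDa0.ne'
    rw [hma] at h1
    have h2 : 1 ≤ A.valuation (q : K) ^ ma := by
      have : ma = -((-ma).toNat : ℤ) := by omega
      rw [this, zpow_neg, zpow_natCast]
      exact (one_le_inv₀ (pow_pos (zero_lt_iff.mpr hq0) _)).mpr (pow_le_one₀ zero_le hlt.le)
    exact absurd h1 (not_lt.mpr h2)
  refine ⟨(-mc).toNat * Da, ?_⟩
  rw [← A.valuation_le_one_iff, map_mul, map_pow]
  set r := (-mc).toNat * Da with hr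
  -- the `Da * Dc`-th power
  have hpow : (A.valuation a ^ r * A.valuation c) ^ (Da * Dc)
      = A.valuation (q : K) ^ (ma * (r * Dc : ℕ) + mc * Da) := by
    rw [mul_pow, ← pow_mul, show r * (Da * Dc) = Da * (r * Dc) by ring, pow_mul, hma,
      show Da * Dc = Dc * Da by ring, pow_mul (A.valuation c), hmc, zpow_add₀ hq0,
      ← zpow_natCast, ← zpow_mul, ← zpow_natCast (A.valuation (q : K) ^ mc), ← zpow_mul]
  have hexp : 0 ≤ ma * (r * Dc : ℕ) + mc * Da := by
    have h1 : (1 : ℤ) ≤ ma := hma0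
    have h2 : (1 : ℤ) ≤ Dc := by exact_mod_cast hDc0
    have h3 : (-mc) ≤ ((-mc).toNat : ℤ) := Int.self_le_toNat _
    have h4 : (0 : ℤ) ≤ ((-mc).toNat : ℤ) := Int.natCast_nonneg _
    have h5 : (0 : ℤ) ≤ Da := Int.natCast_nonneg _
    have h6 : ((r * Dc : ℕ) : ℤ) = ((-mc).toNat : ℤ) * Da * Dc := by
      rw [hr]; push_cast; ring
    rw [h6]
    have h7 : ((-mc).toNat : ℤ) * Da ≤ ma * (((-mc).toNat : ℤ) * Da * Dc) := by
      have h8 : (0 : ℤ) ≤ ((-mc).toNat : ℤ) * Da := mul_nonneg h4 h5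
      calc ((-mc).toNat : ℤ) * Da = 1 * (((-mc).toNat : ℤ) * Da * 1) := by ring
        _ ≤ ma * (((-mc).toNat : ℤ) * Da * Dc) := by
          apply mul_le_mul h1 _ (by positivity) (by omega)
          exact mul_le_mul_of_nonneg_left h2 h8
    have h9 : -mc * Da ≤ ((-mc).toNat : ℤ) * Da := mul_le_mul_of_nonneg_right h3 h5
    linarith
  have hle : (A.valuation a ^ r * A.valuation c) ^ (Da * Dc) ≤ 1 := by
    rw [hpow]
    obtain ⟨e, he⟩ := Int.eq_ofNat_of_zero_le hexp
    rw [he, zpow_natCast]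
    exact pow_le_one₀ zero_le hlt.le
  by_contra hcon
  rw [not_le] at hcon
  have := one_lt_pow₀ hcon (Nat.mul_pos hDa0 hDc0).ne'
  exact absurd hle (not_le.mpr this)

/-- a valuation ring of `AlgebraicClosure ℚ` over a prime `q` is archimedean -/
theorem gssArch_of_liesOverPrime (A : ValuationSubring (AlgebraicClosure ℚ)) {q : ℕ}
    (hq : q.Prime) (hA : A.LiesOverPrime q) : GssArch A := by
  haveI : Algebra.IsAlgebraic ℚ (AlgebraicClosure ℚ) := AlgebraicClosure.isAlgebraic ℚ
  exact gssArch_of_isAlgebraic A hq ((A.mem_nonunits_iff).mp hA)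

/-- **(SURJ) over `AlgebraicClosure ℚ`**: the joint reduction of two different constant
reductions over a valuation ring above `q` is onto. -/
theorem gss_red_surjective_of_liesOverPrime {F k Fk₁ Fk₂ : Type*} [Field F]
    [Algebra (AlgebraicClosure ℚ) F] [Field k] [Field Fk₁] [Algebra k Fk₁] [Field Fk₂]
    [Algebra k Fk₂] {A : ValuationSubring (AlgebraicClosure ℚ)} {π : A →+* k} {q : ℕ}
    (hq : q.Prime) (hA : A.LiesOverPrime q) (R₁ : ConstRed A π Fk₁ F) (R₂ : ConstRed A π Fk₂ F)
    (h : R₁.O ≠ R₂.O) : Function.Surjective (ssRed R₁ R₂) :=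
  gss_red_surjective (gssArch_of_liesOverPrime A hq hA) R₁ R₂ h

end Fermat.Agent.S34lib

end
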