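/-
Item 79 (S34), piece ML-FD (helper27), part 2: the reduction space of a finite-dimensional
subspace under a semistable constant reduction (`SSRed`, helper26).  No sorry.

`mfdRedSpace S V = red (V ∩ O)` is a `k`-subspace of `R` and
`finrank k (mfdRedSpace S V) = finrank K V`   (CART).
-/
import Fermat.Agent.S34lib.CruxSS

set_option autoImplicit false

noncomputable section

namespace Fermat.Agent.S34lib

variable {K F k : Type*} [Field K] [Field F] [Algebra K F] [Field k]
variable {R : Type*} [CommRing R] [Algebra k R]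
variable {A : ValuationSubring K} {π : A →+* k} (S : SSRed A π R F)

/-- the reduction of `V ∩ O` -/
def mfdRedSpace (V : Submodule K F) : Submodule k R where
  carrier := {r | ∃ y : S.O, (y : F) ∈ V ∧ S.red y = r}
  zero_mem' := ⟨0, by simp, map_zero _⟩
  add_mem' := by
    rintro _ _ ⟨y, hy, rfl⟩ ⟨z, hz, rfl⟩
    exact ⟨y + z, by simpa using V.add_mem hy hz, map_add _ _ _⟩
  smul_mem' := by
    rintro c _ ⟨y, hy, rfl⟩
    obtain ⟨a, rfl⟩ := S.π_surjective c
    refine ⟨S.C a * y, ?_, S.red_C_mul a y⟩
    have : ((S.C a * y : S.O) : F) = ((a : A) : K) • (y : F) := by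
      simp [SSRed.coe_C, Algebra.smul_def]
    rw [this]
    exact V.smul_mem _ hy

theorem mem_mfdRedSpace (V : Submodule K F) (r : R) :
    r ∈ mfdRedSpace S V ↔ ∃ y : S.O, (y : F) ∈ V ∧ S.red y = r := Iff.rfl

theorem mfdRedSpace_mono {V W : Submodule K F} (h : V ≤ W) :
    mfdRedSpace S V ≤ mfdRedSpace S W := by
  rintro _ ⟨y, hy, rfl⟩
  exact ⟨y, h hy, rfl⟩

theorem red_mem_mfdRedSpace (V : Submodule K F) (y : S.O) (hy : (y : F) ∈ V) :
    S.red y ∈ mfdRedSpace S V := ⟨y, hy, rfl⟩

/-- the reduction space is the span of the reductions of an orthonormal basis -/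
theorem mfdRedSpace_eq_span {n : ℕ} (b : Fin n → S.O)
    (hb : LinearIndependent k (fun i => S.red (b i)))
    (V : Submodule K F) (hV : Submodule.span K (Set.range fun i => ((b i : S.O) : F)) = V) :
    mfdRedSpace S V = Submodule.span k (Set.range fun i => S.red (b i)) := by
  apply le_antisymm
  · rintro _ ⟨y, hy, rfl⟩
    exact S.red_mem_span b hb V hV y hy
  · rw [Submodule.span_le]
    rintro _ ⟨i, rfl⟩
    refine ⟨b i, ?_, rfl⟩
    rw [← hV]
    exact Submodule.subset_span ⟨i, rfl⟩

/-- **(CART)**: `dim_k red (V ∩ O) = dim_K V`. -/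
theorem finrank_mfdRedSpace (V : Submodule K F) [hV : Module.Finite K V] :
    Module.finrank k (mfdRedSpace S V) = Module.finrank K V := by
  obtain ⟨n, b, hspan, hb⟩ := S.exists_orthonormal V hV
  rw [mfdRedSpace_eq_span S b hb V hspan, S.finrank_eq b hb V hspan,
    finrank_span_eq_card hb]
  simp

instance mfdRedSpace_finite (V : Submodule K F) [hV : Module.Finite K V] :
    Module.Finite k (mfdRedSpace S V) := by
  obtain ⟨n, b, hspan, hb⟩ := S.exists_orthonormal V hV
  rw [mfdRedSpace_eq_span S b hb V hspan]
  exact FiniteDimensional.span_of_finite k (Set.finite_range _)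

/-- a subspace of the reduction space of the same dimension is everything -/
theorem mfdRedSpace_eq_of_le_of_finrank (V : Submodule K F) [Module.Finite K V]
    (T : Submodule k R) (hT : T ≤ mfdRedSpace S V)
    (hdim : Module.finrank K V ≤ Module.finrank k T) : T = mfdRedSpace S V := by
  apply Submodule.eq_of_le_of_finrank_le hT
  rw [finrank_mfdRedSpace]
  exact hdim

/-- strict growth of the reduction space -/
theorem exists_mem_mfdRedSpace_not_mem {V W : Submodule K F} [Module.Finite K V]
    [Module.Finite K W] (hlt : Module.finrank K V < Module.finrank K W) :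
    ∃ y : S.O, (y : F) ∈ W ∧ S.red y ∉ mfdRedSpace S V := by
  by_contra hcon
  push_neg at hcon
  have hle : mfdRedSpace S W ≤ mfdRedSpace S V := by
    rintro _ ⟨y, hy, rfl⟩
    exact hcon y hy
  have := Submodule.finrank_mono hle
  rw [finrank_mfdRedSpace, finrank_mfdRedSpace] at this
  omega

end Fermat.Agent.S34lib

end
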