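/-
Item 79 (S34), block F (helper19): **(F3) for the base family by dimension count**.

`R₁, R₂` two constant reductions of `F/K` with surjective joint reduction
`red : O₁ ∩ O₂ → Fk₁ × Fk₂`, `M(D) := red (L(D) ∩ O₁ ∩ O₂)` (`f3dM`).

* `f3d_fst_mem` / `f3d_snd_mem` (POLE BOUND): if `deg D = a + b` and `M(D)` contains elements whose
  components have a pole of order `≥ a` at `Q₁`, resp. `≥ b` at `Q₂`, then
  `M(D) ⊆ L(a Q₁) × L(b Q₂)`  (joint growth lemma `gss_degree_le` + a generic element).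
* `f3d_strict_fst` / `f3d_strict_snd` (STRICTNESS): if moreover `dim L(D + P) = dim L(D) + 1` and
  `M(D + P)` contains an element with a pole of order `a + 1` at `Q₁`, then
  `M(D + P) ∩ (L(a Q₁) × Fk₂) = M(D)`.
Blueprint: NOTES/S34_F3dim_helper19.md.  No sorry in this file.
-/
import Mathlib
import Fermat.Agent.S34lib.GrowthSS
import Fermat.Agent.S34lib.MovingRed

set_option autoImplicit false

noncomputable section

namespace Fermat.Agent.S34lib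

open AlgebraicCurve Fermat.Agent.RRlib Fermat.Agent.GoodRed

variable {K F k : Type*} [Field K] [Field F] [Algebra K F] [Field k]
variable {Fk₁ Fk₂ : Type*} [Field Fk₁] [Algebra k Fk₁] [Field Fk₂] [Algebra k Fk₂]
variable {A : ValuationSubring K} {π : A →+* k}

/-- finitely many proper subspaces do not cover a vector space over an infinite field -/
theorem f3d_exists_notMem [Infinite k] {M : Type*} [AddCommGroup M] [Module k M]
    (s : Finset (Submodule k M)) (hs : ∀ U ∈ s, U ≠ ⊤) : ∃ w : M, ∀ U ∈ s, w ∉ U := by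
  have hs' : (⊤ : Subspace k M) ∉ s := fun h => hs ⊤ h rfl
  have hne := Subspace.biUnion_ne_univ_of_top_notMem hs'
  by_contra hcon
  push_neg at hcon
  apply hne
  ext w
  simp only [Set.mem_iUnion, Set.mem_univ, iff_true]
  obtain ⟨U, hU, hw⟩ := hcon w
  exact ⟨U, hU, hw⟩

variable (R₁ : ConstRed A π Fk₁ F) (R₂ : ConstRed A π Fk₂ F)

/-- the reduction space `M(D) = red (L(D) ∩ O₁ ∩ O₂) ⊆ Fk₁ × Fk₂` -/
def f3dM (D : Divisor K F) : Submodule k (Fk₁ × Fk₂) :=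
  mfdRedSpace (SSRed.ofPair R₁ R₂) (riemannRochSpace (K := K) D)

theorem mem_f3dM (D : Divisor K F) (w : Fk₁ × Fk₂) :
    w ∈ f3dM R₁ R₂ D ↔
      ∃ y : ssBall R₁ R₂, (y : F) ∈ riemannRochSpace (K := K) D ∧ ssRed R₁ R₂ y = w := Iff.rfl

theorem f3dM_mono {D D' : Divisor K F} (h : D ≤ D') : f3dM R₁ R₂ D ≤ f3dM R₁ R₂ D' :=
  mfdRedSpace_mono _ (riemannRochSpace_mono h)

theorem finrank_f3dM [RRBase K F] (D : Divisor K F) :
    Module.finrank k (f3dM R₁ R₂ D) = ell D := by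
  haveI := finite_riemannRochSpace (K := K) D
  exact finrank_mfdRedSpace _ _

/-- the pole divisor of a function -/
def f3dPol {Fk : Type*} [Field Fk] [Algebra k Fk] [RRBase k Fk] (x : Fk) : Divisor k Fk :=
  (-divOf (K := k) x) ⊔ 0

theorem f3dPol_apply {Fk : Type*} [Field Fk] [Algebra k Fk] [RRBase k Fk] (x : Fk)
    (Q : Place k Fk) : f3dPol (k := k) x Q = max 0 (-(Q.ord x)) := by
  rw [f3dPol, Finsupp.sup_apply, Finsupp.neg_apply, divOf_apply', max_comm]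
  rfl

theorem f3dPol_nonneg {Fk : Type*} [Field Fk] [Algebra k Fk] [RRBase k Fk] (x : Fk) :
    0 ≤ f3dPol (k := k) x := le_sup_right

/-- lower bound for the degree of the pole divisor: one place -/
theorem f3d_le_degree_pol {Fk : Type*} [Field Fk] [Algebra k Fk] [RRBase k Fk] (x : Fk)
    (Q : Place k Fk) (n : ℤ) (h : Q.ord x ≤ -n) : n ≤ Divisor.degree (f3dPol (k := k) x) := by
  classical
  have h1 : Finsupp.single Q n ≤ f3dPol (k := k) x := by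
    intro Q'
    rw [f3dPol_apply]
    by_cases hQ : Q' = Q
    · rw [hQ, Finsupp.single_eq_same]
      exact le_max_of_le_right (by omega)
    · rw [Finsupp.single_eq_of_ne hQ]
      exact le_max_left _ _
  have h2 := degree_mono h1
  have h3 : Divisor.degree (Finsupp.single Q n : Divisor k Fk) = n := by
    have : (Finsupp.single Q n : Divisor k Fk) = n • Finsupp.single Q 1 := by
      rw [Finsupp.smul_single, smul_eq_mul, mul_one]
    rw [this, map_zsmul, degree_single_one, smul_eq_mul, mul_one]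
  rwa [h3] at h2

/-- lower bound for the degree of the pole divisor: two places -/
theorem f3d_le_degree_pol₂ {Fk : Type*} [Field Fk] [Algebra k Fk] [RRBase k Fk] (x : Fk)
    (Q Q' : Place k Fk) (hQQ' : Q' ≠ Q) (n n' : ℤ) (h : Q.ord x ≤ -n) (h' : Q'.ord x ≤ -n') :
    n + n' ≤ Divisor.degree (f3dPol (k := k) x) := by
  classical
  have h1 : Finsupp.single Q n + Finsupp.single Q' n' ≤ f3dPol (k := k) x := by
    intro P
    rw [f3dPol_apply, Finsupp.add_apply]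
    by_cases hP : P = Q
    · rw [hP, Finsupp.single_eq_same, Finsupp.single_eq_of_ne hQQ'.symm, add_zero]
      exact le_max_of_le_right (by omega)
    · by_cases hP' : P = Q'
      · rw [hP', Finsupp.single_eq_same, Finsupp.single_eq_of_ne hQQ', zero_add]
        exact le_max_of_le_right (by omega)
      · rw [Finsupp.single_eq_of_ne hP, Finsupp.single_eq_of_ne hP', add_zero]
        exact le_max_left _ _
  have h2 := degree_mono h1
  have h3 : ∀ (P : Place k Fk) (m : ℤ),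
      Divisor.degree (Finsupp.single P m : Divisor k Fk) = m := by
    intro P m
    have : (Finsupp.single P m : Divisor k Fk) = m • Finsupp.single P 1 := by
      rw [Finsupp.smul_single, smul_eq_mul, mul_one]
    rw [this, map_zsmul, degree_single_one, smul_eq_mul, mul_one]
  rwa [map_add, h3, h3] at h2

/-- **POLE BOUND**, first component: if `deg D ≤ a + b` and `M(D)` contains elements whose
components have poles of order `≥ a` at `Q₁` and `≥ b` at `Q₂`, then the first components of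
all elements of `M(D)` lie in `L(a Q₁)`. -/
theorem f3d_fst_mem [RRHyp K F] [RRHyp k Fk₁] [RRHyp k Fk₂] [Infinite k]
    (hsurj : Function.Surjective (ssRed R₁ R₂))
    {D : Divisor K F} (hD : 0 ≤ D) (Q₁ : Place k Fk₁) (Q₂ : Place k Fk₂) (a b : ℤ)
    (hdeg : Divisor.degree D ≤ a + b)
    (hex₁ : ∃ w ∈ f3dM R₁ R₂ D, w.1 ≠ 0 ∧ Q₁.ord w.1 ≤ -a)
    (hex₂ : ∃ w ∈ f3dM R₁ R₂ D, w.2 ≠ 0 ∧ Q₂.ord w.2 ≤ -b)
    (w₀ : Fk₁ × Fk₂) (hw₀ : w₀ ∈ f3dM R₁ R₂ D) :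
    w₀.1 ∈ riemannRochSpace (K := k) (Finsupp.single Q₁ a : Divisor k Fk₁) := by
  classical
  rw [mem_riemannRochSpace_iff]
  intro Q
  by_contra hcon
  push_neg at hcon
  obtain ⟨hw₀0, hw₀Q⟩ := hcon
  set M := f3dM R₁ R₂ D with hM
  let pr₁ : ↥M →ₗ[k] Fk₁ := (LinearMap.fst k Fk₁ Fk₂).comp M.subtype
  let pr₂ : ↥M →ₗ[k] Fk₂ := (LinearMap.snd k Fk₁ Fk₂).comp M.subtype
  let U₁ : Submodule k ↥M := (polBall (K := k) Q₁ (-a + 1)).comap pr₁
  let U₂ : Submodule k ↥M := (polBall (K := k) Q₂ (-b + 1)).comap pr₂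
  let U₃ : Submodule k ↥M := (polBall (K := k) Q (Q.ord w₀.1 + 1)).comap pr₁
  have hU₁ : U₁ ≠ ⊤ := by
    intro h
    obtain ⟨w, hwM, hw0, hw⟩ := hex₁
    have h1 : (⟨w, hwM⟩ : ↥M) ∈ U₁ := by rw [h]; exact Submodule.mem_top
    have h2 : w.1 ∈ polBall (K := k) Q₁ (-a + 1) := h1
    rw [mem_polBall_iff] at h2
    rcases h2 with h2 | h2
    · exact hw0 h2
    · omega
  have hU₂ : U₂ ≠ ⊤ := by
    intro h
    obtain ⟨w, hwM, hw0, hw⟩ := hex₂
    have h1 : (⟨w, hwM⟩ : ↥M) ∈ U₂ := by rw [h]; exact Submodule.mem_top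
    have h2 : w.2 ∈ polBall (K := k) Q₂ (-b + 1) := h1
    rw [mem_polBall_iff] at h2
    rcases h2 with h2 | h2
    · exact hw0 h2
    · omega
  have hU₃ : U₃ ≠ ⊤ := by
    intro h
    have h1 : (⟨w₀, hw₀⟩ : ↥M) ∈ U₃ := by rw [h]; exact Submodule.mem_top
    have h2 : w₀.1 ∈ polBall (K := k) Q (Q.ord w₀.1 + 1) := h1
    rw [mem_polBall_iff] at h2
    rcases h2 with h2 | h2
    · exact hw₀0 h2
    · omega
  obtain ⟨w, hw⟩ := f3d_exists_notMem ({U₁, U₂, U₃} : Finset (Submodule k ↥M)) (by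
    intro U hU
    simp only [Finset.mem_insert, Finset.mem_singleton] at hU
    rcases hU with rfl | rfl | rfl
    · exact hU₁
    · exact hU₂
    · exact hU₃)
  have hw₁ : ¬ (w : Fk₁ × Fk₂).1 ∈ polBall (K := k) Q₁ (-a + 1) := fun h =>
    hw U₁ (by simp) h
  have hw₂ : ¬ (w : Fk₁ × Fk₂).2 ∈ polBall (K := k) Q₂ (-b + 1) := fun h =>
    hw U₂ (by simp) h
  have hw₃ : ¬ (w : Fk₁ × Fk₂).1 ∈ polBall (K := k) Q (Q.ord w₀.1 + 1) := fun h =>
    hw U₃ (by simp) h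
  rw [mem_polBall_iff, not_or] at hw₁ hw₂ hw₃
  obtain ⟨y, hyD, hy⟩ := (mem_f3dM R₁ R₂ D w).mp w.2
  have hgrow := gss_degree_le R₁ R₂ hsurj y hD hyD
    (X₁ := f3dPol (k := k) (ssRed R₁ R₂ y).1) (X₂ := f3dPol (k := k) (ssRed R₁ R₂ y).2)
    (fun Q' => f3dPol_apply _ Q') (fun Q' => f3dPol_apply _ Q')
  rw [hy] at hgrow
  have h2 : b ≤ Divisor.degree (f3dPol (k := k) (w : Fk₁ × Fk₂).2) :=
    f3d_le_degree_pol _ Q₂ b (by omega)
  have h1 : a + 1 ≤ Divisor.degree (f3dPol (k := k) (w : Fk₁ × Fk₂).1) := by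
    by_cases hQ : Q = Q₁
    · rw [hQ, Finsupp.single_eq_same] at hw₀Q
      rw [hQ] at hw₃
      exact f3d_le_degree_pol _ Q₁ (a + 1) (by omega)
    · rw [Finsupp.single_eq_of_ne hQ] at hw₀Q
      exact f3d_le_degree_pol₂ _ Q₁ Q hQ a 1 (by omega) (by omega)
  omega

/-- **POLE BOUND**, second component: if `deg D ≤ a + b` and `M(D)` contains elements whose
components have poles of order `≥ a` at `Q₁` and `≥ b` at `Q₂`, then the second components of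
all elements of `M(D)` lie in `L(b Q₂)`. -/
theorem f3d_snd_mem [RRHyp K F] [RRHyp k Fk₁] [RRHyp k Fk₂] [Infinite k]
    (hsurj : Function.Surjective (ssRed R₁ R₂))
    {D : Divisor K F} (hD : 0 ≤ D) (Q₁ : Place k Fk₁) (Q₂ : Place k Fk₂) (a b : ℤ)
    (hdeg : Divisor.degree D ≤ a + b)
    (hex₁ : ∃ w ∈ f3dM R₁ R₂ D, w.1 ≠ 0 ∧ Q₁.ord w.1 ≤ -a)
    (hex₂ : ∃ w ∈ f3dM R₁ R₂ D, w.2 ≠ 0 ∧ Q₂.ord w.2 ≤ -b)
    (w₀ : Fk₁ × Fk₂) (hw₀ : w₀ ∈ f3dM R₁ R₂ D) :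
    w₀.2 ∈ riemannRochSpace (K := k) (Finsupp.single Q₂ b : Divisor k Fk₂) := by
  classical
  rw [mem_riemannRochSpace_iff]
  intro Q
  by_contra hcon
  push_neg at hcon
  obtain ⟨hw₀0, hw₀Q⟩ := hcon
  set M := f3dM R₁ R₂ D with hM
  let pr₁ : ↥M →ₗ[k] Fk₁ := (LinearMap.fst k Fk₁ Fk₂).comp M.subtype
  let pr₂ : ↥M →ₗ[k] Fk₂ := (LinearMap.snd k Fk₁ Fk₂).comp M.subtype
  let U₁ : Submodule k ↥M := (polBall (K := k) Q₁ (-a + 1)).comap pr₁
  let U₂ : Submodule k ↥M := (polBall (K := k) Q₂ (-b + 1)).comap pr₂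
  let U₃ : Submodule k ↥M := (polBall (K := k) Q (Q.ord w₀.2 + 1)).comap pr₂
  have hU₁ : U₁ ≠ ⊤ := by
    intro h
    obtain ⟨w, hwM, hw0, hw⟩ := hex₁
    have h1 : (⟨w, hwM⟩ : ↥M) ∈ U₁ := by rw [h]; exact Submodule.mem_top
    have h2 : w.1 ∈ polBall (K := k) Q₁ (-a + 1) := h1
    rw [mem_polBall_iff] at h2
    rcases h2 with h2 | h2
    · exact hw0 h2
    · omega
  have hU₂ : U₂ ≠ ⊤ := by
    intro h
    obtain ⟨w, hwM, hw0, hw⟩ := hex₂
    have h1 : (⟨w, hwM⟩ : ↥M) ∈ U₂ := by rw [h]; exact Submodule.mem_top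
    have h2 : w.2 ∈ polBall (K := k) Q₂ (-b + 1) := h1
    rw [mem_polBall_iff] at h2
    rcases h2 with h2 | h2
    · exact hw0 h2
    · omega
  have hU₃ : U₃ ≠ ⊤ := by
    intro h
    have h1 : (⟨w₀, hw₀⟩ : ↥M) ∈ U₃ := by rw [h]; exact Submodule.mem_top
    have h2 : w₀.2 ∈ polBall (K := k) Q (Q.ord w₀.2 + 1) := h1
    rw [mem_polBall_iff] at h2
    rcases h2 with h2 | h2
    · exact hw₀0 h2
    · omega
  obtain ⟨w, hw⟩ := f3d_exists_notMem ({U₁, U₂, U₃} : Finset (Submodule k ↥M)) (by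
    intro U hU
    simp only [Finset.mem_insert, Finset.mem_singleton] at hU
    rcases hU with rfl | rfl | rfl
    · exact hU₁
    · exact hU₂
    · exact hU₃)
  have hw₁ : ¬ (w : Fk₁ × Fk₂).1 ∈ polBall (K := k) Q₁ (-a + 1) := fun h =>
    hw U₁ (by simp) h
  have hw₂ : ¬ (w : Fk₁ × Fk₂).2 ∈ polBall (K := k) Q₂ (-b + 1) := fun h =>
    hw U₂ (by simp) h
  have hw₃ : ¬ (w : Fk₁ × Fk₂).2 ∈ polBall (K := k) Q (Q.ord w₀.2 + 1) := fun h =>
    hw U₃ (by simp) h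
  rw [mem_polBall_iff, not_or] at hw₁ hw₂ hw₃
  obtain ⟨y, hyD, hy⟩ := (mem_f3dM R₁ R₂ D w).mp w.2
  have hgrow := gss_degree_le R₁ R₂ hsurj y hD hyD
    (X₁ := f3dPol (k := k) (ssRed R₁ R₂ y).1) (X₂ := f3dPol (k := k) (ssRed R₁ R₂ y).2)
    (fun Q' => f3dPol_apply _ Q') (fun Q' => f3dPol_apply _ Q')
  rw [hy] at hgrow
  have h1 : a ≤ Divisor.degree (f3dPol (k := k) (w : Fk₁ × Fk₂).1) :=
    f3d_le_degree_pol _ Q₁ a (by omega)
  have h2 : b + 1 ≤ Divisor.degree (f3dPol (k := k) (w : Fk₁ × Fk₂).2) := by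
    by_cases hQ : Q = Q₂
    · rw [hQ, Finsupp.single_eq_same] at hw₀Q
      rw [hQ] at hw₃
      exact f3d_le_degree_pol _ Q₂ (b + 1) (by omega)
    · rw [Finsupp.single_eq_of_ne hQ] at hw₀Q
      exact f3d_le_degree_pol₂ _ Q₂ Q hQ b 1 (by omega) (by omega)
  omega

/-- **STRICTNESS**, abstract form: if `dim M(D') ≤ dim M(D) + 1`, `M(D) ⊆ T` for a subspace
`T` and `M(D') ⊄ T`, then `M(D') ∩ T = M(D)`. -/
theorem f3d_strict [RRBase K F] {D D' : Divisor K F} (hDD' : D ≤ D') (hell : ell D' ≤ ell D + 1)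
    (T : Submodule k (Fk₁ × Fk₂)) (hD : f3dM R₁ R₂ D ≤ T)
    (hex : ∃ w ∈ f3dM R₁ R₂ D', w ∉ T) :
    f3dM R₁ R₂ D' ⊓ T = f3dM R₁ R₂ D := by
  have hfin : Module.Finite k (f3dM R₁ R₂ D') := by
    have := finite_riemannRochSpace (K := K) D'
    exact mfdRedSpace_finite _ _
  have hle : f3dM R₁ R₂ D ≤ f3dM R₁ R₂ D' ⊓ T := le_inf (f3dM_mono R₁ R₂ hDD') hD
  have hlt : f3dM R₁ R₂ D' ⊓ T < f3dM R₁ R₂ D' := by
    refine lt_of_le_of_ne inf_le_left ?_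
    intro h
    obtain ⟨w, hw, hwT⟩ := hex
    apply hwT
    have : w ∈ f3dM R₁ R₂ D' ⊓ T := by rw [h]; exact hw
    exact this.2
  have h1 := Submodule.finrank_lt_finrank_of_lt hlt
  rw [finrank_f3dM] at h1
  have hfin' : Module.Finite k ↥(f3dM R₁ R₂ D' ⊓ T) :=
    Module.Finite.of_injective (Submodule.inclusion (inf_le_left : f3dM R₁ R₂ D' ⊓ T ≤ _))
      (Submodule.inclusion_injective _)
  symm
  apply Submodule.eq_of_le_of_finrank_le hle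
  rw [finrank_f3dM]
  omega

/-- the subspace `L(X₁) × L(X₂)` of `Fk₁ × Fk₂` -/
def f3dBox [RRBase k Fk₁] [RRBase k Fk₂] (X₁ : Divisor k Fk₁) (X₂ : Divisor k Fk₂) :
    Submodule k (Fk₁ × Fk₂) :=
  (riemannRochSpace (K := k) X₁).prod (riemannRochSpace (K := k) X₂)

theorem mem_f3dBox [RRBase k Fk₁] [RRBase k Fk₂] (X₁ : Divisor k Fk₁) (X₂ : Divisor k Fk₂)
    (w : Fk₁ × Fk₂) :
    w ∈ f3dBox (k := k) X₁ X₂ ↔
      w.1 ∈ riemannRochSpace (K := k) X₁ ∧ w.2 ∈ riemannRochSpace (K := k) X₂ := Iff.rfl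

theorem f3dBox_mono [RRBase k Fk₁] [RRBase k Fk₂] {X₁ X₁' : Divisor k Fk₁}
    {X₂ X₂' : Divisor k Fk₂} (h₁ : X₁ ≤ X₁') (h₂ : X₂ ≤ X₂') :
    f3dBox (k := k) X₁ X₂ ≤ f3dBox (k := k) X₁' X₂' := fun _ hw =>
  ⟨riemannRochSpace_mono h₁ hw.1, riemannRochSpace_mono h₂ hw.2⟩

/-! ### the base family `a P₁ + b P₂` -/

section Family

variable [RRHyp K F] [RRHyp k Fk₁] [RRHyp k Fk₂]

/-- the divisor `a P₁ + b P₂` -/
def f3dDiv (P₁ P₂ : Place K F) (a b : ℕ) : Divisor K F :=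
  Finsupp.single P₁ (a : ℤ) + Finsupp.single P₂ (b : ℤ)

theorem f3dDiv_nonneg (P₁ P₂ : Place K F) (a b : ℕ) : 0 ≤ f3dDiv P₁ P₂ a b := by
  refine add_nonneg ?_ ?_
  · exact Finsupp.single_nonneg.mpr (Int.natCast_nonneg a)
  · exact Finsupp.single_nonneg.mpr (Int.natCast_nonneg b)

theorem degree_single_int (P : Place K F) (m : ℤ) :
    Divisor.degree (Finsupp.single P m : Divisor K F) = m := by
  have : (Finsupp.single P m : Divisor K F) = m • Finsupp.single P 1 := by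
    rw [Finsupp.smul_single, smul_eq_mul, mul_one]
  rw [this, map_zsmul, degree_single_one, smul_eq_mul, mul_one]

theorem degree_f3dDiv (P₁ P₂ : Place K F) (a b : ℕ) :
    Divisor.degree (f3dDiv P₁ P₂ a b) = (a : ℤ) + b := by
  rw [f3dDiv, map_add, degree_single_int, degree_single_int]

theorem f3dDiv_le_succ_left (P₁ P₂ : Place K F) (a b : ℕ) :
    f3dDiv P₁ P₂ a b ≤ f3dDiv P₁ P₂ (a + 1) b := by
  refine add_le_add ?_ le_rfl
  exact Finsupp.single_mono (by push_cast; omega)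

theorem f3dDiv_le_succ_right (P₁ P₂ : Place K F) (a b : ℕ) :
    f3dDiv P₁ P₂ a b ≤ f3dDiv P₁ P₂ a (b + 1) := by
  refine add_le_add le_rfl ?_
  exact Finsupp.single_mono (by push_cast; omega)

/-- the hypothesis **(EX)**: elements with exact pole order on each component, for `a, b ≥ a₀`,
`|a − b| ≤ 1`. -/
structure F3dEX (P₁ P₂ : Place K F) (Q₁ : Place k Fk₁) (Q₂ : Place k Fk₂) (a₀ : ℕ) : Prop where
  surj : Function.Surjective (ssRed R₁ R₂)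
  ex₁ : ∀ a b : ℕ, a₀ ≤ a → a₀ ≤ b → a ≤ b + 1 → b ≤ a + 1 →
    ∃ w ∈ f3dM R₁ R₂ (f3dDiv P₁ P₂ a b), w.1 ≠ 0 ∧ Q₁.ord w.1 ≤ -(a : ℤ)
  ex₂ : ∀ a b : ℕ, a₀ ≤ a → a₀ ≤ b → a ≤ b + 1 → b ≤ a + 1 →
    ∃ w ∈ f3dM R₁ R₂ (f3dDiv P₁ P₂ a b), w.2 ≠ 0 ∧ Q₂.ord w.2 ≤ -(b : ℤ)

variable {R₁ R₂}
variable {P₁ P₂ : Place K F} {Q₁ : Place k Fk₁} {Q₂ : Place k Fk₂} {a₀ : ℕ}

/-- **POLE BOUND for the family**: `M(a P₁ + b P₂) ⊆ L(a Q₁) × L(b Q₂)`. -/
theorem F3dEX.le_box [Infinite k] (H : F3dEX R₁ R₂ P₁ P₂ Q₁ Q₂ a₀) {a b : ℕ} (ha : a₀ ≤ a)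
    (hb : a₀ ≤ b) (hab : a ≤ b + 1) (hba : b ≤ a + 1) :
    f3dM R₁ R₂ (f3dDiv P₁ P₂ a b) ≤
      f3dBox (k := k) (Finsupp.single Q₁ (a : ℤ)) (Finsupp.single Q₂ (b : ℤ)) := by
  intro w hw
  have hdeg : Divisor.degree (f3dDiv P₁ P₂ a b) ≤ (a : ℤ) + b := (degree_f3dDiv P₁ P₂ a b).le
  exact ⟨f3d_fst_mem R₁ R₂ H.surj (f3dDiv_nonneg P₁ P₂ a b) Q₁ Q₂ a b hdeg
      (H.ex₁ a b ha hb hab hba) (H.ex₂ a b ha hb hab hba) w hw,
    f3d_snd_mem R₁ R₂ H.surj (f3dDiv_nonneg P₁ P₂ a b) Q₁ Q₂ a b hdeg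
      (H.ex₁ a b ha hb hab hba) (H.ex₂ a b ha hb hab hba) w hw⟩

/-- one step down in the first variable -/
theorem F3dEX.step_fst [Infinite k] (H : F3dEX R₁ R₂ P₁ P₂ Q₁ Q₂ a₀) {c : ℕ} (hc : a₀ ≤ c)
    {w : Fk₁ × Fk₂} (hw : w ∈ f3dM R₁ R₂ (f3dDiv P₁ P₂ (c + 1) (c + 1)))
    (hw₁ : w.1 ∈ riemannRochSpace (K := k) (Finsupp.single Q₁ (c : ℤ) : Divisor k Fk₁)) :
    w ∈ f3dM R₁ R₂ (f3dDiv P₁ P₂ c (c + 1)) := by
  set T : Submodule k (Fk₁ × Fk₂) :=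
    (riemannRochSpace (K := k) (Finsupp.single Q₁ (c : ℤ) : Divisor k Fk₁)).comap
      (LinearMap.fst k Fk₁ Fk₂) with hT
  have hell : ell (f3dDiv P₁ P₂ (c + 1) (c + 1)) ≤ ell (f3dDiv P₁ P₂ c (c + 1)) + 1 := by
    have := ell_le_ell_add (K := K) (f3dDiv_le_succ_left P₁ P₂ c (c + 1))
    rw [degree_f3dDiv, degree_f3dDiv] at this
    push_cast at this
    omega
  have hD : f3dM R₁ R₂ (f3dDiv P₁ P₂ c (c + 1)) ≤ T := fun v hv =>
    (H.le_box hc (by omega) (by omega) (by omega) hv).1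
  have hex : ∃ v ∈ f3dM R₁ R₂ (f3dDiv P₁ P₂ (c + 1) (c + 1)), v ∉ T := by
    obtain ⟨v, hv, hv0, hvo⟩ := H.ex₁ (c + 1) (c + 1) (by omega) (by omega) (by omega) (by omega)
    refine ⟨v, hv, fun hvT => ?_⟩
    have h1 : v.1 ∈ riemannRochSpace (K := k) (Finsupp.single Q₁ (c : ℤ) : Divisor k Fk₁) := hvT
    rw [mem_riemannRochSpace_iff] at h1
    rcases h1 Q₁ with h1 | h1
    · exact hv0 h1
    · rw [Finsupp.single_eq_same] at h1
      push_cast at hvo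
      omega
  have := f3d_strict R₁ R₂ (f3dDiv_le_succ_left P₁ P₂ c (c + 1)) hell T hD hex
  rw [← this]
  exact ⟨hw, hw₁⟩

/-- one step down in the second variable -/
theorem F3dEX.step_snd [Infinite k] (H : F3dEX R₁ R₂ P₁ P₂ Q₁ Q₂ a₀) {c : ℕ} (hc : a₀ ≤ c)
    {w : Fk₁ × Fk₂} (hw : w ∈ f3dM R₁ R₂ (f3dDiv P₁ P₂ c (c + 1)))
    (hw₂ : w.2 ∈ riemannRochSpace (K := k) (Finsupp.single Q₂ (c : ℤ) : Divisor k Fk₂)) :
    w ∈ f3dM R₁ R₂ (f3dDiv P₁ P₂ c c) := by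
  set T : Submodule k (Fk₁ × Fk₂) :=
    (riemannRochSpace (K := k) (Finsupp.single Q₂ (c : ℤ) : Divisor k Fk₂)).comap
      (LinearMap.snd k Fk₁ Fk₂) with hT
  have hell : ell (f3dDiv P₁ P₂ c (c + 1)) ≤ ell (f3dDiv P₁ P₂ c c) + 1 := by
    have := ell_le_ell_add (K := K) (f3dDiv_le_succ_right P₁ P₂ c c)
    rw [degree_f3dDiv, degree_f3dDiv] at this
    push_cast at this
    omega
  have hD : f3dM R₁ R₂ (f3dDiv P₁ P₂ c c) ≤ T := fun v hv =>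
    (H.le_box hc hc (by omega) (by omega) hv).2
  have hex : ∃ v ∈ f3dM R₁ R₂ (f3dDiv P₁ P₂ c (c + 1)), v ∉ T := by
    obtain ⟨v, hv, hv0, hvo⟩ := H.ex₂ c (c + 1) hc (by omega) (by omega) (by omega)
    refine ⟨v, hv, fun hvT => ?_⟩
    have h1 : v.2 ∈ riemannRochSpace (K := k) (Finsupp.single Q₂ (c : ℤ) : Divisor k Fk₂) := hvT
    rw [mem_riemannRochSpace_iff] at h1
    rcases h1 Q₂ with h1 | h1
    · exact hv0 h1
    · rw [Finsupp.single_eq_same] at h1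
      push_cast at hvo
      omega
  have := f3d_strict R₁ R₂ (f3dDiv_le_succ_right P₁ P₂ c c) hell T hD hex
  rw [← this]
  exact ⟨hw, hw₂⟩

/-- **(F3) for the base family**: an element of `M(c(P₁ + P₂))` whose components have poles of
order `≤ a` at `Q₁`, `Q₂` only (`a₀ ≤ a ≤ c`) lies in `M(a(P₁ + P₂))`. -/
theorem F3dEX.mem_of_mem_box [Infinite k] (H : F3dEX R₁ R₂ P₁ P₂ Q₁ Q₂ a₀) {a : ℕ} (ha : a₀ ≤ a)
    {c : ℕ} (hac : a ≤ c) {w : Fk₁ × Fk₂} (hw : w ∈ f3dM R₁ R₂ (f3dDiv P₁ P₂ c c))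
    (hbox : w ∈ f3dBox (k := k) (Finsupp.single Q₁ (a : ℤ)) (Finsupp.single Q₂ (a : ℤ))) :
    w ∈ f3dM R₁ R₂ (f3dDiv P₁ P₂ a a) := by
  induction c, hac using Nat.le_induction with
  | base => exact hw
  | succ c hac ih =>
    apply ih
    have hmono₁ : (Finsupp.single Q₁ (a : ℤ) : Divisor k Fk₁) ≤ Finsupp.single Q₁ (c : ℤ) :=
      Finsupp.single_mono (by exact_mod_cast hac)
    have hmono₂ : (Finsupp.single Q₂ (a : ℤ) : Divisor k Fk₂) ≤ Finsupp.single Q₂ (c : ℤ) :=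
      Finsupp.single_mono (by exact_mod_cast hac)
    have h1 := H.step_fst (ha.trans hac) hw (riemannRochSpace_mono hmono₁ hbox.1)
    exact H.step_snd (ha.trans hac) h1 (riemannRochSpace_mono hmono₂ hbox.2)

/-- **(F3)**, as an equality of subspaces: `M(c(P₁+P₂)) ∩ (L(aQ₁) × L(aQ₂)) = M(a(P₁+P₂))`. -/
theorem F3dEX.inf_box_eq [Infinite k] (H : F3dEX R₁ R₂ P₁ P₂ Q₁ Q₂ a₀) {a : ℕ} (ha : a₀ ≤ a)
    {c : ℕ} (hac : a ≤ c) :
    f3dM R₁ R₂ (f3dDiv P₁ P₂ c c) ⊓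
        f3dBox (k := k) (Finsupp.single Q₁ (a : ℤ)) (Finsupp.single Q₂ (a : ℤ))
      = f3dM R₁ R₂ (f3dDiv P₁ P₂ a a) := by
  apply le_antisymm
  · rintro w ⟨hw, hbox⟩
    exact H.mem_of_mem_box ha hac hw hbox
  · refine le_inf (f3dM_mono R₁ R₂ ?_) (H.le_box ha ha (by omega) (by omega))
    refine add_le_add ?_ ?_
    · exact Finsupp.single_mono (by exact_mod_cast hac)
    · exact Finsupp.single_mono (by exact_mod_cast hac)

end Family

end Fermat.Agent.S34lib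

end
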