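/-
Item 79 (S34), piece C5 (EX), abstract part (helper17).  No sorry.

`F' ⊂ F` two function fields over `K` with two embeddings `α, β : F' → F`, places `P₁, P₂` of `F`
over the place `v` of `F'` (`e(P₁ | α) = 1`, `e(P₂ | α) = q`, `e(P₁ | β) = q`, `e(P₂ | β) = 1`),
constant reductions `R'` of `F'` and `R₁, R₂` of `F` with the same residue field `Fk`, compatible
with `α, β` up to the "Frobenius" `φ` of `Fk` (`ord_Q (φ x) = q · ord_Q x`), and lifting with pole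
control at level `F'` (`ExInput.lift`).  Then the products `α g₁ · β g₂` give the elements
required by `F3dEX.ex₁`, `F3dEX.ex₂` (`S34lib/F3Dim.lean`).
-/
import Mathlib
import Fermat.Agent.S34lib.F3Dim

set_option autoImplicit false

noncomputable section

namespace Fermat.Agent.S34lib

open AlgebraicCurve Fermat.Agent.RRlib Fermat.Agent.GoodRed

/-- the numerics of (EX): `a = n₁ + q n₂` with `n₀ ≤ n₁ < n₂`. -/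
theorem exa_numerics (q n₀ a : ℕ) (hq : 2 ≤ q) (ha : (q + 1) * (n₀ + q) ≤ a) :
    ∃ n₁ n₂ : ℕ, n₀ ≤ n₁ ∧ n₀ ≤ n₂ ∧ n₁ + q * n₂ = a ∧ q * n₁ + n₂ + 1 ≤ a := by
  have hq0 : 0 < q := by omega
  have hexp : (q + 1) * (n₀ + q) = q * n₀ + n₀ + q * q + q := by ring
  have han : n₀ ≤ a := by
    have : n₀ ≤ (q + 1) * (n₀ + q) := by rw [hexp]; omega
    omega
  set r := (a - n₀) % q with hr
  set m := (a - n₀) / q with hm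
  have hrq : r < q := Nat.mod_lt _ hq0
  have hdiv : q * m + r = a - n₀ := Nat.div_add_mod (a - n₀) q
  -- `m ≥ n₀ + q`
  have hm1 : n₀ + q ≤ m := by
    by_contra hcon
    have hlt : m + 1 ≤ n₀ + q := by omega
    have h1 : q * (m + 1) ≤ q * (n₀ + q) := Nat.mul_le_mul_left q hlt
    have h2 : q * (m + 1) = q * m + q := by ring
    have h3 : q * (n₀ + q) = q * n₀ + q * q := by ring
    omega
  have ha_eq : a = n₀ + r + q * m := by omega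
  have h7 : n₀ + r + 1 ≤ m := by omega
  obtain ⟨d, hd⟩ : ∃ d, m = n₀ + r + 1 + d := ⟨m - (n₀ + r + 1), by omega⟩
  have hqm : q * m = q * (n₀ + r) + q + q * d := by rw [hd]; ring
  have hqd : 2 * d ≤ q * d := Nat.mul_le_mul_right d hq
  refine ⟨n₀ + r, m, by omega, by omega, by omega, ?_⟩
  rw [ha_eq, hqm, hd]
  linarith

variable {K F F' k Fk : Type*} [Field K] [Field F] [Field F'] [Algebra K F] [Algebra K F']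
  [Field k] [Field Fk] [Algebra k Fk]
variable {A : ValuationSubring K} {π : A →+* k}

/-- the inputs of (EX) -/
structure ExInput (R' : ConstRed A π Fk F') (R₁ R₂ : ConstRed A π Fk F) (α β : F' →+* F)
    (v : Place K F') (P₁ P₂ : Place K F) (Q : Place k Fk) (φ : Fk →+* Fk) (q : ℕ) : Prop where
  two_le : 2 ≤ q
  ord_α₁ : ∀ g : F', P₁.ord (α g) = v.ord g
  ord_β₁ : ∀ g : F', P₁.ord (β g) = q * v.ord g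
  ord_α₂ : ∀ g : F', P₂.ord (α g) = q * v.ord g
  ord_β₂ : ∀ g : F', P₂.ord (β g) = v.ord g
  reg : ∀ g : F', (∀ v' : Place K F', v' ≠ v → 0 ≤ v'.ord g) →
    ∀ P : Place K F, P ≠ P₁ → P ≠ P₂ → 0 ≤ P.ord (α g) ∧ 0 ≤ P.ord (β g)
  red_α₁ : ∀ (g : F') (hg : g ∈ R'.O), ∃ h : α g ∈ R₁.O, R₁.red ⟨α g, h⟩ = R'.red ⟨g, hg⟩
  red_β₁ : ∀ (g : F') (hg : g ∈ R'.O), ∃ h : β g ∈ R₁.O, R₁.red ⟨β g, h⟩ = φ (R'.red ⟨g, hg⟩)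
  red_α₂ : ∀ (g : F') (hg : g ∈ R'.O), ∃ h : α g ∈ R₂.O, R₂.red ⟨α g, h⟩ = φ (R'.red ⟨g, hg⟩)
  red_β₂ : ∀ (g : F') (hg : g ∈ R'.O), ∃ h : β g ∈ R₂.O, R₂.red ⟨β g, h⟩ = R'.red ⟨g, hg⟩
  ord_φ : ∀ x : Fk, Q.ord (φ x) = q * Q.ord x
  lift : ∃ n₀ : ℕ, ∀ n : ℕ, n₀ ≤ n → ∃ (g : F') (hg : g ∈ R'.O),
    (∀ v' : Place K F', v' ≠ v → 0 ≤ v'.ord g) ∧ -(n : ℤ) ≤ v.ord g ∧
      R'.red ⟨g, hg⟩ ≠ 0 ∧ Q.ord (R'.red ⟨g, hg⟩) ≤ -(n : ℤ)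

variable {R' : ConstRed A π Fk F'} {R₁ R₂ : ConstRed A π Fk F} {α β : F' →+* F}
  {v : Place K F'} {P₁ P₂ : Place K F} {Q : Place k Fk} {φ : Fk →+* Fk} {q : ℕ}

/-- membership in `L(a P₁ + b P₂)` from orders -/
theorem exa_mem_L {y : F} {a b : ℕ} (h₁ : -(a : ℤ) ≤ P₁.ord y) (h₂ : -(b : ℤ) ≤ P₂.ord y)
    (h : ∀ P : Place K F, P ≠ P₁ → P ≠ P₂ → 0 ≤ P.ord y) :
    y ∈ riemannRochSpace (K := K) (f3dDiv P₁ P₂ a b) := by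
  classical
  rw [mem_riemannRochSpace_iff]
  intro P
  right
  rw [f3dDiv, Finsupp.add_apply]
  have ha : (0 : ℤ) ≤ a := Int.natCast_nonneg a
  have hb : (0 : ℤ) ≤ b := Int.natCast_nonneg b
  by_cases hP₁ : P = P₁
  · subst hP₁
    rw [Finsupp.single_eq_same]
    by_cases hP₂ : P = P₂
    · subst hP₂
      rw [Finsupp.single_eq_same]
      omega
    · rw [Finsupp.single_eq_of_ne hP₂]
      omega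
  · rw [Finsupp.single_eq_of_ne hP₁]
    by_cases hP₂ : P = P₂
    · subst hP₂
      rw [Finsupp.single_eq_same]
      omega
    · rw [Finsupp.single_eq_of_ne hP₂]
      have := h P hP₁ hP₂
      omega

/-- the product `α g₁ · β g₂` -/
theorem ExInput.prod_spec (H : ExInput R' R₁ R₂ α β v P₁ P₂ Q φ q) (g₁ g₂ : F')
    (hg₁ : g₁ ∈ R'.O) (hg₂ : g₂ ∈ R'.O)
    (hr₁ : ∀ v' : Place K F', v' ≠ v → 0 ≤ v'.ord g₁)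
    (hr₂ : ∀ v' : Place K F', v' ≠ v → 0 ≤ v'.ord g₂)
    (hne₁ : R'.red ⟨g₁, hg₁⟩ ≠ 0) (hne₂ : R'.red ⟨g₂, hg₂⟩ ≠ 0) :
    ∃ y : ssBall R₁ R₂, (y : F) = α g₁ * β g₂ ∧
      (ssRed R₁ R₂ y).1 = R'.red ⟨g₁, hg₁⟩ * φ (R'.red ⟨g₂, hg₂⟩) ∧
      (ssRed R₁ R₂ y).2 = φ (R'.red ⟨g₁, hg₁⟩) * R'.red ⟨g₂, hg₂⟩ ∧
      P₁.ord (α g₁ * β g₂) = v.ord g₁ + q * v.ord g₂ ∧
      P₂.ord (α g₁ * β g₂) = q * v.ord g₁ + v.ord g₂ ∧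
      ∀ P : Place K F, P ≠ P₁ → P ≠ P₂ → 0 ≤ P.ord (α g₁ * β g₂) := by
  have hg₁0 : g₁ ≠ 0 := by
    rintro rfl
    exact hne₁ (map_zero R'.red)
  have hg₂0 : g₂ ≠ 0 := by
    rintro rfl
    exact hne₂ (map_zero R'.red)
  have hα0 : α g₁ ≠ 0 := (map_ne_zero α).mpr hg₁0
  have hβ0 : β g₂ ≠ 0 := (map_ne_zero β).mpr hg₂0
  obtain ⟨hα₁, hrα₁⟩ := H.red_α₁ g₁ hg₁
  obtain ⟨hβ₁, hrβ₁⟩ := H.red_β₁ g₂ hg₂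
  obtain ⟨hα₂, hrα₂⟩ := H.red_α₂ g₁ hg₁
  obtain ⟨hβ₂, hrβ₂⟩ := H.red_β₂ g₂ hg₂
  have hmem : α g₁ * β g₂ ∈ ssBall R₁ R₂ :=
    (mem_ssBall R₁ R₂ _).mpr ⟨mul_mem hα₁ hβ₁, mul_mem hα₂ hβ₂⟩
  refine ⟨⟨α g₁ * β g₂, hmem⟩, rfl, ?_, ?_, ?_, ?_, ?_⟩
  · rw [ssRed_apply]
    show R₁.red ⟨α g₁ * β g₂, _⟩ = _
    have : (⟨α g₁ * β g₂, mul_mem hα₁ hβ₁⟩ : R₁.O) = ⟨α g₁, hα₁⟩ * ⟨β g₂, hβ₁⟩ := rfl
    rw [this, map_mul, hrα₁, hrβ₁]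
  · rw [ssRed_apply]
    show R₂.red ⟨α g₁ * β g₂, _⟩ = _
    have : (⟨α g₁ * β g₂, mul_mem hα₂ hβ₂⟩ : R₂.O) = ⟨α g₁, hα₂⟩ * ⟨β g₂, hβ₂⟩ := rfl
    rw [this, map_mul, hrα₂, hrβ₂]
  · rw [P₁.ord_mul hα0 hβ0, H.ord_α₁, H.ord_β₁]
  · rw [P₂.ord_mul hα0 hβ0, H.ord_α₂, H.ord_β₂]
  · intro P hP₁ hP₂
    rw [P.ord_mul hα0 hβ0]
    have h1 := (H.reg g₁ hr₁ P hP₁ hP₂).1
    have h2 := (H.reg g₂ hr₂ P hP₁ hP₂).2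
    omega

/-- **(EX), first component** -/
theorem ExInput.ex₁ (H : ExInput R' R₁ R₂ α β v P₁ P₂ Q φ q) :
    ∃ a₀ : ℕ, ∀ a b : ℕ, a₀ ≤ a → a₀ ≤ b → a ≤ b + 1 → b ≤ a + 1 →
      ∃ w ∈ f3dM R₁ R₂ (f3dDiv P₁ P₂ a b), w.1 ≠ 0 ∧ Q.ord w.1 ≤ -(a : ℤ) := by
  obtain ⟨n₀, hlift⟩ := H.lift
  refine ⟨(q + 1) * (n₀ + q), fun a b ha _ _ hba => ?_⟩
  obtain ⟨n₁, n₂, hn₁, hn₂, hsum, hle⟩ := exa_numerics q n₀ a H.two_le ha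
  obtain ⟨g₁, hg₁, hr₁, ho₁, hne₁, hQ₁⟩ := hlift n₁ hn₁
  obtain ⟨g₂, hg₂, hr₂, ho₂, hne₂, hQ₂⟩ := hlift n₂ hn₂
  obtain ⟨y, hy, hy₁, -, hP₁, hP₂, hP⟩ := H.prod_spec g₁ g₂ hg₁ hg₂ hr₁ hr₂ hne₁ hne₂
  have hφne : φ (R'.red ⟨g₂, hg₂⟩) ≠ 0 := (map_ne_zero φ).mpr hne₂
  have hq0 : (0 : ℤ) ≤ q := Int.natCast_nonneg q
  have hsumZ : (n₁ : ℤ) + q * n₂ = a := by exact_mod_cast hsum
  have hleZ : (q : ℤ) * n₁ + n₂ + 1 ≤ a := by exact_mod_cast hle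
  have hbaZ : (a : ℤ) ≤ b + 1 := by exact_mod_cast (by omega : a ≤ b + 1)
  refine ⟨ssRed R₁ R₂ y, (mem_f3dM R₁ R₂ _ _).mpr ⟨y, ?_, rfl⟩, ?_, ?_⟩
  · rw [hy]
    refine exa_mem_L ?_ ?_ hP
    · rw [hP₁]
      nlinarith [mul_le_mul_of_nonneg_left ho₂ hq0]
    · rw [hP₂]
      nlinarith [mul_le_mul_of_nonneg_left ho₁ hq0]
  · rw [hy₁]
    exact mul_ne_zero hne₁ hφne
  · rw [hy₁, Q.ord_mul hne₁ hφne, H.ord_φ]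
    nlinarith [mul_le_mul_of_nonneg_left hQ₂ hq0]

/-- **(EX), second component** -/
theorem ExInput.ex₂ (H : ExInput R' R₁ R₂ α β v P₁ P₂ Q φ q) :
    ∃ a₀ : ℕ, ∀ a b : ℕ, a₀ ≤ a → a₀ ≤ b → a ≤ b + 1 → b ≤ a + 1 →
      ∃ w ∈ f3dM R₁ R₂ (f3dDiv P₁ P₂ a b), w.2 ≠ 0 ∧ Q.ord w.2 ≤ -(b : ℤ) := by
  obtain ⟨n₀, hlift⟩ := H.lift
  refine ⟨(q + 1) * (n₀ + q), fun a b _ hb hab _ => ?_⟩
  obtain ⟨n₁, n₂, hn₁, hn₂, hsum, hle⟩ := exa_numerics q n₀ b H.two_le hb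
  obtain ⟨g₁, hg₁, hr₁, ho₁, hne₁, hQ₁⟩ := hlift n₁ hn₁
  obtain ⟨g₂, hg₂, hr₂, ho₂, hne₂, hQ₂⟩ := hlift n₂ hn₂
  -- the product `α g₂ · β g₁`
  obtain ⟨y, hy, -, hy₂, hP₁, hP₂, hP⟩ := H.prod_spec g₂ g₁ hg₂ hg₁ hr₂ hr₁ hne₂ hne₁
  have hφne : φ (R'.red ⟨g₂, hg₂⟩) ≠ 0 := (map_ne_zero φ).mpr hne₂
  have hq0 : (0 : ℤ) ≤ q := Int.natCast_nonneg q
  have hsumZ : (n₁ : ℤ) + q * n₂ = b := by exact_mod_cast hsum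
  have hleZ : (q : ℤ) * n₁ + n₂ + 1 ≤ b := by exact_mod_cast hle
  have habZ : (b : ℤ) ≤ a + 1 := by exact_mod_cast (by omega : b ≤ a + 1)
  refine ⟨ssRed R₁ R₂ y, (mem_f3dM R₁ R₂ _ _).mpr ⟨y, ?_, rfl⟩, ?_, ?_⟩
  · rw [hy]
    refine exa_mem_L ?_ ?_ hP
    · rw [hP₁]
      nlinarith [mul_le_mul_of_nonneg_left ho₁ hq0]
    · rw [hP₂]
      nlinarith [mul_le_mul_of_nonneg_left ho₂ hq0]
  · rw [hy₂]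
    exact mul_ne_zero hφne hne₁
  · rw [hy₂, Q.ord_mul hφne hne₁, H.ord_φ]
    nlinarith [mul_le_mul_of_nonneg_left hQ₂ hq0]

/-- **(EX)**: the term required by `F3Dim.lean`. -/
theorem ExInput.f3dEX (H : ExInput R' R₁ R₂ α β v P₁ P₂ Q φ q)
    (hsurj : Function.Surjective (ssRed R₁ R₂)) :
    ∃ a₀ : ℕ, F3dEX R₁ R₂ P₁ P₂ Q Q a₀ := by
  obtain ⟨a₁, h₁⟩ := H.ex₁
  obtain ⟨a₂, h₂⟩ := H.ex₂
  refine ⟨max a₁ a₂, hsurj, fun a b ha hb hab hba => ?_, fun a b ha hb hab hba => ?_⟩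
  · exact h₁ a b (le_trans (le_max_left _ _) ha) (le_trans (le_max_left _ _) hb) hab hba
  · exact h₂ a b (le_trans (le_max_right _ _) ha) (le_trans (le_max_right _ _) hb) hab hba

end Fermat.Agent.S34lib

end
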