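/-
Item 79 (S34), piece C10 GLUE-INST (helper19): the `Gluing` on `Fk × Fk` and the hypotheses
`TwistHyp` of the twisted gluing (helper16, `Twist.lean`), from
* the output of the sandwich (`sw_exists`, pieces C9/C11): a subalgebra `B = ⋃ L(aQ)` of `Fk`,
  evaluations `e₁ e₂ : Fin n → B →ₐ[k] k` (injective families), and
  `red (⋃_c L(c(P₁ + P₂)) ∩ O) = {(r₁, r₂) ∈ B × B | e₁ i r₁ = e₂ i r₂ ∀ i}`;
* `(F3)` for the base family (`F3dEX`, `F3Dim.lean`);
* Riemann–Roch on `F` (`RRlib`).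
`surj` is proved from the injectivity of `e₁`, `e₂` (Lagrange interpolation), `dimE` from
`ell_eq_of_degree_gt`.  No sorry in this file.
-/
import Mathlib
import Fermat.Agent.S34lib.F3Dim
import Fermat.Agent.S34lib.Twist

set_option autoImplicit false

noncomputable section

namespace Fermat.Agent.S34lib

open AlgebraicCurve Fermat.Agent.RRlib Fermat.Agent.GoodRed

/-! ### Lagrange interpolation for `k`-points -/

section Lagrange

variable {k B : Type*} [Field k] [CommRing B] [Algebra k B]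

/-- distinct `k`-points are separated by an element -/
theorem gli_exists_ne {n : ℕ} (e : Fin n → B →ₐ[k] k) (he : Function.Injective e)
    {i j : Fin n} (hij : j ≠ i) : ∃ x : B, e i x - e j x ≠ 0 := by
  by_contra hcon
  push_neg at hcon
  apply hij
  apply he
  apply AlgHom.ext
  intro x
  exact (sub_eq_zero.mp (hcon x)).symm

/-- **Lagrange**: an element with value `1` at the `i`-th point and `0` at the others -/
theorem gli_exists_delta {n : ℕ} (e : Fin n → B →ₐ[k] k) (he : Function.Injective e)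
    (i : Fin n) : ∃ b : B, ∀ j, e j b = if j = i then 1 else 0 := by
  classical
  have hx : ∀ j : Fin n, ∃ x : B, j ≠ i → e i x - e j x ≠ 0 := by
    intro j
    by_cases hji : j = i
    · exact ⟨0, fun h => absurd hji h⟩
    · obtain ⟨x, hx⟩ := gli_exists_ne e he hji
      exact ⟨x, fun _ => hx⟩
  choose x hx using hx
  refine ⟨∏ j ∈ Finset.univ.erase i,
    ((e i (x j) - e j (x j))⁻¹ • (x j - algebraMap k B (e j (x j)))), fun i' => ?_⟩
  rw [map_prod]
  by_cases hi' : i' = i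
  · rw [if_pos hi', hi']
    apply Finset.prod_eq_one
    intro j hj
    have hji : j ≠ i := Finset.ne_of_mem_erase hj
    rw [map_smul, map_sub, AlgHom.commutes, smul_eq_mul]
    exact inv_mul_cancel₀ (hx j hji)
  · rw [if_neg hi']
    apply Finset.prod_eq_zero (i := i') (Finset.mem_erase.mpr ⟨hi', Finset.mem_univ _⟩)
    rw [map_smul, map_sub, AlgHom.commutes]
    simp

/-- the joint evaluation at distinct `k`-points is onto, with a finite-dimensional source -/
theorem gli_exists_family {n : ℕ} (e : Fin n → B →ₐ[k] k) (he : Function.Injective e) :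
    ∃ b : Fin n → B, ∀ v : Fin n → k, ∀ j, e j (∑ i, v i • b i) = v j := by
  classical
  choose b hb using gli_exists_delta e he
  refine ⟨b, fun v j => ?_⟩
  rw [map_sum]
  simp only [map_smul, hb, smul_eq_mul, mul_ite, mul_one, mul_zero]
  rw [Finset.sum_ite_eq Finset.univ j v]
  simp

end Lagrange

variable {K F k Fk : Type*} [Field K] [Field F] [Algebra K F] [Field k] [Field Fk] [Algebra k Fk]
variable {A : ValuationSubring K} {π : A →+* k}
variable [RRHyp K F] [RRHyp k Fk]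

/-- **input of GLUE-INST** (= output of the sandwich, C11): the affine ring `B = ⋃ L(aQ)`, the
gluing points as `k`-points of `B`, and the description of the reduction of
`⋃_c L(c(P₁ + P₂)) ∩ O` as the ring of glued pairs. -/
structure GlueData (R₁ R₂ : ConstRed A π Fk F) (P₁ P₂ : Place K F) (Q : Place k Fk) where
  /-- the affine ring -/
  B : Subalgebra k Fk
  mem_B : ∀ x : Fk, x ∈ B ↔ ∃ a : ℕ, x ∈ riemannRochSpace (K := k) (Finsupp.single Q (a : ℤ))
  /-- the number of gluing points -/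
  n : ℕ
  /-- the gluing points on the first component -/
  e₁ : Fin n → B →ₐ[k] k
  /-- the gluing points on the second component -/
  e₂ : Fin n → B →ₐ[k] k
  inj₁ : Function.Injective e₁
  inj₂ : Function.Injective e₂
  glue : ∀ r₁ r₂ : B, (∃ c : ℕ, ((r₁ : Fk), (r₂ : Fk)) ∈ f3dM R₁ R₂ (f3dDiv P₁ P₂ c c)) ↔
    ∀ i, e₁ i r₁ = e₂ i r₂

variable {R₁ R₂ : ConstRed A π Fk F} {P₁ P₂ : Place K F} {Q : Place k Fk}

/-- a joint evaluation on `B`, as a linear map on the underlying submodule -/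
def gliEv (B : Subalgebra k Fk) {n : ℕ} (e : Fin n → B →ₐ[k] k) :
    ↥(Subalgebra.toSubmodule B) →ₗ[k] (Fin n → k) :=
  (LinearMap.pi fun i => (e i).toLinearMap).comp (Subalgebra.toSubmoduleEquiv B).toLinearMap

theorem gliEv_apply (B : Subalgebra k Fk) {n : ℕ} (e : Fin n → B →ₐ[k] k)
    (x : ↥(Subalgebra.toSubmodule B)) (i : Fin n) : gliEv B e x i = e i ⟨x.1, x.2⟩ := rfl

/-- a linear extension of the joint evaluation to `Fk` -/
def gliExt (B : Subalgebra k Fk) {n : ℕ} (e : Fin n → B →ₐ[k] k) : Fk →ₗ[k] (Fin n → k) :=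
  Classical.choose (LinearMap.exists_extend (gliEv B e))

theorem gliExt_apply (B : Subalgebra k Fk) {n : ℕ} (e : Fin n → B →ₐ[k] k) {x : Fk}
    (hx : x ∈ B) (i : Fin n) : gliExt B e x i = e i ⟨x, hx⟩ := by
  have h := Classical.choose_spec (LinearMap.exists_extend (gliEv B e))
  have h1 := LinearMap.congr_fun h (⟨x, hx⟩ : ↥(Subalgebra.toSubmodule B))
  have h2 := congrFun h1 i
  exact h2

theorem gliExt_mul (B : Subalgebra k Fk) {n : ℕ} (e : Fin n → B →ₐ[k] k) {x y : Fk}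
    (hx : x ∈ B) (hy : y ∈ B) : gliExt B e (x * y) = gliExt B e x * gliExt B e y := by
  funext i
  rw [Pi.mul_apply, gliExt_apply B e (B.mul_mem hx hy), gliExt_apply B e hx,
    gliExt_apply B e hy, ← map_mul]
  rfl

theorem gliExt_one (B : Subalgebra k Fk) {n : ℕ} (e : Fin n → B →ₐ[k] k) :
    gliExt B e 1 = 1 := by
  funext i
  rw [gliExt_apply B e B.one_mem, Pi.one_apply]
  exact map_one (e i)

/-! ### bookkeeping on `L(aQ)` -/

omit [RRHyp k Fk] in
theorem gli_mul_mem (Q : Place k Fk) {a b : ℕ} {x y : Fk}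
    (hx : x ∈ riemannRochSpace (K := k) (Finsupp.single Q (a : ℤ)))
    (hy : y ∈ riemannRochSpace (K := k) (Finsupp.single Q (b : ℤ))) :
    x * y ∈ riemannRochSpace (K := k) (Finsupp.single Q ((a + b : ℕ) : ℤ)) := by
  have h := tw_mul_mem_L hx hy
  rw [← Finsupp.single_add] at h
  rwa [Nat.cast_add]

omit [RRHyp k Fk] in
theorem gli_one_mem (Q : Place k Fk) :
    (1 : Fk) ∈ riemannRochSpace (K := k) (Finsupp.single Q ((0 : ℕ) : ℤ)) := by
  rw [Nat.cast_zero, Finsupp.single_zero]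
  exact one_mem_riemannRochSpace_zero

omit [RRHyp k Fk] in
theorem gli_mono (Q : Place k Fk) {a b : ℕ} (h : a ≤ b) :
    riemannRochSpace (K := k) (Finsupp.single Q (a : ℤ)) ≤
      riemannRochSpace (K := k) (Finsupp.single Q (b : ℤ)) :=
  riemannRochSpace_mono (Finsupp.single_mono (by exact_mod_cast h))

omit [RRHyp k Fk] in
/-- `m`-th roots: `x^m ∈ L(m a Q) ⇒ x ∈ L(aQ)` -/
theorem gli_root (Q : Place k Fk) {m : ℕ} (hm : 0 < m) {a : ℕ} {x : Fk}
    (hx : x ^ m ∈ riemannRochSpace (K := k) (Finsupp.single Q ((m * a : ℕ) : ℤ))) :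
    x ∈ riemannRochSpace (K := k) (Finsupp.single Q (a : ℤ)) := by
  classical
  by_cases h0 : x = 0
  · rw [h0]; exact Submodule.zero_mem _
  rw [tw_mem_L_iff h0]
  rw [tw_mem_L_iff (pow_ne_zero _ h0)] at hx
  intro v
  have h := hx v
  rw [tw_ord_pow] at h
  have hm' : (0 : ℤ) < m := by exact_mod_cast hm
  by_cases hv : Q = v
  · rw [hv, Finsupp.single_eq_same] at h ⊢
    have h2 : (m : ℤ) * (-(a : ℤ)) ≤ m * v.ord x := by
      push_cast at h
      linarith
    exact le_of_mul_le_mul_left h2 hm'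
  · rw [Finsupp.single_eq_of_ne' hv] at h ⊢
    have h2 : (m : ℤ) * (-(0 : ℤ)) ≤ m * v.ord x := by
      simpa using h
    exact le_of_mul_le_mul_left h2 hm'

namespace GlueData

variable (X : GlueData R₁ R₂ P₁ P₂ Q)

omit [RRHyp K F] [RRHyp k Fk] in
theorem mem_B_of_mem {a : ℕ} {x : Fk}
    (hx : x ∈ riemannRochSpace (K := k) (Finsupp.single Q (a : ℤ))) : x ∈ X.B :=
  (X.mem_B x).mpr ⟨a, hx⟩

/-- the gluing on `Fk × Fk`: `T a = L(aQ) × L(aQ)`, `e₁ (r₁, r₂) = (e₁ i r₁)_i`,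
`e₂ (r₁, r₂) = (e₂ i r₂)_i` (extended linearly outside `B`). -/
def gluing : Gluing k (Fk × Fk) where
  T a := f3dBox (k := k) (Finsupp.single Q (a : ℤ)) (Finsupp.single Q (a : ℤ))
  n := X.n
  e₁ := (gliExt X.B X.e₁).comp (LinearMap.fst k Fk Fk)
  e₂ := (gliExt X.B X.e₂).comp (LinearMap.snd k Fk Fk)
  T_mono := fun h => f3dBox_mono (Finsupp.single_mono (by exact_mod_cast h))
    (Finsupp.single_mono (by exact_mod_cast h))
  T_mul := fun hx hy => ⟨gli_mul_mem Q hx.1 hy.1, gli_mul_mem Q hx.2 hy.2⟩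
  one_mem := ⟨gli_one_mem Q, gli_one_mem Q⟩
  e₁_mul := fun hx hy => gliExt_mul X.B X.e₁ (X.mem_B_of_mem hx.1) (X.mem_B_of_mem hy.1)
  e₂_mul := fun hx hy => gliExt_mul X.B X.e₂ (X.mem_B_of_mem hx.2) (X.mem_B_of_mem hy.2)
  e₁_one := gliExt_one X.B X.e₁
  e₂_one := gliExt_one X.B X.e₂
  T_finite := fun a => by
    have h : (riemannRochSpace (K := k) (Finsupp.single Q (a : ℤ) : Divisor k Fk)).FG :=
      Module.Finite.iff_fg.mp (finite_riemannRochSpace _)
    exact Module.Finite.iff_fg.mpr (Submodule.FG.prod h h)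

theorem gluing_T (a : ℕ) :
    X.gluing.T a = f3dBox (k := k) (Finsupp.single Q (a : ℤ)) (Finsupp.single Q (a : ℤ)) := rfl

theorem gluing_n : X.gluing.n = X.n := rfl

theorem gluing_e₁ (r : Fk × Fk) (h : r.1 ∈ X.B) (i : Fin X.n) :
    X.gluing.e₁ r i = X.e₁ i ⟨r.1, h⟩ := gliExt_apply X.B X.e₁ h i

theorem gluing_e₂ (r : Fk × Fk) (h : r.2 ∈ X.B) (i : Fin X.n) :
    X.gluing.e₂ r i = X.e₂ i ⟨r.2, h⟩ := gliExt_apply X.B X.e₂ h i

omit [RRHyp K F] [RRHyp k Fk] in
/-- `redSp` (helper16) and `f3dM` (helper19) are the same thing -/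
theorem redSp_eq (R₁ R₂ : ConstRed A π Fk F) (D : Divisor K F) :
    (SSRed.ofPair R₁ R₂).redSp (riemannRochSpace (K := K) D) = f3dM R₁ R₂ D := by
  ext w
  exact Iff.rfl

omit [RRHyp k Fk] in
theorem nsmul_f3dDiv (P₁ P₂ : Place K F) (a : ℕ) :
    a • f3dDiv P₁ P₂ 1 1 = f3dDiv P₁ P₂ a a := by
  rw [f3dDiv, f3dDiv, smul_add, Finsupp.smul_single, Finsupp.smul_single]
  simp

/-- interpolation with pole control: for `a` large, `L(aQ) → kⁿ` is onto -/
theorem exists_surj {n : ℕ} (e : Fin n → X.B →ₐ[k] k) (he : Function.Injective e) :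
    ∃ s : ℕ, ∀ a, s ≤ a → ∀ v : Fin n → k,
      ∃ x : Fk, x ∈ riemannRochSpace (K := k) (Finsupp.single Q (a : ℤ)) ∧
        ∃ hx : x ∈ X.B, ∀ i, e i ⟨x, hx⟩ = v i := by
  classical
  obtain ⟨b, hb⟩ := gli_exists_family e he
  have hbd : ∀ i, ∃ a : ℕ, ((b i : X.B) : Fk) ∈
      riemannRochSpace (K := k) (Finsupp.single Q (a : ℤ)) := fun i => (X.mem_B _).mp (b i).2
  choose d hd using hbd
  refine ⟨Finset.univ.sup d, fun a ha v => ?_⟩
  refine ⟨((∑ i, v i • b i : X.B) : Fk), ?_, (∑ i, v i • b i : X.B).2, fun i => hb v i⟩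
  have hcoe : ((∑ i, v i • b i : X.B) : Fk) = ∑ i, v i • ((b i : X.B) : Fk) := by
    rw [AddSubmonoidClass.coe_finset_sum]
    rfl
  rw [hcoe]
  refine Submodule.sum_mem _ fun i _ => Submodule.smul_mem _ _ ?_
  exact gli_mono Q ((Finset.le_sup (Finset.mem_univ i)).trans ha) (hd i)

/-- **GLUE-INST**: the hypotheses of the twisted gluing. -/
theorem twistHyp [Infinite k] {a₀ : ℕ} (H : F3dEX R₁ R₂ P₁ P₂ Q Q a₀) {m : ℕ} (hm : 0 < m) :
    ∃ a₁ : ℕ, a₀ ≤ a₁ ∧
      TwistHyp (SSRed.ofPair R₁ R₂) X.gluing m (f3dDiv P₁ P₂ 1 1) a₁ := by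
  classical
  obtain ⟨s₁, hs₁⟩ := X.exists_surj X.e₁ X.inj₁
  obtain ⟨s₂, hs₂⟩ := X.exists_surj X.e₂ X.inj₂
  refine ⟨max (max a₀ (genusFF K F)) (max s₁ s₂), (le_max_left _ _).trans (le_max_left _ _), ?_⟩
  set a₁ := max (max a₀ (genusFF K F)) (max s₁ s₂) with ha₁
  have h0 : a₀ ≤ a₁ := (le_max_left _ _).trans (le_max_left _ _)
  have hg : genusFF K F ≤ a₁ := (le_max_right _ _).trans (le_max_left _ _)
  have h1 : s₁ ≤ a₁ := (le_max_left _ _).trans (le_max_right _ _)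
  have h2 : s₂ ≤ a₁ := (le_max_right _ _).trans (le_max_right _ _)
  refine ⟨hm, ?_, ?_, ?_, ?_⟩
  · -- root
    intro a r hr
    exact ⟨gli_root Q hm hr.1, gli_root Q hm hr.2⟩
  · -- f3
    intro a ha
    have ha0 : a₀ ≤ a := h0.trans ha
    rw [redSp_eq, nsmul_f3dDiv]
    ext t
    rw [Gluing.mem_glued_one]
    constructor
    · intro ht
      have hbox := H.le_box ha0 ha0 (by omega) (by omega) ht
      have hB1 : t.1 ∈ X.B := X.mem_B_of_mem hbox.1
      have hB2 : t.2 ∈ X.B := X.mem_B_of_mem hbox.2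
      refine ⟨hbox, ?_⟩
      funext i
      rw [X.gluing_e₁ t hB1 i, X.gluing_e₂ t hB2 i]
      exact (X.glue ⟨t.1, hB1⟩ ⟨t.2, hB2⟩).mp ⟨a, ht⟩ i
    · rintro ⟨hT, heq⟩
      have hbox : t ∈ f3dBox (k := k) (Finsupp.single Q (a : ℤ)) (Finsupp.single Q (a : ℤ)) := hT
      have hB1 : t.1 ∈ X.B := X.mem_B_of_mem hbox.1
      have hB2 : t.2 ∈ X.B := X.mem_B_of_mem hbox.2
      obtain ⟨c, hc⟩ := (X.glue ⟨t.1, hB1⟩ ⟨t.2, hB2⟩).mpr (fun i => by
        rw [← X.gluing_e₁ t hB1 i, ← X.gluing_e₂ t hB2 i, heq])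
      have hc' : t ∈ f3dM R₁ R₂ (f3dDiv P₁ P₂ (max c a) (max c a)) := by
        refine f3dM_mono R₁ R₂ ?_ hc
        refine add_le_add ?_ ?_
        · exact Finsupp.single_mono (by exact_mod_cast le_max_left c a)
        · exact Finsupp.single_mono (by exact_mod_cast le_max_left c a)
      exact H.mem_of_mem_box ha0 (le_max_right c a) hc' hbox
  · -- surj
    intro a ha v w
    obtain ⟨x, hx, hxB, hxe⟩ := hs₁ a (h1.trans ha) v
    obtain ⟨y, hy, hyB, hye⟩ := hs₂ a (h2.trans ha) w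
    refine ⟨(x, y), ⟨hx, hy⟩, ?_, ?_⟩
    · funext i
      rw [X.gluing_e₁ (x, y) hxB i]
      exact hxe i
    · funext i
      rw [X.gluing_e₂ (x, y) hyB i]
      exact hye i
  · -- dimE
    intro a ha E hE
    have hga : genusFF K F ≤ a := hg.trans ha
    have hdeg : Divisor.degree (a • f3dDiv P₁ P₂ 1 1) = 2 * (a : ℤ) := by
      rw [nsmul_f3dDiv, degree_f3dDiv]
      ring
    have hdegE : Divisor.degree (a • f3dDiv P₁ P₂ 1 1 + E) = 2 * (a : ℤ) := by
      rw [map_add, hdeg, hE, add_zero]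
    have hlt : 2 * (genusFF K F : ℤ) - 2 < 2 * (a : ℤ) := by
      have : (genusFF K F : ℤ) ≤ a := by exact_mod_cast hga
      linarith
    have e1 := ell_eq_of_degree_gt (K := K) (F := F) (D := a • f3dDiv P₁ P₂ 1 1)
      (by rw [hdeg]; exact hlt)
    have e2 := ell_eq_of_degree_gt (K := K) (F := F) (D := a • f3dDiv P₁ P₂ 1 1 + E)
      (by rw [hdegE]; exact hlt)
    rw [hdeg] at e1
    rw [hdegE] at e2
    have : (ell (a • f3dDiv P₁ P₂ 1 1 + E) : ℤ) = ell (a • f3dDiv P₁ P₂ 1 1) := by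
      rw [e1, e2]
    exact_mod_cast this

end GlueData

end Fermat.Agent.S34lib

end
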