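/-
Item 79 (S34), piece C7 (helper13): Riemann–Roch facts used by TWIST / APPLY.
For a function field `F / K` with `[RRHyp K F]` (all places rational):

* `rrfEval v : v.toValuationSubring →ₐ[K] K`, the value at a place; `rrfVal v : F → K` (junk `0`
  at a pole), with `rrfVal_eq_iff`, `rrfVal_add`, `rrfVal_mul`, `rrfVal_algebraMap`;
* `rrf_ell_two`: `ℓ(a P + b Q + E) = a + b + 1 − g` for `deg E = 0`, `a + b > 2g − 2`;
  `rrf_ell_one`: `ℓ(a Q) = a + 1 − g` for `a > 2g − 2`; `rrf_finrank_add_eq`, `rrf_dimE`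
  (the field `dimE` of `TwistHyp`); `rrf_root`, `rrf_root_single` (the field `root`);
* `rrf_eval_surjective`: for distinct places `s i ≠ Q` (`i : Fin n`) and `a > 2g − 2 + n`, the
  evaluation `L(a Q) → Kⁿ` is onto;
* `rrf_exists_nonvanishing`: (`K` infinite) a finite-dimensional space of functions regular at the
  `s i`, containing for each `i` a function not vanishing at `s i`, contains a function vanishing at
  no `s i`;
* `rrf_const_of_regular`: regular everywhere ⇒ constant.
No sorry.  Mathlib + RRlib + S24lib/FFBasic only.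
-/
import Mathlib
import Fermat.Agent.RRlib.Duality
import Fermat.Agent.S24lib.FFBasic

set_option autoImplicit false

noncomputable section

namespace Fermat.Agent.S34lib

open AlgebraicCurve Fermat.Agent.RRlib Fermat.Agent.S24lib

variable {K F : Type*} [Field K] [Field F] [Algebra K F]

/-! ### the value at a rational place -/

/-- the residue map of a place, as a `K`-algebra homomorphism -/
def rrfRes (v : Place K F) : v.toValuationSubring →ₐ[K] v.ResidueField where
  toRingHom := IsLocalRing.residue v.toValuationSubring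
  commutes' _ := rfl

theorem rrfRes_apply (v : Place K F) (a : v.toValuationSubring) :
    rrfRes v a = IsLocalRing.residue v.toValuationSubring a := rfl

/-- `K ≃ κ(v)` for a rational place -/
def rrfResEquiv [RRBase K F] (v : Place K F) : K ≃ₐ[K] v.ResidueField :=
  AlgEquiv.ofBijective (Algebra.ofId K v.ResidueField)
    ⟨(algebraMap K v.ResidueField).injective, RRBase.residue_surjective (K := K) v⟩

/-- the value at a place, as a `K`-algebra homomorphism on the valuation ring -/
def rrfEval [RRBase K F] (v : Place K F) : v.toValuationSubring →ₐ[K] K :=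
  ((rrfResEquiv v).symm : v.ResidueField →ₐ[K] K).comp (rrfRes v)

theorem rrfEval_eq_zero_iff [RRBase K F] (v : Place K F) (a : v.toValuationSubring) :
    rrfEval v a = 0 ↔ a ∈ IsLocalRing.maximalIdeal v.toValuationSubring := by
  show (rrfResEquiv v).symm (rrfRes v a) = 0 ↔ _
  rw [map_eq_zero_iff _ (rrfResEquiv v).symm.injective, rrfRes_apply,
    IsLocalRing.residue_eq_zero_iff]

theorem rrfEval_eq_zero_iff_ord [RRBase K F] (v : Place K F) (a : v.toValuationSubring) :
    rrfEval v a = 0 ↔ (a : F) = 0 ∨ 0 < v.ord (a : F) := by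
  rw [rrfEval_eq_zero_iff]
  constructor
  · intro h
    by_cases h0 : a = 0
    · left; rw [h0]; rfl
    · right; exact ffOrd_pos_of_mem_maximalIdeal v h h0
  · rintro (h | h)
    · have : a = 0 := Subtype.ext h
      rw [this]; exact Ideal.zero_mem _
    · obtain ⟨b, hb, hba⟩ := ffMem_maximalIdeal_of_ord_pos v h
      have : b = a := Subtype.ext hba
      rwa [← this]

/-- the value at a place of a function (junk value `0` at a pole) -/
def rrfVal [RRBase K F] (v : Place K F) (f : F) : K :=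
  letI := Classical.propDecidable
  if h : f ∈ v.toValuationSubring then rrfEval v ⟨f, h⟩ else 0

theorem rrfVal_of_mem [RRBase K F] (v : Place K F) {f : F} (h : f ∈ v.toValuationSubring) :
    rrfVal v f = rrfEval v ⟨f, h⟩ := by
  rw [rrfVal, dif_pos h]

theorem rrfVal_algebraMap [RRBase K F] (v : Place K F) (c : K) :
    rrfVal v (algebraMap K F c) = c := by
  rw [rrfVal_of_mem v (v.algebraMap_mem' c)]
  exact (rrfEval v).commutes c

theorem rrfVal_add [RRBase K F] (v : Place K F) {f g : F} (hf : f ∈ v.toValuationSubring)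
    (hg : g ∈ v.toValuationSubring) : rrfVal v (f + g) = rrfVal v f + rrfVal v g := by
  rw [rrfVal_of_mem v hf, rrfVal_of_mem v hg, rrfVal_of_mem v (add_mem hf hg), ← map_add]
  rfl

theorem rrfVal_mul [RRBase K F] (v : Place K F) {f g : F} (hf : f ∈ v.toValuationSubring)
    (hg : g ∈ v.toValuationSubring) : rrfVal v (f * g) = rrfVal v f * rrfVal v g := by
  rw [rrfVal_of_mem v hf, rrfVal_of_mem v hg, rrfVal_of_mem v (mul_mem hf hg), ← map_mul]
  rfl

theorem rrfVal_smul [RRBase K F] (v : Place K F) (c : K) {f : F}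
    (hf : f ∈ v.toValuationSubring) : rrfVal v (c • f) = c * rrfVal v f := by
  rw [Algebra.smul_def, rrfVal_mul v (v.algebraMap_mem' c) hf, rrfVal_algebraMap]

theorem rrfVal_eq_zero_iff [RRBase K F] (v : Place K F) {f : F}
    (hf : f ∈ v.toValuationSubring) : rrfVal v f = 0 ↔ f = 0 ∨ 0 < v.ord f := by
  rw [rrfVal_of_mem v hf, rrfEval_eq_zero_iff_ord]

/-- `f(v) = c` iff `f − c` vanishes at `v` -/
theorem rrfVal_eq_iff [RRBase K F] (v : Place K F) {f : F} (hf : f ∈ v.toValuationSubring)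
    (c : K) : rrfVal v f = c ↔ f = algebraMap K F c ∨ 0 < v.ord (f - algebraMap K F c) := by
  have hmem : f - algebraMap K F c ∈ v.toValuationSubring := sub_mem hf (v.algebraMap_mem' c)
  have h1 : rrfVal v (f - algebraMap K F c) = rrfVal v f - c := by
    have h2 := rrfVal_add v hmem (v.algebraMap_mem' c)
    rw [sub_add_cancel, rrfVal_algebraMap] at h2
    rw [h2]; ring
  rw [← sub_eq_zero, ← h1, rrfVal_eq_zero_iff v hmem, sub_eq_zero]

/-! ### dimensions -/

theorem rrf_degree_single [RRBase K F] (P : Place K F) (m : ℤ) :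
    Divisor.degree (Finsupp.single P m : Divisor K F) = m := by
  rw [Divisor.degree_single, deg_eq_one]
  simp

/-- `ℓ(D + E) = ℓ(D)` for `deg E = 0` and `deg D > 2g − 2` -/
theorem rrf_finrank_add_eq [RRHyp K F] (D E : Divisor K F) (hE : Divisor.degree E = 0)
    (h : 2 * (genusFF K F : ℤ) - 2 < Divisor.degree D) :
    Module.finrank K (riemannRochSpace (D + E)) = Module.finrank K (riemannRochSpace D) := by
  have h1 : (ell (D + E) : ℤ) = Divisor.degree (D + E) + 1 - genusFF K F :=
    ell_eq_of_degree_gt (by rw [map_add, hE, add_zero]; exact h)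
  have h2 : (ell D : ℤ) = Divisor.degree D + 1 - genusFF K F := ell_eq_of_degree_gt h
  rw [map_add, hE, add_zero, ← h2] at h1
  exact_mod_cast h1

/-- the field `dimE` of `TwistHyp`: `ℓ(a D₁ + E) = ℓ(a D₁)` for `deg E = 0`, `a deg D₁ > 2g − 2` -/
theorem rrf_dimE [RRHyp K F] (D₁ : Divisor K F) (a : ℕ)
    (h : 2 * (genusFF K F : ℤ) - 2 < a * Divisor.degree D₁) (E : Divisor K F)
    (hE : Divisor.degree E = 0) :
    Module.finrank K (riemannRochSpace (a • D₁ + E)) =
      Module.finrank K (riemannRochSpace (a • D₁)) := by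
  apply rrf_finrank_add_eq _ _ hE
  rw [map_nsmul, nsmul_eq_mul]
  exact h

/-- the field `root` of `TwistHyp`, for Riemann–Roch spaces: `r ^ m ∈ L(m D) ⇒ r ∈ L(D)` -/
theorem rrf_root (D : Divisor K F) (m : ℕ) (hm : 0 < m) (r : F)
    (h : r ^ m ∈ riemannRochSpace (m • D)) : r ∈ riemannRochSpace D := by
  rw [mem_riemannRochSpace_iff] at h ⊢
  intro v
  by_cases hr : r = 0
  · exact Or.inl hr
  right
  rcases h v with h0 | h1
  · exact absurd (pow_eq_zero_iff hm.ne' |>.mp h0) hr
  · have e : v.ord (r ^ m) = m * v.ord r := by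
      have := v.ord_zpow r (m : ℤ)
      simpa using this
    rw [e, Finsupp.smul_apply, nsmul_eq_mul] at h1
    have hm' : (0 : ℤ) < (m : ℤ) := by exact_mod_cast hm
    by_contra hlt
    rw [not_le] at hlt
    have : (m : ℤ) * v.ord r < (m : ℤ) * (-D v) := mul_lt_mul_of_pos_left hlt hm'
    linarith

/-- `rrf_root` for the divisors `a Q` -/
theorem rrf_root_single (Q : Place K F) (a m : ℕ) (hm : 0 < m) (r : F)
    (h : r ^ m ∈ riemannRochSpace (Finsupp.single Q ((m * a : ℕ) : ℤ))) :
    r ∈ riemannRochSpace (Finsupp.single Q (a : ℤ)) := by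
  apply rrf_root _ m hm
  have e : m • (Finsupp.single Q (a : ℤ) : Divisor K F) = Finsupp.single Q ((m * a : ℕ) : ℤ) := by
    rw [Finsupp.smul_single]
    simp
  rw [e]
  exact h

theorem rrf_ell_two [RRHyp K F] (P Q : Place K F) (E : Divisor K F)
    (hE : Divisor.degree E = 0) (a b : ℕ)
    (h : 2 * (genusFF K F : ℤ) - 2 < (a : ℤ) + b) :
    (ell (Finsupp.single P (a : ℤ) + Finsupp.single Q (b : ℤ) + E) : ℤ)
      = (a : ℤ) + b + 1 - genusFF K F := by
  have hdeg : Divisor.degree
      (Finsupp.single P (a : ℤ) + Finsupp.single Q (b : ℤ) + E) =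
      (a : ℤ) + b := by
    rw [map_add, map_add, rrf_degree_single, rrf_degree_single, hE]
    simp
  rw [ell_eq_of_degree_gt (by rw [hdeg]; exact h), hdeg]

theorem rrf_ell_one [RRHyp K F] (Q : Place K F) (a : ℕ)
    (h : 2 * (genusFF K F : ℤ) - 2 < (a : ℤ)) :
    (ell (Finsupp.single Q (a : ℤ)) : ℤ) = (a : ℤ) + 1 - genusFF K F := by
  have hdeg : Divisor.degree (Finsupp.single Q (a : ℤ)) = (a : ℤ) := by
    rw [rrf_degree_single]
  rw [ell_eq_of_degree_gt (by rw [hdeg]; exact h), hdeg]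

/-- regular everywhere ⇒ constant -/
theorem rrf_const_of_regular [RRBase K F] (f : F) (h : ∀ v : Place K F, 0 ≤ v.ord f) :
    ∃ c : K, f = algebraMap K F c := by
  obtain ⟨c, hc⟩ := RRBase.const_of_forall_ord_nonneg (K := K) f h
  exact ⟨c, hc.symm⟩

/-! ### evaluation at finitely many places -/

section Eval

variable {n : ℕ} (s : Fin n → Place K F)

/-- the divisor `Σ_i (s i)` -/
def rrfSum : Divisor K F := ∑ i, Finsupp.single (s i) (1 : ℤ)

theorem rrfSum_apply_self (hs : Function.Injective s) (i : Fin n) : rrfSum s (s i) = 1 := by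
  classical
  rw [rrfSum, Finsupp.finsetSum_apply, Finset.sum_eq_single i]
  · simp
  · intro j _ hj
    rw [Finsupp.single_apply, if_neg]
    exact fun h => hj (hs h)
  · intro h
    exact absurd (Finset.mem_univ i) h

theorem rrfSum_apply_of_ne (v : Place K F) (hv : ∀ i, s i ≠ v) : rrfSum s v = 0 := by
  classical
  rw [rrfSum, Finsupp.finsetSum_apply]
  refine Finset.sum_eq_zero fun j _ => ?_
  rw [Finsupp.single_apply, if_neg (hv j)]

theorem rrfSum_nonneg : 0 ≤ rrfSum s := by
  classical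
  rw [rrfSum]
  refine Finset.sum_nonneg fun i _ => ?_
  intro v
  rw [Finsupp.single_apply]
  simp only [Finsupp.coe_zero, Pi.zero_apply]
  split_ifs <;> norm_num

theorem rrfSum_degree [RRBase K F] : Divisor.degree (rrfSum s) = n := by
  rw [rrfSum, map_sum, Finset.sum_congr rfl (fun i _ => degree_single_one (K := K) (s i))]
  simp

/-- every function of `L(aQ)` is regular at a place `v ≠ Q` -/
theorem rrf_mem_of_mem_L (Q : Place K F) (a : ℕ) {v : Place K F} (hv : v ≠ Q) {f : F}
    (hf : f ∈ riemannRochSpace (Finsupp.single Q (a : ℤ))) :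
    f ∈ v.toValuationSubring := by
  classical
  rcases mem_riemannRochSpace_iff.mp hf v with h | h
  · rw [h]; exact zero_mem _
  · rw [Finsupp.single_apply, if_neg (Ne.symm hv)] at h
    simp only [neg_zero] at h
    exact ffMem_of_ord_nonneg v h

/-- the evaluation map `L(aQ) → Kⁿ` at places `s i ≠ Q` -/
def rrfEvalL [RRBase K F] (Q : Place K F) (a : ℕ) (hsQ : ∀ i, s i ≠ Q) :
    ↥(riemannRochSpace (Finsupp.single Q (a : ℤ))) →ₗ[K] (Fin n → K) where
  toFun f i := rrfVal (s i) (f : F)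
  map_add' f g := by
    funext i
    exact rrfVal_add (s i) (rrf_mem_of_mem_L Q a (hsQ i) f.2) (rrf_mem_of_mem_L Q a (hsQ i) g.2)
  map_smul' c f := by
    funext i
    exact rrfVal_smul (s i) c (rrf_mem_of_mem_L Q a (hsQ i) f.2)

theorem rrfEvalL_apply [RRBase K F] (Q : Place K F) (a : ℕ) (hsQ : ∀ i, s i ≠ Q)
    (f : ↥(riemannRochSpace (Finsupp.single Q (a : ℤ)))) (i : Fin n) :
    rrfEvalL s Q a hsQ f i = rrfVal (s i) (f : F) := rfl

theorem rrf_mem_L_sub_iff [RRBase K F] (hs : Function.Injective s) (Q : Place K F) (a : ℕ)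
    (hsQ : ∀ i, s i ≠ Q) (f : F) :
    f ∈ riemannRochSpace (Finsupp.single Q (a : ℤ) - rrfSum s) ↔
      f ∈ riemannRochSpace (Finsupp.single Q (a : ℤ)) ∧ ∀ i, rrfVal (s i) f = 0 := by
  classical
  constructor
  · intro hf
    have hL : f ∈ riemannRochSpace (Finsupp.single Q (a : ℤ)) :=
      riemannRochSpace_mono (sub_le_self _ (rrfSum_nonneg s)) hf
    refine ⟨hL, fun i => ?_⟩
    rw [rrfVal_eq_zero_iff (s i) (rrf_mem_of_mem_L Q a (hsQ i) hL)]
    rcases mem_riemannRochSpace_iff.mp hf (s i) with h | h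
    · exact Or.inl h
    · right
      rw [Finsupp.sub_apply, Finsupp.single_apply,
        if_neg (Ne.symm (hsQ i)), rrfSum_apply_self s hs] at h
      simp only [zero_sub, neg_neg] at h
      omega
  · rintro ⟨hL, hval⟩
    rw [mem_riemannRochSpace_iff]
    intro v
    by_cases hv : ∃ i, s i = v
    · obtain ⟨i, rfl⟩ := hv
      rcases (rrfVal_eq_zero_iff (s i) (rrf_mem_of_mem_L Q a (hsQ i) hL)).mp (hval i) with h | h
      · exact Or.inl h
      · right
        rw [Finsupp.sub_apply, Finsupp.single_apply,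
          if_neg (Ne.symm (hsQ i)), rrfSum_apply_self s hs]
        simp only [zero_sub, neg_neg]
        omega
    · have hv : ∀ i, s i ≠ v := fun i hi => hv ⟨i, hi⟩
      rcases mem_riemannRochSpace_iff.mp hL v with h | h
      · exact Or.inl h
      · right
        rw [Finsupp.sub_apply, rrfSum_apply_of_ne s v hv, sub_zero]
        exact h

theorem rrf_ker_evalL [RRBase K F] (hs : Function.Injective s) (Q : Place K F) (a : ℕ)
    (hsQ : ∀ i, s i ≠ Q) :
    LinearMap.ker (rrfEvalL s Q a hsQ) =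
      Submodule.comap (riemannRochSpace (Finsupp.single Q (a : ℤ))).subtype
        (riemannRochSpace (Finsupp.single Q (a : ℤ) - rrfSum s)) := by
  ext f
  rw [LinearMap.mem_ker, Submodule.mem_comap, Submodule.subtype_apply,
    rrf_mem_L_sub_iff s hs Q a hsQ]
  constructor
  · intro h
    exact ⟨f.2, fun i => congrFun h i⟩
  · rintro ⟨-, h⟩
    funext i
    exact h i

/-- **evaluation is onto**: for distinct places `s i ≠ Q` and `a > 2g − 2 + n`, every vector of
values is attained by a function with a pole of order `≤ a` at `Q` only. -/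
theorem rrfEvalL_surjective [RRHyp K F] (hs : Function.Injective s) (Q : Place K F) (a : ℕ)
    (hsQ : ∀ i, s i ≠ Q) (ha : 2 * (genusFF K F : ℤ) - 2 + n < (a : ℤ)) :
    Function.Surjective (rrfEvalL s Q a hsQ) := by
  have := finite_riemannRochSpace (K := K) (Finsupp.single Q (a : ℤ))
  rw [← LinearMap.range_eq_top]
  apply Submodule.eq_top_of_finrank_eq
  rw [Module.finrank_fin_fun]
  have hrn := LinearMap.finrank_range_add_finrank_ker (rrfEvalL s Q a hsQ)
  have hle : Finsupp.single Q (a : ℤ) - rrfSum s ≤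
      Finsupp.single Q (a : ℤ) := sub_le_self _ (rrfSum_nonneg s)
  have hker : Module.finrank K ↥(LinearMap.ker (rrfEvalL s Q a hsQ)) =
      ell (Finsupp.single Q (a : ℤ) - rrfSum s) := by
    rw [rrf_ker_evalL s hs Q a hsQ]
    exact (Submodule.comapSubtypeEquivOfLe (riemannRochSpace_mono hle)).finrank_eq
  have h1 : (ell (Finsupp.single Q (a : ℤ)) : ℤ) = (a : ℤ) + 1 - genusFF K F :=
    rrf_ell_one Q a (by linarith)
  have hdeg : Divisor.degree (Finsupp.single Q (a : ℤ) - rrfSum s) = (a : ℤ) - n := by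
    rw [map_sub, rrf_degree_single, rrfSum_degree]
  have h2 : (ell (Finsupp.single Q (a : ℤ) - rrfSum s) : ℤ) =
      (a : ℤ) - n + 1 - genusFF K F := by
    rw [ell_eq_of_degree_gt (by rw [hdeg]; linarith), hdeg]
  have h3 : (Module.finrank K ↥(riemannRochSpace (Finsupp.single Q (a : ℤ))) : ℤ) =
      ell (Finsupp.single Q (a : ℤ)) := rfl
  have h4 : (Module.finrank K ↥(LinearMap.range (rrfEvalL s Q a hsQ)) : ℤ) +
      Module.finrank K ↥(LinearMap.ker (rrfEvalL s Q a hsQ)) =
      Module.finrank K ↥(riemannRochSpace (Finsupp.single Q (a : ℤ))) := by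
    exact_mod_cast hrn
  rw [hker, h3, h1, h2] at h4
  have : (Module.finrank K ↥(LinearMap.range (rrfEvalL s Q a hsQ)) : ℤ) = n := by linarith
  exact_mod_cast this

/-- `rrfEvalL_surjective` in elementary form -/
theorem rrf_eval_surjective [RRHyp K F] (hs : Function.Injective s) (Q : Place K F) (a : ℕ)
    (hsQ : ∀ i, s i ≠ Q) (ha : 2 * (genusFF K F : ℤ) - 2 + n < (a : ℤ)) (c : Fin n → K) :
    ∃ f ∈ riemannRochSpace (Finsupp.single Q (a : ℤ)),
      ∀ i, f ∈ (s i).toValuationSubring ∧ rrfVal (s i) f = c i := by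
  obtain ⟨f, hf⟩ := rrfEvalL_surjective s hs Q a hsQ ha c
  exact ⟨f, f.2, fun i => ⟨rrf_mem_of_mem_L Q a (hsQ i) f.2, congrFun hf i⟩⟩

end Eval

/-! ### generic elements -/

/-- over an infinite field, finitely many nonzero linear forms have a common non-zero -/
theorem rrf_exists_forall_ne_zero [Infinite K] {E : Type*} [AddCommGroup E] [Module K E]
    {ι : Type*} [Finite ι] (φ : ι → E →ₗ[K] K) (h : ∀ i, φ i ≠ 0) :
    ∃ x : E, ∀ i, φ i x ≠ 0 := by
  by_contra hcon
  have hcon : ∀ x : E, ∃ i, φ i x = 0 := fun x => by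
    by_contra hx
    exact hcon ⟨x, fun i hi => hx ⟨i, hi⟩⟩
  have hcov : ⋃ i, ((LinearMap.ker (φ i) : Submodule K E) : Set E) = Set.univ := by
    rw [Set.eq_univ_iff_forall]
    intro x
    obtain ⟨i, hi⟩ := hcon x
    exact Set.mem_iUnion.mpr ⟨i, hi⟩
  obtain ⟨i, hi⟩ := Subspace.exists_eq_top_of_iUnion_eq_univ hcov
  exact h i (LinearMap.ker_eq_top.mp hi)

/-- a space of functions regular at the `s i`, containing for each `i` a function which does not
vanish at `s i`, contains a function vanishing at no `s i` (`K` infinite) -/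
theorem rrf_exists_nonvanishing [RRBase K F] [Infinite K] {ι : Type*} [Finite ι]
    (s : ι → Place K F) (V : Submodule K F)
    (hreg : ∀ i, ∀ f ∈ V, f ∈ (s i).toValuationSubring)
    (hne : ∀ i, ∃ f ∈ V, rrfVal (s i) f ≠ 0) :
    ∃ f ∈ V, ∀ i, rrfVal (s i) f ≠ 0 := by
  let φ : ι → ↥V →ₗ[K] K := fun i =>
    { toFun := fun f => rrfVal (s i) (f : F)
      map_add' := fun f g => rrfVal_add (s i) (hreg i f f.2) (hreg i g g.2)
      map_smul' := fun c f => rrfVal_smul (s i) c (hreg i f f.2) }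
  have hφ : ∀ i, φ i ≠ 0 := by
    intro i h0
    obtain ⟨f, hfV, hf⟩ := hne i
    exact hf (LinearMap.congr_fun h0 ⟨f, hfV⟩)
  obtain ⟨x, hx⟩ := rrf_exists_forall_ne_zero φ hφ
  exact ⟨x, x.2, hx⟩

/-! ### pairs (`R = F₁ × F₂`, `T a = L(a Q₁) × L(a Q₂)`) -/

section Pairs

variable {F₁ F₂ : Type*} [Field F₁] [Field F₂] [Algebra K F₁] [Algebra K F₂]

/-- `p.prod q ≃ p × q` -/
def rrfProdEquiv (p : Submodule K F₁) (q : Submodule K F₂) : ↥(p.prod q) ≃ₗ[K] (↥p × ↥q) where
  toFun x := (⟨x.1.1, x.2.1⟩, ⟨x.1.2, x.2.2⟩)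
  invFun y := ⟨(y.1.1, y.2.1), ⟨y.1.2, y.2.2⟩⟩
  map_add' _ _ := rfl
  map_smul' _ _ := rfl
  left_inv _ := rfl
  right_inv _ := rfl

/-- the field `root` of `TwistHyp` for `T a = L(a Q₁) × L(a Q₂)` -/
theorem rrf_root_prod (Q₁ : Place K F₁) (Q₂ : Place K F₂) (a m : ℕ) (hm : 0 < m) (r : F₁ × F₂)
    (h : r ^ m ∈ (riemannRochSpace (K := K) (Finsupp.single Q₁ ((m * a : ℕ) : ℤ))).prod
      (riemannRochSpace (K := K) (Finsupp.single Q₂ ((m * a : ℕ) : ℤ)))) :
    r ∈ (riemannRochSpace (K := K) (Finsupp.single Q₁ (a : ℤ))).prod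
      (riemannRochSpace (K := K) (Finsupp.single Q₂ (a : ℤ))) := by
  obtain ⟨h1, h2⟩ := h
  exact ⟨rrf_root_single Q₁ a m hm r.1 (by simpa using h1),
    rrf_root_single Q₂ a m hm r.2 (by simpa using h2)⟩

/-- `T a = L(X₁) × L(X₂)` is finite-dimensional -/
theorem rrf_finite_prod [RRBase K F₁] [RRBase K F₂] (X₁ : Divisor K F₁) (X₂ : Divisor K F₂) :
    Module.Finite K ↥((riemannRochSpace (K := K) X₁).prod (riemannRochSpace (K := K) X₂)) := by
  have h1 := finite_riemannRochSpace (K := K) X₁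
  have h2 := finite_riemannRochSpace (K := K) X₂
  rw [Module.Finite.iff_fg] at h1 h2 ⊢
  exact Submodule.FG.prod h1 h2

/-- `dim (L(X₁) × L(X₂)) = ℓ(X₁) + ℓ(X₂)` -/
theorem rrf_finrank_prod [RRBase K F₁] [RRBase K F₂] (X₁ : Divisor K F₁) (X₂ : Divisor K F₂) :
    Module.finrank K ↥((riemannRochSpace (K := K) X₁).prod (riemannRochSpace (K := K) X₂)) =
      ell X₁ + ell X₂ := by
  have h1 := finite_riemannRochSpace (K := K) X₁
  have h2 := finite_riemannRochSpace (K := K) X₂
  rw [(rrfProdEquiv (riemannRochSpace (K := K) X₁)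
    (riemannRochSpace (K := K) X₂)).finrank_eq, Module.finrank_prod]
  rfl

/-- joint surjectivity of the evaluations on `L(a Q₁) × L(a Q₂)` (the field `surj` of `TwistHyp`,
place form): values at `s i ≠ Q₁` on the first factor and at `s' i ≠ Q₂` on the second. -/
theorem rrf_eval_surjective_prod [RRHyp K F₁] [RRHyp K F₂] {n : ℕ}
    (s : Fin n → Place K F₁) (s' : Fin n → Place K F₂)
    (hs : Function.Injective s) (hs' : Function.Injective s')
    (Q₁ : Place K F₁) (Q₂ : Place K F₂) (hsQ : ∀ i, s i ≠ Q₁) (hsQ' : ∀ i, s' i ≠ Q₂) (a : ℕ)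
    (ha₁ : 2 * (genusFF K F₁ : ℤ) - 2 + n < (a : ℤ))
    (ha₂ : 2 * (genusFF K F₂ : ℤ) - 2 + n < (a : ℤ)) (c c' : Fin n → K) :
    ∃ t : F₁ × F₂, t ∈ (riemannRochSpace (K := K) (Finsupp.single Q₁ (a : ℤ))).prod
        (riemannRochSpace (K := K) (Finsupp.single Q₂ (a : ℤ))) ∧
      (∀ i, t.1 ∈ (s i).toValuationSubring ∧ rrfVal (s i) t.1 = c i) ∧
      (∀ i, t.2 ∈ (s' i).toValuationSubring ∧ rrfVal (s' i) t.2 = c' i) := by
  obtain ⟨f, hf, hfc⟩ := rrf_eval_surjective s hs Q₁ a hsQ ha₁ c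
  obtain ⟨f', hf', hfc'⟩ := rrf_eval_surjective s' hs' Q₂ a hsQ' ha₂ c'
  exact ⟨(f, f'), ⟨hf, hf'⟩, hfc, hfc'⟩

end Pairs

end Fermat.Agent.S34lib

end
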