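/-
Item 79 (S34), piece C10 GLUE-INST, part 2 (helper19): the node number.
For a `GlueData` with `(F3)`: `n + 2 g(Fk) = g(F) + 1` (dimension count
`ℓ(a(P₁+P₂)) + n = 2 ℓ(aQ)`), hence **(NE)** `0 < n` as soon as `2 g(Fk) ≤ g(F)`.
Also: constants lie in `T 0`.  No sorry in this file.
-/
import Mathlib
import Fermat.Agent.S34lib.GlueInst
import Fermat.Agent.S34lib.RRFacts

set_option autoImplicit false

noncomputable section

namespace Fermat.Agent.S34lib

open AlgebraicCurve Fermat.Agent.RRlib Fermat.Agent.GoodRed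

variable {K F k Fk : Type*} [Field K] [Field F] [Algebra K F] [Field k] [Field Fk] [Algebra k Fk]
variable {A : ValuationSubring K} {π : A →+* k}
variable [RRHyp K F] [RRHyp k Fk]
variable {R₁ R₂ : ConstRed A π Fk F} {P₁ P₂ : Place K F} {Q : Place k Fk}

namespace GlueData

variable (X : GlueData R₁ R₂ P₁ P₂ Q)

/-- constants lie in `T 0` -/
theorem const_mem_T0 (c c' : k) :
    ((algebraMap k Fk c, algebraMap k Fk c') : Fk × Fk) ∈ X.gluing.T 0 := by
  have h : ∀ c : k, algebraMap k Fk c ∈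
      riemannRochSpace (K := k) (Finsupp.single Q ((0 : ℕ) : ℤ) : Divisor k Fk) := by
    intro c
    have h1 := Submodule.smul_mem _ c (gli_one_mem (k := k) Q)
    rwa [Algebra.smul_def, mul_one] at h1
  exact ⟨h c, h c'⟩

/-- `dim T a = 2 ℓ(aQ)` -/
theorem finrank_gluing_T (a : ℕ) :
    Module.finrank k (X.gluing.T a) = 2 * ell (Finsupp.single Q (a : ℤ) : Divisor k Fk) := by
  have h := rrf_finrank_prod (K := k) (Finsupp.single Q (a : ℤ) : Divisor k Fk)
    (Finsupp.single Q (a : ℤ) : Divisor k Fk)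
  rw [two_mul]
  exact h

/-- **the node number**: `n + 2 g(Fk) = g(F) + 1`. -/
theorem n_eq [Infinite k] {a₀ : ℕ} (H : F3dEX R₁ R₂ P₁ P₂ Q Q a₀) :
    X.n + 2 * genusFF k Fk = genusFF K F + 1 := by
  classical
  obtain ⟨a₁, _, hyp⟩ := X.twistHyp H (m := 1) one_pos
  set a := max a₁ (max (genusFF K F) (2 * genusFF k Fk)) with ha
  have h1 : a₁ ≤ a := le_max_left _ _
  have h2 : genusFF K F ≤ a := (le_max_left _ _).trans (le_max_right _ _)
  have h3 : 2 * genusFF k Fk ≤ a := (le_max_right _ _).trans (le_max_right _ _)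
  -- the glued space
  have hfin : Module.Finite K (riemannRochSpace (K := K) (a • f3dDiv P₁ P₂ 1 1)) :=
    finite_riemannRochSpace _
  have e1 : Module.finrank k (X.gluing.glued 1 a) = ell (a • f3dDiv P₁ P₂ 1 1) := by
    rw [← hyp.f3 a h1, SSRed.finrank_redSp]
    rfl
  have e2 := X.gluing.finrank_glued a (hyp.surj a h1) 1
  have e3 := X.finrank_gluing_T a
  -- Riemann–Roch on both sides
  have hdeg : Divisor.degree (a • f3dDiv P₁ P₂ 1 1) = 2 * (a : ℤ) := by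
    rw [nsmul_f3dDiv, degree_f3dDiv]
    ring
  have r1 := ell_eq_of_degree_gt (K := K) (F := F) (D := a • f3dDiv P₁ P₂ 1 1) (by
    rw [hdeg]
    have : (genusFF K F : ℤ) ≤ a := by exact_mod_cast h2
    linarith)
  rw [hdeg] at r1
  have hdegQ : Divisor.degree (Finsupp.single Q (a : ℤ) : Divisor k Fk) = (a : ℤ) :=
    degree_single_int Q (a : ℤ)
  have r2 := ell_eq_of_degree_gt (K := k) (F := Fk) (D := Finsupp.single Q (a : ℤ)) (by
    rw [hdegQ]
    have : ((2 * genusFF k Fk : ℕ) : ℤ) ≤ a := by exact_mod_cast h3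
    push_cast at this
    linarith)
  rw [hdegQ] at r2
  have hn : X.gluing.n = X.n := rfl
  rw [e1, e3, hn] at e2
  have e2' : (ell (a • f3dDiv P₁ P₂ 1 1) : ℤ) + X.n
      = 2 * (ell (Finsupp.single Q (a : ℤ) : Divisor k Fk) : ℤ) := by exact_mod_cast e2
  rw [r1, r2] at e2'
  have : (X.n : ℤ) + 2 * (genusFF k Fk : ℤ) = (genusFF K F : ℤ) + 1 := by linarith
  exact_mod_cast this

/-- **(NE)**: there is at least one gluing point. -/
theorem n_pos [Infinite k] {a₀ : ℕ} (H : F3dEX R₁ R₂ P₁ P₂ Q Q a₀)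
    (hg : 2 * genusFF k Fk ≤ genusFF K F) : 0 < X.n := by
  have := X.n_eq H
  omega

/-- **adapter for C11** (`graphs_exists`, helper25): a `GlueData` from the sandwich output in
the `Fk × Fk`-form. -/
def ofGraphs (R₁ R₂ : ConstRed A π Fk F) (P₁ P₂ : Place K F) (Q : Place k Fk)
    (B : Subalgebra k Fk)
    (hB : ∀ x : Fk, x ∈ B ↔ ∃ a : ℕ, x ∈ riemannRochSpace (K := k) (Finsupp.single Q (a : ℤ)))
    (n : ℕ) (e₁ e₂ : Fin n → B →ₐ[k] k) (inj₁ : Function.Injective e₁)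
    (inj₂ : Function.Injective e₂)
    (h : ∀ w : Fk × Fk, (∃ c : ℕ, w ∈ f3dM R₁ R₂ (f3dDiv P₁ P₂ c c)) ↔
      ∃ (h₁ : w.1 ∈ B) (h₂ : w.2 ∈ B), ∀ i, e₁ i ⟨w.1, h₁⟩ = e₂ i ⟨w.2, h₂⟩) :
    GlueData R₁ R₂ P₁ P₂ Q where
  B := B
  mem_B := hB
  n := n
  e₁ := e₁
  e₂ := e₂
  inj₁ := inj₁
  inj₂ := inj₂
  glue := fun r₁ r₂ => by
    constructor
    · intro hc
      obtain ⟨_, _, h3⟩ := (h ((r₁ : Fk), (r₂ : Fk))).mp hc
      exact h3
    · intro hi
      exact (h ((r₁ : Fk), (r₂ : Fk))).mpr ⟨r₁.2, r₂.2, hi⟩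

end GlueData

end Fermat.Agent.S34lib

end
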