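/-
Item 79 (S34), piece SW (helper8): the SANDWICH, pure algebra.  Mathlib only, no sorry.

* `sw_mem_of_glued`: **glued-subring lemma**.  `Rt` a `k`-algebra, `ev i, ev' i : Rt → k` finitely
  many pairs of points.  If a subring `S ⊆ Rt` contains every element glued along ALL pairs, and
  the everywhere-glued elements separate the points `ev i`, then `S` is exactly the ring of
  elements glued along the pairs `i` along which all elements of `S` are glued.
* `sw_radical`: in a Dedekind domain an ideal `I` with `I ⊄ P²` for every maximal `P` is radical: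
  `a ∈ P` for all maximal `P ⊇ I` implies `a ∈ I`.
* `sw_mem_adjoin`: `R'` a `k`-algebra with an endomorphism `F` ("Frobenius"), points `pt i`
  (`i ∈ ι` finite) with `pt i ∘ F = pt (φ i)`, `φ ∘ φ = id`, such that every `a` vanishing at all
  `pt i` lies in the ideal generated by the `f - F (F f)`.  Then the subalgebra of `R' × R'`
  generated by the `(a, F a)` and `(F a, a)` is `{(a, b) | a(s) = b(φ s) ∀ s}`.
* `sw_main`: the sandwich: every subring between this subalgebra and `R' × R'` is
  `{(a, b) | a(s) = b(φ s) ∀ s ∈ Σ}` for a subset `Σ ⊆ ι`.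
-/
import Mathlib

set_option autoImplicit false

noncomputable section

namespace Fermat.Agent.S34lib

/-! ## The glued-subring lemma -/

section Glued

variable {k Rt ι : Type*} [Field k] [CommRing Rt] [Algebra k Rt]

/-- **glued-subring lemma**, membership form. -/
theorem sw_mem_of_glued [Finite ι] (ev ev' : ι → Rt →ₐ[k] k) (S : Subring Rt)
    (hS0 : ∀ r : Rt, (∀ i, ev i r = ev' i r) → r ∈ S)
    (hsep : ∀ i, ∃ r : Rt, (∀ j, ev j r = ev' j r) ∧ ev i r = 1 ∧ ∀ j, j ≠ i → ev j r = 0)
    (r : Rt) (hr : ∀ i, (∀ s ∈ S, ev i s = ev' i s) → ev i r = ev' i r) : r ∈ S := by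
  classical
  have : Fintype ι := Fintype.ofFinite ι
  choose e he1 he2 he3 using hsep
  -- for the unglued indices choose a witness
  have hw : ∀ i, ∃ s ∈ S, (∀ t ∈ S, ev i t = ev' i t) ∨ ev i s ≠ ev' i s := by
    intro i
    by_cases h : ∀ t ∈ S, ev i t = ev' i t
    · exact ⟨0, S.zero_mem, Or.inl h⟩
    · push Not at h
      obtain ⟨s, hs, hne⟩ := h
      exact ⟨s, hs, Or.inr hne⟩
  choose w hwS hw' using hw
  -- constants lie in S
  have hconst : ∀ c : k, algebraMap k Rt c ∈ S := fun c =>
    hS0 _ fun i => by rw [AlgHom.commutes, AlgHom.commutes]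
  set c : ι → k := fun i => (ev i r - ev' i r) / (ev i (w i) - ev' i (w i)) with hc
  set t : Rt := ∑ i, algebraMap k Rt (c i) * (e i * w i) with ht
  have htS : t ∈ S := by
    refine Subring.sum_mem _ fun i _ => ?_
    exact S.mul_mem (hconst _) (S.mul_mem (hS0 _ (he1 i)) (hwS i))
  have hkey : ∀ j, ev j (r - t) = ev' j (r - t) := by
    intro j
    have h1 : ∀ i, ev j (algebraMap k Rt (c i) * (e i * w i)) -
        ev' j (algebraMap k Rt (c i) * (e i * w i)) =
        if i = j then ev j r - ev' j r else 0 := by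
      intro i
      rw [map_mul, map_mul, map_mul, map_mul, AlgHom.commutes, AlgHom.commutes,
        ← he1 i j]
      by_cases hij : i = j
      · subst hij
        rw [if_pos rfl, he2 i]
        rcases hw' i with h | h
        · have h0 : ev i r - ev' i r = 0 := sub_eq_zero.mpr (hr i h)
          simp only [Algebra.algebraMap_self, RingHom.id_apply, one_mul]
          rw [← mul_sub, hc]
          simp only
          rw [h0, zero_div, zero_mul]
        · simp only [Algebra.algebraMap_self, RingHom.id_apply, one_mul]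
          rw [← mul_sub, hc]
          simp only
          rw [div_mul_cancel₀ _ (sub_ne_zero.mpr h)]
      · rw [if_neg hij, he3 i j (fun h => hij h.symm)]
        simp
    have h2 : ev j t - ev' j t = ev j r - ev' j r := by
      rw [ht, map_sum, map_sum, ← Finset.sum_sub_distrib]
      rw [Finset.sum_congr rfl fun i _ => h1 i]
      simp
    rw [map_sub, map_sub]
    linear_combination -h2
  have hrt : r - t ∈ S := hS0 _ hkey
  have : r = (r - t) + t := by ring
  rw [this]
  exact S.add_mem hrt htS

/-- **glued-subring lemma**: `S` is the ring of the elements glued along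
`Σ = {i | all elements of S are glued at i}`. -/
theorem sw_glued [Finite ι] (ev ev' : ι → Rt →ₐ[k] k) (S : Subring Rt)
    (hS0 : ∀ r : Rt, (∀ i, ev i r = ev' i r) → r ∈ S)
    (hsep : ∀ i, ∃ r : Rt, (∀ j, ev j r = ev' j r) ∧ ev i r = 1 ∧ ∀ j, j ≠ i → ev j r = 0) :
    ∃ Sg : Set ι, ∀ r : Rt, r ∈ S ↔ ∀ i ∈ Sg, ev i r = ev' i r :=
  ⟨{i | ∀ s ∈ S, ev i s = ev' i s}, fun r =>
    ⟨fun hr i hi => hi r hr, fun hr => sw_mem_of_glued ev ev' S hS0 hsep r fun i hi => hr i hi⟩⟩

end Glued

/-! ## Radical ideals in Dedekind domains -/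

/-- In a Dedekind domain, an ideal `I` which is contained in no square of a maximal ideal is
radical: an element lying in every maximal ideal containing `I` lies in `I`. -/
theorem sw_radical {R : Type*} [CommRing R] [IsDedekindDomain R] (I : Ideal R)
    (hI : ∀ P : Ideal R, P.IsMaximal → ¬ I ≤ P ^ 2) (a : R)
    (ha : ∀ P : Ideal R, P.IsMaximal → I ≤ P → a ∈ P) : a ∈ I := by
  classical
  have hI0 : I ≠ ⊥ := by
    rintro rfl
    obtain ⟨P, hP⟩ := Ideal.exists_maximal R
    exact hI P hP bot_le
  suffices h : I ∣ Ideal.span {a} from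
    (Ideal.le_of_dvd h) (Ideal.mem_span_singleton_self a)
  have hprod := UniqueFactorizationMonoid.prod_normalizedFactors hI0
  rw [← associated_iff_eq.mp hprod]
  have hmax : ∀ P ∈ UniqueFactorizationMonoid.normalizedFactors I, P.IsMaximal ∧ I ≤ P := by
    intro P hP
    have hprime := UniqueFactorizationMonoid.prime_of_normalized_factor P hP
    have hdvd : P ∣ I := UniqueFactorizationMonoid.dvd_of_mem_normalizedFactors hP
    have hPprime : P.IsPrime := Ideal.isPrime_of_prime hprime
    exact ⟨hPprime.isMaximal hprime.ne_zero, Ideal.le_of_dvd hdvd⟩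
  apply Multiset.prod_primes_dvd
  · intro P hP
    exact UniqueFactorizationMonoid.prime_of_normalized_factor P hP
  · intro P hP
    rw [Ideal.dvd_span_singleton]
    exact ha P (hmax P hP).1 (hmax P hP).2
  · intro P
    by_contra hcon
    push Not at hcon
    have h2 : 2 ≤ (UniqueFactorizationMonoid.normalizedFactors I).count P := by
      have : (UniqueFactorizationMonoid.normalizedFactors I).countP (Associated P) =
          (UniqueFactorizationMonoid.normalizedFactors I).count P := by
        unfold Multiset.count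
        refine Multiset.countP_congr rfl fun x _ => ?_
        simp [associated_iff_eq]
      omega
    have hmem : P ∈ UniqueFactorizationMonoid.normalizedFactors I :=
      Multiset.count_pos.mp (by omega)
    have hle : Multiset.replicate 2 P ≤ UniqueFactorizationMonoid.normalizedFactors I :=
      Multiset.le_count_iff_replicate_le.mp h2
    have hdvd : (Multiset.replicate 2 P).prod ∣
        (UniqueFactorizationMonoid.normalizedFactors I).prod := Multiset.prod_dvd_prod_of_le hle
    rw [Multiset.prod_replicate, associated_iff_eq.mp hprod] at hdvd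
    exact hI P (hmax P hmem).1 (Ideal.le_of_dvd hdvd)

/-! ## The subalgebra generated by the two graphs -/

section Graphs

variable {k R' ι : Type*} [Field k] [CommRing R'] [Algebra k R']

/-- the subalgebra of `R' × R'` generated by the pairs `(a, F a)` and `(F a, a)`: the coordinate
ring of the union of the graph of `F` and of its transpose. -/
def swS0 (k : Type*) {R' : Type*} [Field k] [CommRing R'] [Algebra k R'] (F : R' →ₐ[k] R') :
    Subalgebra k (R' × R') :=
  Algebra.adjoin k (Set.range (fun a : R' => ((a, F a) : R' × R')) ∪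
    Set.range (fun a : R' => ((F a, a) : R' × R')))

theorem sw_fst_mem (F : R' →ₐ[k] R') (a : R') : ((a, F a) : R' × R') ∈ swS0 k F :=
  Algebra.subset_adjoin (Or.inl ⟨a, rfl⟩)

theorem sw_snd_mem (F : R' →ₐ[k] R') (a : R') : ((F a, a) : R' × R') ∈ swS0 k F :=
  Algebra.subset_adjoin (Or.inr ⟨a, rfl⟩)

/-- the elements of `swS0` are glued: `a(s) = b(φ s)`. -/
theorem sw_glued_of_mem (F : R' →ₐ[k] R') (pt : ι → R' →ₐ[k] k) (φ : ι → ι)
    (hφ : ∀ i a, pt i (F a) = pt (φ i) a) (hφφ : ∀ i, φ (φ i) = i)
    (r : R' × R') (hr : r ∈ swS0 k F) (s : ι) : pt s r.1 = pt (φ s) r.2 := by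
  induction hr using Algebra.adjoin_induction with
  | mem x hx =>
    rcases hx with ⟨a, rfl⟩ | ⟨a, rfl⟩
    · show pt s a = pt (φ s) (F a)
      rw [hφ, hφφ]
    · show pt s (F a) = pt (φ s) a
      rw [hφ]
  | algebraMap c =>
    show pt s (algebraMap k R' c) = pt (φ s) (algebraMap k R' c)
    rw [AlgHom.commutes, AlgHom.commutes]
  | add x y _ _ hx hy =>
    show pt s (x.1 + y.1) = pt (φ s) (x.2 + y.2)
    rw [map_add, map_add, hx, hy]
  | mul x y _ _ hx hy =>
    show pt s (x.1 * y.1) = pt (φ s) (x.2 * y.2)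
    rw [map_mul, map_mul, hx, hy]

/-- the ideal generated by the `f - F (F f)` embeds in `swS0` through the first factor. -/
theorem sw_ideal_fst_mem (F : R' →ₐ[k] R') (y : R')
    (hy : y ∈ Ideal.span (Set.range fun f : R' => f - F (F f))) :
    ((y, 0) : R' × R') ∈ swS0 k F := by
  induction hy using Submodule.span_induction with
  | mem x hx =>
    obtain ⟨f, rfl⟩ := hx
    have h : ((f - F (F f), 0) : R' × R') = (f, F f) - (F (F f), F f) := by
      ext <;> simp
    rw [h]
    exact (swS0 k F).sub_mem (sw_fst_mem F f) (sw_snd_mem F (F f))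
  | zero => exact (swS0 k F).zero_mem
  | add x y _ _ hx hy =>
    have h : ((x + y, 0) : R' × R') = (x, 0) + (y, 0) := by ext <;> simp
    rw [h]
    exact (swS0 k F).add_mem hx hy
  | smul c x _ hx =>
    have h : ((c • x, 0) : R' × R') = (c, F c) * (x, 0) := by ext <;> simp
    rw [h]
    exact (swS0 k F).mul_mem (sw_fst_mem F c) hx

/-- **the ring of the two graphs**: `swS0` is the ring of the pairs glued along all points, as
soon as the functions vanishing at all points lie in the ideal generated by the `f - F (F f)`. -/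
theorem sw_mem_adjoin (F : R' →ₐ[k] R') (pt : ι → R' →ₐ[k] k) (φ : ι → ι)
    (hφ : ∀ i a, pt i (F a) = pt (φ i) a) (hφφ : ∀ i, φ (φ i) = i)
    (hideal : ∀ a : R', (∀ i, pt i a = 0) →
      a ∈ Ideal.span (Set.range fun f : R' => f - F (F f)))
    (r : R' × R') : r ∈ swS0 k F ↔ ∀ s, pt s r.1 = pt (φ s) r.2 := by
  refine ⟨fun hr s => sw_glued_of_mem F pt φ hφ hφφ r hr s, fun hr => ?_⟩
  have h1 : r = (F r.2, r.2) + (r.1 - F r.2, 0) := by ext <;> simp
  rw [h1]
  refine (swS0 k F).add_mem (sw_snd_mem F r.2) (sw_ideal_fst_mem F _ (hideal _ fun i => ?_))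
  rw [map_sub, hφ, hr i, sub_self]

/-- Lagrange interpolation for finitely many distinct points. -/
theorem sw_interpolate [Finite ι] (pt : ι → R' →ₐ[k] k) (hpt : Function.Injective pt) (i : ι) :
    ∃ e : R', pt i e = 1 ∧ ∀ j, j ≠ i → pt j e = 0 := by
  classical
  have : Fintype ι := Fintype.ofFinite ι
  have hc : ∀ j, ∃ c : R', j ≠ i → pt i c ≠ pt j c := by
    intro j
    by_cases hji : j = i
    · exact ⟨0, fun h => absurd hji h⟩
    · have hne : pt i ≠ pt j := fun h => hji (hpt h).symm
      have : ∃ c, pt i c ≠ pt j c := by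
        by_contra hcon
        push Not at hcon
        exact hne (AlgHom.ext hcon)
      obtain ⟨c, hc⟩ := this
      exact ⟨c, fun _ => hc⟩
  choose c hc using hc
  refine ⟨∏ j ∈ Finset.univ.erase i,
    (c j - algebraMap k R' (pt j (c j))) * algebraMap k R' ((pt i (c j) - pt j (c j))⁻¹), ?_, ?_⟩
  · rw [map_prod]
    refine Finset.prod_eq_one fun j hj => ?_
    have hji : j ≠ i := Finset.ne_of_mem_erase hj
    rw [map_mul, map_sub, AlgHom.commutes, AlgHom.commutes]
    simp only [Algebra.algebraMap_self, RingHom.id_apply]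
    exact mul_inv_cancel₀ (sub_ne_zero.mpr (hc j hji))
  · intro j hji
    rw [map_prod]
    refine Finset.prod_eq_zero (Finset.mem_erase.mpr ⟨hji, Finset.mem_univ j⟩) ?_
    rw [map_mul, map_sub, AlgHom.commutes]
    simp

/-- **the sandwich**: every subring of `R' × R'` containing the two graphs is the ring of the
pairs glued along a subset of the points. -/
theorem sw_main [Finite ι] (F : R' →ₐ[k] R') (pt : ι → R' →ₐ[k] k) (hpt : Function.Injective pt)
    (φ : ι → ι) (hφ : ∀ i a, pt i (F a) = pt (φ i) a) (hφφ : ∀ i, φ (φ i) = i)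
    (hideal : ∀ a : R', (∀ i, pt i a = 0) →
      a ∈ Ideal.span (Set.range fun f : R' => f - F (F f)))
    (S : Subring (R' × R')) (hS : ∀ a : R', ((a, F a) : R' × R') ∈ S ∧ ((F a, a) : R' × R') ∈ S) :
    ∃ Sg : Set ι, ∀ r : R' × R', r ∈ S ↔ ∀ s ∈ Sg, pt s r.1 = pt (φ s) r.2 := by
  -- `swS0 ≤ S`
  have hconst : ∀ c : k, algebraMap k (R' × R') c ∈ S := by
    intro c
    have h := (hS (algebraMap k R' c)).1
    rw [AlgHom.commutes] at h
    exact h
  have hle : ∀ r ∈ swS0 k F, r ∈ S := by
    intro r hr
    induction hr using Algebra.adjoin_induction with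
    | mem x hx =>
      rcases hx with ⟨a, rfl⟩ | ⟨a, rfl⟩
      · exact (hS a).1
      · exact (hS a).2
    | algebraMap c => exact hconst c
    | add x y _ _ hx hy => exact S.add_mem hx hy
    | mul x y _ _ hx hy => exact S.mul_mem hx hy
  exact sw_glued (fun s => (pt s).comp (AlgHom.fst k R' R'))
    (fun s => (pt (φ s)).comp (AlgHom.snd k R' R')) S
    (fun r hr => hle r ((sw_mem_adjoin F pt φ hφ hφφ hideal r).mpr hr))
    (fun i => by
      obtain ⟨e, he1, he0⟩ := sw_interpolate pt hpt i
      refine ⟨(e, F e), fun j => ?_, he1, fun j hj => he0 j hj⟩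
      exact sw_glued_of_mem F pt φ hφ hφφ _ (sw_fst_mem F e) j)

/-- the hypothesis `hideal` of `sw_main` in a Dedekind domain: it is enough that every maximal
ideal containing all `f - F (F f)` is the kernel of one of the points, and that at every maximal
ideal `P` some `f - F (F f)` is not in `P ^ 2`. -/
theorem sw_ideal_of_dedekind [IsDedekindDomain R'] (F : R' →ₐ[k] R') (pt : ι → R' →ₐ[k] k)
    (hmax : ∀ P : Ideal R', P.IsMaximal → (∀ f : R', f - F (F f) ∈ P) →
      ∃ i, ∀ a : R', pt i a = 0 → a ∈ P)
    (hsimple : ∀ P : Ideal R', P.IsMaximal → ∃ f : R', f - F (F f) ∉ P ^ 2)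
    (a : R') (ha : ∀ i, pt i a = 0) :
    a ∈ Ideal.span (Set.range fun f : R' => f - F (F f)) := by
  refine sw_radical _ (fun P hP hle => ?_) a (fun P hP hle => ?_)
  · obtain ⟨f, hf⟩ := hsimple P hP
    exact hf (hle (Ideal.subset_span ⟨f, rfl⟩))
  · obtain ⟨i, hi⟩ := hmax P hP fun f => hle (Ideal.subset_span ⟨f, rfl⟩)
    exact hi a (ha i)

end Graphs

end Fermat.Agent.S34lib

end
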