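/-
Item 79 (S34), piece SW, part 2 (helper8): the sandwich, PACKAGED over a Dedekind domain.
`sw_exists`: `R'` a Dedekind `k`-algebra with `k`-rational maximal ideals, `F` an endomorphism with
values proper powers, `F ∘ F ≠ id`; every subring of `R' × R'` containing the two graphs of `F` is the
ring of pairs glued along finitely many pairs of distinct `k`-points.  Mathlib only, no sorry.
-/
import Mathlib
import Fermat.Agent.S34lib.Sandwich

set_option autoImplicit false

noncomputable section

namespace Fermat.Agent.S34lib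

section Packaged

variable {k R' : Type*} [Field k] [CommRing R'] [Algebra k R']

/-- the `k`-points of `R'` fixed by `F ∘ F`. -/
def swPts (F : R' →ₐ[k] R') : Type _ := {χ : R' →ₐ[k] k // ∀ f : R', χ (F (F f)) = χ f}

/-- `φ` on the fixed points: composition with `F`. -/
def swPhi (F : R' →ₐ[k] R') (χ : swPts F) : swPts F :=
  ⟨χ.1.comp F, fun f => by
    show χ.1 (F (F (F f))) = χ.1 (F f)
    exact χ.2 (F f)⟩

theorem swPhi_swPhi (F : R' →ₐ[k] R') (χ : swPts F) : swPhi F (swPhi F χ) = χ := by
  apply Subtype.ext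
  apply AlgHom.ext
  intro a
  exact χ.2 a

/-- the kernel of a `k`-point determines the point. -/
theorem sw_eq_of_ker_le (χ χ' : R' →ₐ[k] k) (h : ∀ a, χ a = 0 → χ' a = 0) : χ = χ' := by
  apply AlgHom.ext
  intro a
  have h1 : χ (a - algebraMap k R' (χ a)) = 0 := by
    rw [map_sub, AlgHom.commutes]
    simp
  have h2 := h _ h1
  rw [map_sub, AlgHom.commutes] at h2
  simp only [Algebra.algebraMap_self, RingHom.id_apply] at h2
  exact (sub_eq_zero.mp h2).symm

/-- the kernel of a `k`-point is a maximal ideal. -/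
theorem sw_ker_isMaximal (χ : R' →ₐ[k] k) : (RingHom.ker (χ : R' →+* k)).IsMaximal := by
  refine RingHom.ker_isMaximal_of_surjective (χ : R' →+* k) fun c => ⟨algebraMap k R' c, ?_⟩
  show χ (algebraMap k R' c) = c
  rw [AlgHom.commutes]
  rfl

/-- a `k`-rational maximal ideal is the kernel of a `k`-point. -/
theorem sw_exists_pt (P : Ideal R') (hres : Function.Surjective (algebraMap k (R' ⧸ P)))
    (hP : P ≠ ⊤) : ∃ χ : R' →ₐ[k] k, ∀ a, χ a = 0 ↔ a ∈ P := by
  classical
  have : Nontrivial (R' ⧸ P) := Ideal.Quotient.nontrivial_iff.mpr hP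
  have hinj : Function.Injective (algebraMap k (R' ⧸ P)) := (algebraMap k (R' ⧸ P)).injective
  let e : k ≃ₐ[k] (R' ⧸ P) := AlgEquiv.ofBijective (Algebra.ofId k (R' ⧸ P)) ⟨hinj, hres⟩
  refine ⟨(e.symm : (R' ⧸ P) →ₐ[k] k).comp (Ideal.Quotient.mkₐ k P), fun a => ?_⟩
  show e.symm (Ideal.Quotient.mk P a) = 0 ↔ a ∈ P
  rw [map_eq_zero_iff e.symm e.symm.injective, Ideal.Quotient.eq_zero_iff_mem]

variable [IsDedekindDomain R']

/-- the fixed points are finite in number. -/
theorem sw_finite_pts (F : R' →ₐ[k] R') (hne : ∃ f : R', F (F f) ≠ f) : Finite (swPts F) := by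
  classical
  obtain ⟨f0, hf0⟩ := hne
  set I : Ideal R' := Ideal.span {f0 - F (F f0)} with hI
  have hI0 : I ≠ ⊥ := by
    rw [hI, Ne, Ideal.span_singleton_eq_bot, sub_eq_zero]
    exact fun h => hf0 h.symm
  have hmem : ∀ χ : swPts F, RingHom.ker (χ.1 : R' →+* k) ∈
      (UniqueFactorizationMonoid.normalizedFactors I).toFinset := by
    intro χ
    rw [Multiset.mem_toFinset, Ideal.mem_normalizedFactors_iff hI0]
    refine ⟨(sw_ker_isMaximal χ.1).isPrime, ?_⟩
    rw [hI, Ideal.span_singleton_le_iff_mem, RingHom.mem_ker]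
    show χ.1 (f0 - F (F f0)) = 0
    rw [map_sub, χ.2, sub_self]
  refine Finite.of_injective (fun χ : swPts F =>
    (⟨RingHom.ker (χ.1 : R' →+* k), hmem χ⟩ :
      (UniqueFactorizationMonoid.normalizedFactors I).toFinset)) ?_
  intro χ χ' h
  have h' : RingHom.ker (χ.1 : R' →+* k) = RingHom.ker (χ'.1 : R' →+* k) :=
    congrArg Subtype.val h
  apply Subtype.ext
  refine sw_eq_of_ker_le χ.1 χ'.1 fun a ha => ?_
  have : a ∈ RingHom.ker (χ.1 : R' →+* k) := ha
  rw [h'] at this
  exact this

/-- **the sandwich, packaged.**  `R'` a Dedekind `k`-algebra all of whose maximal ideals are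
`k`-rational, `F` a `k`-algebra endomorphism all of whose values are proper powers (Frobenius),
`F ∘ F ≠ id`.  Then every subring `S` of `R' × R'` containing the graph `(a, F a)` and its
transpose `(F a, a)` is the ring of the pairs glued along finitely many pairs of distinct
points. -/
theorem sw_exists (hres : ∀ P : Ideal R', P.IsMaximal → Function.Surjective (algebraMap k (R' ⧸ P)))
    (F : R' →ₐ[k] R') (hpow : ∀ a : R', ∃ (g : R') (n : ℕ), 2 ≤ n ∧ F a = g ^ n)
    (hne : ∃ f : R', F (F f) ≠ f)
    (S : Subring (R' × R')) (hS : ∀ a : R', ((a, F a) : R' × R') ∈ S ∧ ((F a, a) : R' × R') ∈ S) :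
    ∃ (n : ℕ) (e₁ e₂ : Fin n → R' →ₐ[k] k), Function.Injective e₁ ∧ Function.Injective e₂ ∧
      ∀ r : R' × R', r ∈ S ↔ ∀ i, e₁ i r.1 = e₂ i r.2 := by
  classical
  have : Finite (swPts F) := sw_finite_pts F hne
  have hideal : ∀ a : R', (∀ i : swPts F, i.1 a = 0) →
      a ∈ Ideal.span (Set.range fun f : R' => f - F (F f)) := by
    refine sw_ideal_of_dedekind F (fun i : swPts F => i.1) (fun P hP hall => ?_) (fun P hP => ?_)
    · obtain ⟨χ, hχ⟩ := sw_exists_pt P (hres P hP) hP.ne_top
      refine ⟨⟨χ, fun f => ?_⟩, fun a ha => (hχ a).mp ha⟩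
      have h := (hχ _).mpr (hall f)
      rw [map_sub, sub_eq_zero] at h
      exact h.symm
    · by_cases hall : ∀ f : R', f - F (F f) ∈ P
      · -- `P` is a fixed point: take `f ∈ P \ P²`
        obtain ⟨f0, hf0⟩ := hne
        have hP0 : P ≠ ⊥ := by
          rintro rfl
          have := hall f0
          rw [Ideal.mem_bot, sub_eq_zero] at this
          exact hf0 this.symm
        have := hP.isPrime
        have hlt : P ^ 2 < P := by
          have := Ideal.pow_succ_lt_pow hP0 1
          rwa [pow_one] at this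
        obtain ⟨f, hfP, hfP2⟩ := SetLike.exists_of_lt hlt
        refine ⟨f, fun hmem => hfP2 ?_⟩
        obtain ⟨g, n, hn, hg⟩ := hpow (F f)
        have hFF : F (F f) ∈ P := by
          have := P.sub_mem hfP (hall f)
          rwa [sub_sub_cancel] at this
        have hgP : g ∈ P := by
          rw [hg] at hFF
          exact hP.isPrime.mem_of_pow_mem n hFF
        have hFF2 : F (F f) ∈ P ^ 2 := by
          rw [hg]
          exact Ideal.pow_le_pow_right hn (Ideal.pow_mem_pow hgP n)
        have := (P ^ 2).add_mem hmem hFF2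
        rwa [sub_add_cancel] at this
      · push Not at hall
        obtain ⟨f, hf⟩ := hall
        exact ⟨f, fun h => hf (Ideal.pow_le_self two_ne_zero h)⟩
  obtain ⟨Sg, hSg⟩ := sw_main F (fun i : swPts F => i.1) Subtype.val_injective (swPhi F)
    (fun i a => rfl) (swPhi_swPhi F) hideal S hS
  have : Finite Sg := Finite.of_injective (fun s : Sg => (s : swPts F)) Subtype.val_injective
  let eq : Sg ≃ Fin (Nat.card Sg) := Finite.equivFin Sg
  refine ⟨Nat.card Sg, fun i => (eq.symm i : swPts F).1, fun i => (swPhi F (eq.symm i)).1,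
    ?_, ?_, fun r => ?_⟩
  · intro i j h
    exact eq.symm.injective (Subtype.ext (Subtype.ext h))
  · intro i j h
    have h1 : swPhi F (eq.symm i : swPts F) = swPhi F (eq.symm j : swPts F) := Subtype.ext h
    have h2 := congrArg (swPhi F) h1
    rw [swPhi_swPhi, swPhi_swPhi] at h2
    exact eq.symm.injective (Subtype.ext h2)
  · rw [hSg r]
    constructor
    · intro h i
      exact h (eq.symm i : swPts F) (eq.symm i).2
    · intro h s hs
      have := h (eq ⟨s, hs⟩)
      simp only [Equiv.symm_apply_apply] at this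
      exact this

end Packaged

end Fermat.Agent.S34lib

end
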