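/-
Item 79 (S34), piece C11 GRAPHS (helper25).

`red(B)`, `B = ⋃_c L(c (P₁ + P₂)) ∩ O`, is a subring of `Fk × Fk`; by the pole bound (`F3dEX.le_box`)
it lies in `R' × R'`, `R' = ⋃_a L(a Q)` the affine ring; if it contains the two graphs
`(a, Fr a)`, `(Fr a, a)` of the Frobenius `Fr` of `R'` (this is what the two degeneracy maps
`α`, `β` and the lifting at the lower level give), the packaged sandwich (`sw_exists`) identifies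
it with the ring of the pairs glued along finitely many pairs of `k`-points.

Everything concrete (C3: `red ∘ α`, `red ∘ β`; C6: lifting at the lower level; C9: the affine ring
is Dedekind with rational points; C9′: its Frobenius) enters as a hypothesis.  No sorry.
-/
import Mathlib
import Fermat.Agent.S34lib.F3Dim
import Fermat.Agent.S34lib.SandwichPkg

set_option autoImplicit false

noncomputable section

namespace Fermat.Agent.S34lib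

open AlgebraicCurve Fermat.Agent.RRlib Fermat.Agent.GoodRed

variable {K F k : Type*} [Field K] [Field F] [Algebra K F] [Field k]
variable {Fk : Type*} [Field Fk] [Algebra k Fk]
variable {A : ValuationSubring K} {π : A →+* k}

section Ring

variable [RRHyp K F]

theorem grDiv_add (P₁ P₂ : Place K F) (c c' : ℕ) :
    f3dDiv P₁ P₂ c c + f3dDiv P₁ P₂ c' c' = f3dDiv P₁ P₂ (c + c') (c + c') := by
  unfold f3dDiv
  rw [Nat.cast_add, Finsupp.single_add, Finsupp.single_add]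
  abel

theorem grDiv_mono (P₁ P₂ : Place K F) {c c' : ℕ} (h : c ≤ c') :
    f3dDiv P₁ P₂ c c ≤ f3dDiv P₁ P₂ c' c' := by
  refine add_le_add ?_ ?_
  · exact Finsupp.single_mono (by exact_mod_cast h)
  · exact Finsupp.single_mono (by exact_mod_cast h)

theorem grDiv_zero (P₁ P₂ : Place K F) : f3dDiv P₁ P₂ 0 0 = 0 := by
  unfold f3dDiv
  simp

variable (R₁ R₂ : ConstRed A π Fk F)

/-- `red(B)`, `B = ⋃_c L(c (P₁ + P₂)) ∩ O`, as a subring of `Fk × Fk`. -/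
def grRedB (P₁ P₂ : Place K F) : Subring (Fk × Fk) where
  carrier := {w | ∃ c : ℕ, w ∈ f3dM R₁ R₂ (f3dDiv P₁ P₂ c c)}
  mul_mem' := by
    rintro _ _ ⟨c, y, hy, rfl⟩ ⟨c', z, hz, rfl⟩
    refine ⟨c + c', y * z, ?_, map_mul _ _ _⟩
    rw [← grDiv_add]
    exact gr_mul_mem hy hz
  one_mem' := by
    refine ⟨0, 1, ?_, map_one _⟩
    rw [grDiv_zero]
    exact one_mem_riemannRochSpace_zero
  add_mem' := by
    rintro w w' ⟨c, hw⟩ ⟨c', hw'⟩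
    exact ⟨max c c', (f3dM R₁ R₂ _).add_mem
      (f3dM_mono R₁ R₂ (grDiv_mono P₁ P₂ (le_max_left c c')) hw)
      (f3dM_mono R₁ R₂ (grDiv_mono P₁ P₂ (le_max_right c c')) hw')⟩
  zero_mem' := ⟨0, (f3dM R₁ R₂ _).zero_mem⟩
  neg_mem' := by
    rintro w ⟨c, hw⟩
    exact ⟨c, (f3dM R₁ R₂ _).neg_mem hw⟩

theorem mem_grRedB (P₁ P₂ : Place K F) (w : Fk × Fk) :
    w ∈ grRedB R₁ R₂ P₁ P₂ ↔ ∃ c : ℕ, w ∈ f3dM R₁ R₂ (f3dDiv P₁ P₂ c c) := Iff.rfl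

/-- `red(B)` is a `k`-subspace. -/
theorem grRedB_smul_mem (P₁ P₂ : Place K F) (a : k) {w : Fk × Fk}
    (hw : w ∈ grRedB R₁ R₂ P₁ P₂) : a • w ∈ grRedB R₁ R₂ P₁ P₂ := by
  obtain ⟨c, hc⟩ := hw
  exact ⟨c, (f3dM R₁ R₂ _).smul_mem a hc⟩

/-- an element of `B` reduces into `red(B)`. -/
theorem grRedB_red_mem (P₁ P₂ : Place K F) (y : ssBall R₁ R₂) {c : ℕ}
    (hy : (y : F) ∈ riemannRochSpace (K := K) (f3dDiv P₁ P₂ c c)) :
    ssRed R₁ R₂ y ∈ grRedB R₁ R₂ P₁ P₂ :=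
  ⟨c, y, hy, rfl⟩

end Ring

section Main

variable [RRHyp K F] [RRHyp k Fk] [Infinite k]
variable {R₁ R₂ : ConstRed A π Fk F} {P₁ P₂ : Place K F} {Q : Place k Fk} {a₀ : ℕ}

/-- the pole bound: `red(B) ⊆ R' × R'`, `R' = ⋃_a L(a Q)`. -/
theorem grRedB_le (H : F3dEX R₁ R₂ P₁ P₂ Q Q a₀) (R' : Subalgebra k Fk)
    (hR' : ∀ x : Fk, x ∈ R' ↔ ∃ a : ℕ, x ∈ riemannRochSpace (K := k) (Finsupp.single Q (a : ℤ)))
    {w : Fk × Fk} (hw : w ∈ grRedB R₁ R₂ P₁ P₂) : w.1 ∈ R' ∧ w.2 ∈ R' := by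
  obtain ⟨c, hc⟩ := hw
  have h1 : w ∈ f3dM R₁ R₂ (f3dDiv P₁ P₂ (max c a₀) (max c a₀)) :=
    f3dM_mono R₁ R₂ (grDiv_mono P₁ P₂ (le_max_left c a₀)) hc
  have h2 := H.le_box (le_max_right c a₀) (le_max_right c a₀) (Nat.le_succ _) (Nat.le_succ _) h1
  rw [mem_f3dBox] at h2
  exact ⟨(hR' _).mpr ⟨_, h2.1⟩, (hR' _).mpr ⟨_, h2.2⟩⟩

/-- `red(B)` as a subring of `R' × R'`. -/
def grSub (R₁ R₂ : ConstRed A π Fk F) (P₁ P₂ : Place K F) (R' : Subalgebra k Fk) :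
    Subring (R' × R') :=
  (grRedB R₁ R₂ P₁ P₂).comap (RingHom.prodMap (R'.val : R' →+* Fk) (R'.val : R' →+* Fk))

theorem mem_grSub (R₁ R₂ : ConstRed A π Fk F) (P₁ P₂ : Place K F) (R' : Subalgebra k Fk)
    (r : R' × R') :
    r ∈ grSub R₁ R₂ P₁ P₂ R' ↔
      ∃ c : ℕ, ((r.1 : Fk), (r.2 : Fk)) ∈ f3dM R₁ R₂ (f3dDiv P₁ P₂ c c) := Iff.rfl

/-- **C11 (GRAPHS)**: `red(B)` is the ring of the pairs of `R' × R'` glued along finitely many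
pairs of `k`-points.  `hα`, `hβ`: the two graphs of the Frobenius lie in `red(B)` (C3 + C6). -/
theorem graphs_exists (H : F3dEX R₁ R₂ P₁ P₂ Q Q a₀) (R' : Subalgebra k Fk)
    (hR' : ∀ x : Fk, x ∈ R' ↔ ∃ a : ℕ, x ∈ riemannRochSpace (K := k) (Finsupp.single Q (a : ℤ)))
    [IsDedekindDomain R']
    (hres : ∀ P : Ideal R', P.IsMaximal → Function.Surjective (algebraMap k (R' ⧸ P)))
    (Fr : R' →ₐ[k] R') (hpow : ∀ a : R', ∃ (g : R') (n : ℕ), 2 ≤ n ∧ Fr a = g ^ n)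
    (hne : ∃ f : R', Fr (Fr f) ≠ f)
    (hα : ∀ a : R', ∃ y : ssBall R₁ R₂,
      (∃ c : ℕ, (y : F) ∈ riemannRochSpace (K := K) (f3dDiv P₁ P₂ c c)) ∧
        ssRed R₁ R₂ y = ((a : Fk), (Fr a : Fk)))
    (hβ : ∀ a : R', ∃ y : ssBall R₁ R₂,
      (∃ c : ℕ, (y : F) ∈ riemannRochSpace (K := K) (f3dDiv P₁ P₂ c c)) ∧
        ssRed R₁ R₂ y = ((Fr a : Fk), (a : Fk))) :
    ∃ (n : ℕ) (e₁ e₂ : Fin n → R' →ₐ[k] k), Function.Injective e₁ ∧ Function.Injective e₂ ∧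
      ∀ w : Fk × Fk, (∃ c : ℕ, w ∈ f3dM R₁ R₂ (f3dDiv P₁ P₂ c c)) ↔
        ∃ (h₁ : w.1 ∈ R') (h₂ : w.2 ∈ R'), ∀ i, e₁ i ⟨w.1, h₁⟩ = e₂ i ⟨w.2, h₂⟩ := by
  have hS : ∀ a : R', ((a, Fr a) : R' × R') ∈ grSub R₁ R₂ P₁ P₂ R' ∧
      ((Fr a, a) : R' × R') ∈ grSub R₁ R₂ P₁ P₂ R' := by
    intro a
    constructor
    · obtain ⟨y, ⟨c, hy⟩, hred⟩ := hα a
      exact ⟨c, y, hy, hred⟩
    · obtain ⟨y, ⟨c, hy⟩, hred⟩ := hβ a
      exact ⟨c, y, hy, hred⟩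
  obtain ⟨n, e₁, e₂, h1, h2, h3⟩ := sw_exists hres Fr hpow hne (grSub R₁ R₂ P₁ P₂ R') hS
  refine ⟨n, e₁, e₂, h1, h2, fun w => ?_⟩
  constructor
  · intro hw
    obtain ⟨hw1, hw2⟩ := grRedB_le H R' hR' hw
    refine ⟨hw1, hw2, ?_⟩
    exact (h3 (⟨w.1, hw1⟩, ⟨w.2, hw2⟩)).mp hw
  · rintro ⟨hw1, hw2, hi⟩
    exact (h3 (⟨w.1, hw1⟩, ⟨w.2, hw2⟩)).mpr hi

end Main

end Fermat.Agent.S34lib

end
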