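/-
Item 79 (S34), piece (E3) (helper19): ASSEMBLY of the hypotheses of the twisted gluing.
From helper17's `ExInput` (the concrete facts about `α, β`, the cusps and the reductions), the
surjectivity of the joint reduction, the sandwich output (C11, in the form of `graphs_exists`) and
the genus inequality: a `GlueData`, `(F3)`, `TwistHyp` and `(NE)`.

* `ExInput.graph_α`, `ExInput.graph_β`: the graphs `(a, φ a)`, `(φ a, a)` are reductions of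
  functions with poles at `P₁, P₂` only (hypotheses `hα`, `hβ` of `graphs_exists`).
* `glueConc_of_graph`: the assembly, from the conclusion of `graphs_exists`;
* `glueConc`: the assembly, one-stop (calls `ExInput.f3dEX`, `graphs_exists`).
No sorry in this file.
-/
import Mathlib
import Fermat.Agent.S34lib.ExAbs
import Fermat.Agent.S34lib.GlueInstNE
import Fermat.Agent.S34lib.Graphs

set_option autoImplicit false

noncomputable section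

namespace Fermat.Agent.S34lib

open AlgebraicCurve Fermat.Agent.RRlib Fermat.Agent.GoodRed

variable {K F F' k Fk : Type*} [Field K] [Field F] [Field F'] [Algebra K F] [Algebra K F']
  [Field k] [Field Fk] [Algebra k Fk]
variable {A : ValuationSubring K} {π : A →+* k}
variable [RRHyp K F] [RRHyp k Fk]
variable {R' : ConstRed A π Fk F'} {R₁ R₂ : ConstRed A π Fk F} {α β : F' →+* F}
  {v : Place K F'} {P₁ P₂ : Place K F} {Q : Place k Fk} {φ : Fk →+* Fk} {q : ℕ}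

/-- the graph of `φ`: `red (α g) = (ḡ, φ ḡ)`, and `α g` has poles at `P₁, P₂` only -/
theorem ExInput.graph_α (H : ExInput R' R₁ R₂ α β v P₁ P₂ Q φ q) (g : F') (hg : g ∈ R'.O)
    (hreg : ∀ v' : Place K F', v' ≠ v → 0 ≤ v'.ord g) :
    ∃ y : ssBall R₁ R₂, (∃ c : ℕ, (y : F) ∈ riemannRochSpace (K := K) (f3dDiv P₁ P₂ c c)) ∧
      ssRed R₁ R₂ y = (R'.red ⟨g, hg⟩, φ (R'.red ⟨g, hg⟩)) := by
  obtain ⟨h₁, hr₁⟩ := H.red_α₁ g hg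
  obtain ⟨h₂, hr₂⟩ := H.red_α₂ g hg
  have hmem : α g ∈ ssBall R₁ R₂ := (mem_ssBall R₁ R₂ _).mpr ⟨h₁, h₂⟩
  refine ⟨⟨α g, hmem⟩, ⟨q * (-(v.ord g)).toNat, ?_⟩, ?_⟩
  · have hq : (1 : ℤ) ≤ q := by exact_mod_cast (by have := H.two_le; omega : 1 ≤ q)
    have hn : -(v.ord g) ≤ ((-(v.ord g)).toNat : ℤ) := Int.self_le_toNat _
    have hn0 : (0 : ℤ) ≤ ((-(v.ord g)).toNat : ℤ) := Int.natCast_nonneg _
    refine exa_mem_L ?_ ?_ fun P hP₁ hP₂ => (H.reg g hreg P hP₁ hP₂).1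
    · rw [H.ord_α₁]
      push_cast
      nlinarith
    · rw [H.ord_α₂]
      push_cast
      nlinarith
  · rw [ssRed_apply]
    exact Prod.ext hr₁ hr₂

/-- the transposed graph: `red (β g) = (φ ḡ, ḡ)`, and `β g` has poles at `P₁, P₂` only -/
theorem ExInput.graph_β (H : ExInput R' R₁ R₂ α β v P₁ P₂ Q φ q) (g : F') (hg : g ∈ R'.O)
    (hreg : ∀ v' : Place K F', v' ≠ v → 0 ≤ v'.ord g) :
    ∃ y : ssBall R₁ R₂, (∃ c : ℕ, (y : F) ∈ riemannRochSpace (K := K) (f3dDiv P₁ P₂ c c)) ∧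
      ssRed R₁ R₂ y = (φ (R'.red ⟨g, hg⟩), R'.red ⟨g, hg⟩) := by
  obtain ⟨h₁, hr₁⟩ := H.red_β₁ g hg
  obtain ⟨h₂, hr₂⟩ := H.red_β₂ g hg
  have hmem : β g ∈ ssBall R₁ R₂ := (mem_ssBall R₁ R₂ _).mpr ⟨h₁, h₂⟩
  refine ⟨⟨β g, hmem⟩, ⟨q * (-(v.ord g)).toNat, ?_⟩, ?_⟩
  · have hq : (1 : ℤ) ≤ q := by exact_mod_cast (by have := H.two_le; omega : 1 ≤ q)
    have hn : -(v.ord g) ≤ ((-(v.ord g)).toNat : ℤ) := Int.self_le_toNat _
    have hn0 : (0 : ℤ) ≤ ((-(v.ord g)).toNat : ℤ) := Int.natCast_nonneg _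
    refine exa_mem_L ?_ ?_ fun P hP₁ hP₂ => (H.reg g hreg P hP₁ hP₂).2
    · rw [H.ord_β₁]
      push_cast
      nlinarith
    · rw [H.ord_β₂]
      push_cast
      nlinarith
  · rw [ssRed_apply]
    exact Prod.ext hr₁ hr₂

/-- the hypothesis `hα` of `graphs_exists` (C11), from lifting with pole control (C6) -/
theorem ExInput.hα (H : ExInput R' R₁ R₂ α β v P₁ P₂ Q φ q) (B : Subalgebra k Fk)
    (Fr : B →ₐ[k] B) (hFr : ∀ a : B, ((Fr a : B) : Fk) = φ (a : Fk))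
    (hlift : ∀ a : B, ∃ (g : F') (hg : g ∈ R'.O),
      (∀ v' : Place K F', v' ≠ v → 0 ≤ v'.ord g) ∧ R'.red ⟨g, hg⟩ = (a : Fk)) (a : B) :
    ∃ y : ssBall R₁ R₂, (∃ c : ℕ, (y : F) ∈ riemannRochSpace (K := K) (f3dDiv P₁ P₂ c c)) ∧
      ssRed R₁ R₂ y = ((a : Fk), ((Fr a : B) : Fk)) := by
  obtain ⟨g, hg, hreg, hred⟩ := hlift a
  obtain ⟨y, hy, hyr⟩ := H.graph_α g hg hreg
  exact ⟨y, hy, by rw [hyr, hred, hFr]⟩

/-- the hypothesis `hβ` of `graphs_exists` (C11), from lifting with pole control (C6) -/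
theorem ExInput.hβ (H : ExInput R' R₁ R₂ α β v P₁ P₂ Q φ q) (B : Subalgebra k Fk)
    (Fr : B →ₐ[k] B) (hFr : ∀ a : B, ((Fr a : B) : Fk) = φ (a : Fk))
    (hlift : ∀ a : B, ∃ (g : F') (hg : g ∈ R'.O),
      (∀ v' : Place K F', v' ≠ v → 0 ≤ v'.ord g) ∧ R'.red ⟨g, hg⟩ = (a : Fk)) (a : B) :
    ∃ y : ssBall R₁ R₂, (∃ c : ℕ, (y : F) ∈ riemannRochSpace (K := K) (f3dDiv P₁ P₂ c c)) ∧
      ssRed R₁ R₂ y = (((Fr a : B) : Fk), (a : Fk)) := by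
  obtain ⟨g, hg, hreg, hred⟩ := hlift a
  obtain ⟨y, hy, hyr⟩ := H.graph_β g hg hreg
  exact ⟨y, hy, by rw [hyr, hred, hFr]⟩

/-- **ASSEMBLY** (with the sandwich output `hgraph` = conclusion of `graphs_exists`):
a `GlueData`, `(F3)`, the hypotheses `TwistHyp` of the twisted gluing, and `(NE)`. -/
theorem glueConc_of_graph [Infinite k] {a₀ : ℕ} (H : F3dEX R₁ R₂ P₁ P₂ Q Q a₀)
    (B : Subalgebra k Fk)
    (hB : ∀ x : Fk, x ∈ B ↔ ∃ a : ℕ, x ∈ riemannRochSpace (K := k) (Finsupp.single Q (a : ℤ)))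
    (hgraph : ∃ (n : ℕ) (e₁ e₂ : Fin n → B →ₐ[k] k), Function.Injective e₁ ∧
      Function.Injective e₂ ∧
      ∀ w : Fk × Fk, (∃ c : ℕ, w ∈ f3dM R₁ R₂ (f3dDiv P₁ P₂ c c)) ↔
        ∃ (h₁ : w.1 ∈ B) (h₂ : w.2 ∈ B), ∀ i, e₁ i ⟨w.1, h₁⟩ = e₂ i ⟨w.2, h₂⟩)
    (hg : 2 * genusFF k Fk ≤ genusFF K F) {m : ℕ} (hm : 0 < m) :
    ∃ (X : GlueData R₁ R₂ P₁ P₂ Q) (a₁ : ℕ), X.B = B ∧ a₀ ≤ a₁ ∧
      TwistHyp (SSRed.ofPair R₁ R₂) X.gluing m (f3dDiv P₁ P₂ 1 1) a₁ ∧ 0 < X.n := by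
  obtain ⟨n, e₁, e₂, inj₁, inj₂, h⟩ := hgraph
  let X : GlueData R₁ R₂ P₁ P₂ Q := GlueData.ofGraphs R₁ R₂ P₁ P₂ Q B hB n e₁ e₂ inj₁ inj₂ h
  obtain ⟨a₁, ha₁, hyp⟩ := X.twistHyp H hm
  exact ⟨X, a₁, rfl, ha₁, hyp, X.n_pos H hg⟩

/-- **ASSEMBLY, one-stop**: from helper17's `ExInput`, (SURJ), the affine ring with its
Frobenius (C9, C9'), lifting with pole control (C6) and the genus inequality. -/
theorem glueConc [Infinite k] (Hex : ExInput R' R₁ R₂ α β v P₁ P₂ Q φ q)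
    (hsurj : Function.Surjective (ssRed R₁ R₂)) (B : Subalgebra k Fk)
    (hB : ∀ x : Fk, x ∈ B ↔ ∃ a : ℕ, x ∈ riemannRochSpace (K := k) (Finsupp.single Q (a : ℤ)))
    [IsDedekindDomain B]
    (hres : ∀ P : Ideal B, P.IsMaximal → Function.Surjective (algebraMap k (B ⧸ P)))
    (Fr : B →ₐ[k] B) (hFr : ∀ a : B, ((Fr a : B) : Fk) = φ (a : Fk))
    (hpow : ∀ a : B, ∃ (g : B) (n : ℕ), 2 ≤ n ∧ Fr a = g ^ n)
    (hne : ∃ f : B, Fr (Fr f) ≠ f)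
    (hlift : ∀ a : B, ∃ (g : F') (hg : g ∈ R'.O),
      (∀ v' : Place K F', v' ≠ v → 0 ≤ v'.ord g) ∧ R'.red ⟨g, hg⟩ = (a : Fk))
    (hg : 2 * genusFF k Fk ≤ genusFF K F) {m : ℕ} (hm : 0 < m) :
    ∃ (X : GlueData R₁ R₂ P₁ P₂ Q) (a₀ a₁ : ℕ), X.B = B ∧ F3dEX R₁ R₂ P₁ P₂ Q Q a₀ ∧
      a₀ ≤ a₁ ∧ TwistHyp (SSRed.ofPair R₁ R₂) X.gluing m (f3dDiv P₁ P₂ 1 1) a₁ ∧ 0 < X.n := by
  obtain ⟨a₀, H⟩ := Hex.f3dEX hsurj
  have hgraph := graphs_exists H B hB hres Fr hpow hne (Hex.hα B Fr hFr hlift)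
    (Hex.hβ B Fr hFr hlift)
  obtain ⟨X, a₁, hXB, ha, hyp, hn⟩ := glueConc_of_graph H B hB hgraph hg hm
  exact ⟨X, a₀, a₁, hXB, H, ha, hyp, hn⟩

end Fermat.Agent.S34lib

end
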