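/-
Item 79 (S34), piece NUM (helper12): the number of nodes `s(M, q)` of the special fibre of
`X₀(M q)` at `q ∤ M`, from the genus formula:

  `genusFormula (M q) - 2 genusFormula M + 1
      = (q - 1) ψ(M) / 12 + ν₂(M) (2 - ν₂(q)) / 4 + ν₃(M) (2 - ν₃(q)) / 3`,

hence `≥ (q - 1) ψ(M) / 12 > 0`, with equality when `M` has no elliptic points, e.g. when a prime
`r ≡ 11 mod 12` divides `M`.
-/
import Mathlib
import Fermat.Agent.S20_Comb
import Fermat.Prelude.Def_ModularCurve_GenusNumerics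

set_option autoImplicit false

noncomputable section

namespace Fermat.Agent.S34lib

open ModularCurve

/-! ### Chinese remainder theorem for the numbers of elliptic points -/

/-- the number of solutions of a "polynomial equation" is multiplicative: abstract form -/
theorem nn_card_prod_of_ringEquiv {A B C : Type*} [CommRing A] [CommRing B] [CommRing C]
    (e : A ≃+* B × C) (fA : A → A) (fB : B → B) (fC : C → C)
    (h : ∀ x : A, e (fA x) = (fB (e x).1, fC (e x).2)) :
    Nat.card {x : A // fA x = 0} = Nat.card {x : B // fB x = 0} * Nat.card {x : C // fC x = 0} := by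
  rw [← Nat.card_prod]
  refine Nat.card_congr ?_
  refine
    { toFun := fun x => (⟨(e x.1).1, ?_⟩, ⟨(e x.1).2, ?_⟩)
      invFun := fun y => ⟨e.symm (y.1.1, y.2.1), ?_⟩
      left_inv := ?_
      right_inv := ?_ }
  · have := h x.1
    rw [x.2, map_zero] at this
    exact (congrArg Prod.fst this).symm
  · have := h x.1
    rw [x.2, map_zero] at this
    exact (congrArg Prod.snd this).symm
  · apply e.injective
    rw [h, map_zero, e.apply_symm_apply]
    exact Prod.ext y.1.2 y.2.2
  · intro x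
    apply Subtype.ext
    show e.symm ((e x.1).1, (e x.1).2) = x.1
    rw [Prod.mk.eta, e.symm_apply_apply]
  · intro y
    apply Prod.ext <;> apply Subtype.ext
    · show (e (e.symm (y.1.1, y.2.1))).1 = y.1.1
      rw [e.apply_symm_apply]
    · show (e (e.symm (y.1.1, y.2.1))).2 = y.2.1
      rw [e.apply_symm_apply]

/-- `ν₂` is multiplicative -/
theorem nn_nuTwo_mul {m n : ℕ} (h : Nat.Coprime m n) : nuTwo (m * n) = nuTwo m * nuTwo n := by
  unfold nuTwo
  refine nn_card_prod_of_ringEquiv (ZMod.chineseRemainder h) (fun x => x ^ 2 + 1)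
    (fun x => x ^ 2 + 1) (fun x => x ^ 2 + 1) fun x => ?_
  simp only [map_add, map_pow, map_one]
  rfl

/-- `ν₃` is multiplicative -/
theorem nn_nuThree_mul {m n : ℕ} (h : Nat.Coprime m n) :
    nuThree (m * n) = nuThree m * nuThree n := by
  unfold nuThree
  refine nn_card_prod_of_ringEquiv (ZMod.chineseRemainder h) (fun x => x ^ 2 + x + 1)
    (fun x => x ^ 2 + x + 1) (fun x => x ^ 2 + x + 1) fun x => ?_
  simp only [map_add, map_pow, map_one]
  rfl

/-- a monic quadratic equation has at most two solutions in a field -/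
theorem nn_card_quadratic_le {k : Type*} [Field k] (b c : k) :
    Nat.card {x : k // x ^ 2 + b * x + c = 0} ≤ 2 := by
  classical
  set P : Polynomial k := Polynomial.X ^ 2 + Polynomial.C b * Polynomial.X + Polynomial.C c
    with hP
  have hdeg : P.natDegree = 2 := by
    rw [hP]
    compute_degree!
  have hP0 : P ≠ 0 := by
    intro h0
    rw [h0, Polynomial.natDegree_zero] at hdeg
    exact absurd hdeg (by norm_num)
  have hsub : ∀ x : {x : k // x ^ 2 + b * x + c = 0}, x.1 ∈ P.roots.toFinset := by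
    intro x
    rw [Multiset.mem_toFinset, Polynomial.mem_roots hP0, Polynomial.IsRoot.def, hP]
    simp only [Polynomial.eval_add, Polynomial.eval_pow, Polynomial.eval_X, Polynomial.eval_mul,
      Polynomial.eval_C]
    exact x.2
  have hinj : Function.Injective
      (fun x : {x : k // x ^ 2 + b * x + c = 0} => (⟨x.1, hsub x⟩ : P.roots.toFinset)) := by
    intro x y hxy
    exact Subtype.ext (congrArg (fun z : P.roots.toFinset => (z : k)) hxy)
  calc Nat.card {x : k // x ^ 2 + b * x + c = 0}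
      ≤ Nat.card P.roots.toFinset := Nat.card_le_card_of_injective _ hinj
    _ = P.roots.toFinset.card := by rw [Nat.card_eq_fintype_card, Fintype.card_coe]
    _ ≤ Multiset.card P.roots := Multiset.toFinset_card_le _
    _ ≤ P.natDegree := Polynomial.card_roots' P
    _ = 2 := hdeg

theorem nn_nuTwo_prime_le {q : ℕ} (hq : q.Prime) : nuTwo q ≤ 2 := by
  have : Fact q.Prime := ⟨hq⟩
  have h := nn_card_quadratic_le (0 : ZMod q) 1
  unfold nuTwo
  refine le_trans (le_of_eq ?_) h
  refine Nat.card_congr (Equiv.subtypeEquivRight fun x => ?_)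
  rw [zero_mul, add_zero]

theorem nn_nuThree_prime_le {q : ℕ} (hq : q.Prime) : nuThree q ≤ 2 := by
  have : Fact q.Prime := ⟨hq⟩
  have h := nn_card_quadratic_le (1 : ZMod q) 1
  unfold nuThree
  refine le_trans (le_of_eq ?_) h
  refine Nat.card_congr (Equiv.subtypeEquivRight fun x => ?_)
  rw [one_mul]

/-! ### cusps -/

/-- the divisors of `q M`, `q ∤ M` -/
theorem nn_divisors_prime_mul {q M : ℕ} (hq : q.Prime) (hM : M ≠ 0) (hqM : ¬ q ∣ M) :
    (q * M).divisors = M.divisors ∪ M.divisors.image (q * ·) := by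
  have hcop : Nat.Coprime q M := (Nat.Prime.coprime_iff_not_dvd hq).2 hqM
  ext d
  simp only [Nat.mem_divisors, Finset.mem_union, Finset.mem_image]
  constructor
  · rintro ⟨hd, -⟩
    by_cases hqd : q ∣ d
    · right
      obtain ⟨e, rfl⟩ := hqd
      exact ⟨e, ⟨Nat.dvd_of_mul_dvd_mul_left hq.pos hd, hM⟩, rfl⟩
    · left
      exact ⟨((Nat.Prime.coprime_iff_not_dvd hq).2 hqd).symm.dvd_of_dvd_mul_left hd, hM⟩
  · rintro (⟨hd, -⟩ | ⟨e, ⟨he, -⟩, rfl⟩)
    · exact ⟨hd.mul_left q, mul_ne_zero hq.ne_zero hM⟩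
    · exact ⟨Nat.mul_dvd_mul_left q he, mul_ne_zero hq.ne_zero hM⟩

theorem nn_divisors_disjoint {q M : ℕ} (hqM : ¬ q ∣ M) :
    Disjoint M.divisors (M.divisors.image (q * ·)) := by
  rw [Finset.disjoint_left]
  intro d hd hd'
  rw [Finset.mem_image] at hd'
  obtain ⟨e, -, rfl⟩ := hd'
  exact hqM ((dvd_mul_right q e).trans (Nat.dvd_of_mem_divisors hd))

/-- the number of cusps doubles at `q ∤ M` -/
theorem nn_cuspCount_prime_mul {q M : ℕ} (hq : q.Prime) (hM : M ≠ 0) (hqM : ¬ q ∣ M) :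
    cuspCount (q * M) = 2 * cuspCount M := by
  have hcop : Nat.Coprime q M := (Nat.Prime.coprime_iff_not_dvd hq).2 hqM
  unfold cuspCount
  rw [nn_divisors_prime_mul hq hM hqM, Finset.sum_union (nn_divisors_disjoint hqM),
    Finset.sum_image (fun a _ b _ hab => Nat.eq_of_mul_eq_mul_left hq.pos hab), two_mul]
  congr 1
  · refine Finset.sum_congr rfl fun d hd => ?_
    have hdM : d ∣ M := Nat.dvd_of_mem_divisors hd
    have hqd : Nat.Coprime d q := (Nat.Coprime.coprime_dvd_left hdM hcop.symm)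
    rw [Nat.mul_comm q M, Nat.mul_div_right_comm hdM, Nat.Coprime.gcd_mul_right_cancel_right _ hqd.symm]
  · refine Finset.sum_congr rfl fun d hd => ?_
    have hdM : d ∣ M := Nat.dvd_of_mem_divisors hd
    have hd0 : 0 < d := Nat.pos_of_mem_divisors hd
    have hMd : M / d ∣ M := Nat.div_dvd_of_dvd hdM
    have hqMd : Nat.Coprime q (M / d) := Nat.Coprime.coprime_dvd_right hMd hcop
    rw [Nat.mul_div_mul_left M d hq.pos, Nat.Coprime.gcd_mul_left_cancel _ hqMd]

/-! ### the node number -/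

/-- **the node number**: `g(Mq) - 2 g(M) + 1` in terms of `ψ`, `ν₂`, `ν₃`. -/
theorem nn_genusFormula_mul_prime {q M : ℕ} (hq : q.Prime) (hM : M ≠ 0) (hqM : ¬ q ∣ M) :
    genusFormula (M * q) - 2 * genusFormula M + 1
      = ((q : ℚ) - 1) * dedekindPsi M / 12 + (nuTwo M : ℚ) * (2 - nuTwo q) / 4
        + (nuThree M : ℚ) * (2 - nuThree q) / 3 := by
  have hcop : Nat.Coprime M q := ((Nat.Prime.coprime_iff_not_dvd hq).2 hqM).symm
  unfold genusFormula
  rw [nn_nuTwo_mul hcop, nn_nuThree_mul hcop, Nat.mul_comm M q,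
    nn_cuspCount_prime_mul hq hM hqM, S20lib.dedekindPsi_prime_mul_of_not_dvd hq hM hqM]
  push_cast
  ring

/-- the node number is at least `(q - 1) ψ(M) / 12` -/
theorem nn_genusFormula_mul_prime_ge {q M : ℕ} (hq : q.Prime) (hM : M ≠ 0) (hqM : ¬ q ∣ M) :
    ((q : ℚ) - 1) * dedekindPsi M / 12 ≤ genusFormula (M * q) - 2 * genusFormula M + 1 := by
  rw [nn_genusFormula_mul_prime hq hM hqM]
  have h2 : (nuTwo q : ℚ) ≤ 2 := by exact_mod_cast nn_nuTwo_prime_le hq
  have h3 : (nuThree q : ℚ) ≤ 2 := by exact_mod_cast nn_nuThree_prime_le hq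
  have h2' : (0 : ℚ) ≤ (nuTwo M : ℚ) * (2 - nuTwo q) / 4 :=
    div_nonneg (mul_nonneg (Nat.cast_nonneg _) (sub_nonneg.mpr h2)) (by norm_num)
  have h3' : (0 : ℚ) ≤ (nuThree M : ℚ) * (2 - nuThree q) / 3 :=
    div_nonneg (mul_nonneg (Nat.cast_nonneg _) (sub_nonneg.mpr h3)) (by norm_num)
  linarith

theorem nn_dedekindPsi_pos {M : ℕ} (hM : M ≠ 0) : 0 < dedekindPsi M := by
  unfold dedekindPsi
  refine Finset.sum_pos' (fun _ _ => Nat.zero_le _) ⟨1, ?_, ?_⟩
  · rw [Finset.mem_filter, Nat.mem_divisors]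
    exact ⟨⟨one_dvd _, hM⟩, squarefree_one⟩
  · rw [Nat.div_one]
    exact Nat.pos_of_ne_zero hM

/-- **(NE)**: the node number is positive. -/
theorem nn_genusFormula_mul_prime_pos {q M : ℕ} (hq : q.Prime) (hM : M ≠ 0) (hqM : ¬ q ∣ M) :
    0 < genusFormula (M * q) - 2 * genusFormula M + 1 := by
  refine lt_of_lt_of_le ?_ (nn_genusFormula_mul_prime_ge hq hM hqM)
  have h1 : (0 : ℚ) < (q : ℚ) - 1 := by
    have : (1 : ℚ) < q := by exact_mod_cast hq.one_lt
    linarith
  have h2 : (0 : ℚ) < dedekindPsi M := by exact_mod_cast nn_dedekindPsi_pos hM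
  positivity

/-! ### no elliptic points when a prime `r ≡ 11 mod 12` divides the level -/

theorem nn_nuTwo_eq_zero_of_prime_dvd {r M : ℕ} (hr : r.Prime) (hr4 : r % 4 = 3) (hrM : r ∣ M) :
    nuTwo M = 0 := by
  have : Fact r.Prime := ⟨hr⟩
  unfold nuTwo
  have : IsEmpty {x : ZMod M // x ^ 2 + 1 = 0} := by
    refine ⟨fun ⟨x, hx⟩ => ?_⟩
    have h1 := congrArg (ZMod.castHom hrM (ZMod r)) hx
    simp only [map_add, map_pow, map_one, map_zero] at h1
    have h2 : IsSquare (-1 : ZMod r) :=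
      ⟨ZMod.castHom hrM (ZMod r) x, by linear_combination -h1⟩
    exact (ZMod.exists_sq_eq_neg_one_iff.mp h2) hr4
  exact Nat.card_of_isEmpty

theorem nn_nuThree_eq_zero_of_prime_dvd {r M : ℕ} (hr : r.Prime) (hr3 : r % 3 = 2)
    (hrM : r ∣ M) : nuThree M = 0 := by
  have : Fact r.Prime := ⟨hr⟩
  unfold nuThree
  have : IsEmpty {x : ZMod M // x ^ 2 + x + 1 = 0} := by
    refine ⟨fun ⟨x, hx⟩ => ?_⟩
    have h1 := congrArg (ZMod.castHom hrM (ZMod r)) hx
    simp only [map_add, map_pow, map_one, map_zero] at h1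
    set y : ZMod r := ZMod.castHom hrM (ZMod r) x with hy
    -- `y ^ 3 = 1`, `y ≠ 1`
    have hy3 : y ^ 3 = 1 := by linear_combination (y - 1) * h1
    have hy1 : y ≠ 1 := by
      intro h
      rw [h] at h1
      have h3 : ((3 : ℕ) : ZMod r) = 0 := by
        push_cast
        linear_combination h1
      rw [ZMod.natCast_eq_zero_iff] at h3
      have := (Nat.prime_dvd_prime_iff_eq hr Nat.prime_three).mp h3
      omega
    have hy0 : y ≠ 0 := by
      intro h
      rw [h] at hy3
      simp at hy3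
    have hord : orderOf y = 3 := orderOf_eq_prime hy3 hy1
    have hdvd : 3 ∣ r - 1 := by
      rw [← hord]
      exact ZMod.orderOf_dvd_card_sub_one hy0
    have hr2 := hr.two_le
    omega
  exact Nat.card_of_isEmpty

/-- the node number when a prime `r ≡ 11 mod 12` divides `M` -/
theorem nn_genusFormula_mul_prime_of_aux {q M r : ℕ} (hq : q.Prime) (hM : M ≠ 0) (hqM : ¬ q ∣ M)
    (hr : r.Prime) (hr12 : r % 12 = 11) (hrM : r ∣ M) :
    genusFormula (M * q) - 2 * genusFormula M + 1 = ((q : ℚ) - 1) * dedekindPsi M / 12 := by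
  rw [nn_genusFormula_mul_prime hq hM hqM,
    nn_nuTwo_eq_zero_of_prime_dvd hr (by omega) hrM,
    nn_nuThree_eq_zero_of_prime_dvd hr (by omega) hrM]
  simp

/-- existence of the auxiliary prime (Dirichlet) -/
theorem nn_exists_aux_prime (n : ℕ) :
    ∃ r : ℕ, r.Prime ∧ r % 12 = 11 ∧ n < r := by
  have h : IsUnit ((11 : ℕ) : ZMod 12) := by decide
  obtain ⟨r, hnr, hr, hr12⟩ := Nat.forall_exists_prime_gt_and_eq_mod h n
  refine ⟨r, hr, ?_, hnr⟩
  have := (ZMod.natCast_eq_natCast_iff' r 11 12).mp hr12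
  omega

end Fermat.Agent.S34lib
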