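/-
Item 79 (S34), piece NUM, function-field form (helper12): the node number in terms of the
Riemann–Roch genera of the function fields of `X₀(M q)` and `X₀(M)` over `ℚ̄`.
-/
import Mathlib
import Fermat.Agent.S34lib.NodeNum
import Fermat.Agent.RRlib.Modular

set_option autoImplicit false

noncomputable section

namespace Fermat.Agent.S34lib

open AlgebraicCurve ModularCurve Fermat.Agent.S24lib Fermat.Agent.RRlib

/-- the node number `s = g(Mq) - 2 g(M) + 1` (function fields over `ℚ̄`) -/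
theorem nn_genusFF_mul_prime {q M : ℕ} [NeZero M] [NeZero (M * q)] (hq : q.Prime)
    (hqM : ¬ q ∣ M) :
    (genusFF Kbar (FF (M * q)) : ℚ) - 2 * genusFF Kbar (FF M) + 1
      = ((q : ℚ) - 1) * dedekindPsi M / 12 + (nuTwo M : ℚ) * (2 - nuTwo q) / 4
        + (nuThree M : ℚ) * (2 - nuThree q) / 3 := by
  rw [mod_genusFF, mod_genusFF]
  exact nn_genusFormula_mul_prime hq (NeZero.ne M) hqM

/-- **(NE)**: `2 g(M) ≤ g(M q)`, i.e. the node number is `≥ 1`. -/
theorem nn_two_mul_genusFF_le {q M : ℕ} [NeZero M] [NeZero (M * q)] (hq : q.Prime)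
    (hqM : ¬ q ∣ M) :
    2 * genusFF Kbar (FF M) ≤ genusFF Kbar (FF (M * q)) := by
  have h := nn_genusFormula_mul_prime_pos hq (NeZero.ne M) hqM
  rw [← mod_genusFF, ← mod_genusFF] at h
  have h' : ((2 * genusFF Kbar (FF M) : ℕ) : ℚ) < ((genusFF Kbar (FF (M * q)) + 1 : ℕ) : ℚ) := by
    push_cast
    linarith
  have := Nat.cast_lt.mp h'
  omega

/-- lower bound for the node number -/
theorem nn_genusFF_mul_prime_ge {q M : ℕ} [NeZero M] [NeZero (M * q)] (hq : q.Prime)
    (hqM : ¬ q ∣ M) :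
    ((q : ℚ) - 1) * dedekindPsi M / 12
      ≤ (genusFF Kbar (FF (M * q)) : ℚ) - 2 * genusFF Kbar (FF M) + 1 := by
  rw [mod_genusFF, mod_genusFF]
  exact nn_genusFormula_mul_prime_ge hq (NeZero.ne M) hqM

/-- the node number when a prime `r ≡ 11 mod 12` divides `M` -/
theorem nn_genusFF_mul_prime_of_aux {q M r : ℕ} [NeZero M] [NeZero (M * q)] (hq : q.Prime)
    (hqM : ¬ q ∣ M) (hr : r.Prime) (hr12 : r % 12 = 11) (hrM : r ∣ M) :
    (genusFF Kbar (FF (M * q)) : ℚ) - 2 * genusFF Kbar (FF M) + 1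
      = ((q : ℚ) - 1) * dedekindPsi M / 12 := by
  rw [mod_genusFF, mod_genusFF]
  exact nn_genusFormula_mul_prime_of_aux hq (NeZero.ne M) hqM hr hr12 hrM

end Fermat.Agent.S34lib
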