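/-
Item 79 (S34), piece (E3), CONCRETE (helper19): the gluing package at the level `N = M' q`.

`glueMod`: for constant reductions `R'` (level `M'`) and `R = R∞` (level `M' q`), `R₀ = R ∘ w_q`,
from
* `Hex : ExInput R' R R₀ α β ∞' P∞ P₀ Q φ q` (helper17, C5 concrete), `φ x = x(X^q)`,
* `R.O ≠ R₀.O` (helper9, `vk_O_ne`),
* the affine ring `affRing Q` is Dedekind with rational points (helper12, C9),
* lifting with pole control at level `M'` (helper18 C6 / helper25 adapter),
* `g(Fk) ≤ g(F_{M'})` (genus equality at the auxiliary level),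
the `GlueData X` on `affRing Q` with `(F3)`, `TwistHyp` for `D₁ = cuspDiv 1 1 = P∞ + P₀`, `(NE)`
and "constants lie in `T 0`", i.e. the inputs `hyp`, `hconst` of `unipK_of_package` and the inputs
of CRUX-INST.  Reusable bundle (also for S35): `glm_hB`, `glm_surj`, `glm_genus`, `glm_hFr`
(+ `affFrob_hpow`, `affFrob_hne` of helper3).  No sorry in this file.
-/
import Mathlib
import Fermat.Agent.S34lib.GlueConc
import Fermat.Agent.S34lib.AffFrob
import Fermat.Agent.S34lib.AffRing
import Fermat.Agent.S34lib.GalRR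
import Fermat.Agent.S34lib.NodeNumFF
import Fermat.Agent.S34lib.ArchQ

set_option autoImplicit false
set_option synthInstance.maxHeartbeats 400000

noncomputable section

namespace Fermat.Agent.S34lib

open AlgebraicCurve Fermat.Agent.GoodRed ModularCurve HahnSeries Fermat.Agent.S24lib
  Fermat.Agent.RRlib

section CuspDiv

variable (N : ℕ) [NeZero N] (q : ℕ) (hq : q.Prime) (hqN : q ∣ N) (hq2 : ¬ q ^ 2 ∣ N)

/-- `cuspDiv 1 1 = P∞ + P₀` in the notation of `F3Dim.lean` -/
theorem cuspDiv_one_one [RRHyp Kbar (FF N)] :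
    cuspDiv N q hq hqN hq2 1 1 = f3dDiv (infPlaceBar N) (cuspZero N q hq hqN hq2) 1 1 := by
  rw [cuspDiv, f3dDiv]
  simp

end CuspDiv

section Main

variable (M' q : ℕ) [NeZero M'] [NeZero (M' * q)] (hq : q.Prime) (hqM : ¬ q ∣ M')
variable {A : ValuationSubring Kbar}

/-- `R₀ = R ∘ w_q` at the level `M' q` (same term as helper9's `vkZero`) -/
abbrev glmZero
    (R : ConstRed A (IsLocalRing.residue A)
      (↥(modularFunctionFieldFullC (IsLocalRing.ResidueField A) M')) (FF (M' * q))) :
    ConstRed A (IsLocalRing.residue A)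
      (↥(modularFunctionFieldFullC (IsLocalRing.ResidueField A) M')) (FF (M' * q)) :=
  inredZero (M' * q) q hq (dvd_mul_left q M') (inf_not_sq_dvd M' q hq hqM) R

/-! ### the reusable bundle of hypotheses of `glueConc` (also for S35) -/

/-- `hB`: the affine ring of `Q` is `⋃ L(aQ)` -/
theorem glm_hB (x : ↥(modularFunctionFieldFullC (IsLocalRing.ResidueField A) M')) :
    x ∈ affRing (infPlaceC (IsLocalRing.ResidueField A) M') ↔
      ∃ a : ℕ, x ∈ riemannRochSpace (K := IsLocalRing.ResidueField A)
        (Finsupp.single (infPlaceC (IsLocalRing.ResidueField A) M') (a : ℤ)) :=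
  mem_affRing_iff_rr

/-- `hsurj`: (SURJ) for `R∞`, `R₀` -/
theorem glm_surj (hA : A.LiesOverPrime q)
    {R : ConstRed A (IsLocalRing.residue A)
      (↥(modularFunctionFieldFullC (IsLocalRing.ResidueField A) M')) (FF (M' * q))}
    (hO : R.O ≠ (glmZero M' q hq hqM R).O) :
    Function.Surjective (ssRed R (glmZero M' q hq hqM R)) :=
  gss_red_surjective_of_liesOverPrime hq hA R (glmZero M' q hq hqM R) hO

include hq hqM in
/-- `hg`: the genus inequality `2 g(Fk) ≤ g(F_{M'q})` -/
theorem glm_genus
    (hgen : genusFF (IsLocalRing.ResidueField A)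
        (↥(modularFunctionFieldFullC (IsLocalRing.ResidueField A) M'))
      ≤ genusFF Kbar (FF M')) :
    2 * genusFF (IsLocalRing.ResidueField A)
        (↥(modularFunctionFieldFullC (IsLocalRing.ResidueField A) M'))
      ≤ genusFF Kbar (FF (M' * q)) :=
  (Nat.mul_le_mul_left 2 hgen).trans (nn_two_mul_genusFF_le hq hqM)

/-- `hFr`: the Frobenius `affFrob` of the affine ring is `φ` -/
theorem glm_hFr [Fact q.Prime] [CharP (IsLocalRing.ResidueField A) q]
    [PerfectRing (IsLocalRing.ResidueField A) q] [NeZero q]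
    {φ : ↥(modularFunctionFieldFullC (IsLocalRing.ResidueField A) M') →+*
      ↥(modularFunctionFieldFullC (IsLocalRing.ResidueField A) M')}
    (hφ : ∀ x : ↥(modularFunctionFieldFullC (IsLocalRing.ResidueField A) M'),
      ((φ x : ↥(modularFunctionFieldFullC (IsLocalRing.ResidueField A) M')) :
        LaurentSeries (IsLocalRing.ResidueField A)) =
        qExpand (IsLocalRing.ResidueField A) q
          (x : LaurentSeries (IsLocalRing.ResidueField A)))
    (a : affRing (infPlaceC (IsLocalRing.ResidueField A) M')) :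
    ((affFrob (IsLocalRing.ResidueField A) q M'
        (affRing (infPlaceC (IsLocalRing.ResidueField A) M')) (glm_hB M') a :
          affRing (infPlaceC (IsLocalRing.ResidueField A) M')) :
        ↥(modularFunctionFieldFullC (IsLocalRing.ResidueField A) M')) = φ a := by
  apply Subtype.ext
  rw [hφ]
  rfl

set_option maxHeartbeats 1000000 in
/-- **(E3), concrete**: the gluing package at the level `M' q`. -/
theorem glueMod [Fact q.Prime] [CharP (IsLocalRing.ResidueField A) q]
    [IsAlgClosed (IsLocalRing.ResidueField A)]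
    [RRHyp Kbar (FF (M' * q))]
    [RRHyp (IsLocalRing.ResidueField A)
      (↥(modularFunctionFieldFullC (IsLocalRing.ResidueField A) M'))]
    (hA : A.LiesOverPrime q)
    {R' : ConstRed A (IsLocalRing.residue A)
      (↥(modularFunctionFieldFullC (IsLocalRing.ResidueField A) M')) (FF M')}
    {R : ConstRed A (IsLocalRing.residue A)
      (↥(modularFunctionFieldFullC (IsLocalRing.ResidueField A) M')) (FF (M' * q))}
    {α β : FF M' →+* FF (M' * q)}
    {φ : ↥(modularFunctionFieldFullC (IsLocalRing.ResidueField A) M') →+*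
      ↥(modularFunctionFieldFullC (IsLocalRing.ResidueField A) M')}
    (hφ : ∀ x : ↥(modularFunctionFieldFullC (IsLocalRing.ResidueField A) M'),
      ((φ x : ↥(modularFunctionFieldFullC (IsLocalRing.ResidueField A) M')) :
        LaurentSeries (IsLocalRing.ResidueField A)) =
        qExpand (IsLocalRing.ResidueField A) q
          (x : LaurentSeries (IsLocalRing.ResidueField A)))
    (Hex : ExInput R' R (glmZero M' q hq hqM R) α β (infPlaceBar M') (infPlaceBar (M' * q))
      (cuspZero (M' * q) q hq (dvd_mul_left q M') (inf_not_sq_dvd M' q hq hqM))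
      (infPlaceC (IsLocalRing.ResidueField A) M') φ q)
    (hO : R.O ≠ (glmZero M' q hq hqM R).O)
    [IsDedekindDomain (affRing (infPlaceC (IsLocalRing.ResidueField A) M'))]
    (hres : ∀ P : Ideal (affRing (infPlaceC (IsLocalRing.ResidueField A) M')), P.IsMaximal →
      Function.Surjective (algebraMap (IsLocalRing.ResidueField A)
        (affRing (infPlaceC (IsLocalRing.ResidueField A) M') ⧸ P)))
    (hlift : ∀ a : affRing (infPlaceC (IsLocalRing.ResidueField A) M'),
      ∃ (g : FF M') (hg : g ∈ R'.O),
        (∀ v' : Place Kbar (FF M'), v' ≠ infPlaceBar M' → 0 ≤ v'.ord g) ∧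
          R'.red ⟨g, hg⟩ = (a : ↥(modularFunctionFieldFullC (IsLocalRing.ResidueField A) M')))
    (hgen : genusFF (IsLocalRing.ResidueField A)
        (↥(modularFunctionFieldFullC (IsLocalRing.ResidueField A) M'))
      ≤ genusFF Kbar (FF M'))
    {m : ℕ} (hm : 0 < m) :
    ∃ (X : GlueData R (glmZero M' q hq hqM R) (infPlaceBar (M' * q))
        (cuspZero (M' * q) q hq (dvd_mul_left q M') (inf_not_sq_dvd M' q hq hqM))
        (infPlaceC (IsLocalRing.ResidueField A) M')) (a₀ a₁ : ℕ),
      X.B = affRing (infPlaceC (IsLocalRing.ResidueField A) M') ∧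
      F3dEX R (glmZero M' q hq hqM R) (infPlaceBar (M' * q))
        (cuspZero (M' * q) q hq (dvd_mul_left q M') (inf_not_sq_dvd M' q hq hqM))
        (infPlaceC (IsLocalRing.ResidueField A) M')
        (infPlaceC (IsLocalRing.ResidueField A) M') a₀ ∧
      a₀ ≤ a₁ ∧
      TwistHyp (SSRed.ofPair R (glmZero M' q hq hqM R)) X.gluing m
        (cuspDiv (M' * q) q hq (dvd_mul_left q M') (inf_not_sq_dvd M' q hq hqM) 1 1) a₁ ∧
      0 < X.n ∧
      ∀ c c' : IsLocalRing.ResidueField A,
        ((algebraMap (IsLocalRing.ResidueField A)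
            (↥(modularFunctionFieldFullC (IsLocalRing.ResidueField A) M')) c,
          algebraMap (IsLocalRing.ResidueField A)
            (↥(modularFunctionFieldFullC (IsLocalRing.ResidueField A) M')) c') :
          ↥(modularFunctionFieldFullC (IsLocalRing.ResidueField A) M') ×
            ↥(modularFunctionFieldFullC (IsLocalRing.ResidueField A) M')) ∈ X.gluing.T 0 := by
  classical
  haveI : NeZero q := ⟨hq.ne_zero⟩
  obtain ⟨X, a₀, a₁, hXB, H, ha, hyp, hn⟩ := glueConc Hex (glm_surj M' q hq hqM hA hO)
    (affRing (infPlaceC (IsLocalRing.ResidueField A) M')) (glm_hB M') hres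
    (affFrob (IsLocalRing.ResidueField A) q M'
      (affRing (infPlaceC (IsLocalRing.ResidueField A) M')) (glm_hB M'))
    (glm_hFr M' q hφ)
    (affFrob_hpow (IsLocalRing.ResidueField A) q M' _ (glm_hB M'))
    (affFrob_hne (IsLocalRing.ResidueField A) q M' _ (glm_hB M'))
    hlift (glm_genus M' q hq hqM hgen) hm
  refine ⟨X, a₀, a₁, hXB, H, ha, ?_, hn, X.const_mem_T0⟩
  rw [cuspDiv_one_one]
  exact hyp

end Main

end Fermat.Agent.S34lib

end
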