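/-
Item 79 (S34), piece C13 CRUX-INST (helper16): the `TwistCrux` data of `Twist.lean` in the
setting of `GlueInst.lean` (helper19): `S = SSRed.ofPair R₁ R₂`, `G = X.gluing`
(`T a = L(aQ) × L(aQ)`), `D₁ = P₁ + P₂`.

* `f` := a lift (by `(F3)`) of a glued pair `φ = (φ₁, φ₂)` with EXACT pole order `n₂` at `Q` in
  both components and evaluations `1` at all nodes;  `D₂ := div f + n₂ D₁` (the zeros of `f`);
* `cst`: a pair regular at `Q` is a pair of constants, equal by gluing (`0 < X.n`);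
* `pol`: comparison of pole orders, componentwise.
No sorry in this file.
-/
import Mathlib
import Fermat.Agent.S34lib.GlueInst
import Fermat.Agent.S34lib.GlueInstNE

set_option autoImplicit false

noncomputable section

namespace Fermat.Agent.S34lib

open AlgebraicCurve Fermat.Agent.RRlib Fermat.Agent.GoodRed

/-! ### local bounds `x = 0 ∨ n ≤ ord_v x` -/

section Local

variable {K F : Type*} [Field K] [Field F] [Algebra K F]

theorem ci_bound_iff (v : Place K F) (x : F) (n : ℤ) :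
    (x = 0 ∨ n ≤ v.ord x) ↔ v.adicValuation x ≤ WithZero.exp (-n) := by
  rw [v.adicValuation_le_exp_iff, neg_neg]

theorem ci_add {v : Place K F} {x y : F} {n : ℤ} (hx : x = 0 ∨ n ≤ v.ord x)
    (hy : y = 0 ∨ n ≤ v.ord y) : x + y = 0 ∨ n ≤ v.ord (x + y) := by
  rw [ci_bound_iff] at hx hy ⊢
  exact (Valuation.map_add _ _ _).trans (max_le hx hy)

theorem ci_sub {v : Place K F} {x y : F} {n : ℤ} (hx : x = 0 ∨ n ≤ v.ord x)
    (hy : y = 0 ∨ n ≤ v.ord y) : x - y = 0 ∨ n ≤ v.ord (x - y) := by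
  rw [ci_bound_iff] at hx hy ⊢
  exact (Valuation.map_sub _ _ _).trans (max_le hx hy)

theorem ci_mono {v : Place K F} {x : F} {n n' : ℤ} (h : n' ≤ n) (hx : x = 0 ∨ n ≤ v.ord x) :
    x = 0 ∨ n' ≤ v.ord x := hx.imp id fun h1 => h.trans h1

theorem ci_mul_pow_iff {v : Place K F} {x φ : F} (hφ : φ ≠ 0) (c : ℕ) (n : ℤ) :
    (x * φ ^ c = 0 ∨ n ≤ v.ord (x * φ ^ c)) ↔ (x = 0 ∨ n - c * v.ord φ ≤ v.ord x) := by
  by_cases hx : x = 0
  · simp [hx]
  · have h1 : x * φ ^ c ≠ 0 := mul_ne_zero hx (pow_ne_zero _ hφ)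
    rw [or_iff_right h1, or_iff_right hx, v.ord_mul hx (pow_ne_zero _ hφ), tw_ord_pow]
    constructor <;> intro h <;> linarith

end Local

/-! ### exact pole orders on `Fk` -/

section Exact

variable {k Fk : Type*} [Field k] [Field Fk] [Algebra k Fk]

/-- `φ` has exact pole order `n` at `Q` and is regular elsewhere -/
structure CiExact (Q : Place k Fk) (n : ℕ) (φ : Fk) : Prop where
  ne_zero : φ ≠ 0
  ord_Q : Q.ord φ = -(n : ℤ)
  ord_ne : ∀ v : Place k Fk, v ≠ Q → 0 ≤ v.ord φ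

theorem ci_mem_single_iff (Q : Place k Fk) (a : ℕ) (x : Fk) :
    x ∈ riemannRochSpace (K := k) (Finsupp.single Q (a : ℤ)) ↔
      (x = 0 ∨ -(a : ℤ) ≤ Q.ord x) ∧ ∀ v : Place k Fk, v ≠ Q → (x = 0 ∨ 0 ≤ v.ord x) := by
  classical
  rw [mem_riemannRochSpace_iff]
  constructor
  · intro h
    refine ⟨?_, fun v hv => ?_⟩
    · have := h Q
      rwa [Finsupp.single_eq_same] at this
    · have := h v
      rwa [Finsupp.single_eq_of_ne hv, neg_zero] at this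
  · rintro ⟨h1, h2⟩ v
    by_cases hv : v = Q
    · rw [hv, Finsupp.single_eq_same]
      exact h1
    · rw [Finsupp.single_eq_of_ne hv, neg_zero]
      exact h2 v hv

theorem ciExact_of_mem_of_notMem {Q : Place k Fk} {c : ℕ} {x : Fk}
    (h1 : x ∈ riemannRochSpace (K := k) (Finsupp.single Q ((c + 1 : ℕ) : ℤ)))
    (h2 : x ∉ riemannRochSpace (K := k) (Finsupp.single Q (c : ℤ))) : CiExact Q (c + 1) x := by
  have hx0 : x ≠ 0 := by
    rintro rfl
    exact h2 (Submodule.zero_mem _)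
  rw [ci_mem_single_iff] at h1 h2
  obtain ⟨h1Q, h1v⟩ := h1
  refine ⟨hx0, ?_, fun v hv => (h1v v hv).resolve_left hx0⟩
  have hQ := h1Q.resolve_left hx0
  by_contra hne
  apply h2
  refine ⟨Or.inr ?_, h1v⟩
  push_cast at hQ hne ⊢
  omega

theorem ci_const [RRBase k Fk] {Q : Place k Fk} {n : ℕ} {φ : Fk} (hφ : CiExact Q n φ)
    {a c : ℕ} {α : Fk} (h1 : α ∈ riemannRochSpace (K := k) (Finsupp.single Q (a : ℤ)))
    (h2 : α * φ ^ c ∈ riemannRochSpace (K := k) (Finsupp.single Q ((c * n : ℕ) : ℤ))) :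
    α ∈ Set.range (algebraMap k Fk) := by
  by_cases hα : α = 0
  · exact ⟨0, by rw [hα, map_zero]⟩
  rw [ci_mem_single_iff] at h1 h2
  apply RRBase.const_of_forall_ord_nonneg (K := k)
  intro v
  by_cases hv : v = Q
  · have h := (ci_mul_pow_iff hφ.ne_zero c _).mp h2.1
    rw [hφ.ord_Q] at h
    have h' := h.resolve_left hα
    rw [hv]
    push_cast at h'
    nlinarith
  · exact (h1.2 v hv).resolve_left hα

theorem ci_pol {Q : Place k Fk} {n : ℕ} {φ : Fk} (hφ : CiExact Q n φ) {m a c : ℕ}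
    {α₁ α₂ : Fk} (h1 : α₁ ∈ riemannRochSpace (K := k) (Finsupp.single Q ((m * a : ℕ) : ℤ)))
    (h2 : α₂ * φ ^ (m * c) ∈
      riemannRochSpace (K := k) (Finsupp.single Q ((m * c * n : ℕ) : ℤ)))
    (h3 : (α₁ - α₂) * φ ^ c ∈
      riemannRochSpace (K := k) (Finsupp.single Q ((a + c * n : ℕ) : ℤ))) :
    α₁ ∈ riemannRochSpace (K := k) (Finsupp.single Q (a : ℤ)) ∧
      α₂ * φ ^ c ∈ riemannRochSpace (K := k) (Finsupp.single Q ((c * n : ℕ) : ℤ)) := by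
  rw [ci_mem_single_iff] at h1 h2 h3 ⊢
  rw [ci_mem_single_iff]
  have hφ0 := hφ.ne_zero
  -- at `Q`
  have hQ2 : α₂ = 0 ∨ (0 : ℤ) ≤ Q.ord α₂ := by
    have h := (ci_mul_pow_iff hφ0 (m * c) _).mp h2.1
    rw [hφ.ord_Q] at h
    refine h.imp id fun h' => ?_
    push_cast at h'
    nlinarith
  have hQ3 : α₁ - α₂ = 0 ∨ -(a : ℤ) ≤ Q.ord (α₁ - α₂) := by
    have h := (ci_mul_pow_iff hφ0 c _).mp h3.1
    rw [hφ.ord_Q] at h
    refine h.imp id fun h' => ?_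
    push_cast at h'
    nlinarith
  have hQ1 : α₁ = 0 ∨ -(a : ℤ) ≤ Q.ord α₁ := by
    have h := ci_add hQ3 (ci_mono (by omega : -(a : ℤ) ≤ 0) hQ2)
    rwa [sub_add_cancel] at h
  refine ⟨⟨hQ1, h1.2⟩, ?_, fun v hv => ?_⟩
  · rw [ci_mul_pow_iff hφ0, hφ.ord_Q]
    refine hQ2.imp id fun h' => ?_
    push_cast
    nlinarith
  · have hd := hφ.ord_ne v hv
    have hcd : (0 : ℤ) ≤ c * v.ord φ := mul_nonneg (Int.natCast_nonneg c) hd
    have e3 := (ci_mul_pow_iff hφ0 c _).mp (h3.2 v hv)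
    have e1 : α₁ = 0 ∨ 0 - (c : ℤ) * v.ord φ ≤ v.ord α₁ :=
      ci_mono (by omega) (h1.2 v hv)
    have e2 := ci_sub e1 e3
    rw [sub_sub_cancel] at e2
    exact (ci_mul_pow_iff hφ0 c _).mpr e2

/-- for `c ≥ 2g − 1` there is a function with exact pole order `c + 1` at `Q` -/
theorem ci_exists_exact [RRHyp k Fk] (Q : Place k Fk) {c : ℕ} (hc : 2 * genusFF k Fk ≤ c + 1) :
    ∃ x : Fk, x ∈ riemannRochSpace (K := k) (Finsupp.single Q ((c + 1 : ℕ) : ℤ)) ∧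
      x ∉ riemannRochSpace (K := k) (Finsupp.single Q (c : ℤ)) := by
  by_contra hcon
  have hle : riemannRochSpace (K := k) (Finsupp.single Q ((c + 1 : ℕ) : ℤ)) ≤
      riemannRochSpace (K := k) (Finsupp.single Q (c : ℤ)) := by
    intro x hx
    by_contra hx'
    exact hcon ⟨x, hx, hx'⟩
  have hfin : Module.Finite k (riemannRochSpace (K := k) (Finsupp.single Q (c : ℤ))) :=
    finite_riemannRochSpace _
  have h1 := Submodule.finrank_mono hle
  have hg : (2 * (genusFF k Fk : ℤ)) ≤ c + 1 := by exact_mod_cast hc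
  have e1 := ell_eq_of_degree_gt (K := k) (F := Fk) (D := Finsupp.single Q ((c + 1 : ℕ) : ℤ))
    (by rw [degree_single_int]; push_cast; linarith)
  have e2 := ell_eq_of_degree_gt (K := k) (F := Fk) (D := Finsupp.single Q (c : ℤ))
    (by rw [degree_single_int]; linarith)
  rw [degree_single_int] at e1 e2
  have h2 : (ell (Finsupp.single Q ((c + 1 : ℕ) : ℤ) : Divisor k Fk) : ℤ) ≤
      ell (Finsupp.single Q (c : ℤ) : Divisor k Fk) := by
    exact_mod_cast h1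
  rw [e1, e2] at h2
  push_cast at h2
  linarith

end Exact

/-! ### the instance -/

section Inst

variable {K F k Fk : Type*} [Field K] [Field F] [Algebra K F] [Field k] [Field Fk] [Algebra k Fk]
variable {A : ValuationSubring K} {π : A →+* k}

/-- an element of `O` with nonzero reduction is a unit of `O` -/
theorem ci_inv_mem (R : ConstRed A π Fk F) (x : R.O) (hx : R.red x ≠ 0) : ((x : F))⁻¹ ∈ R.O := by
  have h1 : (x : F) ∉ R.O.nonunits := fun h =>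
    hx ((ss_valSubring_map_eq_zero_iff R.O R.red R.red_surjective x).mpr h)
  have h2 : R.O.valuation (x : F) ≤ 1 := (R.O.valuation_le_one_iff _).mpr x.2
  have h3 : ¬ R.O.valuation (x : F) < 1 := fun h => h1 (R.O.mem_nonunits_iff.mpr h)
  have h4 : R.O.valuation (x : F) = 1 := le_antisymm h2 (not_lt.mp h3)
  rw [← R.O.valuation_le_one_iff, map_inv₀, h4, inv_one]

variable [RRHyp K F] [RRHyp k Fk]
variable {R₁ R₂ : ConstRed A π Fk F} {P₁ P₂ : Place K F} {Q : Place k Fk}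

omit [RRHyp K F] [RRHyp k Fk] in
theorem ci_f3dDiv_apply_fst (hP : P₁ ≠ P₂) (a b : ℕ) : f3dDiv P₁ P₂ a b P₁ = a := by
  classical
  rw [f3dDiv, Finsupp.add_apply, Finsupp.single_eq_same, Finsupp.single_eq_of_ne hP, add_zero]

omit [RRHyp K F] [RRHyp k Fk] in
theorem ci_f3dDiv_apply_snd (hP : P₁ ≠ P₂) (a b : ℕ) : f3dDiv P₁ P₂ a b P₂ = b := by
  classical
  rw [f3dDiv, Finsupp.add_apply, Finsupp.single_eq_same, Finsupp.single_eq_of_ne hP.symm,
    zero_add]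

omit [RRHyp K F] [RRHyp k Fk] in
theorem ci_f3dDiv_apply_of_ne (a b : ℕ) {v : Place K F} (h1 : v ≠ P₁) (h2 : v ≠ P₂) :
    f3dDiv P₁ P₂ a b v = 0 := by
  classical
  rw [f3dDiv, Finsupp.add_apply, Finsupp.single_eq_of_ne h1, Finsupp.single_eq_of_ne h2,
    add_zero]

namespace GlueData

variable (X : GlueData R₁ R₂ P₁ P₂ Q)

-- `GlueData.const_mem_T0` (pairs of constants lie in `T 0`) is in `GlueInstNE.lean` (helper19).

/-- the evaluation of a constant -/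
theorem gluing_e₁_const (c : k) (y : Fk) (i : Fin X.gluing.n) :
    X.gluing.e₁ (algebraMap k Fk c, y) i = c := by
  have hB : algebraMap k Fk c ∈ X.B := X.B.algebraMap_mem c
  rw [X.gluing_e₁ _ hB i]
  have : (⟨algebraMap k Fk c, hB⟩ : X.B) = algebraMap k X.B c := rfl
  rw [this, AlgHom.commutes]
  rfl

theorem gluing_e₂_const (c : k) (y : Fk) (i : Fin X.gluing.n) :
    X.gluing.e₂ (y, algebraMap k Fk c) i = c := by
  have hB : algebraMap k Fk c ∈ X.B := X.B.algebraMap_mem c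
  rw [X.gluing_e₂ _ hB i]
  have : (⟨algebraMap k Fk c, hB⟩ : X.B) = algebraMap k X.B c := rfl
  rw [this, AlgHom.commutes]
  rfl

omit [RRHyp K F] in
/-- a glued pair with exact pole orders and evaluations `1` -/
theorem exists_phi {m a₁ : ℕ}
    (hyp : TwistHyp (SSRed.ofPair R₁ R₂) X.gluing m (f3dDiv P₁ P₂ 1 1) a₁) {c : ℕ}
    (hc : a₁ ≤ c) (hcg : 2 * genusFF k Fk ≤ c + 1) :
    ∃ φ : Fk × Fk, φ ∈ X.gluing.glued 1 (c + 1) ∧ X.gluing.e₁ φ = 1 ∧
      CiExact Q (c + 1) φ.1 ∧ CiExact Q (c + 1) φ.2 := by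
  obtain ⟨x₀, hx₀, hx₀'⟩ := ci_exists_exact Q hcg
  obtain ⟨t, ht, ht₁, ht₂⟩ := hyp.surj c hc (1 - X.gluing.e₁ (x₀, x₀)) (1 - X.gluing.e₂ (x₀, x₀))
  have hx₀T : ((x₀, x₀) : Fk × Fk) ∈ X.gluing.T (c + 1) := ⟨hx₀, hx₀⟩
  have htT : t ∈ X.gluing.T (c + 1) := X.gluing.T_mono (Nat.le_succ c) ht
  have he₁ : X.gluing.e₁ ((x₀, x₀) + t) = 1 := by rw [map_add, ht₁]; abel
  have he₂ : X.gluing.e₂ ((x₀, x₀) + t) = 1 := by rw [map_add, ht₂]; abel
  refine ⟨(x₀, x₀) + t, X.gluing.mem_glued_one.mpr ⟨Submodule.add_mem _ hx₀T htT, ?_⟩, he₁, ?_, ?_⟩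
  · rw [he₁, he₂]
  · refine ciExact_of_mem_of_notMem (Submodule.add_mem _ hx₀T htT).1 fun h => hx₀' ?_
    have h2 : x₀ + t.1 - t.1 ∈ riemannRochSpace (K := k) (Finsupp.single Q (c : ℤ)) :=
      Submodule.sub_mem _ h ht.1
    rwa [add_sub_cancel_right] at h2
  · refine ciExact_of_mem_of_notMem (Submodule.add_mem _ hx₀T htT).2 fun h => hx₀' ?_
    have h2 : x₀ + t.2 - t.2 ∈ riemannRochSpace (K := k) (Finsupp.single Q (c : ℤ)) :=
      Submodule.sub_mem _ h ht.2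
    rwa [add_sub_cancel_right] at h2

omit [RRHyp K F] [RRHyp k Fk] in
theorem not_mem_of_ciExact {c : ℕ} {x : Fk} (hx : CiExact Q (c + 1) x) :
    x ∉ riemannRochSpace (K := k) (Finsupp.single Q (c : ℤ)) := by
  intro h
  rw [ci_mem_single_iff] at h
  have := h.1.resolve_left hx.ne_zero
  rw [hx.ord_Q] at this
  push_cast at this
  omega

/-- **CRUX-INST**: the data for the crux. -/
theorem twistCrux [Infinite k] {a₀ a₁ m : ℕ} (H : F3dEX R₁ R₂ P₁ P₂ Q Q a₀) (ha : a₀ ≤ a₁)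
    (hyp : TwistHyp (SSRed.ofPair R₁ R₂) X.gluing m (f3dDiv P₁ P₂ 1 1) a₁)
    (hmk : (m : k) ≠ 0) (hP : P₁ ≠ P₂) (hn : 0 < X.n) :
    ∃ (D₂ : Divisor K F) (n₂ : ℕ) (f finv : (SSRed.ofPair R₁ R₂).O),
      TwistCrux (SSRed.ofPair R₁ R₂) X.gluing m (f3dDiv P₁ P₂ 1 1) D₂ n₂ f finv := by
  classical
  obtain ⟨c, hc, hcg⟩ : ∃ c : ℕ, a₁ ≤ c ∧ 2 * genusFF k Fk ≤ c + 1 :=
    ⟨a₁ + 2 * genusFF k Fk, by omega, by omega⟩
  obtain ⟨φ, hφg, hφe, hφ1, hφ2⟩ := X.exists_phi hyp hc hcg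
  -- the lift
  have hφg' := hφg
  rw [← hyp.f3 (c + 1) (by omega)] at hφg'
  obtain ⟨f, hf, hfr⟩ := hφg'
  have hfr1 : R₁.red ⟨(f : F), f.2.1⟩ = φ.1 := congrArg Prod.fst hfr
  have hfr2 : R₂.red ⟨(f : F), f.2.2⟩ = φ.2 := congrArg Prod.snd hfr
  have hf0 : (f : F) ≠ 0 := by
    intro h0
    have : f = 0 := Subtype.ext h0
    rw [this, map_zero] at hfr
    exact hφ1.ne_zero (congrArg Prod.fst hfr).symm
  have hfL := (tw_mem_L_iff hf0).mp hf
  -- exactness at `P₁`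
  have hex1 : P₁.ord (f : F) = -((c + 1 : ℕ) : ℤ) := by
    have h1 := hfL P₁
    rw [nsmul_f3dDiv, ci_f3dDiv_apply_fst hP] at h1
    by_contra hne
    have hlt : -(c : ℤ) ≤ P₁.ord (f : F) := by
      push_cast at h1 hne
      omega
    have hmem : (f : F) ∈ riemannRochSpace (K := K) (f3dDiv P₁ P₂ c (c + 1)) := by
      rw [tw_mem_L_iff hf0]
      intro v
      by_cases hv : v = P₁
      · rw [hv, ci_f3dDiv_apply_fst hP]
        exact hlt
      · have h2 := hfL v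
        rw [nsmul_f3dDiv] at h2
        have e : f3dDiv P₁ P₂ c (c + 1) v = f3dDiv P₁ P₂ (c + 1) (c + 1) v := by
          rw [f3dDiv, f3dDiv, Finsupp.add_apply, Finsupp.add_apply,
            Finsupp.single_eq_of_ne hv, Finsupp.single_eq_of_ne hv]
        rw [e]
        exact h2
    have hM : φ ∈ f3dM R₁ R₂ (f3dDiv P₁ P₂ c (c + 1)) :=
      (mem_f3dM R₁ R₂ _ _).mpr ⟨f, hmem, hfr⟩
    have hbox := H.le_box (ha.trans hc) ((ha.trans hc).trans (Nat.le_succ c)) (by omega)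
      (by omega) hM
    exact not_mem_of_ciExact hφ1 hbox.1
  -- exactness at `P₂`
  have hex2 : P₂.ord (f : F) = -((c + 1 : ℕ) : ℤ) := by
    have h1 := hfL P₂
    rw [nsmul_f3dDiv, ci_f3dDiv_apply_snd hP] at h1
    by_contra hne
    have hlt : -(c : ℤ) ≤ P₂.ord (f : F) := by
      push_cast at h1 hne
      omega
    have hmem : (f : F) ∈ riemannRochSpace (K := K) (f3dDiv P₁ P₂ (c + 1) c) := by
      rw [tw_mem_L_iff hf0]
      intro v
      by_cases hv : v = P₂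
      · rw [hv, ci_f3dDiv_apply_snd hP]
        exact hlt
      · have h2 := hfL v
        rw [nsmul_f3dDiv] at h2
        have e : f3dDiv P₁ P₂ (c + 1) c v = f3dDiv P₁ P₂ (c + 1) (c + 1) v := by
          rw [f3dDiv, f3dDiv, Finsupp.add_apply, Finsupp.add_apply,
            Finsupp.single_eq_of_ne hv, Finsupp.single_eq_of_ne hv]
        rw [e]
        exact h2
    have hM : φ ∈ f3dM R₁ R₂ (f3dDiv P₁ P₂ (c + 1) c) :=
      (mem_f3dM R₁ R₂ _ _).mpr ⟨f, hmem, hfr⟩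
    have hbox := H.le_box ((ha.trans hc).trans (Nat.le_succ c)) (ha.trans hc) (by omega)
      (by omega) hM
    exact not_mem_of_ciExact hφ2 hbox.2
  -- the inverse
  have hinv : ((f : F))⁻¹ ∈ (SSRed.ofPair R₁ R₂).O :=
    ⟨ci_inv_mem R₁ ⟨(f : F), f.2.1⟩ (by rw [hfr1]; exact hφ1.ne_zero),
      ci_inv_mem R₂ ⟨(f : F), f.2.2⟩ (by rw [hfr2]; exact hφ2.ne_zero)⟩
  -- the divisor of zeros
  have hD₂ : ∀ v : Place K F, (divOf (K := K) (f : F) + (c + 1) • f3dDiv P₁ P₂ 1 1) v =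
      v.ord (f : F) + ((c + 1 : ℕ) : ℤ) * f3dDiv P₁ P₂ 1 1 v := by
    intro v
    rw [Finsupp.add_apply, divOf_apply hf0, Finsupp.smul_apply, nsmul_eq_mul]
  have hD₁ : ∀ v : Place K F, 0 ≤ f3dDiv P₁ P₂ 1 1 v := fun v =>
    Finsupp.le_def.mp (f3dDiv_nonneg P₁ P₂ 1 1) v
  refine ⟨divOf (K := K) (f : F) + (c + 1) • f3dDiv P₁ P₂ 1 1, c + 1, f, ⟨((f : F))⁻¹, hinv⟩,
    ⟨Nat.succ_pos c, hmk, Subtype.ext (mul_inv_cancel₀ hf0), hD₁, ?_, ?_, ?_, ?_, ?_, ?_, ?_⟩⟩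
  · -- `D₂ ≥ 0`
    intro v
    rw [hD₂]
    have := hfL v
    rw [Finsupp.smul_apply, nsmul_eq_mul] at this
    linarith
  · -- disjoint
    intro v
    by_cases h1 : v = P₁
    · right
      rw [hD₂, h1, hex1, ci_f3dDiv_apply_fst hP]
      push_cast
      ring
    by_cases h2 : v = P₂
    · right
      rw [hD₂, h2, hex2, ci_f3dDiv_apply_snd hP]
      push_cast
      ring
    · left
      exact ci_f3dDiv_apply_of_ne 1 1 h1 h2
  · -- `ord f`
    intro v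
    rw [hD₂]
    ring
  · -- `red f` glued
    rw [hfr]
    exact hφg
  · -- `e₁ (red f) ≠ 0`
    intro i
    rw [hfr, hφe]
    exact one_ne_zero
  · -- cst
    intro a c' r _ hr hrφ heq
    rw [hfr] at hrφ
    obtain ⟨c₁, hc₁⟩ := ci_const hφ1 hr.1 hrφ.1
    obtain ⟨c₂, hc₂⟩ := ci_const hφ2 hr.2 hrφ.2
    have hr' : r = (algebraMap k Fk c₁, algebraMap k Fk c₂) := Prod.ext hc₁.symm hc₂.symm
    have hn' : 0 < X.gluing.n := hn
    have h12 : c₁ = c₂ := by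
      have h := congrFun heq ⟨0, hn'⟩
      rw [hr', X.gluing_e₁_const, X.gluing_e₂_const] at h
      exact h
    refine ⟨c₁, ?_⟩
    rw [hr', Prod.algebraMap_apply, h12]
  · -- pol
    intro a c' g₁ g₂ h1 h2 h3
    rw [hfr] at h2 h3 ⊢
    obtain ⟨p1, p2⟩ := ci_pol hφ1 h1.1 h2.1 h3.1
    obtain ⟨q1, q2⟩ := ci_pol hφ2 h1.2 h2.2 h3.2
    exact ⟨⟨p1, q1⟩, ⟨p2, q2⟩⟩

/-- **TWIST at the instance, divisor form**: `GLUE-INST` + `CRUX-INST` + `tw_principal`. -/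
theorem tw_principal [Infinite k] {a₀ m : ℕ} (H : F3dEX R₁ R₂ P₁ P₂ Q Q a₀) (hm : 0 < m)
    (hmk : (m : k) ≠ 0) (hP : P₁ ≠ P₂) (hn : 0 < X.n) {g : SemilinearAut K F} {Q' : ℕ}
    (hg : TwistAut (SSRed.ofPair R₁ R₂) X.gluing (f3dDiv P₁ P₂ 1 1) g Q') (E : Divisor K F)
    (hE : Divisor.degree E = 0) (u uinv : (SSRed.ofPair R₁ R₂).O) (huu : u * uinv = 1)
    (hT : (SSRed.ofPair R₁ R₂).red u ∈ X.gluing.T 0)
    (hT' : (SSRed.ofPair R₁ R₂).red uinv ∈ X.gluing.T 0)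
    (hdiv : ∀ v : Place K F, v.ord (u : F) = m * E v)
    (hgu : (SSRed.ofPair R₁ R₂).red ⟨g • (u : F), hg.mem _ u.2⟩ =
      (SSRed.ofPair R₁ R₂).red u ^ Q') :
    g • E - Q' • E ∈ Divisor.principal (K := K) (F := F) := by
  obtain ⟨a₁, ha, hyp⟩ := X.twistHyp H hm
  obtain ⟨D₂, n₂, f, finv, hc⟩ := X.twistCrux H ha hyp hmk hP hn
  exact Fermat.Agent.S34lib.tw_principal hyp hc hg E hE u uinv huu hT hT' hdiv hgu

/-- **TWIST at the instance, Kummer form**. -/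
theorem tw_kummer [Infinite k] {a₀ m : ℕ} (H : F3dEX R₁ R₂ P₁ P₂ Q Q a₀) (hm : 0 < m)
    (hmk : (m : k) ≠ 0) (hP : P₁ ≠ P₂) (hn : 0 < X.n) {g : SemilinearAut K F} {Q' : ℕ}
    (hg : TwistAut (SSRed.ofPair R₁ R₂) X.gluing (f3dDiv P₁ P₂ 1 1) g Q')
    (u uinv : (SSRed.ofPair R₁ R₂).O) (huu : u * uinv = 1)
    (hT : (SSRed.ofPair R₁ R₂).red u ∈ X.gluing.T 0)
    (hT' : (SSRed.ofPair R₁ R₂).red uinv ∈ X.gluing.T 0)
    (hdvd : ∀ v : Place K F, (m : ℤ) ∣ v.ord (u : F))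
    (hgu : (SSRed.ofPair R₁ R₂).red ⟨g • (u : F), hg.mem _ u.2⟩ =
      (SSRed.ofPair R₁ R₂).red u ^ Q') :
    ∃ (c : K) (s : F), s ≠ 0 ∧ g • (u : F) = algebraMap K F c * s ^ m * (u : F) ^ Q' := by
  obtain ⟨a₁, ha, hyp⟩ := X.twistHyp H hm
  obtain ⟨D₂, n₂, f, finv, hc⟩ := X.twistCrux H ha hyp hmk hP hn
  exact Fermat.Agent.S34lib.tw_kummer hyp hc hg u uinv huu hT hT' hdvd hgu

end GlueData

end Inst

end Fermat.Agent.S34lib

end
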