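/-
Item 79 (S34), block F, piece (V) part 7 / blueprint C2 (helper24): **hred at `q ‖ N`**,
the final assembly.  See `VRedInto.lean` for the strategy.
-/
import Mathlib
import Fermat.Agent.S34lib.VRedInto

set_option autoImplicit false
set_option synthInstance.maxHeartbeats 400000

noncomputable section

namespace Fermat.Agent.S34lib

open ModularCurve Fermat.Agent.GoodRed Fermat.Agent.GM Fermat.Agent.S24lib IntermediateField
open Polynomial

section Main

variable (N q : ℕ) [NeZero N] (hq : q.Prime) (hqN : q ∣ N) (hq2 : ¬ q ^ 2 ∣ N)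
variable (A : ValuationSubring Kbar) (hA : A.LiesOverPrime q)

/-- elements of `v_∞`'s unit ball given by integral series -/
theorem vredInf_series (y : LaurentSeries A)
    (hy : coeffMap A.subtype y ∈ modularFunctionFieldBar N) :
    ∃ h : (⟨coeffMap A.subtype y, hy⟩ : FF N) ∈ (vredInf N q A hq hA).O,
      (vredInf N q A hq hA).red ⟨_, h⟩ = coeffMap (IsLocalRing.residue A) y :=
  vredOfUnitBall_series (vri_hfrac N q hq A hA) y hy

theorem vredZero_mem_iff (x : FF N) :
    x ∈ (vredZero N q A hq hqN hq2 hA).O ↔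
      atkinLehnerFF N q hq hqN hq2 x ∈ (vredInf N q A hq hA).O :=
  VRed.mem_comap (vredInf N q A hq hA) (atkinLehnerFF N q hq hqN hq2) x

theorem vredZero_red (x : FF N) (hx : x ∈ (vredZero N q A hq hqN hq2 hA).O) :
    (vredZero N q A hq hqN hq2 hA).red ⟨x, hx⟩ =
      (vredInf N q A hq hA).red ⟨atkinLehnerFF N q hq hqN hq2 x,
        (vredZero_mem_iff N q hq hqN hq2 A hA x).mp hx⟩ :=
  VRed.comap_red (vredInf N q A hq hA) (atkinLehnerFF N q hq hqN hq2) x hx

/-- `w_q` of an integral series lies in the unit ball of `v_0` -/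
theorem vredZero_series (y : LaurentSeries A)
    (hy : coeffMap A.subtype y ∈ modularFunctionFieldBar N) :
    ∃ h : atkinLehnerFF N q hq hqN hq2 (⟨coeffMap A.subtype y, hy⟩ : FF N) ∈
        (vredZero N q A hq hqN hq2 hA).O,
      (vredZero N q A hq hqN hq2 hA).red ⟨_, h⟩ = coeffMap (IsLocalRing.residue A) y := by
  obtain ⟨h1, h2⟩ := vredInf_series N q hq A hA y hy
  have e : atkinLehnerFF N q hq hqN hq2
      (atkinLehnerFF N q hq hqN hq2 (⟨coeffMap A.subtype y, hy⟩ : FF N)) =
      ⟨coeffMap A.subtype y, hy⟩ := atkinLehnerFF_involutive N q hq hqN hq2 _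
  have hmem : atkinLehnerFF N q hq hqN hq2 (⟨coeffMap A.subtype y, hy⟩ : FF N) ∈
      (vredZero N q A hq hqN hq2 hA).O := by
    rw [vredZero_mem_iff, e]
    exact h1
  refine ⟨hmem, ?_⟩
  rw [vredZero_red, ← h2]
  congr 1
  exact Subtype.ext e

/-- the element `e` with `v_∞(e) > 0` and `v_0(1 - e) > 0` -/
theorem vri_exists_e [NeZero q] :
    ∃ e : FF N, (∃ h : e ∈ (vredInf N q A hq hA).O, (vredInf N q A hq hA).red ⟨e, h⟩ = 0) ∧
      ∃ h : 1 - e ∈ (vredZero N q A hq hqN hq2 hA).O,
        (vredZero N q A hq hqN hq2 hA).red ⟨1 - e, h⟩ = 0 := by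
  haveI : Fact q.Prime := ⟨hq⟩
  haveI : CharP (IsLocalRing.ResidueField A) q := charP_residueField hA
  -- the series
  set J : LaurentSeries A := jqModC A with hJ
  set Jq : LaurentSeries A := qExpand A q (jqModC A) with hJq
  set G₀ : LaurentSeries A := Jq - J ^ q with hG₀
  set G₀' : LaurentSeries A := J - Jq ^ q with hG₀'
  set S : LaurentSeries A := G₀ + G₀' with hS
  have hJm : coeffMap A.subtype J ∈ modularFunctionFieldBar N := vri_mem_J N A
  have hJqm : coeffMap A.subtype Jq ∈ modularFunctionFieldBar N := vri_mem_Jd N A q hqN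
  have hG₀m : coeffMap A.subtype G₀ ∈ modularFunctionFieldBar N := by
    rw [hG₀, map_sub, map_pow]
    exact sub_mem hJqm (pow_mem hJm q)
  have hG₀'m : coeffMap A.subtype G₀' ∈ modularFunctionFieldBar N := by
    rw [hG₀', map_sub, map_pow]
    exact sub_mem hJm (pow_mem hJqm q)
  have hSm : coeffMap A.subtype S ∈ modularFunctionFieldBar N := by
    rw [hS, map_add]
    exact add_mem hG₀m hG₀'m
  -- reductions
  have hJr : coeffMap (IsLocalRing.residue A) J = jqModC (IsLocalRing.ResidueField A) :=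
    coeffMap_jqModC _
  have hJqr : coeffMap (IsLocalRing.residue A) Jq = jqModC (IsLocalRing.ResidueField A) ^ q := by
    rw [hJq, hr_coeffMap_gen]
    exact vri_kron (IsLocalRing.ResidueField A) q
  have hG₀r : coeffMap (IsLocalRing.residue A) G₀ = 0 := by
    rw [hG₀, map_sub, map_pow, hJqr, hJr, sub_self]
  have hSr : coeffMap (IsLocalRing.residue A) S ≠ 0 := by
    rw [hS, map_add, hG₀r, zero_add, hG₀', map_sub, map_pow, hJqr, hJr, ← pow_mul]
    exact vri_j_ne_pow _ (by
      have := hq.one_lt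
      nlinarith)
  -- the elements of `FF N`
  set g₀ : FF N := ⟨coeffMap A.subtype G₀, hG₀m⟩ with hg₀
  set g₀' : FF N := ⟨coeffMap A.subtype G₀', hG₀'m⟩ with hg₀'
  set s : FF N := ⟨coeffMap A.subtype S, hSm⟩ with hs
  have hs0 : s ≠ 0 := by
    intro h0
    have h1 : coeffMap A.subtype S = 0 := congrArg Subtype.val h0
    have h2 : S = 0 := coeffMap_valSubtype_injective A (by rw [h1, map_zero])
    exact hSr (by rw [h2, map_zero])
  have hsum : s = g₀ + g₀' := by
    apply Subtype.ext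
    show coeffMap A.subtype S = coeffMap A.subtype G₀ + coeffMap A.subtype G₀'
    rw [hS, map_add]
  have hg₀eq : g₀ = jdF N q hqN - jF N ^ q := by
    rw [vri_jF_eq N A, vri_jdF_eq N A q hqN]
    apply Subtype.ext
    show coeffMap A.subtype G₀ = coeffMap A.subtype Jq - (coeffMap A.subtype J) ^ q
    rw [hG₀, map_sub, map_pow]
  have hg₀'eq : g₀' = jF N - jdF N q hqN ^ q := by
    rw [vri_jF_eq N A, vri_jdF_eq N A q hqN]
    apply Subtype.ext
    show coeffMap A.subtype G₀' = coeffMap A.subtype J - (coeffMap A.subtype Jq) ^ q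
    rw [hG₀', map_sub, map_pow]
  have hwj : atkinLehnerFF N q hq hqN hq2 (jF N) = jdF N q hqN := atkinLehnerFF_jF N q hq hqN hq2
  have hwjq : atkinLehnerFF N q hq hqN hq2 (jdF N q hqN) = jF N := by
    rw [← hwj, atkinLehnerFF_involutive]
  have hwg₀ : atkinLehnerFF N q hq hqN hq2 g₀ = g₀' := by
    rw [hg₀eq, hg₀'eq, map_sub, map_pow, hwj, hwjq]
  have hwg₀' : atkinLehnerFF N q hq hqN hq2 g₀' = g₀ := by
    rw [← hwg₀, atkinLehnerFF_involutive]
  have hws : atkinLehnerFF N q hq hqN hq2 s = s := by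
    rw [hsum, map_add, hwg₀, hwg₀', add_comm]
  obtain ⟨he₁, hre₁⟩ := vredOfUnitBall_frac (vri_hfrac N q hq A hA) G₀ S hG₀m hSm hSr
  rw [hG₀r, zero_div] at hre₁
  refine ⟨g₀ / s, ⟨he₁, hre₁⟩, ?_⟩
  have hw : atkinLehnerFF N q hq hqN hq2 (1 - g₀ / s) = g₀ / s := by
    rw [map_sub, map_one, map_div₀, hwg₀, hws]
    rw [eq_div_iff hs0, sub_mul, one_mul, div_mul_cancel₀ _ hs0, hsum]
    ring
  have hmem : 1 - g₀ / s ∈ (vredZero N q A hq hqN hq2 hA).O := by
    rw [vredZero_mem_iff, hw]
    exact he₁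
  refine ⟨hmem, ?_⟩
  rw [vredZero_red, ← hre₁]
  congr 1
  exact Subtype.ext hw

set_option maxHeartbeats 1600000 in
include hq hqN hq2 hA in
/-- **hred at `q ‖ N`** (blueprint C2): the reduction of every `A`-integral `q`-expansion lying
in `F_N` lies in `F_{N/q, k}`. -/
theorem hred_semistable :
    ∀ y : LaurentSeries A, coeffMap A.subtype y ∈ modularFunctionFieldBar N →
      coeffMap (IsLocalRing.residue A) y ∈
        modularFunctionFieldFullC (IsLocalRing.ResidueField A) (N / q) := by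
  classical
  intro y hy
  by_contra hyk
  haveI : Fact q.Prime := ⟨hq⟩
  haveI : NeZero q := ⟨hq.ne_zero⟩
  haveI : CharP (IsLocalRing.ResidueField A) q := charP_residueField hA
  -- the level `N' = N / q`
  have hN : q * (N / q) = N := Nat.mul_div_cancel' hqN
  have hN'0 : N / q ≠ 0 := fun h => NeZero.ne N (by rw [← hN, h, mul_zero])
  haveI : NeZero (N / q) := ⟨hN'0⟩
  have hqN' : ¬ q ∣ N / q := fun h => hq2 (by
    rw [pow_two]
    calc q * q ∣ q * (N / q) := mul_dvd_mul_left q h
      _ = N := hN)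
  have hN'N : N / q ∣ N := Nat.div_dvd_of_dvd hqN
  -- degrees
  have hdegN : Module.finrank Kbar⟮jF N⟯ (FF N) = (q + 1) * dedekindPsi (N / q) := by
    rw [fin_finrank N, ← Fermat.Agent.S20lib.dedekindPsi_prime_mul_of_not_dvd hq hN'0 hqN', hN]
  have hdegk : Module.finrank
      (IsLocalRing.ResidueField A)⟮jk (IsLocalRing.ResidueField A) (N / q)⟯
      (Fk (IsLocalRing.ResidueField A) (N / q)) = dedekindPsi (N / q) := by
    have := finrank_Fk_modL (N / q) hqN' A hA
    rwa [hr_adjoin_inv] at this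
  have hn'pos : 0 < dedekindPsi (N / q) := Fermat.Agent.HeckeBar.dedekindPsi_pos (N / q)
  haveI : Module.Finite (IsLocalRing.ResidueField A)⟮jk (IsLocalRing.ResidueField A) (N / q)⟯
      (Fk (IsLocalRing.ResidueField A) (N / q)) :=
    Module.finite_of_finrank_pos (by rw [hdegk]; exact hn'pos)
  haveI : FiniteDimensional Kbar⟮jF N⟯ (FF N) :=
    Module.finite_of_finrank_pos (by rw [hdegN]; exact Nat.mul_pos (Nat.succ_pos q) hn'pos)
  let b : Module.Basis (Fin (dedekindPsi (N / q)))
      (IsLocalRing.ResidueField A)⟮jk (IsLocalRing.ResidueField A) (N / q)⟯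
      (Fk (IsLocalRing.ResidueField A) (N / q)) :=
    (Module.finBasis _ _).reindex (finCongr hdegk)
  -- lifts of the basis
  have hFk : modularFunctionFieldFullC (IsLocalRing.ResidueField A) (N / q) =
      IntermediateField.adjoin (IsLocalRing.ResidueField A)
        (coeffMap (IsLocalRing.residue A) '' hr_gens A (N / q)) := by
    rw [hr_image_gens]
    rfl
  have hfr : ∀ i, ∃ a ∈ hr_RA A (hr_gens A (N / q)), ∃ b' ∈ hr_RA A (hr_gens A (N / q)),
      coeffMap (IsLocalRing.residue A) b' ≠ 0 ∧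
      ((b i : Fk (IsLocalRing.ResidueField A) (N / q)) :
          LaurentSeries (IsLocalRing.ResidueField A)) *
        coeffMap (IsLocalRing.residue A) b' = coeffMap (IsLocalRing.residue A) a := fun i =>
    hr_frac A (hr_gens A (N / q)) ((le_of_eq hFk) (b i).2)
  choose aa haa bb hbb hbb0 hab using hfr
  set B : LaurentSeries A := ∏ l, bb l with hB
  have hBmem : B ∈ hr_RA A (hr_gens A (N / q)) := Subring.prod_mem _ fun l _ => hbb l
  have hB0 : coeffMap (IsLocalRing.residue A) B ≠ 0 := by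
    rw [hB, map_prod]
    exact Finset.prod_ne_zero_iff.mpr fun l _ => hbb0 l
  set Y₀ : Fin (dedekindPsi (N / q)) → LaurentSeries A :=
    fun i => aa i * ∏ l ∈ Finset.univ.erase i, bb l with hY₀
  have hY₀mem : ∀ i, Y₀ i ∈ hr_RA A (hr_gens A (N / q)) := fun i =>
    (hr_RA A (hr_gens A (N / q))).mul_mem (haa i) (Subring.prod_mem _ fun l _ => hbb l)
  have hY₀red : ∀ i, coeffMap (IsLocalRing.residue A) (Y₀ i) =
      ((b i : Fk (IsLocalRing.ResidueField A) (N / q)) :
          LaurentSeries (IsLocalRing.ResidueField A)) *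
        coeffMap (IsLocalRing.residue A) B := by
    intro i
    rw [hY₀, map_mul, ← hab i, hB, mul_assoc, ← map_mul,
      Finset.mul_prod_erase Finset.univ bb (Finset.mem_univ i)]
  have hGF : ∀ g ∈ hr_gens A (N / q), coeffMap A.subtype g ∈ modularFunctionFieldBar N := by
    rintro g ⟨d, hd, hdN, rfl⟩
    exact vri_mem_Jd N A d (hdN.trans hN'N)
  have hRF : ∀ {a : LaurentSeries A}, a ∈ hr_RA A (hr_gens A (N / q)) →
      coeffMap A.subtype a ∈ modularFunctionFieldBar N := fun ha =>
    hr_ι_mem A (modularFunctionFieldBar N) (hr_gens A (N / q)) hGF ha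
  -- the first family
  set Y : Fin (dedekindPsi (N / q) + 1) → LaurentSeries A := Fin.snoc Y₀ (y * B) with hY
  have hYF : ∀ j, coeffMap A.subtype (Y j) ∈ modularFunctionFieldBar N := by
    intro j
    refine Fin.lastCases ?_ (fun i => ?_) j
    · rw [hY, Fin.snoc_last, map_mul]
      exact mul_mem hy (hRF hBmem)
    · rw [hY, Fin.snoc_castSucc]
      exact hRF (hY₀mem i)
  have hYred : (fun j => coeffMap (IsLocalRing.residue A) (Y j)) =
      (Fin.snoc (fun i => ((b i : Fk (IsLocalRing.ResidueField A) (N / q)) :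
          LaurentSeries (IsLocalRing.ResidueField A)) * coeffMap (IsLocalRing.residue A) B)
        (coeffMap (IsLocalRing.residue A) y * coeffMap (IsLocalRing.residue A) B) :
        Fin (dedekindPsi (N / q) + 1) → LaurentSeries (IsLocalRing.ResidueField A)) := by
    funext j
    refine Fin.lastCases ?_ (fun i => ?_) j
    · rw [hY, Fin.snoc_last, Fin.snoc_last, map_mul]
    · rw [hY, Fin.snoc_castSucc, Fin.snoc_castSucc, hY₀red]
  -- the second family
  set Z : Fin (dedekindPsi (N / q)) × Fin q → LaurentSeries A :=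
    fun p => Y₀ p.1 * jqModC A ^ (p.2 : ℕ) with hZ
  have hZF : ∀ p, coeffMap A.subtype (Z p) ∈ modularFunctionFieldBar N := by
    intro p
    rw [hZ, map_mul, map_pow]
    exact mul_mem (hRF (hY₀mem p.1)) (pow_mem (vri_mem_J N A) _)
  have hZred : (fun p => coeffMap (IsLocalRing.residue A) (Z p)) =
      fun p : Fin (dedekindPsi (N / q)) × Fin q =>
        (((b p.1 : Fk (IsLocalRing.ResidueField A) (N / q)) :
          LaurentSeries (IsLocalRing.ResidueField A)) * coeffMap (IsLocalRing.residue A) B) *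
          jqModC (IsLocalRing.ResidueField A) ^ (p.2 : ℕ) := by
    funext p
    rw [hZ, map_mul, map_pow, hY₀red, coeffMap_jqModC]
  -- the two reductions
  obtain ⟨e, ⟨he₁, hre₁⟩, he₂, hre₂⟩ := vri_exists_e N q hq hqN hq2 A hA
  have hu := fun j => vredInf_series N q hq A hA (Y j) (hYF j)
  have hz := fun p => vredZero_series N q hq hqN hq2 A hA (Z p) (hZF p)
  obtain ⟨ht₁', hrt₁'⟩ := vredInf_series N q hq A hA (jqModC A) (vri_mem_J N A)
  have hjF := vri_jF_eq N A
  have ht₁ : jF N ∈ (vredInf N q A hq hA).O := hjF ▸ ht₁'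
  have hrt₁ : (vredInf N q A hq hA).red ⟨jF N, ht₁⟩ =
      coeffMap (IsLocalRing.residue A) (jqModC A) := by
    have h1 : (vredInf N q A hq hA).red ⟨jF N, ht₁⟩ =
        (vredInf N q A hq hA).red ⟨_, ht₁'⟩ := by
      congr 1
      exact Subtype.ext hjF
    rw [h1, hrt₁']
  obtain ⟨ht₂', hrt₂'⟩ := vredZero_series N q hq hqN hq2 A hA (qExpand A q (jqModC A))
    (vri_mem_Jd N A q hqN)
  have hwjq : atkinLehnerFF N q hq hqN hq2
      (⟨coeffMap A.subtype (qExpand A q (jqModC A)), vri_mem_Jd N A q hqN⟩ : FF N) = jF N := by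
    rw [← vri_jdF_eq N A q hqN, ← atkinLehnerFF_jF N q hq hqN hq2, atkinLehnerFF_involutive]
  have ht₂ : jF N ∈ (vredZero N q A hq hqN hq2 hA).O := hwjq ▸ ht₂'
  have hrt₂ : (vredZero N q A hq hqN hq2 hA).red ⟨jF N, ht₂⟩ =
      jqModC (IsLocalRing.ResidueField A) ^ q := by
    have h1 : (vredZero N q A hq hqN hq2 hA).red ⟨jF N, ht₂⟩ =
        (vredZero N q A hq hqN hq2 hA).red ⟨_, ht₂'⟩ := by
      congr 1
      exact Subtype.ext hwjq.symm
    rw [h1, hrt₂', hr_coeffMap_gen]
    exact vri_kron (IsLocalRing.ResidueField A) q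
  have hjmem : jqModC (IsLocalRing.ResidueField A) ∈
      modularFunctionFieldFullC (IsLocalRing.ResidueField A) (N / q) := jqModC_mem_full _ _
  have hord : (jqModC (IsLocalRing.ResidueField A)).order < 0 := hr_order_jqModC _
  have hLI₁ : VPolyLI (IsLocalRing.ResidueField A) ((vredInf N q A hq hA).red ⟨jF N, ht₁⟩)
      (fun j => (vredInf N q A hq hA).red ⟨_, (hu j).1⟩) := by
    have e1 : (fun j => (vredInf N q A hq hA).red ⟨_, (hu j).1⟩) =
        fun j => coeffMap (IsLocalRing.residue A) (Y j) := funext fun j => (hu j).2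
    rw [e1, hYred, hrt₁, coeffMap_jqModC]
    exact vri_polyLI_snoc (modularFunctionFieldFullC (IsLocalRing.ResidueField A) (N / q))
      hjmem hord b _ hB0 _ hyk
  have hLI₂ : VPolyLI (IsLocalRing.ResidueField A) ((vredZero N q A hq hqN hq2 hA).red ⟨jF N, ht₂⟩)
      (fun p => (vredZero N q A hq hqN hq2 hA).red ⟨_, (hz p).1⟩) := by
    have e1 : (fun p => (vredZero N q A hq hqN hq2 hA).red ⟨_, (hz p).1⟩) =
        fun p => coeffMap (IsLocalRing.residue A) (Z p) := funext fun p => (hz p).2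
    rw [e1, hZred, hrt₂]
    exact (vri_polyLI_basis (modularFunctionFieldFullC (IsLocalRing.ResidueField A) (N / q))
      hjmem hord b _ hB0).pow q hq.pos
  have key := twoVal_card_add_le (vredInf N q A hq hA) (vredZero N q A hq hqN hq2 hA)
    (vri_arch q hq A hA) e he₁ hre₁ he₂ hre₂ (jF N) ht₁ ht₂
    (fun j => ⟨_, (hu j).1⟩) (fun p => ⟨_, (hz p).1⟩) hLI₁ hLI₂
  rw [hdegN, Fintype.card_fin, Fintype.card_prod, Fintype.card_fin, Fintype.card_fin] at key
  nlinarith

end Main

end Fermat.Agent.S34lib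

end
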