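import Mathlib
import Fermat.Agent.GoodRed.ModDatum
import Fermat.Agent.GoodRed.DescTower
import Fermat.Agent.HeckeBar.ModDeg
import Fermat.Agent.S34lib.VRedIntoMain

/-!
# Item 79 (S34), piece C3a: the constant reduction `R∞` at `q ‖ N`, from `hred`

`N' ∣ N`, `A` a proper valuation ring of `ℚ̄` with residue field `k`.  If the coefficientwise
reduction of every `A`-integral `q`-expansion lying in `F_N` lies in `F_{N',k}` (`hred`, for
`N = N' q`, `A ∣ q` this is `hred_semistable`, piece C2), then the Gauss valuation of the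
`q`-expansion at `∞` is a constant reduction `R∞ : ConstRed A res F_{N',k} F_N` with the series
property `IsSeriesRed` (integral series of `F_N` lie in `O∞` and reduce coefficientwise).

* `cri_redOnto` : every element of `F_{N',k}` is a quotient of reductions of integral series of
  `F_N` (from level `N'`, `F_{N'} ⊆ F_N`);
* `exists_constRedInf` : the datum `R∞` with `IsSeriesRed R∞`;
* `exists_constRedInf_mul` : the same for `N = M' * q`;
* `exists_constRedInf_semistable`, `exists_constRedInf_aux` : UNCONDITIONAL, for `q ‖ N`,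
  `A ∣ q`, residue level `N / q` (resp. `N = M' * q`, `q ∤ M'`, residue level `M'`), from
  `hred_semistable` (piece C2).
-/

set_option autoImplicit false
set_option synthInstance.maxHeartbeats 400000
set_option linter.style.haveILetI false

noncomputable section

namespace Fermat.Agent.S34lib

open ModularCurve AlgebraicCurve Fermat.Agent.GoodRed Fermat.Agent.HeckeBar Fermat.Agent.S24lib

/-- every element of `F_{N',k}` is a quotient of reductions of integral series of `F_N`,
`N' ∣ N`. -/
theorem cri_redOnto (N N' : ℕ) [NeZero N] [NeZero N'] (hN : N' ∣ N)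
    (A : ValuationSubring (AlgebraicClosure ℚ)) :
    RedOnto A (modularFunctionFieldBar N)
      (modularFunctionFieldFullC (IsLocalRing.ResidueField A) N') := by
  intro w hw
  obtain ⟨a, b, ha, hb, hpb, hab⟩ := redOnto_modular A N' w hw
  exact ⟨a, b, ffBar_mono hN ha, ffBar_mono hN hb, hpb, hab⟩

/-- **C3a**: the constant reduction `R∞` of `F_N` with residue field `F_{N',k}`, given `hred`. -/
theorem exists_constRedInf (N N' : ℕ) [NeZero N] [NeZero N'] (hN : N' ∣ N)
    (A : ValuationSubring (AlgebraicClosure ℚ)) (hA : A ≠ ⊤)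
    (hred : ∀ y : LaurentSeries A, coeffMap A.subtype y ∈ modularFunctionFieldBar N →
      coeffMap (IsLocalRing.residue A) y ∈
        modularFunctionFieldFullC (IsLocalRing.ResidueField A) N') :
    ∃ R : ConstRed A (IsLocalRing.residue A)
        (↥(modularFunctionFieldFullC (IsLocalRing.ResidueField A) N'))
        (↥(modularFunctionFieldBar N)),
      IsSeriesRed R := by
  have halg : ∀ c : AlgebraicClosure ℚ, IsIntegral ℚ c := fun c =>
    ((AlgebraicClosure.isAlgebraic ℚ).isAlgebraic c).isIntegral
  obtain ⟨ℓ, hℓ, hlt⟩ := exists_prime_valuation_lt_one halg hA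
  have hfracNF : ∀ f ∈ modularFunctionFieldBar N,
      IsFracNF A (modularFunctionFieldBar N) f := fun f hf => isFracNF_of_mem halg hf
  exact ⟨constRedOf halg hℓ hlt hfracNF hred (cri_redOnto N N' hN A),
    constRedOf_spec halg hℓ hlt hfracNF hred (cri_redOnto N N' hN A)⟩

/-- **C3a**, level `N = M' * q`. -/
theorem exists_constRedInf_mul (M' q : ℕ) [NeZero M'] [NeZero (M' * q)]
    (A : ValuationSubring (AlgebraicClosure ℚ)) (hA : A ≠ ⊤)
    (hred : ∀ y : LaurentSeries A, coeffMap A.subtype y ∈ modularFunctionFieldBar (M' * q) →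
      coeffMap (IsLocalRing.residue A) y ∈
        modularFunctionFieldFullC (IsLocalRing.ResidueField A) M') :
    ∃ R : ConstRed A (IsLocalRing.residue A)
        (↥(modularFunctionFieldFullC (IsLocalRing.ResidueField A) M'))
        (↥(modularFunctionFieldBar (M' * q))),
      IsSeriesRed R :=
  exists_constRedInf (M' * q) M' (dvd_mul_right M' q) A hA hred

/-- a valuation ring lying over a prime is proper -/
theorem cri_ne_top (q : ℕ) (A : ValuationSubring (AlgebraicClosure ℚ))
    (hA : A.valuation (q : AlgebraicClosure ℚ) < 1) (hq : q ≠ 0) : A ≠ ⊤ := by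
  rintro rfl
  have hq' : (q : AlgebraicClosure ℚ) ≠ 0 := Nat.cast_ne_zero.mpr hq
  have h1 : ((q : AlgebraicClosure ℚ))⁻¹ ∈ (⊤ : ValuationSubring (AlgebraicClosure ℚ)) :=
    ValuationSubring.mem_top _
  have h2 := (ValuationSubring.valuation_le_one_iff _ _).mpr h1
  rw [map_inv₀] at h2
  have h3 : (⊤ : ValuationSubring (AlgebraicClosure ℚ)).valuation (q : AlgebraicClosure ℚ) ≠ 0 :=
    (Valuation.ne_zero_iff _).mpr hq'
  have h4 := (inv_le_one₀ (zero_lt_iff.mpr h3)).mp h2
  exact absurd hA (not_lt.mpr h4)

/-- **C3a, unconditional**: `R∞` at `q ‖ N`, residue level `N / q`. -/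
theorem exists_constRedInf_semistable (N q : ℕ) [NeZero N] (hq : q.Prime) (hqN : q ∣ N)
    (hq2 : ¬ q ^ 2 ∣ N) (A : ValuationSubring (AlgebraicClosure ℚ)) (hA : A.LiesOverPrime q) :
    ∃ R : ConstRed A (IsLocalRing.residue A)
        (↥(modularFunctionFieldFullC (IsLocalRing.ResidueField A) (N / q)))
        (↥(modularFunctionFieldBar N)),
      IsSeriesRed R := by
  have hN : q * (N / q) = N := Nat.mul_div_cancel' hqN
  have hN'0 : N / q ≠ 0 := fun h => NeZero.ne N (by rw [← hN, h, mul_zero])
  haveI : NeZero (N / q) := ⟨hN'0⟩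
  exact exists_constRedInf N (N / q) (Nat.div_dvd_of_dvd hqN) A
    (cri_ne_top q A hA hq.ne_zero) (hred_semistable N q hq hqN hq2 A hA)

/-- **C3a, unconditional**, level `M' * q` with `q ∤ M'`, residue level `M'`. -/
theorem exists_constRedInf_aux (M' q : ℕ) [NeZero M'] (hq : q.Prime) (hqM' : ¬ q ∣ M')
    (A : ValuationSubring (AlgebraicClosure ℚ)) (hA : A.LiesOverPrime q) :
    ∃ R : ConstRed A (IsLocalRing.residue A)
        (↥(modularFunctionFieldFullC (IsLocalRing.ResidueField A) M'))
        (↥(modularFunctionFieldBar (M' * q))),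
      IsSeriesRed R := by
  haveI : NeZero (M' * q) := ⟨Nat.mul_ne_zero (NeZero.ne M') hq.ne_zero⟩
  have hq2 : ¬ q ^ 2 ∣ M' * q := by
    intro h
    rw [pow_two] at h
    exact hqM' (Nat.dvd_of_mul_dvd_mul_right hq.pos h)
  have hdiv : M' * q / q = M' := Nat.mul_div_cancel M' hq.pos
  refine exists_constRedInf_mul M' q A (cri_ne_top q A hA hq.ne_zero) ?_
  intro y hy
  have h := hred_semistable (M' * q) q hq (dvd_mul_left q M') hq2 A hA y hy
  rwa [hdiv] at h

end Fermat.Agent.S34lib

end
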