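/-
Item 79 (S34), piece C5 (EX), part 2 (helper17): the fibre of a place in a finite extension of
function fields, when two places with `e₁ + e₂ = [F' : F]` are known.  No sorry.

* `exf_restrict_eq` : `w.ord (φ f) = e · v.ord f` for all `f` (`e > 0`) ⟹ `w` lies over `v`
  and `e(w | v) = e`;
* `exf_fiber` : two places `w₁ ≠ w₂` over `v` with `e₁ + e₂ = [F' : F]` (all places of degree `1`)
  are the only places over `v`;
* `exf_ord_nonneg` : hence a function of `F` with poles only at `v` has, in `F'`, poles only at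
  `w₁, w₂`.
-/
import Mathlib
import Fermat.Prelude.Def_AlgebraicCurve_Correspondence
import Fermat.Agent.S24lib.FFBasic

set_option autoImplicit false
set_option linter.style.haveILetI false

noncomputable section

namespace Fermat.Agent.S34lib

open AlgebraicCurve Fermat.Agent.S24lib

section Generic

variable {K F F' : Type*} [Field K] [Field F] [Field F']
  [Algebra K F] [Algebra K F'] [Algebra F F'] [IsScalarTower K F F'] [Algebra.IsIntegral F F']

/-- a place `w` of `F'` with `w.ord f = e · v.ord f` on `F` lies over `v`, with ramification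
index `e`. -/
theorem exf_restrict_eq (v : Place K F) (w : Place K F') (e : ℕ) (he : 0 < e)
    (h : ∀ f : F, w.ord (algebraMap F F' f) = e * v.ord f) :
    w.restrict F = v ∧ w.ramificationIndex F = e := by
  have hres : w.restrict F = v := by
    apply Place.ext
    ext f
    rw [Place.mem_restrict_iff, ffMem_iff_ord_nonneg, ffMem_iff_ord_nonneg, h f]
    have he' : (0 : ℤ) < e := by exact_mod_cast he
    constructor
    · intro h0
      by_contra hcon
      have : (e : ℤ) * v.ord f < 0 := mul_neg_of_pos_of_neg he' (not_le.mp hcon)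
      omega
    · intro h0
      exact mul_nonneg he'.le h0
  refine ⟨hres, ?_⟩
  obtain ⟨π, hπ⟩ := IsDiscreteValuationRing.exists_irreducible v.toValuationSubring
  have h1 := w.ord_restrict (F := F) (π : F)
  rw [h (π : F), hres, v.ord_coe_irreducible hπ, mul_one, mul_one] at h1
  exact_mod_cast h1.symm

variable [HasPrincipalDivisors K F'] [FundamentalIdentity K F F']

/-- two places over `v` whose ramification indices add up to the degree are the whole fibre. -/
theorem exf_fiber (hdeg : ∀ w : Place K F', w.deg = 1) (v : Place K F) (hv : v.deg = 1)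
    (w₁ w₂ : Place K F') (h12 : w₁ ≠ w₂) (hw₁ : w₁.restrict F = v) (hw₂ : w₂.restrict F = v)
    (hsum : w₁.ramificationIndex F + w₂.ramificationIndex F = Module.finrank F F')
    (w : Place K F') (hw : w.restrict F = v) : w = w₁ ∨ w = w₂ := by
  classical
  by_contra hcon
  push Not at hcon
  have hFI := FundamentalIdentity.sum_ramificationIndex_mul_deg (K := K) (F := F) (F' := F') v
  have hsimp : ∑ w ∈ v.fiber F', (w.ramificationIndex F : ℤ) * (w.deg : ℤ)
      = ∑ w ∈ v.fiber F', (w.ramificationIndex F : ℤ) :=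
    Finset.sum_congr rfl fun w _ => by rw [hdeg w]; simp
  rw [hsimp, hv] at hFI
  have hsub : ({w₁, w₂, w} : Finset (Place K F')) ⊆ v.fiber F' := by
    intro x hx
    simp only [Finset.mem_insert, Finset.mem_singleton] at hx
    rcases hx with rfl | rfl | rfl
    · exact Place.mem_fiber.mpr hw₁
    · exact Place.mem_fiber.mpr hw₂
    · exact Place.mem_fiber.mpr hw
  have hle : ∑ x ∈ ({w₁, w₂, w} : Finset (Place K F')), (x.ramificationIndex F : ℤ)
      ≤ ∑ x ∈ v.fiber F', (x.ramificationIndex F : ℤ) :=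
    Finset.sum_le_sum_of_subset_of_nonneg hsub fun x _ _ => Int.natCast_nonneg _
  have h3 : ∑ x ∈ ({w₁, w₂, w} : Finset (Place K F')), (x.ramificationIndex F : ℤ)
      = w₁.ramificationIndex F + (w₂.ramificationIndex F + w.ramificationIndex F) := by
    rw [Finset.sum_insert, Finset.sum_insert, Finset.sum_singleton]
    · simp only [Finset.mem_singleton]
      exact fun h => hcon.2 h.symm
    · simp only [Finset.mem_insert, Finset.mem_singleton, not_or]
      exact ⟨h12, fun h => hcon.1 h.symm⟩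
  have hpos : 0 < w.ramificationIndex F := w.ramificationIndex_pos
  have hsumZ : (w₁.ramificationIndex F : ℤ) + w₂.ramificationIndex F = Module.finrank F F' := by
    exact_mod_cast hsum
  rw [h3, hFI] at hle
  have : (0 : ℤ) < w.ramificationIndex F := by exact_mod_cast hpos
  omega

/-- a function with poles only at `v` has, upstairs, poles only at `w₁` and `w₂`. -/
theorem exf_ord_nonneg (hdeg : ∀ w : Place K F', w.deg = 1) (v : Place K F) (hv : v.deg = 1)
    (w₁ w₂ : Place K F') (h12 : w₁ ≠ w₂) (e₁ e₂ : ℕ) (he₁ : 0 < e₁) (he₂ : 0 < e₂)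
    (h₁ : ∀ f : F, w₁.ord (algebraMap F F' f) = e₁ * v.ord f)
    (h₂ : ∀ f : F, w₂.ord (algebraMap F F' f) = e₂ * v.ord f)
    (hsum : e₁ + e₂ = Module.finrank F F')
    (g : F) (hg : ∀ v' : Place K F, v' ≠ v → 0 ≤ v'.ord g)
    (w : Place K F') (hw₁ : w ≠ w₁) (hw₂ : w ≠ w₂) : 0 ≤ w.ord (algebraMap F F' g) := by
  obtain ⟨hr₁, hi₁⟩ := exf_restrict_eq v w₁ e₁ he₁ h₁
  obtain ⟨hr₂, hi₂⟩ := exf_restrict_eq v w₂ e₂ he₂ h₂
  have hne : w.restrict F ≠ v := by
    intro hw
    rcases exf_fiber hdeg v hv w₁ w₂ h12 hr₁ hr₂ (by rw [hi₁, hi₂, hsum]) w hw with h | h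
    · exact hw₁ h
    · exact hw₂ h
  rw [w.ord_restrict (F := F) g]
  exact mul_nonneg (Int.natCast_nonneg _) (hg _ hne)

end Generic

section Along

variable {K F F' : Type*} [Field K] [Field F] [Field F'] [Algebra K F] [Algebra K F']
  [HasPrincipalDivisors K F']

/-- `exf_ord_nonneg` along an algebra homomorphism `φ : F → F'`. -/
theorem exf_ord_nonneg_along (φ : F →ₐ[K] F') (hφ : φ.toRingHom.IsIntegral)
    (hFI : FundamentalIdentityAlong K φ hφ)
    (hdeg : ∀ w : Place K F', w.deg = 1) (v : Place K F) (hv : v.deg = 1)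
    (w₁ w₂ : Place K F') (h12 : w₁ ≠ w₂) (e₁ e₂ : ℕ) (he₁ : 0 < e₁) (he₂ : 0 < e₂)
    (h₁ : ∀ f : F, w₁.ord (φ f) = e₁ * v.ord f)
    (h₂ : ∀ f : F, w₂.ord (φ f) = e₂ * v.ord f)
    (hsum : e₁ + e₂ = finrankAlong K φ)
    (g : F) (hg : ∀ v' : Place K F, v' ≠ v → 0 ≤ v'.ord g)
    (w : Place K F') (hw₁ : w ≠ w₁) (hw₂ : w ≠ w₂) : 0 ≤ w.ord (φ g) := by
  letI := algebraAlong φ
  haveI := isScalarTower_along φ
  haveI := isIntegral_along φ hφ
  haveI : FundamentalIdentity K F F' := hFI
  exact exf_ord_nonneg hdeg v hv w₁ w₂ h12 e₁ e₂ he₁ he₂ h₁ h₂ hsum g hg w hw₁ hw₂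

end Along

end Fermat.Agent.S34lib

end
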