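/-
Item 79 (S34), piece C5 (EX), concrete part (helper17).  No sorry.

Level `M = M' q`, `q ∤ M'`, `A ⊂ ℚ̄` a valuation ring over `q`, `k` its residue field,
`Fk = F_{M',k}`.  `R'` a series reduction of `F_{M'}`, `R∞` a series reduction of `F_M` (both with
residue field `Fk`), `R0 = R∞ ∘ w_q`.  Given the lifting with pole control at level `M'`
(`ExLift`, blueprint C6) we produce the term `F3dEX R∞ R0 P∞ P0 Q Q a₀` required by
`S34lib/F3Dim.lean`.
-/
import Mathlib
import Fermat.Agent.S34lib.ExAbs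
import Fermat.Agent.S34lib.ExFibre
import Fermat.Agent.S34lib.InfPlaceAL
import Fermat.Agent.S34lib.InertiaRedAL
import Fermat.Agent.S34lib.ArchQ
import Fermat.Agent.S34lib.AffFrob
import Fermat.Agent.HeckeBar.GenNorm
import Fermat.Agent.HeckeBar.ModDeg
import Fermat.Agent.HeckeBar.Wiring
import Fermat.Agent.S37lib.FrobQ
import Fermat.Agent.GoodRed.DescTower

set_option autoImplicit false
set_option linter.style.haveILetI false
set_option linter.unusedSectionVars false
set_option synthInstance.maxHeartbeats 400000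

noncomputable section

namespace Fermat.Agent.S34lib

open AlgebraicCurve ModularCurve Fermat.Agent.GoodRed Fermat.Agent.S24lib Fermat.Agent.HeckeBar
open HahnSeries

/-! ### The fibre of `∞'` along `α` and `β` -/

section Fibre

variable (M' q : ℕ) [NeZero M'] [NeZero q] (hq : q.Prime) (hqM : ¬ q ∣ M')

/-- the fundamental identity for `α : F_{M'} → F_{M' q}` -/
theorem exp_fundId_alpha :
    haveI : HasPrincipalDivisors Kbar (FF (M' * q)) := wir_hasPrincipalDivisors (M' * q)
    FundamentalIdentityAlong Kbar (heckeAlphaBar Kbar M' q)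
      (isIntegral_inclBar M' (M' * q) (dvd_mul_right M' q)) := by
  haveI : HasPrincipalDivisors Kbar (FF (M' * q)) := wir_hasPrincipalDivisors (M' * q)
  haveI := fin_ffData (M' * q)
  exact fundamentalIdentityAlong_of_normFormulaAlong _ _
    (finiteAlong_inclBar M' (M' * q) (dvd_mul_right M' q))
    (gen_normFormula _ (x' := jF (M' * q)) _)

include hq hqM in
theorem exp_finrankAlong_alpha : finrankAlong Kbar (heckeAlphaBar Kbar M' q) = q + 1 := by
  have h := finrankAlong_inclBar_prime M' hq (M' * q) rfl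
  rw [if_neg hqM] at h
  exact h

/-- a function of level `M'` with poles only at `∞'` has, at level `M' q`, poles only at the
cusps `∞` and `0_q` (pull-back along `α`). -/
theorem exp_reg_alpha (g : FF M')
    (hg : ∀ v' : Place Kbar (FF M'), v' ≠ infPlaceBar M' → 0 ≤ v'.ord g)
    (P : Place Kbar (FF (M' * q))) (hP₁ : P ≠ infPlaceBar (M' * q))
    (hP₂ : P ≠ zeroPlaceBar (M' * q) q hq (dvd_mul_left q M') (inf_not_sq_dvd M' q hq hqM)) :
    0 ≤ P.ord (heckeAlphaBar Kbar M' q g) := by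
  haveI : HasPrincipalDivisors Kbar (FF (M' * q)) := wir_hasPrincipalDivisors (M' * q)
  refine exf_ord_nonneg_along (heckeAlphaBar Kbar M' q)
    (isIntegral_inclBar M' (M' * q) (dvd_mul_right M' q)) (exp_fundId_alpha M' q)
    (wir_deg_eq_one (M' * q)) (infPlaceBar M') (wir_deg_eq_one M' _)
    (infPlaceBar (M' * q))
    (zeroPlaceBar (M' * q) q hq (dvd_mul_left q M') (inf_not_sq_dvd M' q hq hqM))
    (infPlaceBar_ne_zeroPlaceBar (M' * q) q hq _ _) 1 q Nat.one_pos hq.pos ?_ ?_ ?_ g hg P hP₁ hP₂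
  · intro f
    rw [infPlaceBar_ord_alpha, Nat.cast_one, one_mul]
  · intro f
    exact zeroPlaceBar_ord_alpha M' q hq hqM f
  · rw [exp_finrankAlong_alpha M' q hq hqM, add_comm]

/-- the same for the pull-back along `β = w_q ∘ α`. -/
theorem exp_reg_beta (g : FF M')
    (hg : ∀ v' : Place Kbar (FF M'), v' ≠ infPlaceBar M' → 0 ≤ v'.ord g)
    (P : Place Kbar (FF (M' * q))) (hP₁ : P ≠ infPlaceBar (M' * q))
    (hP₂ : P ≠ zeroPlaceBar (M' * q) q hq (dvd_mul_left q M') (inf_not_sq_dvd M' q hq hqM)) :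
    0 ≤ P.ord (heckeBetaBar Kbar M' q g) := by
  have hP : atkinLehnerFF (M' * q) q hq (dvd_mul_left q M') (inf_not_sq_dvd M' q hq hqM) •
      ((atkinLehnerFF (M' * q) q hq (dvd_mul_left q M') (inf_not_sq_dvd M' q hq hqM))⁻¹ • P) = P :=
    smul_inv_smul _ P
  have h1 : P.ord (heckeBetaBar Kbar M' q g) =
      ((atkinLehnerFF (M' * q) q hq (dvd_mul_left q M') (inf_not_sq_dvd M' q hq hqM))⁻¹ • P).ord
        (heckeAlphaBar Kbar M' q g) := by
    rw [← atkinLehnerFF_alpha M' q hq hqM g]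
    conv_lhs => rw [← hP]
    exact Place.ord_smul _ _ _
  rw [h1]
  apply exp_reg_alpha M' q hq hqM g hg
  · intro h
    apply hP₂
    rw [← hP, h]
    rfl
  · intro h
    apply hP₁
    rw [← hP, h]
    exact atkinLehnerFF_smul_zeroPlaceBar (M' * q) q hq _ _

end Fibre

/-! ### The lifting hypothesis, from exact pole orders -/

section Lift

variable {M' : ℕ} [NeZero M'] {A : ValuationSubring Kbar}

/-- the field `lift` of `ExInput`, from the output of `liftInf_exists_order` (piece C6). -/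
theorem exp_lift_of_order
    (R' : ConstRed A (IsLocalRing.residue A)
      (↥(modularFunctionFieldFullC (IsLocalRing.ResidueField A) M')) (FF M'))
    (n₁ : ℕ)
    (h : ∀ n : ℕ, n₁ ≤ n → ∃ x : R'.O,
      ((x : R'.O) : FF M') ∈ riemannRochSpace (K := Kbar)
        (Finsupp.single (infPlaceBar M') (n : ℤ)) ∧
      ((R'.red x : modularFunctionFieldFullC (IsLocalRing.ResidueField A) M') :
        LaurentSeries (IsLocalRing.ResidueField A)).order = -(n : ℤ)) :
    ∃ n₀ : ℕ, ∀ n : ℕ, n₀ ≤ n → ∃ (g : FF M') (hg : g ∈ R'.O),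
      (∀ v' : Place Kbar (FF M'), v' ≠ infPlaceBar M' → 0 ≤ v'.ord g) ∧
      -(n : ℤ) ≤ (infPlaceBar M').ord g ∧ R'.red ⟨g, hg⟩ ≠ 0 ∧
      (infPlaceC (IsLocalRing.ResidueField A) M').ord (R'.red ⟨g, hg⟩) ≤ -(n : ℤ) := by
  classical
  refine ⟨max 1 n₁, fun n hn => ?_⟩
  have hn1 : 1 ≤ n := le_trans (le_max_left _ _) hn
  obtain ⟨x, hx, hord⟩ := h n (le_trans (le_max_right _ _) hn)
  have hred0 : R'.red x ≠ 0 := by
    intro h0
    rw [h0] at hord
    have h1 : ((0 : modularFunctionFieldFullC (IsLocalRing.ResidueField A) M') :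
        LaurentSeries (IsLocalRing.ResidueField A)) = 0 := rfl
    rw [h1, HahnSeries.order_zero] at hord
    omega
  have hx0 : ((x : R'.O) : FF M') ≠ 0 := by
    intro h0
    apply hred0
    have : x = 0 := Subtype.ext h0
    rw [this, map_zero]
  rw [mem_riemannRochSpace_iff] at hx
  refine ⟨(x : FF M'), x.2, fun v' hv' => ?_, ?_, hred0, ?_⟩
  · have := (hx v').resolve_left hx0
    rwa [Finsupp.single_eq_of_ne hv', neg_zero] at this
  · have := (hx (infPlaceBar M')).resolve_left hx0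
    rwa [Finsupp.single_eq_same] at this
  · rw [infPlaceC_ord]
    exact le_of_eq hord

end Lift

/-! ### The concrete `ExInput` -/

section Input

variable (M' q : ℕ) [NeZero M'] [NeZero q] (hq : q.Prime) (hqM : ¬ q ∣ M')
variable {A : ValuationSubring Kbar}
variable [Fact q.Prime] [CharP (IsLocalRing.ResidueField A) q]
  [PerfectRing (IsLocalRing.ResidueField A) q]

/-- **C5, concrete**: the `ExInput` at level `M' q`, from the compatibility of the reductions
with `α`, `β` (piece C3b) and the lifting with exact pole order (piece C6).  Everything else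
(orders at the two cusps, regularity outside the two cusps, `ord_Q ∘ φ = q · ord_Q`) is proved
here resp. in `InfPlaceAL.lean`, `AffFrob.lean`. -/
theorem exp_exInput
    (R' : ConstRed A (IsLocalRing.residue A)
      (↥(modularFunctionFieldFullC (IsLocalRing.ResidueField A) M')) (FF M'))
    (R₁ R₂ : ConstRed A (IsLocalRing.residue A)
      (↥(modularFunctionFieldFullC (IsLocalRing.ResidueField A) M')) (FF (M' * q)))
    (hα₁ : ∀ (g : FF M') (hg : g ∈ R'.O), ∃ h : heckeAlphaBar Kbar M' q g ∈ R₁.O,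
      R₁.red ⟨heckeAlphaBar Kbar M' q g, h⟩ = R'.red ⟨g, hg⟩)
    (hβ₁ : ∀ (g : FF M') (hg : g ∈ R'.O), ∃ h : heckeBetaBar Kbar M' q g ∈ R₁.O,
      R₁.red ⟨heckeBetaBar Kbar M' q g, h⟩
        = affFrobFk (IsLocalRing.ResidueField A) q M' (R'.red ⟨g, hg⟩))
    (hα₂ : ∀ (g : FF M') (hg : g ∈ R'.O), ∃ h : heckeAlphaBar Kbar M' q g ∈ R₂.O,
      R₂.red ⟨heckeAlphaBar Kbar M' q g, h⟩
        = affFrobFk (IsLocalRing.ResidueField A) q M' (R'.red ⟨g, hg⟩))
    (hβ₂ : ∀ (g : FF M') (hg : g ∈ R'.O), ∃ h : heckeBetaBar Kbar M' q g ∈ R₂.O,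
      R₂.red ⟨heckeBetaBar Kbar M' q g, h⟩ = R'.red ⟨g, hg⟩)
    (n₁ : ℕ)
    (hlift : ∀ n : ℕ, n₁ ≤ n → ∃ x : R'.O,
      ((x : R'.O) : FF M') ∈ riemannRochSpace (K := Kbar)
        (Finsupp.single (infPlaceBar M') (n : ℤ)) ∧
      ((R'.red x : modularFunctionFieldFullC (IsLocalRing.ResidueField A) M') :
        LaurentSeries (IsLocalRing.ResidueField A)).order = -(n : ℤ)) :
    ExInput R' R₁ R₂ (heckeAlphaBar Kbar M' q).toRingHom (heckeBetaBar Kbar M' q).toRingHom
      (infPlaceBar M') (infPlaceBar (M' * q))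
      (zeroPlaceBar (M' * q) q hq (dvd_mul_left q M') (inf_not_sq_dvd M' q hq hqM))
      (infPlaceC (IsLocalRing.ResidueField A) M')
      (affFrobFk (IsLocalRing.ResidueField A) q M').toRingHom q where
  two_le := hq.two_le
  ord_α₁ := fun g => infPlaceBar_ord_alpha M' q g
  ord_β₁ := fun g => infPlaceBar_ord_beta M' q g
  ord_α₂ := fun g => zeroPlaceBar_ord_alpha M' q hq hqM g
  ord_β₂ := fun g => zeroPlaceBar_ord_beta M' q hq hqM g
  reg := fun g hg P hP₁ hP₂ =>
    ⟨exp_reg_alpha M' q hq hqM g hg P hP₁ hP₂, exp_reg_beta M' q hq hqM g hg P hP₁ hP₂⟩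
  red_α₁ := hα₁
  red_β₁ := hβ₁
  red_α₂ := hα₂
  red_β₂ := hβ₂
  ord_φ := fun x => infPlaceC_ord_affFrobFk (IsLocalRing.ResidueField A) q M' x
  lift := exp_lift_of_order R' n₁ hlift

end Input

end Fermat.Agent.S34lib

end
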