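/-
Item 79 (S34), blueprint piece C3b, part 2 (helper9): **`O_∞ ≠ O_0`**.  No sorry.

For ANY constant reduction `R` of `F_{M'q}` (`q ∤ M'`, `A` over `q`) with `GoodRed.IsSeriesRed`,
the unit balls of `R` and of `R₀ = inredZero R = R ∘ w_q` are different: the function
`t = j_q − j^q` is an integral series with reduction `j̄(Q^q) − j̄^q = 0` (Kronecker), while
`w_q t = j − j_q^q` is an integral series with reduction `j̄ − j̄^{q²} ≠ 0`.
-/
import Mathlib
import Fermat.Agent.S34lib.VKron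
import Fermat.Agent.S34lib.VRedInto
import Fermat.Agent.GM.RedInstDefs

set_option autoImplicit false
set_option synthInstance.maxHeartbeats 400000

noncomputable section

namespace Fermat.Agent.S34lib

open AlgebraicCurve Fermat.Agent.GoodRed ModularCurve HahnSeries Fermat.Agent.S24lib

/-! ### abstract core -/

section Abstract

variable {K F k Fk : Type*} [Field K] [Field F] [Algebra K F] [Field k] [Field Fk] [Algebra k Fk]
  {A : ValuationSubring K} {π : A →+* k}

/-- if `t` is in the maximal ideal of `O` and `w t` is a unit of `O`, then `O ≠ w⁻¹ O` -/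
theorem vk_O_ne_aux (R : ConstRed A π Fk F) (w : F ≃ₐ[K] F) (t : F) (htO : t ∈ R.O)
    (htred : R.red ⟨t, htO⟩ = 0) (hwt0 : w t ≠ 0) (hwti : (w t)⁻¹ ∈ R.O) :
    R.O ≠ (inredComap R w).O := by
  intro hO
  have ht0 : t ≠ 0 := by
    intro h0
    rw [h0, map_zero] at hwt0
    exact hwt0 rfl
  have hti0 : t⁻¹ ∈ (inredComap R w).O := by
    show w t⁻¹ ∈ R.O
    rw [map_inv₀]
    exact hwti
  have hti : t⁻¹ ∈ R.O := by
    rw [hO]
    exact hti0
  have h1 : (⟨t, htO⟩ : R.O) * ⟨t⁻¹, hti⟩ = 1 := Subtype.ext (mul_inv_cancel₀ ht0)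
  have h2 := congrArg R.red h1
  rw [map_mul, htred, zero_mul, map_one] at h2
  exact zero_ne_one h2

end Abstract

section Ne

variable (M' q : ℕ) [NeZero M'] [NeZero q]
variable (A : ValuationSubring Kbar)

/-- the integral series `j(Q^q) − j(Q)^q` -/
def vkT : LaurentSeries A := qExpand A q (jqModC A) - jqModC A ^ q

/-- the integral series `j(Q) − j(Q^q)^q` -/
def vkT' : LaurentSeries A := jqModC A - qExpand A q (jqModC A) ^ q

theorem vkT_mem : coeffMap A.subtype (vkT q A) ∈ modularFunctionFieldBar (M' * q) := by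
  unfold vkT
  rw [map_sub, map_pow]
  exact sub_mem (vri_mem_Jd (M' * q) A q (dvd_mul_left q M'))
    (pow_mem (vri_mem_J (M' * q) A) q)

theorem vkT'_mem : coeffMap A.subtype (vkT' q A) ∈ modularFunctionFieldBar (M' * q) := by
  unfold vkT'
  rw [map_sub, map_pow]
  exact sub_mem (vri_mem_J (M' * q) A)
    (pow_mem (vri_mem_Jd (M' * q) A q (dvd_mul_left q M')) q)

/-- `j_q − j^q` as an element of `F_{M'q}` -/
theorem vkT_eq : (⟨coeffMap A.subtype (vkT q A), vkT_mem M' q A⟩ : FF (M' * q))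
    = jdF (M' * q) q (dvd_mul_left q M') - jF (M' * q) ^ q := by
  rw [vri_jdF_eq (M' * q) A q (dvd_mul_left q M'), vri_jF_eq (M' * q) A]
  apply Subtype.ext
  show coeffMap A.subtype (qExpand A q (jqModC A) - jqModC A ^ q) = _
  rw [map_sub, map_pow]
  rfl

/-- `j − j_q^q` as an element of `F_{M'q}` -/
theorem vkT'_eq : (⟨coeffMap A.subtype (vkT' q A), vkT'_mem M' q A⟩ : FF (M' * q))
    = jF (M' * q) - jdF (M' * q) q (dvd_mul_left q M') ^ q := by
  rw [vri_jdF_eq (M' * q) A q (dvd_mul_left q M'), vri_jF_eq (M' * q) A]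
  apply Subtype.ext
  show coeffMap A.subtype (jqModC A - qExpand A q (jqModC A) ^ q) = _
  rw [map_sub, map_pow]
  rfl

/-- `w_q (j_q − j^q) = j − j_q^q` -/
theorem vk_atkinLehner_T (hq : q.Prime) (hqM : ¬ q ∣ M') :
    atkinLehnerFF (M' * q) q hq (dvd_mul_left q M') (inf_not_sq_dvd M' q hq hqM)
        (⟨coeffMap A.subtype (vkT q A), vkT_mem M' q A⟩ : FF (M' * q))
      = ⟨coeffMap A.subtype (vkT' q A), vkT'_mem M' q A⟩ := by
  have h1 : atkinLehnerFF (M' * q) q hq (dvd_mul_left q M') (inf_not_sq_dvd M' q hq hqM)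
      (jF (M' * q)) = jdF (M' * q) q (dvd_mul_left q M') := atkinLehnerFF_jF (M' * q) q hq _ _
  have h2 : atkinLehnerFF (M' * q) q hq (dvd_mul_left q M') (inf_not_sq_dvd M' q hq hqM)
      (jdF (M' * q) q (dvd_mul_left q M')) = jF (M' * q) := by
    rw [← h1, atkinLehnerFF_involutive]
  rw [vkT_eq, vkT'_eq, map_sub, map_pow, h1, h2]

variable {A}

omit [NeZero q] in
/-- the reduction of `j(Q^q) − j(Q)^q` vanishes (Kronecker) -/
theorem vk_red_T (hq : q.Prime) (hA : A.LiesOverPrime q) :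
    haveI : NeZero q := ⟨hq.ne_zero⟩
    coeffMap (IsLocalRing.residue A) (vkT q A) = 0 := by
  haveI : NeZero q := ⟨hq.ne_zero⟩
  have : Fact q.Prime := ⟨hq⟩
  have : CharP (IsLocalRing.ResidueField A) q := Fermat.Agent.GM.charP_residueField hA
  unfold vkT
  rw [map_sub, map_pow, hr_coeffMap_gen, coeffMap_jqModC,
    vri_kron (IsLocalRing.ResidueField A) q, sub_self]

omit [NeZero q] in
/-- the reduction of `j(Q) − j(Q^q)^q` does not vanish -/
theorem vk_red_T' (hq : q.Prime) (hA : A.LiesOverPrime q) :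
    haveI : NeZero q := ⟨hq.ne_zero⟩
    coeffMap (IsLocalRing.residue A) (vkT' q A) ≠ 0 := by
  haveI : NeZero q := ⟨hq.ne_zero⟩
  have : Fact q.Prime := ⟨hq⟩
  have : CharP (IsLocalRing.ResidueField A) q := Fermat.Agent.GM.charP_residueField hA
  unfold vkT'
  rw [map_sub, map_pow, hr_coeffMap_gen, coeffMap_jqModC,
    vri_kron (IsLocalRing.ResidueField A) q, ← pow_mul]
  exact vri_j_ne_pow (IsLocalRing.ResidueField A)
    (Nat.one_lt_mul_iff.mpr ⟨hq.pos, hq.pos, Or.inl hq.one_lt⟩)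

variable {Fk : IntermediateField (IsLocalRing.ResidueField A)
  (LaurentSeries (IsLocalRing.ResidueField A))}
variable {R : ConstRed A (IsLocalRing.residue A) (↥Fk) (FF (M' * q))}

/-- **`O_∞ ≠ O_0`**: the two Gauss valuations of `F_{M'q}` are different. -/
theorem vk_O_ne (hq : q.Prime) (hqM : ¬ q ∣ M') (hR : IsSeriesRed R) (hA : A.LiesOverPrime q) :
    R.O ≠ (vkZero M' q hq hqM R).O := by
  have hwt := vk_atkinLehner_T M' q A hq hqM
  have htO : (⟨coeffMap A.subtype (vkT q A), vkT_mem M' q A⟩ : FF (M' * q)) ∈ R.O :=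
    hR.mem _ (vkT_mem M' q A)
  have htred : R.red ⟨_, htO⟩ = 0 := by
    apply Subtype.ext
    refine (hR.red _ (vkT_mem M' q A)).trans ?_
    rw [vk_red_T q hq hA]
    rfl
  have ht'i : (⟨coeffMap A.subtype (vkT' q A), vkT'_mem M' q A⟩ : FF (M' * q))⁻¹ ∈ R.O :=
    hR.inv_mem _ (vkT'_mem M' q A) (vk_red_T' q hq hA)
  have ht'0 : (⟨coeffMap A.subtype (vkT' q A), vkT'_mem M' q A⟩ : FF (M' * q)) ≠ 0 := by
    intro h0
    have h1 : coeffMap A.subtype (vkT' q A) = 0 := congrArg Subtype.val h0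
    have h2 : vkT' q A = 0 := coeffMap_valSubtype_injective A (by rw [h1, map_zero])
    exact vk_red_T' q hq hA (by rw [h2, map_zero])
  exact vk_O_ne_aux R
    (atkinLehnerFF (M' * q) q hq (dvd_mul_left q M') (inf_not_sq_dvd M' q hq hqM)) _ htO htred
    (by rw [hwt]; exact ht'0) (by rw [hwt]; exact ht'i)

end Ne

end Fermat.Agent.S34lib

end
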