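/-
Item 79 (S34), piece E = APPLY, part 5 (helper26): **the statement of APPLY**, unfolded
(`applyCore`): for `q ∤ M'` an auxiliary level and `A` over `q`, `UnipK (M' * q) (p ^ n) A`.

Assembly of: `exists_constRedInf_aux` (R∞, helper21), `liftInf_exists_red`/`liftInf_lift`/
`liftInf_order` (level `M'`, helper18), `vk_*` (Kronecker, helper9), `exp_exInput` (helper17),
`glueMod` (helper19), `unipK_of_glueData` (ApplyCore).  No sorry in this file.
-/
import Mathlib
import Fermat.Agent.S34lib.ApplyCore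
import Fermat.Agent.S34lib.GlueMod
import Fermat.Agent.S34lib.VKronNe
import Fermat.Agent.S34lib.LiftInfMain
import Fermat.Agent.S34lib.ExProd
import Fermat.Agent.S34lib.ConstRedInf
import Fermat.Agent.S34lib.VRedInto

set_option autoImplicit false
set_option linter.style.haveILetI false
set_option synthInstance.maxHeartbeats 400000

noncomputable section

namespace Fermat.Agent.S34lib

open AlgebraicCurve Fermat.Agent.GoodRed ModularCurve HahnSeries Fermat.Agent.S24lib
  Fermat.Agent.RRlib Fermat.Agent.GM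

section

variable (M' q : ℕ) [NeZero M'] [NeZero q] [NeZero (M' * q)] (hq : q.Prime) (hqM : ¬ q ∣ M')
variable {A : ValuationSubring Kbar}
variable [Fact q.Prime] [CharP (IsLocalRing.ResidueField A) q]
  [PerfectRing (IsLocalRing.ResidueField A) q]

set_option maxHeartbeats 1000000 in
/-- the `ExInput` at the level `M' q`, for `IsSeriesRed` reductions `R'`, `R` -/
theorem am_exInput (haux : IsAuxLevel q M') (hA : A.LiesOverPrime q)
    {R' : ConstRed A (IsLocalRing.residue A)
      (↥(modularFunctionFieldFullC (IsLocalRing.ResidueField A) M')) (FF M')}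
    {R : ConstRed A (IsLocalRing.residue A)
      (↥(modularFunctionFieldFullC (IsLocalRing.ResidueField A) M')) (FF (M' * q))}
    (hR' : IsSeriesRed R') (hR : IsSeriesRed R)
    (hfrac' : HasPrimFrac A (modularFunctionFieldBar M')) :
    ExInput R' R (glmZero M' q hq hqM R) (heckeAlphaBar Kbar M' q).toRingHom
      (heckeBetaBar Kbar M' q).toRingHom (infPlaceBar M') (infPlaceBar (M' * q))
      (cuspZero (M' * q) q hq (dvd_mul_left q M') (inf_not_sq_dvd M' q hq hqM))
      (infPlaceC (IsLocalRing.ResidueField A) M')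
      (affFrobFk (IsLocalRing.ResidueField A) q M').toRingHom q := by
  rw [ac_cuspZero_eq]
  refine exp_exInput M' q hq hqM R' R (glmZero M' q hq hqM R) ?_ ?_ ?_ ?_
    (2 * genusFF Kbar (FF M')) (fun n hn => liftInf_order q haux hA hR' n hn)
  · intro g hg
    exact ⟨vk_alpha_mem M' q hR' hR hfrac' hg,
      Subtype.ext (vk_red_alpha M' q hR' hR hfrac' hg _)⟩
  · intro g hg
    exact ⟨vk_beta_mem M' q hR' hR hfrac' hg,
      Subtype.ext (vk_red_beta M' q hR' hR hfrac' hg _)⟩
  · intro g hg
    exact ⟨vk_alpha_mem_zero M' q hq hqM hR' hR hfrac' hg,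
      Subtype.ext (vk_red_alpha_zero M' q hq hqM hR' hR hfrac' hg _)⟩
  · intro g hg
    exact ⟨vk_beta_mem_zero M' q hq hqM hR' hR hfrac' hg,
      Subtype.ext (vk_red_beta_zero M' q hq hqM hR' hR hfrac' hg _)⟩

end

section Main

set_option maxHeartbeats 2000000 in
/-- **APPLY**, unfolded: the Kummer form of UNIP at the auxiliary levels `M' q`. -/
theorem applyCore (q M' p n : ℕ) (hq : q.Prime) (hp : p.Prime) (hqp : q ≠ p) (hM' : M' ≠ 0)
    (haux : IsAuxLevel q M') (A : ValuationSubring (AlgebraicClosure ℚ))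
    (hA : A.LiesOverPrime q) : UnipK (M' * q) (p ^ n) A := by
  haveI : NeZero M' := ⟨hM'⟩
  haveI : NeZero q := ⟨hq.ne_zero⟩
  haveI : NeZero (M' * q) := ⟨Nat.mul_ne_zero hM' hq.ne_zero⟩
  haveI : Fact q.Prime := ⟨hq⟩
  haveI : CharP (IsLocalRing.ResidueField A) q := charP_residueField hA
  haveI : IsAlgClosed (IsLocalRing.ResidueField A) := isAlgClosed_residueField A
  haveI : Infinite (IsLocalRing.ResidueField A) := IsAlgClosed.instInfinite
  haveI : RRHyp Kbar (FF M') := mod_rrHyp M'
  haveI : RRHyp Kbar (FF (M' * q)) := mod_rrHyp (M' * q)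
  haveI : RRHyp (IsLocalRing.ResidueField A)
      (↥(modularFunctionFieldFullC (IsLocalRing.ResidueField A) M')) :=
    mr_rrHyp (IsLocalRing.ResidueField A) M'
  have hqM : ¬ q ∣ M' := haux.1
  have hfrac' : HasPrimFrac A (modularFunctionFieldBar M') := vri_hfrac M' q hq A hA
  have hfrac : HasPrimFrac A (modularFunctionFieldBar (M' * q)) := vri_hfrac (M' * q) q hq A hA
  obtain ⟨R, hR⟩ := exists_constRedInf_aux M' q hq hqM A hA
  obtain ⟨R', r, hR', -, -, hgen⟩ := liftInf_exists_red M' A q haux hA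
  have Hex := am_exInput M' q hq hqM haux hA hR' hR hfrac'
  have hO := vk_O_ne M' q hq hqM hR hA
  have hlift : ∀ a : affRing (infPlaceC (IsLocalRing.ResidueField A) M'),
      ∃ (g : FF M') (hg : g ∈ R'.O),
        (∀ v' : Place Kbar (FF M'), v' ≠ infPlaceBar M' → 0 ≤ v'.ord g) ∧
          R'.red ⟨g, hg⟩ =
            (a : ↥(modularFunctionFieldFullC (IsLocalRing.ResidueField A) M')) := by
    intro a
    obtain ⟨c, hc⟩ := (glm_hB M' _).mp a.2
    obtain ⟨x, hx, hred⟩ := liftInf_lift q haux hA hR' (c : ℤ) _ hc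
    exact ⟨x, x.2, mem_affRing_iff.mp (affRing_of_mem_rr hx), hred⟩
  have hpn : 0 < p ^ n := pow_pos hp.pos n
  have hmk : ((p ^ n : ℕ) : IsLocalRing.ResidueField A) ≠ 0 := by
    rw [Nat.cast_pow]
    apply pow_ne_zero
    intro h0
    have h1 := (CharP.cast_eq_zero_iff (IsLocalRing.ResidueField A) q p).mp h0
    exact hqp ((Nat.prime_dvd_prime_iff_eq hq hp).mp h1)
  obtain ⟨X, a₀, a₁, -, H, -, -, hn, -⟩ := glueMod M' q hq hqM hA
    (φ := (affFrobFk (IsLocalRing.ResidueField A) q M').toRingHom) (fun x => rfl) Hex hO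
    (affRing_residue_surjective _) hlift hgen.le hpn
  exact unipK_of_glueData hq (dvd_mul_left q M') (inf_not_sq_dvd M' q hq hqM) hR hfrac X H
    hpn hmk hn

end Main

end Fermat.Agent.S34lib

end
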