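import Mathlib
import Fermat.Prelude.Def_AlgebraicCurve_Correspondence
import Fermat.Agent.HeckeBar.Galois
import Fermat.Agent.HeckeBar.GenFI

/-!
# Item 79 (S34), piece AUX, abstract part: pull-back and push-forward on `Pic⁰`

`φ : F →ₐ[K] F'` an integral, finite embedding of function fields with the norm formula.

* `aux_push_pull_div` : `φ_* φ^* D = [F' : F] • D` on divisors;
* `auxPull`, `auxPush` : the induced maps on `Pic⁰`; `auxPush_auxPull : φ_* φ^* x = [F' : F] • x`;
* `auxPull_smul` : `φ^*` is equivariant for intertwined semilinear automorphisms.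
-/

set_option autoImplicit false
set_option linter.style.haveILetI false
set_option linter.unusedSectionVars false

noncomputable section

namespace Fermat.Agent.S34lib

open AlgebraicCurve Fermat.Agent.HeckeBar

section Abstract

variable {K F F' : Type*} [Field K] [Field F] [Field F'] [Algebra K F] [Algebra K F']

/-- `φ_* φ^* D = [F' : F] • D` on divisors. -/
theorem aux_push_pull_div [HasPrincipalDivisors K F'] (φ : F →ₐ[K] F')
    (hφ : φ.toRingHom.IsIntegral) (hfin : FiniteAlong K φ) (hN : NormFormulaAlong K φ hfin)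
    (D : Divisor K F) :
    Divisor.pushforwardAlong φ hφ (Divisor.pullbackAlong φ hφ D) =
      (finrankAlong K φ : ℤ) • D := by
  classical
  letI := algebraAlong φ
  haveI := isScalarTower_along φ
  haveI := isIntegral_along φ hφ
  haveI : Module.Finite F F' := hfin
  haveI : SumRamificationInertia K F F' := sumRamificationInertia_of_normFormula hN
  show Divisor.pushforward F (Divisor.pullback F' D) = (Module.finrank F F' : ℤ) • D
  induction D using Finsupp.induction with
  | zero => simp
  | single_add v n D _ _ ih =>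
    rw [map_add, map_add, smul_add, ih]
    congr 1
    rw [Divisor.pullback_single, map_sum]
    have h1 : ∀ w ∈ v.fiber F',
        Divisor.pushforward F (Finsupp.single w (n * (w.ramificationIndex F : ℤ))) =
          Finsupp.single v (n * ((w.ramificationIndex F : ℤ) * (w.inertiaDeg F : ℤ))) := by
      intro w hw
      rw [Divisor.pushforward_single, Place.mem_fiber.mp hw, mul_assoc]
    rw [Finset.sum_congr rfl h1, ← Finsupp.single_finsetSum, ← Finset.mul_sum,
      SumRamificationInertia.sum_ramificationIndex_mul_inertiaDeg (K := K) (F := F) (F' := F') v,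
      Finsupp.smul_single, smul_eq_mul, mul_comm]

/-- pull-back of divisors of degree zero -/
def auxPullDegZero [HasPrincipalDivisors K F'] (φ : F →ₐ[K] F') (hφ : φ.toRingHom.IsIntegral)
    (hFI : FundamentalIdentityAlong K φ hφ) :
    Divisor.degZero (K := K) (F := F) →+ Divisor.degZero (K := K) (F := F') :=
  ((Divisor.pullbackAlong φ hφ).domRestrict (Divisor.degZero (K := K) (F := F))).codRestrict _
    (fun D => Divisor.pullbackAlong_mem_degZero φ hφ hFI D.2)

@[simp]
theorem coe_auxPullDegZero [HasPrincipalDivisors K F'] (φ : F →ₐ[K] F')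
    (hφ : φ.toRingHom.IsIntegral) (hFI : FundamentalIdentityAlong K φ hφ)
    (D : Divisor.degZero (K := K) (F := F)) :
    (auxPullDegZero φ hφ hFI D : Divisor K F') = Divisor.pullbackAlong φ hφ (D : Divisor K F) :=
  rfl

/-- push-forward of divisors of degree zero -/
def auxPushDegZero (φ : F →ₐ[K] F') (hφ : φ.toRingHom.IsIntegral) :
    Divisor.degZero (K := K) (F := F') →+ Divisor.degZero (K := K) (F := F) :=
  ((Divisor.pushforwardAlong φ hφ).domRestrict (Divisor.degZero (K := K) (F := F'))).codRestrict _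
    (fun D => Divisor.pushforwardAlong_mem_degZero φ hφ D.2)

@[simp]
theorem coe_auxPushDegZero (φ : F →ₐ[K] F') (hφ : φ.toRingHom.IsIntegral)
    (D : Divisor.degZero (K := K) (F := F')) :
    (auxPushDegZero φ hφ D : Divisor K F) = Divisor.pushforwardAlong φ hφ (D : Divisor K F') :=
  rfl

/-- `φ^* : Pic⁰(F) → Pic⁰(F')` -/
def auxPull [HasPrincipalDivisors K F'] (φ : F →ₐ[K] F') (hφ : φ.toRingHom.IsIntegral)
    (hFI : FundamentalIdentityAlong K φ hφ) : Pic0 K F →+ Pic0 K F' :=
  QuotientAddGroup.map _ _ (auxPullDegZero φ hφ hFI) (by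
    rintro ⟨D, hD0⟩ hD
    simp only [AddSubgroup.mem_addSubgroupOf] at hD ⊢
    exact Divisor.isPrincipal_pullbackAlong φ hφ hD)

theorem auxPull_mk [HasPrincipalDivisors K F'] (φ : F →ₐ[K] F') (hφ : φ.toRingHom.IsIntegral)
    (hFI : FundamentalIdentityAlong K φ hφ) (D : Divisor.degZero (K := K) (F := F)) :
    auxPull φ hφ hFI (Pic0.mk D) = Pic0.mk (auxPullDegZero φ hφ hFI D) :=
  rfl

/-- `φ_* : Pic⁰(F') → Pic⁰(F)` -/
def auxPush (φ : F →ₐ[K] F') (hφ : φ.toRingHom.IsIntegral)
    (hfin : FiniteAlong K φ) (hN : NormFormulaAlong K φ hfin) : Pic0 K F' →+ Pic0 K F :=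
  QuotientAddGroup.map _ _ (auxPushDegZero φ hφ) (by
    rintro ⟨D, hD0⟩ hD
    simp only [AddSubgroup.mem_addSubgroupOf] at hD ⊢
    exact Divisor.isPrincipal_pushforwardAlong φ hφ hfin hN hD)

theorem auxPush_mk (φ : F →ₐ[K] F') (hφ : φ.toRingHom.IsIntegral)
    (hfin : FiniteAlong K φ) (hN : NormFormulaAlong K φ hfin)
    (D : Divisor.degZero (K := K) (F := F')) :
    auxPush φ hφ hfin hN (Pic0.mk D) = Pic0.mk (auxPushDegZero φ hφ D) :=
  rfl

/-- `φ_* φ^* x = [F' : F] • x` on `Pic⁰`. -/
theorem auxPush_auxPull [HasPrincipalDivisors K F'] (φ : F →ₐ[K] F')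
    (hφ : φ.toRingHom.IsIntegral) (hFI : FundamentalIdentityAlong K φ hφ)
    (hfin : FiniteAlong K φ) (hN : NormFormulaAlong K φ hfin) (x : Pic0 K F) :
    auxPush φ hφ hfin hN (auxPull φ hφ hFI x) = (finrankAlong K φ : ℤ) • x := by
  obtain ⟨D, rfl⟩ := Pic0.mk_surjective x
  rw [auxPull_mk, auxPush_mk]
  have h : auxPushDegZero φ hφ (auxPullDegZero φ hφ hFI D) = (finrankAlong K φ : ℤ) • D := by
    refine Subtype.ext ?_
    rw [coe_auxPushDegZero, coe_auxPullDegZero, aux_push_pull_div φ hφ hfin hN]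
    rfl
  rw [h]
  rfl

/-- `φ^*` is equivariant. -/
theorem auxPull_smul [HasPrincipalDivisors K F'] (φ : F →ₐ[K] F')
    (hφ : φ.toRingHom.IsIntegral) (hFI : FundamentalIdentityAlong K φ hφ)
    {g : SemilinearAut K F} {g' : SemilinearAut K F'}
    (h : SemilinearAut.IntertwinesAlong φ.toRingHom g g') (x : Pic0 K F) :
    auxPull φ hφ hFI (g • x) = g' • auxPull φ hφ hFI x := by
  obtain ⟨D, rfl⟩ := Pic0.mk_surjective x
  rw [SemilinearAut.pic0_smul_mk, auxPull_mk, auxPull_mk, SemilinearAut.pic0_smul_mk]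
  refine congrArg Pic0.mk (Subtype.ext ?_)
  rw [coe_auxPullDegZero, SemilinearAut.coe_degZeroSMulHom, SemilinearAut.coe_degZeroSMulHom,
    coe_auxPullDegZero]
  exact gal_pullbackAlong_smul φ hφ h _

/-- **kernel of `φ^*`**: killed by the degree. -/
theorem auxPull_eq_zero_imp [HasPrincipalDivisors K F'] (φ : F →ₐ[K] F')
    (hφ : φ.toRingHom.IsIntegral) (hFI : FundamentalIdentityAlong K φ hφ)
    (hfin : FiniteAlong K φ) (hN : NormFormulaAlong K φ hfin) (x : Pic0 K F)
    (hx : auxPull φ hφ hFI x = 0) : finrankAlong K φ • x = 0 := by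
  have h := auxPush_auxPull φ hφ hFI hfin hN x
  rw [hx, map_zero] at h
  rw [← natCast_zsmul]
  exact h.symm

/-- the degree is positive -/
theorem aux_finrankAlong_pos (φ : F →ₐ[K] F') (hfin : FiniteAlong K φ) :
    0 < finrankAlong K φ := by
  letI := algebraAlong φ
  haveI : Module.Finite F F' := hfin
  exact Module.finrank_pos

end Abstract

end Fermat.Agent.S34lib

end
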