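import Mathlib
import Fermat.Agent.S34lib.Algebra
import Fermat.Agent.S34lib.AuxAbs
import Fermat.Agent.HeckeBar.GaloisHecke
import Fermat.Agent.HeckeBar.GenNorm
import Fermat.Agent.HeckeBar.ModDeg
import Fermat.Agent.LatE.LatStatement

/-!
# Item 79 (S34), piece AUX: an auxiliary prime in the level is free

* `unip_of_dvd` : for `N ∣ M`, `Unip M p q → Unip N p q` (`p` prime): the pull-back
  `J₀(N) → J₀(M)` is Galois equivariant with kernel killed by the degree `d = [F_M : F_N]`, and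
  `J₀(N)[p^∞]` is `p`-divisible (Layer E), so `d • (τ - 1)² = 0` on `J₀(N)[p^∞]` gives
  `(τ - 1)² = 0`.
* `UnipAuxStatement` : `UnipStatement` for levels `N` which contain an auxiliary prime
  `r ‖ N`, `r ≡ 11 mod 12`, `r ≠ p, q` (so that `Γ₀(N)` has no elliptic points).
* `unipStatement_of_aux : UnipAuxStatement → UnipStatement` (Dirichlet's theorem).
-/

set_option autoImplicit false
set_option linter.style.haveILetI false
set_option linter.unusedSectionVars false

noncomputable section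

namespace Fermat.Agent.S34lib

open AlgebraicCurve ModularCurve Fermat.Agent.HeckeBar Fermat.Agent.S24lib Fermat.Agent.GalRep

/-- the operator `(τ - 1)²` on `J₀(N)` -/
def auxY (N : ℕ) (τ : Kbar ≃ₐ[ℚ] Kbar) : JZero N →+ JZero N :=
  (DistribSMul.toAddMonoidHom (JZero N) τ).comp (DistribSMul.toAddMonoidHom (JZero N) τ)
    + AddMonoidHom.id _ - 2 • DistribSMul.toAddMonoidHom (JZero N) τ

theorem auxY_apply (N : ℕ) (τ : Kbar ≃ₐ[ℚ] Kbar) (x : JZero N) :
    auxY N τ x = τ • τ • x + x - 2 • τ • x := rfl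

theorem auxY_eq_zero_iff (N : ℕ) (τ : Kbar ≃ₐ[ℚ] Kbar) (x : JZero N) :
    auxY N τ x = 0 ↔ τ • τ • x + x = 2 • τ • x := by
  rw [auxY_apply, sub_eq_zero]

section Level

variable (N M : ℕ) [NeZero N] [NeZero M] (h : N ∣ M)

/-- `σ` intertwines the inclusion `F_N ⊂ F_M` -/
theorem aux_intertwines_incl (σ : Kbar ≃ₐ[ℚ] Kbar) :
    SemilinearAut.IntertwinesAlong (inclBar N M h).toRingHom
      (arithmeticGalois (modularFunctionFieldFull N) σ)
      (arithmeticGalois (modularFunctionFieldFull M) σ) := by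
  intro x
  apply Subtype.ext
  show ((arithmeticGalois (modularFunctionFieldFull M) σ • (inclBar N M h x) :
      laurentBaseChange Kbar (modularFunctionFieldFull M)) : LaurentSeries Kbar) =
    ((inclBar N M h (arithmeticGalois (modularFunctionFieldFull N) σ • x) :
      laurentBaseChange Kbar (modularFunctionFieldFull M)) : LaurentSeries Kbar)
  rw [coe_arithmeticGalois_smul, coe_inclBar, coe_inclBar, coe_arithmeticGalois_smul]

/-- the norm formula for `F_N ⊂ F_M` -/
theorem aux_normFormula_incl :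
    NormFormulaAlong Kbar (inclBar N M h) (finiteAlong_inclBar N M h) := by
  haveI := fin_ffData M
  exact gen_normFormula _ (x' := jF M) _

/-- the fundamental identity for `F_N ⊂ F_M` -/
theorem aux_fundId_incl :
    haveI : HasPrincipalDivisors Kbar (FF M) := wir_hasPrincipalDivisors M
    FundamentalIdentityAlong Kbar (inclBar N M h) (isIntegral_inclBar N M h) := by
  haveI : HasPrincipalDivisors Kbar (FF M) := wir_hasPrincipalDivisors M
  exact fundamentalIdentityAlong_of_normFormulaAlong _ _ (finiteAlong_inclBar N M h)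
    (aux_normFormula_incl N M h)

/-- the pull-back `J₀(N) → J₀(M)` -/
def auxLevelPull : JZero N →+ JZero M :=
  haveI : HasPrincipalDivisors Kbar (FF M) := wir_hasPrincipalDivisors M
  auxPull (inclBar N M h) (isIntegral_inclBar N M h) (aux_fundId_incl N M h)

/-- the degree of `X₀(M) → X₀(N)` -/
def auxLevelDeg : ℕ := finrankAlong Kbar (inclBar N M h)

theorem auxLevelDeg_pos : 0 < auxLevelDeg N M h :=
  aux_finrankAlong_pos _ (finiteAlong_inclBar N M h)

theorem auxLevelPull_smul (σ : Kbar ≃ₐ[ℚ] Kbar) (x : JZero N) :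
    auxLevelPull N M h (σ • x) = σ • auxLevelPull N M h x := by
  haveI : HasPrincipalDivisors Kbar (FF M) := wir_hasPrincipalDivisors M
  rw [galois_smul_pic0_def, galois_smul_pic0_def]
  exact auxPull_smul _ _ _ (aux_intertwines_incl N M h σ) x

theorem auxLevelPull_eq_zero_imp (x : JZero N) (hx : auxLevelPull N M h x = 0) :
    auxLevelDeg N M h • x = 0 := by
  haveI : HasPrincipalDivisors Kbar (FF M) := wir_hasPrincipalDivisors M
  exact auxPull_eq_zero_imp _ _ _ (finiteAlong_inclBar N M h) (aux_normFormula_incl N M h) x hx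

theorem auxLevelPull_auxY (τ : Kbar ≃ₐ[ℚ] Kbar) (x : JZero N) :
    auxLevelPull N M h (auxY N τ x) = auxY M τ (auxLevelPull N M h x) := by
  rw [auxY_apply, auxY_apply, map_sub, map_add, map_nsmul, auxLevelPull_smul, auxLevelPull_smul]

end Level

section Divisible

variable (N : ℕ) [NeZero N]

/-- `J₀(N)[p^∞]` is `p`-divisible (from Layer E). -/
theorem aux_exists_pow_smul (p : ℕ) (hp : p.Prime) (k : ℕ) (x : JZero N)
    (hx : ∃ n : ℕ, p ^ n • x = 0) :
    ∃ x' : JZero N, (∃ n : ℕ, p ^ n • x' = 0) ∧ p ^ k • x' = x := by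
  haveI : Fact p.Prime := ⟨hp⟩
  obtain ⟨Λ, i1, i2, i3, T, e, h1, h2, h3, -, -⟩ := Fermat.Agent.LatE.latStatement N p
  obtain ⟨n, hn⟩ := hx
  obtain ⟨l, rfl⟩ := h1 n x hn
  have hk : ∀ k : ℕ, p ^ k • e (n + k) l = e n l := by
    intro k
    induction k with
    | zero => simp
    | succ k ih =>
      rw [← ih, pow_succ, mul_smul, ← add_assoc, h3]
  refine ⟨e (n + k) l, ⟨n + k, ?_⟩, hk k⟩
  rw [← map_nsmul]
  exact (h2 (n + k) _).mpr ⟨l, rfl⟩

end Divisible

section Main

/-- a `p`-power torsion element killed by `d > 0` is killed by `p ^ d`. -/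
theorem aux_pow_smul_eq_zero {A : Type*} [AddCommGroup A] (p d : ℕ) (hp : p.Prime) (hd : 0 < d)
    (y : A) (h1 : d • y = 0) (h2 : ∃ n : ℕ, p ^ n • y = 0) : p ^ d • y = 0 := by
  obtain ⟨n, hn⟩ := h2
  have hg : Nat.gcd d (p ^ n) • y = 0 := by
    have hz : ((Nat.gcd d (p ^ n) : ℕ) : ℤ) • y = 0 := by
      rw [Nat.gcd_eq_gcd_ab, add_smul, mul_smul, mul_smul, natCast_zsmul, natCast_zsmul,
        smul_comm d, smul_comm (p ^ n), h1, hn, smul_zero, smul_zero, add_zero]
    rwa [natCast_zsmul] at hz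
  obtain ⟨j, hj, hjeq⟩ := (Nat.dvd_prime_pow hp).mp (Nat.gcd_dvd_right d (p ^ n))
  have hjd : p ^ j ∣ d := hjeq ▸ Nat.gcd_dvd_left d (p ^ n)
  have hjlt : j < d := by
    have h3 : p ^ j ≤ d := Nat.le_of_dvd hd hjd
    have h4 : j < p ^ j := Nat.lt_pow_self hp.one_lt
    omega
  rw [hjeq] at hg
  obtain ⟨c, rfl⟩ := Nat.exists_eq_add_of_lt hjlt
  rw [show j + c + 1 = (c + 1) + j by ring, pow_add, mul_smul, hg, smul_zero]

/-- **Lowering the level**: unipotency at level `M` gives unipotency at every level `N ∣ M`. -/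
theorem unip_of_dvd (N M : ℕ) [NeZero N] [NeZero M] (h : N ∣ M) (p q : ℕ) (hp : p.Prime)
    (hU : Unip M p q) : Unip N p q := by
  intro B hB τ hτ x hx
  rw [← auxY_eq_zero_iff]
  have hd := auxLevelDeg_pos N M h
  -- `d • Y z = 0` for every `p`-power torsion `z`
  have key : ∀ z : JZero N, (∃ n : ℕ, p ^ n • z = 0) → auxLevelDeg N M h • auxY N τ z = 0 := by
    intro z hz
    apply auxLevelPull_eq_zero_imp
    rw [auxLevelPull_auxY, auxY_eq_zero_iff]
    refine hU B hB τ hτ _ ?_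
    obtain ⟨n, hn⟩ := hz
    exact ⟨n, by rw [← map_nsmul, hn, map_zero]⟩
  obtain ⟨x', hx', rfl⟩ := aux_exists_pow_smul N p hp (auxLevelDeg N M h) x hx
  rw [map_nsmul]
  refine aux_pow_smul_eq_zero p _ hp hd _ (key x' hx') ?_
  obtain ⟨n, hn⟩ := hx'
  exact ⟨n, by rw [← map_nsmul, hn, map_zero]⟩

/-- the statement to be proved by the geometry, with an auxiliary prime `r ‖ N`,
`r ≡ 11 mod 12`, `r ≠ p, q`, in the level. -/
def UnipAuxStatement : Prop :=
  ∀ (N : ℕ) [NeZero N] (p q r : ℕ), p.Prime → q.Prime → q ≠ p → q ∣ N → ¬ q ^ 2 ∣ N →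
    r.Prime → r % 12 = 11 → r ∣ N → ¬ r ^ 2 ∣ N → r ≠ q → r ≠ p → Unip N p q

/-- for every `n` there is a prime `r > n` with `r ≡ 11 mod 12`. -/
theorem aux_exists_prime (n : ℕ) : ∃ r : ℕ, n < r ∧ r.Prime ∧ r % 12 = 11 := by
  obtain ⟨r, hr, hrp, hrm⟩ := Nat.forall_exists_prime_gt_and_modEq (q := 12) (a := 11) n
    (by norm_num) (by norm_num)
  exact ⟨r, hr, hrp, hrm⟩

/-- **AUX**: the auxiliary prime is free. -/
theorem unipStatement_of_aux (hA : UnipAuxStatement) : UnipStatement := by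
  intro N _ p q hp hq hqp hqN hq2
  obtain ⟨r, hr, hrp, hrm⟩ := aux_exists_prime (N * p * q)
  have hN0 : 0 < N := Nat.pos_of_ne_zero (NeZero.ne N)
  have hrN : N < r := by
    have : N ≤ N * p * q := by
      rw [mul_assoc]
      exact Nat.le_mul_of_pos_right _ (Nat.mul_pos hp.pos hq.pos)
    omega
  have hrp' : p < r := by
    have : p ≤ N * p * q := by
      calc p ≤ N * p := Nat.le_mul_of_pos_left _ hN0
        _ ≤ N * p * q := Nat.le_mul_of_pos_right _ hq.pos
    omega
  have hrq : q < r := by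
    have : q ≤ N * p * q := Nat.le_mul_of_pos_left _ (Nat.mul_pos hN0 hp.pos)
    omega
  have hrndvd : ¬ r ∣ N := fun hdvd => absurd (Nat.le_of_dvd hN0 hdvd) (by omega)
  have hcop : Nat.Coprime r N := (Nat.Prime.coprime_iff_not_dvd hrp).mpr hrndvd
  haveI : NeZero r := ⟨hrp.ne_zero⟩
  haveI : NeZero (N * r) := ⟨Nat.mul_ne_zero (NeZero.ne N) hrp.ne_zero⟩
  refine unip_of_dvd N (N * r) (dvd_mul_right N r) p q hp ?_
  refine hA (N * r) p q r hp hq hqp (Dvd.dvd.mul_right hqN r) ?_ hrp hrm (dvd_mul_left r N) ?_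
    (by omega) (by omega)
  · -- `q ^ 2 ∤ N * r`
    intro hdvd
    have hqr : Nat.Coprime (q ^ 2) r :=
      Nat.Coprime.pow_left 2 ((Nat.coprime_primes hq hrp).mpr (by omega))
    exact hq2 (hqr.dvd_of_dvd_mul_right hdvd)
  · -- `r ^ 2 ∤ N * r`
    intro hdvd
    rw [pow_two] at hdvd
    exact hrndvd (Nat.dvd_of_mul_dvd_mul_right hrp.pos hdvd)

end Main

end Fermat.Agent.S34lib

end
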