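/-
Item 79 (S34), blueprint piece C3b (helper9): **Kronecker compatibility** of the two constant
reductions of `F_{M'q}` (`q ∤ M'`) with the degeneracy maps `α, β : F_{M'} → F_{M'q}`, and
`O_∞ ≠ O_0`.  No sorry.

Setting: `A ⊂ ℚ̄` a valuation ring with residue field `k`, `R' : ConstRed A res Fk' (FF M')`,
`R : ConstRed A res Fk (FF (M' * q))` ANY constant reductions with `GoodRed.IsSeriesRed`
(integral series lie in the unit ball and reduce coefficientwise; this is what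
`exists_constRedInf` of C3a provides), `R₀ := inredZero R = R ∘ w_q`.

* `vk_isRep_qExpand` : `IsRep` is stable under `qExpand`;
* `vk_alpha_mem`, `vk_red_alpha` :  `Y ∈ O' ⇒ α Y ∈ O_∞`,  `red_∞ (α Y) = red' Y`;
* `vk_beta_mem`,  `vk_red_beta`  :  `Y ∈ O' ⇒ β Y ∈ O_∞`,  `red_∞ (β Y) = (red' Y)(Q^q)`;
* `vk_alpha_mem_zero`, `vk_red_alpha_zero` : `α Y ∈ O_0`, `red_0 (α Y) = (red' Y)(Q^q)`;
* `vk_beta_mem_zero`,  `vk_red_beta_zero`  : `β Y ∈ O_0`, `red_0 (β Y) = red' Y`;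
* `vk_mem_iff_aux` : abstract criterion for `O' = φ⁻¹ O`;
* `vk_pair_alpha`, `vk_pair_beta` : the same for `SSRed.ofPair R R₀` (the graphs `(a, φ a)` and
  `(φ a, a)`).
`O_∞ ≠ O_0` is in `S34lib/VKronNe.lean` (`vk_O_ne`).

All equalities of reductions are equalities of Laurent series over `k` (`φ = qExpand k q`).
-/
import Mathlib
import Fermat.Agent.S34lib.InertiaRedAL
import Fermat.Agent.S34lib.InfPlaceAL
import Fermat.Agent.S34lib.CruxSSBuild
import Fermat.Agent.GoodRed.DescTower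

set_option autoImplicit false
set_option synthInstance.maxHeartbeats 400000

noncomputable section

namespace Fermat.Agent.S34lib

open AlgebraicCurve Fermat.Agent.GoodRed ModularCurve HahnSeries Fermat.Agent.S24lib

/-! ### `IsRep` and `qExpand` -/

section Rep

variable {K : Type*} [Field K] {A : ValuationSubring K}

/-- `qExpand` commutes with `coeffMap` (local copy, any ring hom) -/
theorem vk_coeffMap_qExpand {R S : Type*} [CommRing R] [CommRing S] (f : R →+* S) (n : ℕ)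
    [NeZero n] (x : LaurentSeries R) : coeffMap f (qExpand R n x) = qExpand S n (coeffMap f x) := by
  ext k
  by_cases hk : (n : ℤ) ∣ k
  · obtain ⟨m, rfl⟩ := hk
    rw [coeffMap_coeff, qExpand_coeff_mul, qExpand_coeff_mul, coeffMap_coeff]
  · rw [coeffMap_coeff, qExpand_coeff_of_not_dvd n _ hk, qExpand_coeff_of_not_dvd n _ hk,
      map_zero]

/-- a representation `f = a / b` by integral series is transported by `qExpand` -/
theorem vk_isRep_qExpand {F F' : IntermediateField K (LaurentSeries K)} (ℓ : ℕ) [NeZero ℓ]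
    (hF : ∀ x ∈ F, qExpand K ℓ x ∈ F') {f : LaurentSeries K} {a b : LaurentSeries A}
    (h : IsRep A F f a b) : IsRep A F' (qExpand K ℓ f) (qExpand A ℓ a) (qExpand A ℓ b) := by
  obtain ⟨ha, hb, hpb, hab⟩ := h
  refine ⟨?_, ?_, ?_, ?_⟩
  · rw [vk_coeffMap_qExpand]
    exact hF _ ha
  · rw [vk_coeffMap_qExpand]
    exact hF _ hb
  · rw [vk_coeffMap_qExpand]
    intro h0
    exact hpb (qExpand_injective ℓ (by rw [h0, map_zero]))
  · rw [vk_coeffMap_qExpand, vk_coeffMap_qExpand, ← map_mul, hab]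

end Rep

/-! ### restriction of a valuation ring along a field embedding -/

section Restrict

variable {K F F' k Fk Fk' : Type*} [Field K] [Field F] [Field F'] [Algebra K F] [Algebra K F']
  [Field k] [Field Fk] [Algebra k Fk] [Field Fk'] [Algebra k Fk']
  {A : ValuationSubring K} {π : A →+* k}

/-- if `φ : F' → F` maps `O'` into `O` and the maximal ideal of `O'` into that of `O`, then
`O' = φ⁻¹ O` -/
theorem vk_mem_iff_aux (R' : ConstRed A π Fk' F') (R : ConstRed A π Fk F) (φ : F' →+* F)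
    (hmem : ∀ Y, Y ∈ R'.O → φ Y ∈ R.O)
    (hred : ∀ (Y : F') (hY : Y ∈ R'.O) (h : φ Y ∈ R.O),
      R'.red ⟨Y, hY⟩ = 0 → R.red ⟨φ Y, h⟩ = 0) (Y : F') :
    φ Y ∈ R.O ↔ Y ∈ R'.O := by
  refine ⟨fun h => ?_, hmem Y⟩
  by_contra hY
  have hYi : Y⁻¹ ∈ R'.O := (R'.O.mem_or_inv_mem Y).resolve_left hY
  have hnu : Y⁻¹ ∈ R'.O.nonunits := by
    rw [ValuationSubring.mem_nonunits_iff_or]
    right
    rwa [inv_inv]
  have h0 : R'.red ⟨Y⁻¹, hYi⟩ = 0 := (R'.red_eq_zero_iff ⟨Y⁻¹, hYi⟩).mpr hnu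
  have hφi : φ Y⁻¹ ∈ R.O := hmem _ hYi
  have h1 : R.red ⟨φ Y⁻¹, hφi⟩ = 0 := hred _ hYi hφi h0
  have h2 : φ Y⁻¹ ∈ R.O.nonunits := (R.red_eq_zero_iff ⟨_, hφi⟩).mp h1
  rw [ValuationSubring.mem_nonunits_iff_or] at h2
  rcases h2 with h2 | h2
  · have hY0 : Y ≠ 0 := fun h0' => hY (h0' ▸ R'.O.zero_mem)
    exact inv_ne_zero hY0 ((map_eq_zero_iff φ φ.injective).mp h2)
  · rw [map_inv₀, inv_inv] at h2
    exact h2 h

end Restrict

/-! ### the degeneracy maps -/

section Main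

variable (M' q : ℕ) [NeZero M'] [NeZero q]
variable {A : ValuationSubring Kbar}
variable {Fk' Fk : IntermediateField (IsLocalRing.ResidueField A)
  (LaurentSeries (IsLocalRing.ResidueField A))}
variable {R' : ConstRed A (IsLocalRing.residue A) (↥Fk') (FF M')}
variable {R : ConstRed A (IsLocalRing.residue A) (↥Fk) (FF (M' * q))}

/-- a representation of `Y` is a representation of `α Y` -/
theorem vk_isRep_alpha {Y : FF M'} {a b : LaurentSeries A}
    (h : IsRep A (modularFunctionFieldBar M') (Y : LaurentSeries Kbar) a b) :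
    IsRep A (modularFunctionFieldBar (M' * q))
      ((heckeAlphaBar Kbar M' q Y : FF (M' * q)) : LaurentSeries Kbar) a b := by
  rw [coe_heckeAlphaBar]
  exact ⟨(heckeAlphaBar Kbar M' q ⟨_, h.1⟩).2, (heckeAlphaBar Kbar M' q ⟨_, h.2.1⟩).2,
    h.2.2.1, h.2.2.2⟩

omit [NeZero M'] in
/-- a representation of `Y` gives a representation of `β Y` -/
theorem vk_isRep_beta {Y : FF M'} {a b : LaurentSeries A}
    (h : IsRep A (modularFunctionFieldBar M') (Y : LaurentSeries Kbar) a b) :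
    IsRep A (modularFunctionFieldBar (M' * q))
      ((heckeBetaBar Kbar M' q Y : FF (M' * q)) : LaurentSeries Kbar)
      (qExpand A q a) (qExpand A q b) := by
  rw [coe_heckeBetaBar]
  exact vk_isRep_qExpand q
    (fun x hx => (heckeBetaBar Kbar M' q ⟨x, hx⟩).2) h

/-- `Y ∈ O' ⇒ α Y ∈ O_∞` -/
theorem vk_alpha_mem (hR' : IsSeriesRed R') (hR : IsSeriesRed R)
    (hfrac' : HasPrimFrac A (modularFunctionFieldBar M')) {Y : FF M'} (hY : Y ∈ R'.O) :
    heckeAlphaBar Kbar M' q Y ∈ R.O := by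
  obtain ⟨a, b, h⟩ := hR'.exists_isRep hfrac' hY
  exact hR.mem_of_isRep (vk_isRep_alpha M' q h)

/-- `red_∞ (α Y) = red' Y` (as Laurent series over `k`) -/
theorem vk_red_alpha (hR' : IsSeriesRed R') (hR : IsSeriesRed R)
    (hfrac' : HasPrimFrac A (modularFunctionFieldBar M')) {Y : FF M'} (hY : Y ∈ R'.O)
    (hαY : heckeAlphaBar Kbar M' q Y ∈ R.O) :
    ((R.red ⟨heckeAlphaBar Kbar M' q Y, hαY⟩ : ↥Fk) :
        LaurentSeries (IsLocalRing.ResidueField A))
      = ((R'.red ⟨Y, hY⟩ : ↥Fk') : LaurentSeries (IsLocalRing.ResidueField A)) := by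
  obtain ⟨a, b, h⟩ := hR'.exists_isRep hfrac' hY
  rw [hR.red_of_isRep (vk_isRep_alpha M' q h) hαY, hR'.red_of_isRep h hY]

/-- `Y ∈ O' ⇒ β Y ∈ O_∞` -/
theorem vk_beta_mem (hR' : IsSeriesRed R') (hR : IsSeriesRed R)
    (hfrac' : HasPrimFrac A (modularFunctionFieldBar M')) {Y : FF M'} (hY : Y ∈ R'.O) :
    heckeBetaBar Kbar M' q Y ∈ R.O := by
  obtain ⟨a, b, h⟩ := hR'.exists_isRep hfrac' hY
  exact hR.mem_of_isRep (vk_isRep_beta M' q h)

/-- `red_∞ (β Y) = (red' Y)(Q^q)` (as Laurent series over `k`) -/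
theorem vk_red_beta (hR' : IsSeriesRed R') (hR : IsSeriesRed R)
    (hfrac' : HasPrimFrac A (modularFunctionFieldBar M')) {Y : FF M'} (hY : Y ∈ R'.O)
    (hβY : heckeBetaBar Kbar M' q Y ∈ R.O) :
    ((R.red ⟨heckeBetaBar Kbar M' q Y, hβY⟩ : ↥Fk) :
        LaurentSeries (IsLocalRing.ResidueField A))
      = qExpand (IsLocalRing.ResidueField A) q
          ((R'.red ⟨Y, hY⟩ : ↥Fk') : LaurentSeries (IsLocalRing.ResidueField A)) := by
  obtain ⟨a, b, h⟩ := hR'.exists_isRep hfrac' hY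
  rw [hR.red_of_isRep (vk_isRep_beta M' q h) hβY, hR'.red_of_isRep h hY, map_div₀,
    vk_coeffMap_qExpand, vk_coeffMap_qExpand]


/-! ### the second valuation `v₀ = v_∞ ∘ w_q` -/

variable (hq : q.Prime) (hqM : ¬ q ∣ M')

/-- the constant reduction `R₀ = R ∘ w_q` at level `M' q` -/
abbrev vkZero (R : ConstRed A (IsLocalRing.residue A) (↥Fk) (FF (M' * q))) :
    ConstRed A (IsLocalRing.residue A) (↥Fk) (FF (M' * q)) :=
  inredZero (M' * q) q hq (dvd_mul_left q M') (inf_not_sq_dvd M' q hq hqM) R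

/-- `Y ∈ O' ⇒ α Y ∈ O_0` -/
theorem vk_alpha_mem_zero (hR' : IsSeriesRed R') (hR : IsSeriesRed R)
    (hfrac' : HasPrimFrac A (modularFunctionFieldBar M')) {Y : FF M'} (hY : Y ∈ R'.O) :
    heckeAlphaBar Kbar M' q Y ∈ (vkZero M' q hq hqM R).O := by
  rw [mem_inredZero_O, atkinLehnerFF_alpha M' q hq hqM]
  exact vk_beta_mem M' q hR' hR hfrac' hY

/-- `red_0 (α Y) = (red' Y)(Q^q)` -/
theorem vk_red_alpha_zero (hR' : IsSeriesRed R') (hR : IsSeriesRed R)
    (hfrac' : HasPrimFrac A (modularFunctionFieldBar M')) {Y : FF M'} (hY : Y ∈ R'.O)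
    (hαY : heckeAlphaBar Kbar M' q Y ∈ (vkZero M' q hq hqM R).O) :
    (((vkZero M' q hq hqM R).red ⟨heckeAlphaBar Kbar M' q Y, hαY⟩ : ↥Fk) :
        LaurentSeries (IsLocalRing.ResidueField A))
      = qExpand (IsLocalRing.ResidueField A) q
          ((R'.red ⟨Y, hY⟩ : ↥Fk') : LaurentSeries (IsLocalRing.ResidueField A)) := by
  have hβ : heckeBetaBar Kbar M' q Y ∈ R.O := vk_beta_mem M' q hR' hR hfrac' hY
  have e : (vkZero M' q hq hqM R).red ⟨heckeAlphaBar Kbar M' q Y, hαY⟩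
      = R.red ⟨heckeBetaBar Kbar M' q Y, hβ⟩ := by
    rw [inredZero_red]
    congr 1
    exact Subtype.ext (atkinLehnerFF_alpha M' q hq hqM Y)
  rw [e]
  exact vk_red_beta M' q hR' hR hfrac' hY hβ

/-- `Y ∈ O' ⇒ β Y ∈ O_0` -/
theorem vk_beta_mem_zero (hR' : IsSeriesRed R') (hR : IsSeriesRed R)
    (hfrac' : HasPrimFrac A (modularFunctionFieldBar M')) {Y : FF M'} (hY : Y ∈ R'.O) :
    heckeBetaBar Kbar M' q Y ∈ (vkZero M' q hq hqM R).O := by
  rw [mem_inredZero_O, atkinLehnerFF_beta M' q hq hqM]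
  exact vk_alpha_mem M' q hR' hR hfrac' hY

/-- `red_0 (β Y) = red' Y` -/
theorem vk_red_beta_zero (hR' : IsSeriesRed R') (hR : IsSeriesRed R)
    (hfrac' : HasPrimFrac A (modularFunctionFieldBar M')) {Y : FF M'} (hY : Y ∈ R'.O)
    (hβY : heckeBetaBar Kbar M' q Y ∈ (vkZero M' q hq hqM R).O) :
    (((vkZero M' q hq hqM R).red ⟨heckeBetaBar Kbar M' q Y, hβY⟩ : ↥Fk) :
        LaurentSeries (IsLocalRing.ResidueField A))
      = ((R'.red ⟨Y, hY⟩ : ↥Fk') : LaurentSeries (IsLocalRing.ResidueField A)) := by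
  have hα : heckeAlphaBar Kbar M' q Y ∈ R.O := vk_alpha_mem M' q hR' hR hfrac' hY
  have e : (vkZero M' q hq hqM R).red ⟨heckeBetaBar Kbar M' q Y, hβY⟩
      = R.red ⟨heckeAlphaBar Kbar M' q Y, hα⟩ := by
    rw [inredZero_red]
    congr 1
    exact Subtype.ext (atkinLehnerFF_beta M' q hq hqM Y)
  rw [e]
  exact vk_red_alpha M' q hR' hR hfrac' hY hα

/-- the graph of `φ`: `α Y` lies in the unit ball of the sup-norm and reduces to
`(red' Y, (red' Y)(Q^q))` -/
theorem vk_pair_alpha (hR' : IsSeriesRed R') (hR : IsSeriesRed R)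
    (hfrac' : HasPrimFrac A (modularFunctionFieldBar M')) {Y : FF M'} (hY : Y ∈ R'.O) :
    ∃ h : heckeAlphaBar Kbar M' q Y ∈ (SSRed.ofPair R (vkZero M' q hq hqM R)).O,
      ((((SSRed.ofPair R (vkZero M' q hq hqM R)).red ⟨_, h⟩).1 : ↥Fk) :
          LaurentSeries (IsLocalRing.ResidueField A))
        = ((R'.red ⟨Y, hY⟩ : ↥Fk') : LaurentSeries (IsLocalRing.ResidueField A)) ∧
      ((((SSRed.ofPair R (vkZero M' q hq hqM R)).red ⟨_, h⟩).2 : ↥Fk) :
          LaurentSeries (IsLocalRing.ResidueField A))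
        = qExpand (IsLocalRing.ResidueField A) q
            ((R'.red ⟨Y, hY⟩ : ↥Fk') : LaurentSeries (IsLocalRing.ResidueField A)) :=
  ⟨⟨vk_alpha_mem M' q hR' hR hfrac' hY, vk_alpha_mem_zero M' q hq hqM hR' hR hfrac' hY⟩,
    vk_red_alpha M' q hR' hR hfrac' hY _, vk_red_alpha_zero M' q hq hqM hR' hR hfrac' hY _⟩

/-- the transposed graph: `β Y` lies in the unit ball of the sup-norm and reduces to
`((red' Y)(Q^q), red' Y)` -/
theorem vk_pair_beta (hR' : IsSeriesRed R') (hR : IsSeriesRed R)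
    (hfrac' : HasPrimFrac A (modularFunctionFieldBar M')) {Y : FF M'} (hY : Y ∈ R'.O) :
    ∃ h : heckeBetaBar Kbar M' q Y ∈ (SSRed.ofPair R (vkZero M' q hq hqM R)).O,
      ((((SSRed.ofPair R (vkZero M' q hq hqM R)).red ⟨_, h⟩).1 : ↥Fk) :
          LaurentSeries (IsLocalRing.ResidueField A))
        = qExpand (IsLocalRing.ResidueField A) q
            ((R'.red ⟨Y, hY⟩ : ↥Fk') : LaurentSeries (IsLocalRing.ResidueField A)) ∧
      ((((SSRed.ofPair R (vkZero M' q hq hqM R)).red ⟨_, h⟩).2 : ↥Fk) :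
          LaurentSeries (IsLocalRing.ResidueField A))
        = ((R'.red ⟨Y, hY⟩ : ↥Fk') : LaurentSeries (IsLocalRing.ResidueField A)) :=
  ⟨⟨vk_beta_mem M' q hR' hR hfrac' hY, vk_beta_mem_zero M' q hq hqM hR' hR hfrac' hY⟩,
    vk_red_beta M' q hR' hR hfrac' hY _, vk_red_beta_zero M' q hq hqM hR' hR hfrac' hY _⟩

end Main

end Fermat.Agent.S34lib

end
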