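/-
Item 79 (S34), piece C6 (helper18): lifting with pole control at the auxiliary level `M'`.

Setting: `R` a constant reduction of `F' = FF M'` (over `ℚ̄`) onto `Fk = F_{M',k}` with a place
reduction `r` satisfying (F3) (`R.W D = L(r_* D)` for `deg D > 2g - 2`), and
`hrInf : r (infPlaceBar M') = infPlaceC k M'` (piece C6a).  Then

* `liftInf_W_eq`      : `R.W (n • P∞) = L(n • Q∞)` for `2 g - 1 ≤ n`;
* `liftInf_exists_lift` : every `a ∈ L(n • Q∞)` is `red x` with `x ∈ L(m • P∞) ∩ O`, `m = max n (2g)`;
* `liftInf_exists_order` : for `2 g ≤ n` there is `x ∈ L(n • P∞) ∩ O` with `red x` of `X`-adic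
  order exactly `-n`.
* `liftInf_exists_red` : existence of `(R, r)` at an auxiliary level, for every prime `q`.
No sorry.
-/
import Mathlib
import Fermat.Agent.GoodRed.DescWiring
import Fermat.Agent.GoodRed.Genus
import Fermat.Agent.GM.MainFinal
import Fermat.Agent.S34lib.InfPlace

set_option autoImplicit false
set_option linter.style.haveILetI false
set_option synthInstance.maxHeartbeats 400000

noncomputable section

namespace Fermat.Agent.S34lib

open AlgebraicCurve ModularCurve IntermediateField CongruenceSubgroup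
open Fermat.Agent.S24lib Fermat.Agent.FFlib Fermat.Agent.RRlib Fermat.Agent.GoodRed
  Fermat.Agent.GM
open scoped MatrixGroups

variable (M : ℕ) [NeZero M] (A : ValuationSubring Kbar)

/-- **the setting at an auxiliary level** (any prime `q`): the constant reduction of `F_M` at a
valuation ring over `q`, with its place reduction, (F3) and the genus equality. -/
theorem liftInf_exists_red (q : ℕ) [Fact q.Prime] (haux : IsAuxLevel q M)
    (hA : A.LiesOverPrime q) :
    haveI : IsAlgClosed (IsLocalRing.ResidueField A) := isAlgClosed_residueField A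
    haveI : RRHyp Kbar (FF M) := mod_rrHyp M
    haveI : RRHyp (IsLocalRing.ResidueField A) (Fk (IsLocalRing.ResidueField A) M) :=
      mr_rrHyp (IsLocalRing.ResidueField A) M
    ∃ (R : ConstRed A (IsLocalRing.residue A) (Fk (IsLocalRing.ResidueField A) M) (FF M))
      (r : Place Kbar (FF M) →
        Place (IsLocalRing.ResidueField A) (Fk (IsLocalRing.ResidueField A) M)),
      IsSeriesRed R ∧ R.IsPlaceRed r ∧
      (∀ D : Divisor Kbar (FF M), 2 * (genusFF Kbar (FF M) : ℤ) - 2 < Divisor.degree D →
        R.W D = riemannRochSpace (K := IsLocalRing.ResidueField A) (Finsupp.mapDomain r D)) ∧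
      genusFF (IsLocalRing.ResidueField A) (Fk (IsLocalRing.ResidueField A) M)
        = genusFF Kbar (FF M) := by
  haveI : IsAlgClosed (IsLocalRing.ResidueField A) := isAlgClosed_residueField A
  haveI : Infinite (IsLocalRing.ResidueField A) := IsAlgClosed.instInfinite
  haveI : RRHyp Kbar (FF M) := mod_rrHyp M
  haveI : RRHyp (IsLocalRing.ResidueField A) (Fk (IsLocalRing.ResidueField A) M) :=
    mr_rrHyp (IsLocalRing.ResidueField A) M
  have hne : A ≠ ⊤ := dw_ne_top (Fact.out : q.Prime) hA
  obtain ⟨R, hR⟩ := exists_modConstRed M A hne (hred_modL M haux.1 A hA)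
  have hg := genusFF_le_modL M haux A hA
  obtain ⟨r, hr, hW⟩ := R.exists_isPlaceRed hg
  exact ⟨R, r, hR, hr, hW, le_antisymm (R.genusFF_le) hg⟩

section Lift

variable {M A}
variable [IsAlgClosed (IsLocalRing.ResidueField A)]
variable [RRHyp Kbar (FF M)] [RRHyp (IsLocalRing.ResidueField A) (Fk (IsLocalRing.ResidueField A) M)]
variable {R : ConstRed A (IsLocalRing.residue A) (Fk (IsLocalRing.ResidueField A) M) (FF M)}
variable {r : Place Kbar (FF M) →
    Place (IsLocalRing.ResidueField A) (Fk (IsLocalRing.ResidueField A) M)}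

/-- `R.W (n • P∞) = L(n • Q∞)` for `2 g - 1 ≤ n`. -/
theorem liftInf_W_eq
    (hW : ∀ D : Divisor Kbar (FF M), 2 * (genusFF Kbar (FF M) : ℤ) - 2 < Divisor.degree D →
        R.W D = riemannRochSpace (K := IsLocalRing.ResidueField A) (Finsupp.mapDomain r D))
    (hrInf : r (infPlaceBar M) = infPlaceC (IsLocalRing.ResidueField A) M)
    (n : ℤ) (hn : 2 * (genusFF Kbar (FF M) : ℤ) - 1 ≤ n) :
    R.W (Finsupp.single (infPlaceBar M) n)
      = riemannRochSpace (K := IsLocalRing.ResidueField A)
          (Finsupp.single (infPlaceC (IsLocalRing.ResidueField A) M) n) := by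
  have hdeg : 2 * (genusFF Kbar (FF M) : ℤ) - 2
      < Divisor.degree (Finsupp.single (infPlaceBar M) n) := by
    rw [Divisor.degree_single, deg_eq_one]
    push_cast
    omega
  rw [hW _ hdeg, Finsupp.mapDomain_single, hrInf]

/-- every function of `Fk` with a pole only at `Q∞` lifts to `O` with pole control. -/
theorem liftInf_exists_lift
    (hW : ∀ D : Divisor Kbar (FF M), 2 * (genusFF Kbar (FF M) : ℤ) - 2 < Divisor.degree D →
        R.W D = riemannRochSpace (K := IsLocalRing.ResidueField A) (Finsupp.mapDomain r D))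
    (hrInf : r (infPlaceBar M) = infPlaceC (IsLocalRing.ResidueField A) M)
    (n : ℤ) (a : Fk (IsLocalRing.ResidueField A) M)
    (ha : a ∈ riemannRochSpace (K := IsLocalRing.ResidueField A)
      (Finsupp.single (infPlaceC (IsLocalRing.ResidueField A) M) n)) :
    ∃ x : R.O, ((x : R.O) : FF M) ∈ riemannRochSpace (K := Kbar)
        (Finsupp.single (infPlaceBar M) (max n (2 * (genusFF Kbar (FF M) : ℤ)))) ∧
      R.red x = a := by
  classical
  set m : ℤ := max n (2 * (genusFF Kbar (FF M) : ℤ)) with hm
  have hle : (Finsupp.single (infPlaceC (IsLocalRing.ResidueField A) M) n :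
      Divisor (IsLocalRing.ResidueField A) (Fk (IsLocalRing.ResidueField A) M))
      ≤ Finsupp.single (infPlaceC (IsLocalRing.ResidueField A) M) m := by
    rw [Finsupp.le_def]
    intro v
    rw [Finsupp.single_apply, Finsupp.single_apply]
    split_ifs
    · exact le_max_left _ _
    · exact le_refl _
  have ha' := riemannRochSpace_mono hle ha
  have hm2 : 2 * (genusFF Kbar (FF M) : ℤ) - 1 ≤ m := by
    have h := le_max_right n (2 * (genusFF Kbar (FF M) : ℤ))
    rw [← hm] at h
    omega
  rw [← liftInf_W_eq hW hrInf m hm2] at ha'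
  exact (R.mem_W_iff _ a).mp ha'

/-- for `2 g ≤ n` there is an element of `L(n • P∞) ∩ O` whose reduction has `X`-adic order
exactly `-n`. -/
theorem liftInf_exists_order
    (hW : ∀ D : Divisor Kbar (FF M), 2 * (genusFF Kbar (FF M) : ℤ) - 2 < Divisor.degree D →
        R.W D = riemannRochSpace (K := IsLocalRing.ResidueField A) (Finsupp.mapDomain r D))
    (hrInf : r (infPlaceBar M) = infPlaceC (IsLocalRing.ResidueField A) M)
    (hgeq : genusFF (IsLocalRing.ResidueField A) (Fk (IsLocalRing.ResidueField A) M)
        = genusFF Kbar (FF M))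
    (n : ℕ) (hn : 2 * genusFF Kbar (FF M) ≤ n) :
    ∃ x : R.O, ((x : R.O) : FF M) ∈ riemannRochSpace (K := Kbar)
        (Finsupp.single (infPlaceBar M) (n : ℤ)) ∧
      ((R.red x : Fk (IsLocalRing.ResidueField A) M) :
        LaurentSeries (IsLocalRing.ResidueField A)).order = -(n : ℤ) := by
  classical
  set k := IsLocalRing.ResidueField A with hk
  set Q := infPlaceC k M with hQ
  -- dimensions
  have hd1 : 2 * (genusFF k (Fk k M) : ℤ) - 2 < Divisor.degree (Finsupp.single Q (n : ℤ)) := by
    rw [Divisor.degree_single, deg_eq_one, hgeq]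
    push_cast
    omega
  have hd2 : 2 * (genusFF k (Fk k M) : ℤ) - 2
      < Divisor.degree (Finsupp.single Q ((n : ℤ) - 1)) := by
    rw [Divisor.degree_single, deg_eq_one, hgeq]
    push_cast
    omega
  have e1 := ell_eq_of_degree_gt (K := k) hd1
  have e2 := ell_eq_of_degree_gt (K := k) hd2
  rw [Divisor.degree_single, deg_eq_one] at e1 e2
  have hlt : ell (Finsupp.single Q ((n : ℤ) - 1) : Divisor k (Fk k M))
      < ell (Finsupp.single Q (n : ℤ) : Divisor k (Fk k M)) := by
    have : (ell (Finsupp.single Q ((n : ℤ) - 1) : Divisor k (Fk k M)) : ℤ)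
        < ell (Finsupp.single Q (n : ℤ) : Divisor k (Fk k M)) := by
      rw [e1, e2]
      push_cast
      omega
    exact_mod_cast this
  have hle : (Finsupp.single Q ((n : ℤ) - 1) : Divisor k (Fk k M))
      ≤ Finsupp.single Q (n : ℤ) := by
    rw [Finsupp.le_def]
    intro v
    rw [Finsupp.single_apply, Finsupp.single_apply]
    split_ifs
    · omega
    · exact le_refl _
  have hmono := riemannRochSpace_mono (K := k) hle
  -- an element of `L(nQ)` not in `L((n-1)Q)`
  obtain ⟨a, ha, hna⟩ : ∃ a, a ∈ riemannRochSpace (K := k) (Finsupp.single Q (n : ℤ)) ∧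
      a ∉ riemannRochSpace (K := k) (Finsupp.single Q ((n : ℤ) - 1)) := by
    by_contra hcon
    have hsub : riemannRochSpace (K := k) (Finsupp.single Q (n : ℤ))
        ≤ riemannRochSpace (K := k) (Finsupp.single Q ((n : ℤ) - 1)) := by
      intro a ha
      by_contra hna
      exact hcon ⟨a, ha, hna⟩
    have heq := le_antisymm hsub hmono
    unfold ell at hlt
    rw [heq] at hlt
    exact lt_irrefl _ hlt
  have ha0 : a ≠ 0 := by
    rintro rfl
    exact hna (Submodule.zero_mem _)
  have hord : Q.ord a = -(n : ℤ) := by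
    rw [mem_riemannRochSpace_iff] at ha hna
    have h1 := (ha Q).resolve_left ha0
    rw [Finsupp.single_apply, if_pos rfl] at h1
    have h2 : Q.ord a < -((n : ℤ) - 1) := by
      by_contra hge
      apply hna
      intro v
      right
      rw [Finsupp.single_apply]
      split_ifs with hv
      · rw [← hv]
        exact not_lt.mp hge
      · have := (ha v).resolve_left ha0
        rwa [Finsupp.single_apply, if_neg hv] at this
    omega
  obtain ⟨x, hx, hred⟩ := (R.mem_W_iff _ a).mp (by
    rw [liftInf_W_eq hW hrInf (n : ℤ) (by omega)]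
    exact ha)
  refine ⟨x, hx, ?_⟩
  rw [hred, ← infPlaceC_ord, ← hQ, hord]

end Lift

end Fermat.Agent.S34lib

end
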