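/-
Item 82 (S35), piece SWF (helper8): the packaged sandwich `sw_exists` WITH the fixed-point
information, and the Frobenius corollary.  Mathlib only (+ Sandwich, SandwichPkg), no sorry.

* `sw_exists_fix`: as `sw_exists`, and in addition the gluing points `e₁ i` are fixed by `F ∘ F`
  and `e₂ i = (e₁ i) ∘ F`  (hence also `e₂ i` fixed by `F ∘ F` and `e₁ i = (e₂ i) ∘ F`);
* `sw_frob_sq`: if `Fr : R' →+* R'` satisfies `F (Fr r) = r ^ q`, every `k`-point `χ` fixed by
  `F ∘ F` satisfies `χ (Fr (Fr r)) = (χ r) ^ (q ^ 2)`;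
* `sw_frob_sq'`: the same from `Fr (F r) = r ^ q` and `Fr` injective;
* `sw_exists_frob`: the package `sw_exists_fix` + `sw_frob_sq` for both families `e₁`, `e₂`.
-/
import Mathlib
import Fermat.Agent.S34lib.SandwichPkg

set_option autoImplicit false

noncomputable section

namespace Fermat.Agent.S34lib

section Fix

variable {k R' : Type*} [Field k] [CommRing R'] [Algebra k R']

/-- Frobenius at a point fixed by `F ∘ F`. -/
theorem sw_frob_sq (F : R' →ₐ[k] R') (Fr : R' →+* R') (q : ℕ)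
    (hFr : ∀ r : R', F (Fr r) = r ^ q)
    (χ : R' →ₐ[k] k) (hχ : ∀ f : R', χ (F (F f)) = χ f) (r : R') :
    χ (Fr (Fr r)) = (χ r) ^ (q ^ 2) := by
  rw [← hχ (Fr (Fr r)), hFr (Fr r), map_pow, hFr r, ← pow_mul, map_pow, pow_two]

/-- `F ∘ Fr = (·)^q` from `Fr ∘ F = (·)^q` and the injectivity of `Fr`. -/
theorem sw_frob_comm (F : R' →ₐ[k] R') (Fr : R' →+* R') (q : ℕ)
    (hFr : ∀ r : R', Fr (F r) = r ^ q) (hinj : Function.Injective Fr) (r : R') :
    F (Fr r) = r ^ q := by
  apply hinj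
  rw [hFr, map_pow]

/-- Frobenius at a point fixed by `F ∘ F`, second form. -/
theorem sw_frob_sq' (F : R' →ₐ[k] R') (Fr : R' →+* R') (q : ℕ)
    (hFr : ∀ r : R', Fr (F r) = r ^ q) (hinj : Function.Injective Fr)
    (χ : R' →ₐ[k] k) (hχ : ∀ f : R', χ (F (F f)) = χ f) (r : R') :
    χ (Fr (Fr r)) = (χ r) ^ (q ^ 2) :=
  sw_frob_sq F Fr q (sw_frob_comm F Fr q hFr hinj) χ hχ r

variable [IsDedekindDomain R']

/-- **the sandwich, packaged, with the fixed-point information.**  As `sw_exists`; in addition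
the gluing points `e₁ i` are fixed by `F ∘ F`, and `e₂ i = (e₁ i) ∘ F`. -/
theorem sw_exists_fix
    (hres : ∀ P : Ideal R', P.IsMaximal → Function.Surjective (algebraMap k (R' ⧸ P)))
    (F : R' →ₐ[k] R') (hpow : ∀ a : R', ∃ (g : R') (n : ℕ), 2 ≤ n ∧ F a = g ^ n)
    (hne : ∃ f : R', F (F f) ≠ f)
    (S : Subring (R' × R')) (hS : ∀ a : R', ((a, F a) : R' × R') ∈ S ∧ ((F a, a) : R' × R') ∈ S) :
    ∃ (n : ℕ) (e₁ e₂ : Fin n → R' →ₐ[k] k), Function.Injective e₁ ∧ Function.Injective e₂ ∧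
      (∀ r : R' × R', r ∈ S ↔ ∀ i, e₁ i r.1 = e₂ i r.2) ∧
      (∀ i (f : R'), e₁ i (F (F f)) = e₁ i f) ∧ (∀ i, e₂ i = (e₁ i).comp F) ∧
      (∀ i (f : R'), e₂ i (F (F f)) = e₂ i f) ∧ (∀ i, e₁ i = (e₂ i).comp F) := by
  classical
  have : Finite (swPts F) := sw_finite_pts F hne
  have hideal : ∀ a : R', (∀ i : swPts F, i.1 a = 0) →
      a ∈ Ideal.span (Set.range fun f : R' => f - F (F f)) := by
    refine sw_ideal_of_dedekind F (fun i : swPts F => i.1) (fun P hP hall => ?_) (fun P hP => ?_)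
    · obtain ⟨χ, hχ⟩ := sw_exists_pt P (hres P hP) hP.ne_top
      refine ⟨⟨χ, fun f => ?_⟩, fun a ha => (hχ a).mp ha⟩
      have h := (hχ _).mpr (hall f)
      rw [map_sub, sub_eq_zero] at h
      exact h.symm
    · by_cases hall : ∀ f : R', f - F (F f) ∈ P
      · obtain ⟨f0, hf0⟩ := hne
        have hP0 : P ≠ ⊥ := by
          rintro rfl
          have := hall f0
          rw [Ideal.mem_bot, sub_eq_zero] at this
          exact hf0 this.symm
        have := hP.isPrime
        have hlt : P ^ 2 < P := by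
          have := Ideal.pow_succ_lt_pow hP0 1
          rwa [pow_one] at this
        obtain ⟨f, hfP, hfP2⟩ := SetLike.exists_of_lt hlt
        refine ⟨f, fun hmem => hfP2 ?_⟩
        obtain ⟨g, n, hn, hg⟩ := hpow (F f)
        have hFF : F (F f) ∈ P := by
          have := P.sub_mem hfP (hall f)
          rwa [sub_sub_cancel] at this
        have hgP : g ∈ P := by
          rw [hg] at hFF
          exact hP.isPrime.mem_of_pow_mem n hFF
        have hFF2 : F (F f) ∈ P ^ 2 := by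
          rw [hg]
          exact Ideal.pow_le_pow_right hn (Ideal.pow_mem_pow hgP n)
        have := (P ^ 2).add_mem hmem hFF2
        rwa [sub_add_cancel] at this
      · push Not at hall
        obtain ⟨f, hf⟩ := hall
        exact ⟨f, fun h => hf (Ideal.pow_le_self two_ne_zero h)⟩
  obtain ⟨Sg, hSg⟩ := sw_main F (fun i : swPts F => i.1) Subtype.val_injective (swPhi F)
    (fun i a => rfl) (swPhi_swPhi F) hideal S hS
  have : Finite Sg := Finite.of_injective (fun s : Sg => (s : swPts F)) Subtype.val_injective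
  let eq : Sg ≃ Fin (Nat.card Sg) := Finite.equivFin Sg
  refine ⟨Nat.card Sg, fun i => (eq.symm i : swPts F).1, fun i => (swPhi F (eq.symm i)).1,
    ?_, ?_, fun r => ?_, fun i f => (eq.symm i : swPts F).2 f, fun i => rfl,
    fun i f => (swPhi F (eq.symm i)).2 f, fun i => ?_⟩
  · intro i j h
    exact eq.symm.injective (Subtype.ext (Subtype.ext h))
  · intro i j h
    have h1 : swPhi F (eq.symm i : swPts F) = swPhi F (eq.symm j : swPts F) := Subtype.ext h
    have h2 := congrArg (swPhi F) h1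
    rw [swPhi_swPhi, swPhi_swPhi] at h2
    exact eq.symm.injective (Subtype.ext h2)
  · rw [hSg r]
    constructor
    · intro h i
      exact h (eq.symm i : swPts F) (eq.symm i).2
    · intro h s hs
      have := h (eq ⟨s, hs⟩)
      simp only [Equiv.symm_apply_apply] at this
      exact this
  · apply AlgHom.ext
    intro a
    exact ((eq.symm i : swPts F).2 a).symm

/-- **the sandwich with Frobenius.**  As `sw_exists_fix`, with a ring endomorphism `Fr` of `R'`
such that `F (Fr r) = r ^ q`: the gluing points satisfy `e (Fr (Fr r)) = (e r) ^ (q ^ 2)`. -/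
theorem sw_exists_frob
    (hres : ∀ P : Ideal R', P.IsMaximal → Function.Surjective (algebraMap k (R' ⧸ P)))
    (F : R' →ₐ[k] R') (hpow : ∀ a : R', ∃ (g : R') (n : ℕ), 2 ≤ n ∧ F a = g ^ n)
    (hne : ∃ f : R', F (F f) ≠ f)
    (Fr : R' →+* R') (q : ℕ) (hFr : ∀ r : R', F (Fr r) = r ^ q)
    (S : Subring (R' × R')) (hS : ∀ a : R', ((a, F a) : R' × R') ∈ S ∧ ((F a, a) : R' × R') ∈ S) :
    ∃ (n : ℕ) (e₁ e₂ : Fin n → R' →ₐ[k] k), Function.Injective e₁ ∧ Function.Injective e₂ ∧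
      (∀ r : R' × R', r ∈ S ↔ ∀ i, e₁ i r.1 = e₂ i r.2) ∧
      (∀ i (f : R'), e₁ i (F (F f)) = e₁ i f) ∧ (∀ i, e₂ i = (e₁ i).comp F) ∧
      (∀ i (r : R'), e₁ i (Fr (Fr r)) = (e₁ i r) ^ (q ^ 2)) ∧
      (∀ i (r : R'), e₂ i (Fr (Fr r)) = (e₂ i r) ^ (q ^ 2)) := by
  obtain ⟨n, e₁, e₂, h1, h2, h3, h4, h5, h6, -⟩ := sw_exists_fix hres F hpow hne S hS
  exact ⟨n, e₁, e₂, h1, h2, h3, h4, h5,
    fun i r => sw_frob_sq F Fr q hFr (e₁ i) (h4 i) r,
    fun i r => sw_frob_sq F Fr q hFr (e₂ i) (h6 i) r⟩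

end Fix

end Fermat.Agent.S34lib

end
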