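/-
Item 82 (S35) add-on C11+ to piece C11 GRAPHS of item 79 (helper25).

As `graphs_exists` (`Graphs.lean`), with the packaged sandwich WITH fixed points and Frobenius
(`sw_exists_frob`, `SandwichFix.lean`): the gluing points are fixed by `Fr ∘ Fr`, `e₂ = e₁ ∘ Fr`,
and, for a coefficient Frobenius `Frc` (`Fr (Frc r) = r ^ q`),
`e (Frc (Frc r)) = (e r) ^ (q ^ 2)`: the gluing points are `𝔽_{q²}`-rational.

Three forms: on `R'` (`graphs_exists_frob`), as a `GlueData` with the coefficient Frobenius on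
`R'` (`graphs_glueData_frob`), and as a `GlueData` with the coefficient Frobenius given on `Fk`
(`graphs_glueData_frobK`).  No sorry.
-/
import Mathlib
import Fermat.Agent.S34lib.Graphs
import Fermat.Agent.S34lib.SandwichFix
import Fermat.Agent.S34lib.GlueInstNE

set_option autoImplicit false

noncomputable section

namespace Fermat.Agent.S34lib

open AlgebraicCurve Fermat.Agent.RRlib Fermat.Agent.GoodRed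

variable {K F k : Type*} [Field K] [Field F] [Algebra K F] [Field k]
variable {Fk : Type*} [Field Fk] [Algebra k Fk]
variable {A : ValuationSubring K} {π : A →+* k}
variable [RRHyp K F] [RRHyp k Fk] [Infinite k]
variable {R₁ R₂ : ConstRed A π Fk F} {P₁ P₂ : Place K F} {Q : Place k Fk} {a₀ : ℕ}

/-- **C11 with fixed points**: as `graphs_exists`; in addition the gluing points are fixed by
`Fr ∘ Fr` and `e₂ i = (e₁ i) ∘ Fr`, `e₁ i = (e₂ i) ∘ Fr`. -/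
theorem graphs_exists_fix (H : F3dEX R₁ R₂ P₁ P₂ Q Q a₀) (R' : Subalgebra k Fk)
    (hR' : ∀ x : Fk, x ∈ R' ↔ ∃ a : ℕ, x ∈ riemannRochSpace (K := k) (Finsupp.single Q (a : ℤ)))
    [IsDedekindDomain R']
    (hres : ∀ P : Ideal R', P.IsMaximal → Function.Surjective (algebraMap k (R' ⧸ P)))
    (Fr : R' →ₐ[k] R') (hpow : ∀ a : R', ∃ (g : R') (n : ℕ), 2 ≤ n ∧ Fr a = g ^ n)
    (hne : ∃ f : R', Fr (Fr f) ≠ f)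
    (hα : ∀ a : R', ∃ y : ssBall R₁ R₂,
      (∃ c : ℕ, (y : F) ∈ riemannRochSpace (K := K) (f3dDiv P₁ P₂ c c)) ∧
        ssRed R₁ R₂ y = ((a : Fk), (Fr a : Fk)))
    (hβ : ∀ a : R', ∃ y : ssBall R₁ R₂,
      (∃ c : ℕ, (y : F) ∈ riemannRochSpace (K := K) (f3dDiv P₁ P₂ c c)) ∧
        ssRed R₁ R₂ y = ((Fr a : Fk), (a : Fk))) :
    ∃ (n : ℕ) (e₁ e₂ : Fin n → R' →ₐ[k] k), Function.Injective e₁ ∧ Function.Injective e₂ ∧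
      (∀ w : Fk × Fk, (∃ c : ℕ, w ∈ f3dM R₁ R₂ (f3dDiv P₁ P₂ c c)) ↔
        ∃ (h₁ : w.1 ∈ R') (h₂ : w.2 ∈ R'), ∀ i, e₁ i ⟨w.1, h₁⟩ = e₂ i ⟨w.2, h₂⟩) ∧
      (∀ i (f : R'), e₁ i (Fr (Fr f)) = e₁ i f) ∧ (∀ i, e₂ i = (e₁ i).comp Fr) ∧
      (∀ i (f : R'), e₂ i (Fr (Fr f)) = e₂ i f) ∧ (∀ i, e₁ i = (e₂ i).comp Fr) := by
  have hS : ∀ a : R', ((a, Fr a) : R' × R') ∈ grSub R₁ R₂ P₁ P₂ R' ∧
      ((Fr a, a) : R' × R') ∈ grSub R₁ R₂ P₁ P₂ R' := by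
    intro a
    constructor
    · obtain ⟨y, ⟨c, hy⟩, hred⟩ := hα a
      exact ⟨c, y, hy, hred⟩
    · obtain ⟨y, ⟨c, hy⟩, hred⟩ := hβ a
      exact ⟨c, y, hy, hred⟩
  obtain ⟨n, e₁, e₂, h1, h2, h3, h4, h5, h6, h7⟩ :=
    sw_exists_fix hres Fr hpow hne (grSub R₁ R₂ P₁ P₂ R') hS
  refine ⟨n, e₁, e₂, h1, h2, fun w => ?_, h4, h5, h6, h7⟩
  constructor
  · intro hw
    obtain ⟨hw1, hw2⟩ := grRedB_le H R' hR' hw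
    exact ⟨hw1, hw2, (h3 (⟨w.1, hw1⟩, ⟨w.2, hw2⟩)).mp hw⟩
  · rintro ⟨hw1, hw2, hi⟩
    exact (h3 (⟨w.1, hw1⟩, ⟨w.2, hw2⟩)).mpr hi

/-- **C11+ (GRAPHS with Frobenius)**, on `R'`: as `graphs_exists`, with a ring endomorphism
`Frc` of `R'` such that `Fr (Frc r) = r ^ q`; the gluing points satisfy
`e (Frc (Frc r)) = (e r) ^ (q ^ 2)`. -/
theorem graphs_exists_frob (H : F3dEX R₁ R₂ P₁ P₂ Q Q a₀) (R' : Subalgebra k Fk)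
    (hR' : ∀ x : Fk, x ∈ R' ↔ ∃ a : ℕ, x ∈ riemannRochSpace (K := k) (Finsupp.single Q (a : ℤ)))
    [IsDedekindDomain R']
    (hres : ∀ P : Ideal R', P.IsMaximal → Function.Surjective (algebraMap k (R' ⧸ P)))
    (Fr : R' →ₐ[k] R') (hpow : ∀ a : R', ∃ (g : R') (n : ℕ), 2 ≤ n ∧ Fr a = g ^ n)
    (hne : ∃ f : R', Fr (Fr f) ≠ f)
    (Frc : R' →+* R') (q : ℕ) (hFrc : ∀ r : R', Fr (Frc r) = r ^ q)
    (hα : ∀ a : R', ∃ y : ssBall R₁ R₂,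
      (∃ c : ℕ, (y : F) ∈ riemannRochSpace (K := K) (f3dDiv P₁ P₂ c c)) ∧
        ssRed R₁ R₂ y = ((a : Fk), (Fr a : Fk)))
    (hβ : ∀ a : R', ∃ y : ssBall R₁ R₂,
      (∃ c : ℕ, (y : F) ∈ riemannRochSpace (K := K) (f3dDiv P₁ P₂ c c)) ∧
        ssRed R₁ R₂ y = ((Fr a : Fk), (a : Fk))) :
    ∃ (n : ℕ) (e₁ e₂ : Fin n → R' →ₐ[k] k), Function.Injective e₁ ∧ Function.Injective e₂ ∧
      (∀ w : Fk × Fk, (∃ c : ℕ, w ∈ f3dM R₁ R₂ (f3dDiv P₁ P₂ c c)) ↔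
        ∃ (h₁ : w.1 ∈ R') (h₂ : w.2 ∈ R'), ∀ i, e₁ i ⟨w.1, h₁⟩ = e₂ i ⟨w.2, h₂⟩) ∧
      (∀ i (f : R'), e₁ i (Fr (Fr f)) = e₁ i f) ∧ (∀ i, e₂ i = (e₁ i).comp Fr) ∧
      (∀ i (r : R'), e₁ i (Frc (Frc r)) = (e₁ i r) ^ (q ^ 2)) ∧
      (∀ i (r : R'), e₂ i (Frc (Frc r)) = (e₂ i r) ^ (q ^ 2)) := by
  obtain ⟨n, e₁, e₂, h1, h2, h3, h4, h5, h6, -⟩ :=
    graphs_exists_fix H R' hR' hres Fr hpow hne hα hβ
  exact ⟨n, e₁, e₂, h1, h2, h3, h4, h5,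
    fun i r => sw_frob_sq Fr Frc q hFrc (e₁ i) (h4 i) r,
    fun i r => sw_frob_sq Fr Frc q hFrc (e₂ i) (h6 i) r⟩

/-- the Frobenius relation at a point fixed by `Fr ∘ Fr`, pointwise form: if `Fr s = r ^ q` and
`Fr t = s ^ q` then `χ t = (χ r) ^ (q ^ 2)`. -/
theorem gr_frob_sq_pt {R' : Type*} [CommRing R'] [Algebra k R'] (Fr : R' →ₐ[k] R') (q : ℕ)
    (χ : R' →ₐ[k] k) (hχ : ∀ f : R', χ (Fr (Fr f)) = χ f) {r s t : R'}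
    (hs : Fr s = r ^ q) (ht : Fr t = s ^ q) : χ t = (χ r) ^ (q ^ 2) := by
  rw [← hχ t, ht, map_pow, hs, ← pow_mul, map_pow, pow_two]

/-- **C11+**, pointwise form (no bundled coefficient Frobenius): for the gluing points `e`,
`Fr s = r ^ q` and `Fr t = s ^ q` imply `e t = (e r) ^ (q ^ 2)`. -/
theorem graphs_exists_frobPt (H : F3dEX R₁ R₂ P₁ P₂ Q Q a₀) (R' : Subalgebra k Fk)
    (hR' : ∀ x : Fk, x ∈ R' ↔ ∃ a : ℕ, x ∈ riemannRochSpace (K := k) (Finsupp.single Q (a : ℤ)))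
    [IsDedekindDomain R']
    (hres : ∀ P : Ideal R', P.IsMaximal → Function.Surjective (algebraMap k (R' ⧸ P)))
    (Fr : R' →ₐ[k] R') (hpow : ∀ a : R', ∃ (g : R') (n : ℕ), 2 ≤ n ∧ Fr a = g ^ n)
    (hne : ∃ f : R', Fr (Fr f) ≠ f) (q : ℕ)
    (hα : ∀ a : R', ∃ y : ssBall R₁ R₂,
      (∃ c : ℕ, (y : F) ∈ riemannRochSpace (K := K) (f3dDiv P₁ P₂ c c)) ∧
        ssRed R₁ R₂ y = ((a : Fk), (Fr a : Fk)))
    (hβ : ∀ a : R', ∃ y : ssBall R₁ R₂,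
      (∃ c : ℕ, (y : F) ∈ riemannRochSpace (K := K) (f3dDiv P₁ P₂ c c)) ∧
        ssRed R₁ R₂ y = ((Fr a : Fk), (a : Fk))) :
    ∃ (n : ℕ) (e₁ e₂ : Fin n → R' →ₐ[k] k), Function.Injective e₁ ∧ Function.Injective e₂ ∧
      (∀ w : Fk × Fk, (∃ c : ℕ, w ∈ f3dM R₁ R₂ (f3dDiv P₁ P₂ c c)) ↔
        ∃ (h₁ : w.1 ∈ R') (h₂ : w.2 ∈ R'), ∀ i, e₁ i ⟨w.1, h₁⟩ = e₂ i ⟨w.2, h₂⟩) ∧
      (∀ i (f : R'), e₁ i (Fr (Fr f)) = e₁ i f) ∧ (∀ i, e₂ i = (e₁ i).comp Fr) ∧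
      (∀ i (f : R'), e₂ i (Fr (Fr f)) = e₂ i f) ∧ (∀ i, e₁ i = (e₂ i).comp Fr) ∧
      (∀ i (r s t : R'), Fr s = r ^ q → Fr t = s ^ q → e₁ i t = (e₁ i r) ^ (q ^ 2)) ∧
      (∀ i (r s t : R'), Fr s = r ^ q → Fr t = s ^ q → e₂ i t = (e₂ i r) ^ (q ^ 2)) := by
  obtain ⟨n, e₁, e₂, h1, h2, h3, h4, h5, h6, h7⟩ :=
    graphs_exists_fix H R' hR' hres Fr hpow hne hα hβ
  exact ⟨n, e₁, e₂, h1, h2, h3, h4, h5, h6, h7,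
    fun i r s t hs ht => gr_frob_sq_pt Fr q (e₁ i) (h4 i) hs ht,
    fun i r s t hs ht => gr_frob_sq_pt Fr q (e₂ i) (h6 i) hs ht⟩

/-- **C11+ as a `GlueData`**, Frobenius maps given on `Fk`: `φK` the `k`-linear Frobenius
(`Fr = φK` on `R'`), `FrK` the coefficient Frobenius (`φK (FrK r) = r ^ q` on `R'`, `FrK`
preserves `R'`).  The gluing points of `X` are fixed by `φK ∘ φK`, `X.e₂ = X.e₁ ∘ φK`,
`X.e₁ = X.e₂ ∘ φK`, and `X.e (FrK (FrK r)) = (X.e r) ^ (q ^ 2)`. -/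
theorem graphs_glueData_frobK (H : F3dEX R₁ R₂ P₁ P₂ Q Q a₀) (R' : Subalgebra k Fk)
    (hR' : ∀ x : Fk, x ∈ R' ↔ ∃ a : ℕ, x ∈ riemannRochSpace (K := k) (Finsupp.single Q (a : ℤ)))
    [IsDedekindDomain R']
    (hres : ∀ P : Ideal R', P.IsMaximal → Function.Surjective (algebraMap k (R' ⧸ P)))
    (Fr : R' →ₐ[k] R') (hpow : ∀ a : R', ∃ (g : R') (n : ℕ), 2 ≤ n ∧ Fr a = g ^ n)
    (hne : ∃ f : R', Fr (Fr f) ≠ f)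
    (φK FrK : Fk → Fk) (q : ℕ)
    (hφK : ∀ r : R', ((Fr r : R') : Fk) = φK (r : Fk))
    (hmem : ∀ x : Fk, x ∈ R' → FrK x ∈ R')
    (hFrK : ∀ r : R', φK (FrK (r : Fk)) = (r : Fk) ^ q)
    (hα : ∀ a : R', ∃ y : ssBall R₁ R₂,
      (∃ c : ℕ, (y : F) ∈ riemannRochSpace (K := K) (f3dDiv P₁ P₂ c c)) ∧
        ssRed R₁ R₂ y = ((a : Fk), (Fr a : Fk)))
    (hβ : ∀ a : R', ∃ y : ssBall R₁ R₂,
      (∃ c : ℕ, (y : F) ∈ riemannRochSpace (K := K) (f3dDiv P₁ P₂ c c)) ∧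
        ssRed R₁ R₂ y = ((Fr a : Fk), (a : Fk))) :
    ∃ X : GlueData R₁ R₂ P₁ P₂ Q, X.B = R' ∧
      (∀ i (r : X.B) (h : φK (φK (r : Fk)) ∈ X.B), X.e₁ i ⟨φK (φK (r : Fk)), h⟩ = X.e₁ i r) ∧
      (∀ i (r : X.B) (h : φK (φK (r : Fk)) ∈ X.B), X.e₂ i ⟨φK (φK (r : Fk)), h⟩ = X.e₂ i r) ∧
      (∀ i (r : X.B) (h : φK (r : Fk) ∈ X.B), X.e₂ i r = X.e₁ i ⟨φK (r : Fk), h⟩) ∧
      (∀ i (r : X.B) (h : φK (r : Fk) ∈ X.B), X.e₁ i r = X.e₂ i ⟨φK (r : Fk), h⟩) ∧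
      (∀ i (r : X.B) (h : FrK (FrK (r : Fk)) ∈ X.B),
        X.e₁ i ⟨FrK (FrK (r : Fk)), h⟩ = (X.e₁ i r) ^ (q ^ 2)) ∧
      (∀ i (r : X.B) (h : FrK (FrK (r : Fk)) ∈ X.B),
        X.e₂ i ⟨FrK (FrK (r : Fk)), h⟩ = (X.e₂ i r) ^ (q ^ 2)) := by
  obtain ⟨n, e₁, e₂, h1, h2, h3, h4, h5, h6, h7, h8, h9⟩ :=
    graphs_exists_frobPt H R' hR' hres Fr hpow hne q hα hβ
  have hFr1 : ∀ (r : R') (h : φK (r : Fk) ∈ R'), (⟨φK (r : Fk), h⟩ : R') = Fr r := by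
    intro r h
    exact Subtype.ext (hφK r).symm
  have hFr2 : ∀ (r : R') (h : φK (φK (r : Fk)) ∈ R'),
      (⟨φK (φK (r : Fk)), h⟩ : R') = Fr (Fr r) := by
    intro r h
    apply Subtype.ext
    show φK (φK (r : Fk)) = ((Fr (Fr r) : R') : Fk)
    rw [hφK (Fr r), hφK r]
  have hpt : ∀ (r : R') (h : FrK (FrK (r : Fk)) ∈ R'),
      Fr ⟨FrK (r : Fk), hmem _ r.2⟩ = r ^ q ∧
        Fr ⟨FrK (FrK (r : Fk)), h⟩ = (⟨FrK (r : Fk), hmem _ r.2⟩ : R') ^ q := by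
    intro r h
    constructor
    · apply Subtype.ext
      rw [hφK]
      show φK (FrK (r : Fk)) = ((r ^ q : R') : Fk)
      rw [hFrK r]
      rfl
    · apply Subtype.ext
      rw [hφK]
      show φK (FrK (FrK (r : Fk))) = (((⟨FrK (r : Fk), hmem _ r.2⟩ : R') ^ q : R') : Fk)
      have := hFrK ⟨FrK (r : Fk), hmem _ r.2⟩
      rw [this]
      rfl
  refine ⟨GlueData.ofGraphs R₁ R₂ P₁ P₂ Q R' hR' n e₁ e₂ h1 h2 h3, rfl, ?_, ?_, ?_, ?_, ?_, ?_⟩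
  · intro i r h
    show e₁ i ⟨φK (φK (r : Fk)), h⟩ = e₁ i r
    rw [hFr2 r h]
    exact h4 i r
  · intro i r h
    show e₂ i ⟨φK (φK (r : Fk)), h⟩ = e₂ i r
    rw [hFr2 r h]
    exact h6 i r
  · intro i r h
    show e₂ i r = e₁ i ⟨φK (r : Fk), h⟩
    rw [hFr1 r h, h5 i]
    rfl
  · intro i r h
    show e₁ i r = e₂ i ⟨φK (r : Fk), h⟩
    rw [hFr1 r h, h7 i]
    rfl
  · intro i r h
    show e₁ i ⟨FrK (FrK (r : Fk)), h⟩ = (e₁ i r) ^ (q ^ 2)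
    exact h8 i r _ _ (hpt r h).1 (hpt r h).2
  · intro i r h
    show e₂ i ⟨FrK (FrK (r : Fk)), h⟩ = (e₂ i r) ^ (q ^ 2)
    exact h9 i r _ _ (hpt r h).1 (hpt r h).2

end Fermat.Agent.S34lib

end
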