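/-
Item 79 (S34) / item 82 (S35), piece E+ (helper26): the core of APPLY, generic in `(g, Q)`.

`tw_torK`: for two constant reductions `R₁ R₂` of `F` (sup-norm datum `SSRed.ofPair R₁ R₂`), a
gluing `G` on `Fk × Fk` with `TwistHyp`, `TwistCrux`, and an automorphism `g` with `TwistAut … g Q`
which raises constant reductions to the `Q`-th power: every `u ≠ 0` of the unit ball all of whose
orders are divisible by `m` and whose two reductions are nonzero constants satisfies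
`g u / u ^ Q = c · s ^ m`.  This is `TorK R₁ R₂ g Q m` of `S35lib/Frob2Glue.lean` (helper15),
spelled out; `Q = 1`, `g` inertial: S34;  `Q = q²`, `g = σ²`: S35.
No sorry.
-/
import Mathlib
import Fermat.Agent.S34lib.Twist
import Fermat.Agent.S34lib.CruxSSBuild

set_option autoImplicit false

noncomputable section

namespace Fermat.Agent.S34lib

open AlgebraicCurve Fermat.Agent.RRlib Fermat.Agent.GoodRed

variable {K F k Fk : Type*} [Field K] [Field F] [Algebra K F] [Field k] [Field Fk] [Algebra k Fk]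
variable {A : ValuationSubring K} {π : A →+* k}

/-- an element of `O` with nonzero reduction is a unit of `O` -/
theorem twa_inv_mem (R : ConstRed A π Fk F) {x : F} (hx : x ∈ R.O) (hred : R.red ⟨x, hx⟩ ≠ 0) :
    x⁻¹ ∈ R.O := by
  by_contra hcon
  apply hred
  rw [R.red_eq_zero_iff]
  show x ∈ R.O.nonunits
  rw [ValuationSubring.mem_nonunits_iff_or]
  right
  exact hcon

/-- **the core of APPLY** (`TorK`, spelled out), generic in `(g, Q)`. -/
theorem tw_torK [RRBase K F] {R₁ R₂ : ConstRed A π Fk F} {G : Gluing k (Fk × Fk)} {m : ℕ}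
    {D₁ D₂ : Divisor K F} {a₀ n₂ : ℕ} {f finv : (SSRed.ofPair R₁ R₂).O}
    (hyp : TwistHyp (SSRed.ofPair R₁ R₂) G m D₁ a₀)
    (hc : TwistCrux (SSRed.ofPair R₁ R₂) G m D₁ D₂ n₂ f finv)
    {g : SemilinearAut K F} {Q : ℕ} (hg : TwistAut (SSRed.ofPair R₁ R₂) G D₁ g Q)
    (hconst : ∀ c c' : k, ((algebraMap k Fk c, algebraMap k Fk c') : Fk × Fk) ∈ G.T 0)
    (hgu : ∀ (u : (SSRed.ofPair R₁ R₂).O) (c₁ c₂ : k),
      (SSRed.ofPair R₁ R₂).red u = (algebraMap k Fk c₁, algebraMap k Fk c₂) →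
      (SSRed.ofPair R₁ R₂).red ⟨g • (u : F), hg.mem _ u.2⟩ = (SSRed.ofPair R₁ R₂).red u ^ Q)
    (u : F) (hu0 : u ≠ 0) (h₁ : u ∈ R₁.O) (h₂ : u ∈ R₂.O)
    (hdvd : ∀ P : Place K F, (m : ℤ) ∣ P.ord u)
    (c₁ c₂ : k) (hc₁ : c₁ ≠ 0) (hc₂ : c₂ ≠ 0)
    (hr₁ : R₁.red ⟨u, h₁⟩ = algebraMap k Fk c₁) (hr₂ : R₂.red ⟨u, h₂⟩ = algebraMap k Fk c₂) :
    ∃ (c : K) (s : F), g • u / u ^ Q = algebraMap K F c * s ^ m := by
  have hne₁ : R₁.red ⟨u, h₁⟩ ≠ 0 := by
    rw [hr₁]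
    exact (map_ne_zero_iff _ (algebraMap k Fk).injective).mpr hc₁
  have hne₂ : R₂.red ⟨u, h₂⟩ ≠ 0 := by
    rw [hr₂]
    exact (map_ne_zero_iff _ (algebraMap k Fk).injective).mpr hc₂
  have hi₁ : u⁻¹ ∈ R₁.O := twa_inv_mem R₁ h₁ hne₁
  have hi₂ : u⁻¹ ∈ R₂.O := twa_inv_mem R₂ h₂ hne₂
  let U : (SSRed.ofPair R₁ R₂).O := ⟨u, h₁, h₂⟩
  let Ui : (SSRed.ofPair R₁ R₂).O := ⟨u⁻¹, hi₁, hi₂⟩
  have hUU : U * Ui = 1 := Subtype.ext (mul_inv_cancel₀ hu0)
  have hredU : (SSRed.ofPair R₁ R₂).red U = (algebraMap k Fk c₁, algebraMap k Fk c₂) := by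
    refine Prod.ext ?_ ?_
    · exact hr₁
    · exact hr₂
  have hmul : (SSRed.ofPair R₁ R₂).red U * (SSRed.ofPair R₁ R₂).red Ui = 1 := by
    rw [← map_mul, hUU, map_one]
  have hredUi : (SSRed.ofPair R₁ R₂).red Ui
      = (algebraMap k Fk c₁⁻¹, algebraMap k Fk c₂⁻¹) := by
    rw [hredU] at hmul
    have e1 := congrArg Prod.fst hmul
    have e2 := congrArg Prod.snd hmul
    simp only [Prod.fst_mul, Prod.snd_mul, Prod.fst_one, Prod.snd_one] at e1 e2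
    refine Prod.ext ?_ ?_
    · show ((SSRed.ofPair R₁ R₂).red Ui).1 = algebraMap k Fk c₁⁻¹
      rw [map_inv₀]
      exact eq_inv_of_mul_eq_one_right e1
    · show ((SSRed.ofPair R₁ R₂).red Ui).2 = algebraMap k Fk c₂⁻¹
      rw [map_inv₀]
      exact eq_inv_of_mul_eq_one_right e2
  have hT : (SSRed.ofPair R₁ R₂).red U ∈ G.T 0 := by
    rw [hredU]
    exact hconst c₁ c₂
  have hT' : (SSRed.ofPair R₁ R₂).red Ui ∈ G.T 0 := by
    rw [hredUi]
    exact hconst _ _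
  obtain ⟨c, s, -, hcs⟩ := tw_kummer hyp hc hg U Ui hUU hT hT' hdvd (hgu U c₁ c₂ hredU)
  refine ⟨c, s, ?_⟩
  have hcs' : g • u = algebraMap K F c * s ^ m * u ^ Q := hcs
  rw [hcs', mul_div_assoc, div_self (pow_ne_zero _ hu0), mul_one]

end Fermat.Agent.S34lib

end
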