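import Mathlib
import Fermat.Agent.S34lib.Algebra
import Fermat.Agent.S31lib.Wiring

/-!
# Item 79 (S34), final wiring: S34 from S37 and `UnipStatement`

`s34_of_s37_unip`: the statement S34 (with exactly the hypotheses of the frozen statement) from
the Eichler–Shimura congruence relation S37 (item 68) and the unipotency of inertia at `q ‖ N`
on `J₀(N)[p^∞]` (`UnipStatement`, the geometric input).  Everything else (weak Chebotarev, the
Hecke lattice, faithfulness) is discharged as for S31.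
-/

set_option autoImplicit false

namespace Fermat.Agent.S34lib

open Fermat.Agent.GalRep ModularCurve Fermat.Agent.S31lib IsLocalRing

/-- **S34 from S37 and UNIP.** -/
theorem s34_of_s37_unip (hS37 : S37Statement) (hU : UnipStatement)
    {𝒪 : Type} [CommRing 𝒪] [IsDomain 𝒪] [IsDiscreteValuationRing 𝒪]
    [IsAdicComplete (maximalIdeal 𝒪) 𝒪]
    {p : ℕ} (hp : p.Prime) (hp𝒪 : (p : 𝒪) ∈ maximalIdeal 𝒪)
    {N : ℕ} [NeZero N] {S : Finset ℕ} (hpS : p ∈ S) (hNS : ∀ q : ℕ, q.Prime → q ∣ N → q ∈ S)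
    {θ : CuspForm.heckeAlgebra N 2 (↑S : Set ℕ) →+* ResidueField 𝒪}
    {T : Type} [CommRing T] [IsLocalRing T] [IsNoetherianRing T]
    [IsAdicComplete (maximalIdeal T) T] [Algebra 𝒪 T] [IsLocalHom (algebraMap 𝒪 T)]
    [Module.Finite 𝒪 T] [Module.Free 𝒪 T]
    (H : CuspForm.HeckeGaloisRepDatum N (↑S : Set ℕ) 𝒪 θ T)
    (q : ℕ) (hq : q.Prime) (hqp : q ≠ p) (hqN : q ∣ N) (hq2 : ¬ q ^ 2 ∣ N) :
    H.ρ.IsUnipotentOnInertiaAt q := by
  have : Fact p.Prime := ⟨hp⟩
  obtain ⟨J, hJ⟩ := exists_jacInput_faithEmb hS37 N p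
  exact s34_of_jacInput weakCheb J (faith_of_faithEmb J S hJ) hp hp𝒪 hpS hNS H q hq hqp
    (hU N p q hp hq hqp hqN hq2)

end Fermat.Agent.S34lib
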