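import Mathlib
import Fermat.Agent.S34lib.Wiring
import Fermat.Agent.S34lib.UnipDesc
import Fermat.Agent.S37

/-!
# Item 79 (S34), piece W: the final wiring

`ApplyStatement` is the statement of piece E (APPLY): the Kummer form of UNIP at the auxiliary
levels `M' q`.  `s34_of_apply` is the statement S34 (with exactly the hypotheses of the frozen
statement) from `ApplyStatement`: descent (`unipStatement_of_unipK_aux`), the algebra
(`s34_of_s37_unip`) and the Eichler–Shimura congruence relation S37.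
-/

set_option autoImplicit false

namespace Fermat.Agent.S34lib

open IsLocalRing

/-- the statement of piece E (APPLY): the Kummer form of UNIP at the auxiliary levels `M' q`. -/
def ApplyStatement : Prop :=
  ∀ (q M' p n : ℕ), q.Prime → p.Prime → q ≠ p → M' ≠ 0 → Fermat.Agent.GM.IsAuxLevel q M' →
    ∀ A : ValuationSubring (AlgebraicClosure ℚ), A.LiesOverPrime q →
      UnipK (M' * q) (p ^ n) A

/-- `UnipStatement` from `ApplyStatement`. -/
theorem unipStatement_of_apply (hE : ApplyStatement) : UnipStatement :=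
  unipStatement_of_unipK_aux hE

/-- **S34 from APPLY.** -/
theorem s34_of_apply (hE : ApplyStatement)
    {𝒪 : Type} [CommRing 𝒪] [IsDomain 𝒪] [IsDiscreteValuationRing 𝒪]
    [IsAdicComplete (maximalIdeal 𝒪) 𝒪]
    {p : ℕ} (hp : p.Prime) (hp𝒪 : (p : 𝒪) ∈ maximalIdeal 𝒪)
    {N : ℕ} [NeZero N] {S : Finset ℕ} (hpS : p ∈ S) (hNS : ∀ q : ℕ, q.Prime → q ∣ N → q ∈ S)
    {θ : CuspForm.heckeAlgebra N 2 (↑S : Set ℕ) →+* ResidueField 𝒪}
    {T : Type} [CommRing T] [IsLocalRing T] [IsNoetherianRing T]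
    [IsAdicComplete (maximalIdeal T) T] [Algebra 𝒪 T] [IsLocalHom (algebraMap 𝒪 T)]
    [Module.Finite 𝒪 T] [Module.Free 𝒪 T]
    (H : CuspForm.HeckeGaloisRepDatum N (↑S : Set ℕ) 𝒪 θ T)
    (q : ℕ) (hq : q.Prime) (hqp : q ≠ p) (hqN : q ∣ N) (hq2 : ¬ q ^ 2 ∣ N) :
    H.ρ.IsUnipotentOnInertiaAt q :=
  s34_of_s37_unip (fun N' p' _ hcomm => Fermat.Agent.S37.result N' p' hcomm)
    (unipStatement_of_apply hE) hp hp𝒪 hpS hNS H q hq hqp hqN hq2

end Fermat.Agent.S34lib
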