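/-
Item 79 (S34), piece E = APPLY, part 3 (helper26): `UnipK` at a level `N`, `q ‖ N`, from the
package `(G, TwistHyp, TwistCrux)` for the sup-norm datum of `R∞ = R` and `R₀ = inredZero R`.

`unipK_of_package`: `IsSeriesRed R`, a gluing `G` on `Fk × Fk` with `TwistHyp` and `TwistCrux` for
`D₁ = cuspDiv 1 1 = P∞ + P₀`, constants in `G.T 0`  ⟹  `UnipK N m A`.
Proof: `unipK_of_twistKummer` (UnipAux) ∘ `tw_torK` (TwistApply) with helper4's `TwistAut` for the
inertia (`kummerU_twistAut_al`) and `(R)` (`inred_al_red_smul`).  No sorry.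
-/
import Mathlib
import Fermat.Agent.S34lib.UnipAux
import Fermat.Agent.S34lib.TwistApply
import Fermat.Agent.S34lib.KummerU
import Fermat.Agent.RRlib.Modular

set_option autoImplicit false
set_option synthInstance.maxHeartbeats 400000

noncomputable section

namespace Fermat.Agent.S34lib

open AlgebraicCurve Fermat.Agent.GoodRed ModularCurve HahnSeries Fermat.Agent.S24lib
  Fermat.Agent.RRlib

section

variable {N : ℕ} [NeZero N] {q : ℕ} (hq : q.Prime) (hqN : q ∣ N) (hq2 : ¬ q ^ 2 ∣ N)
variable {A : ValuationSubring Kbar}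
variable {Fk : IntermediateField (IsLocalRing.ResidueField A)
  (LaurentSeries (IsLocalRing.ResidueField A))}

set_option maxHeartbeats 1000000 in
/-- **APPLY, abstract top**: `UnipK` from the gluing package. -/
theorem unipK_of_package {R : ConstRed A (IsLocalRing.residue A) (↥Fk) (FF N)}
    (hR : IsSeriesRed R) (hfrac : HasPrimFrac A (modularFunctionFieldBar N)) {m : ℕ}
    {G : Gluing (IsLocalRing.ResidueField A) (↥Fk × ↥Fk)} {a₀ n₂ : ℕ}
    {D₂ : Divisor Kbar (FF N)}
    {f finv : (SSRed.ofPair R (inredZero N q hq hqN hq2 R)).O}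
    (hyp : TwistHyp (SSRed.ofPair R (inredZero N q hq hqN hq2 R)) G m
      (cuspDiv N q hq hqN hq2 1 1) a₀)
    (hc : TwistCrux (SSRed.ofPair R (inredZero N q hq hqN hq2 R)) G m
      (cuspDiv N q hq hqN hq2 1 1) D₂ n₂ f finv)
    (hconst : ∀ c c' : IsLocalRing.ResidueField A,
      ((algebraMap (IsLocalRing.ResidueField A) (↥Fk) c,
        algebraMap (IsLocalRing.ResidueField A) (↥Fk) c') : ↥Fk × ↥Fk) ∈ G.T 0) :
    UnipK N m A := by
  have : RRHyp Kbar (FF N) := mod_rrHyp N
  refine unipK_of_twistKummer hq hqN hq2 hR hfrac m ?_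
  intro τ hτ u hu0 hdvd hu a b ha hb hred
  have hg := kummerU_twistAut_al N q hq hqN hq2 hR hfrac τ hτ G 1 1
  have h := tw_torK hyp hc hg hconst
    (fun U c₁ c₂ _ => by
      obtain ⟨hm, hr⟩ := inred_al_red_smul N q hq hqN hq2 hR hfrac τ hτ U
      rw [pow_one]
      exact hr)
    u hu0 hu.1 hu.2 hdvd (IsLocalRing.residue A a) (IsLocalRing.residue A b) ha hb
    (congrArg Prod.fst hred) (congrArg Prod.snd hred)
  rw [pow_one] at h
  exact h

end

end Fermat.Agent.S34lib

end
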