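/-
Item 79 (S34), piece E (APPLY), BACKUP assembly (helper7): `ApplyStatement` from the landed pieces.
-/
import Mathlib
import Fermat.Agent.S34lib.FinalOfApply
import Fermat.Agent.S34lib.UnipPkg
import Fermat.Agent.S34lib.GlueMod
import Fermat.Agent.S34lib.CruxInst
import Fermat.Agent.S34lib.ExProd
import Fermat.Agent.S34lib.VKron
import Fermat.Agent.S34lib.VKronNe
import Fermat.Agent.S34lib.LiftInfMain
import Fermat.Agent.S34lib.ConstRedInf
import Fermat.Agent.S35lib.CuspBridge
import Fermat.Agent.S16lib.UEDb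

set_option autoImplicit false
set_option linter.style.haveILetI false
set_option synthInstance.maxHeartbeats 400000

noncomputable section

namespace Fermat.Agent.S34lib

open AlgebraicCurve Fermat.Agent.GoodRed ModularCurve HahnSeries Fermat.Agent.S24lib
  Fermat.Agent.RRlib Fermat.Agent.GM Fermat.Agent.HeckeBar

set_option maxHeartbeats 2000000 in
/-- **APPLY (backup assembly)**: the Kummer form of UNIP at the auxiliary levels `M' q`. -/
theorem applyStatement_h7 : ApplyStatement := by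
  intro q M' p n hq hp hqp hM' haux A hA
  classical
  haveI : NeZero M' := ⟨hM'⟩
  haveI : Fact q.Prime := ⟨hq⟩
  haveI : NeZero q := ⟨hq.ne_zero⟩
  haveI : NeZero (M' * q) := ⟨Nat.mul_ne_zero hM' hq.ne_zero⟩
  have hqM : ¬ q ∣ M' := haux.1
  haveI : IsAlgClosed (IsLocalRing.ResidueField A) := isAlgClosed_residueField A
  haveI : Infinite (IsLocalRing.ResidueField A) := IsAlgClosed.instInfinite
  haveI : CharP (IsLocalRing.ResidueField A) q := charP_residueField hA
  haveI : PerfectRing (IsLocalRing.ResidueField A) q := inferInstance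
  haveI : RRHyp Kbar (FF (M' * q)) := mod_rrHyp (M' * q)
  haveI : RRHyp Kbar (FF M') := mod_rrHyp M'
  haveI : RRHyp (IsLocalRing.ResidueField A)
      (↥(modularFunctionFieldFullC (IsLocalRing.ResidueField A) M')) :=
    mr_rrHyp (IsLocalRing.ResidueField A) M'
  have hne : A ≠ ⊤ := dw_ne_top hq hA
  obtain ⟨R', r, hR', -, -, hgen⟩ := liftInf_exists_red M' A q haux hA
  obtain ⟨R, hR⟩ := exists_constRedInf_aux M' q hq hqM A hA
  have hfrac' := Fermat.Agent.S16lib.uedb_hasPrimFrac M' A hne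
  have hfrac := Fermat.Agent.S16lib.uedb_hasPrimFrac (M' * q) A hne
  -- the `ExInput`
  have Hex := exp_exInput M' q hq hqM R' R (vkZero M' q hq hqM R)
    (fun g hg => ⟨vk_alpha_mem M' q hR' hR hfrac' hg,
      Subtype.ext (vk_red_alpha M' q hR' hR hfrac' hg _)⟩)
    (fun g hg => ⟨vk_beta_mem M' q hR' hR hfrac' hg,
      Subtype.ext ((vk_red_beta M' q hR' hR hfrac' hg _).trans
        (coe_affFrobFk (IsLocalRing.ResidueField A) q M' _).symm)⟩)
    (fun g hg => ⟨vk_alpha_mem_zero M' q hq hqM hR' hR hfrac' hg,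
      Subtype.ext ((vk_red_alpha_zero M' q hq hqM hR' hR hfrac' hg _).trans
        (coe_affFrobFk (IsLocalRing.ResidueField A) q M' _).symm)⟩)
    (fun g hg => ⟨vk_beta_mem_zero M' q hq hqM hR' hR hfrac' hg,
      Subtype.ext (vk_red_beta_zero M' q hq hqM hR' hR hfrac' hg _)⟩)
    (2 * genusFF Kbar (FF M'))
    (fun n hn => liftInf_order q haux hA hR' n hn)
  rw [Fermat.Agent.S35lib.cb_zeroPlaceBar_eq_cuspZero] at Hex
  -- the lifting with pole control
  have hlift : ∀ a : affRing (infPlaceC (IsLocalRing.ResidueField A) M'),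
      ∃ (g : FF M') (hg : g ∈ R'.O),
        (∀ v' : Place Kbar (FF M'), v' ≠ infPlaceBar M' → 0 ≤ v'.ord g) ∧
          R'.red ⟨g, hg⟩ = (a : ↥(modularFunctionFieldFullC (IsLocalRing.ResidueField A) M')) := by
    intro a
    obtain ⟨n, hn⟩ := (mem_affRing_iff_rr).mp a.2
    obtain ⟨x, hx, hxr⟩ := liftInf_lift q haux hA hR' (n : ℤ) a.1 hn
    refine ⟨(x : FF M'), x.2, fun v' hv' => ?_, hxr⟩
    rw [mem_riemannRochSpace_iff] at hx
    rcases hx v' with h0 | h
    · rw [h0, Place.ord_zero]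
    · rwa [Finsupp.single_eq_of_ne hv', neg_zero] at h
  -- the gluing package
  have hm : 0 < p ^ n := pow_pos hp.pos n
  obtain ⟨X, a₀, a₁, hXB, H, ha, hyp, hn, hconst⟩ :=
    glueMod M' q hq hqM hA
      (φ := (affFrobFk (IsLocalRing.ResidueField A) q M').toRingHom)
      (fun x => coe_affFrobFk (IsLocalRing.ResidueField A) q M' x) Hex
      (vk_O_ne M' q hq hqM hR hA)
      (affRing_residue_surjective (infPlaceC (IsLocalRing.ResidueField A) M'))
      hlift (le_of_eq hgen) hm
  -- the crux instance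
  have hmk : ((p ^ n : ℕ) : IsLocalRing.ResidueField A) ≠ 0 := by
    rw [Nat.cast_pow]
    apply pow_ne_zero
    intro h0
    rw [CharP.cast_eq_zero_iff (IsLocalRing.ResidueField A) q] at h0
    exact hqp ((Nat.prime_dvd_prime_iff_eq hq hp).mp h0)
  have hP : infPlaceBar (M' * q) ≠
      cuspZero (M' * q) q hq (dvd_mul_left q M') (inf_not_sq_dvd M' q hq hqM) := by
    rw [← Fermat.Agent.S35lib.cb_zeroPlaceBar_eq_cuspZero]
    exact Fermat.Agent.S35lib.cb_infPlaceBar_ne_zeroPlaceBar (M' * q) q hq _ _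
  have hyp' := hyp
  rw [cuspDiv_one_one] at hyp'
  obtain ⟨D₂, n₂, f, finv, hc⟩ := X.twistCrux H ha hyp' hmk hP hn
  rw [← cuspDiv_one_one] at hc
  exact unipK_of_package hq (dvd_mul_left q M') (inf_not_sq_dvd M' q hq hqM) hR hfrac hyp hc hconst

end Fermat.Agent.S34lib

end
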