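/-
Item 79 (S34), piece E = APPLY, part 4 (helper26): `UnipK` at a level `N`, `q ‖ N`, from a
`GlueData` for the pair `R∞ = R`, `R₀ = inredZero R` and the cusps `P∞ = infPlaceBar N`,
`P₀ = cuspZero N q`.

* `ac_cuspZero_eq`: the two spellings `cuspZero` (helper4) / `zeroPlaceBar` (helper8) of `0_q`;
* `ac_infPlaceBar_ne_cuspZero`: `P∞ ≠ P₀`;
* `unipK_of_glueData`: `IsSeriesRed R`, `X : GlueData`, `(F3) = F3dEX`, `(NE) = 0 < X.n`,
  `(m : k) ≠ 0`  ⟹  `UnipK N m A`.
  Proof: `X.twistHyp` (GlueInst), `X.twistCrux` (CruxInst), `unipK_of_package` (UnipPkg).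
No sorry in this file.
-/
import Mathlib
import Fermat.Agent.S34lib.UnipPkg
import Fermat.Agent.S34lib.CruxInst
import Fermat.Agent.S34lib.InfPlaceAL

set_option autoImplicit false
set_option synthInstance.maxHeartbeats 400000

noncomputable section

namespace Fermat.Agent.S34lib

open AlgebraicCurve Fermat.Agent.GoodRed ModularCurve HahnSeries Fermat.Agent.S24lib
  Fermat.Agent.RRlib

section

variable {N : ℕ} [NeZero N] {q : ℕ} (hq : q.Prime) (hqN : q ∣ N) (hq2 : ¬ q ^ 2 ∣ N)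

/-- the two spellings of the cusp `0_q` -/
theorem ac_cuspZero_eq : cuspZero N q hq hqN hq2 = zeroPlaceBar N q hq hqN hq2 :=
  (zeroPlaceBar_eq_ofAlgAut_smul N q hq hqN hq2).symm

/-- `P∞ ≠ P₀` -/
theorem ac_infPlaceBar_ne_cuspZero : infPlaceBar N ≠ cuspZero N q hq hqN hq2 := by
  rw [ac_cuspZero_eq]
  exact infPlaceBar_ne_zeroPlaceBar N q hq hqN hq2

/-- the two spellings of `D₁ = P∞ + P₀` -/
theorem ac_cuspDiv_eq :
    cuspDiv N q hq hqN hq2 1 1
      = f3dDiv (infPlaceBar N) (cuspZero N q hq hqN hq2) 1 1 := by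
  rw [cuspDiv, f3dDiv, Nat.cast_one]

variable {A : ValuationSubring Kbar}
variable {Fk : IntermediateField (IsLocalRing.ResidueField A)
  (LaurentSeries (IsLocalRing.ResidueField A))}

set_option maxHeartbeats 1000000 in
/-- **APPLY, from the gluing data**: `UnipK` from a `GlueData` with `(F3)` and `(NE)`. -/
theorem unipK_of_glueData [Infinite (IsLocalRing.ResidueField A)]
    [RRHyp Kbar (FF N)] [RRHyp (IsLocalRing.ResidueField A) (↥Fk)]
    {R : ConstRed A (IsLocalRing.residue A) (↥Fk) (FF N)}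
    (hR : IsSeriesRed R) (hfrac : HasPrimFrac A (modularFunctionFieldBar N)) {m a₀ : ℕ}
    {Q : Place (IsLocalRing.ResidueField A) (↥Fk)}
    (X : GlueData R (inredZero N q hq hqN hq2 R) (infPlaceBar N) (cuspZero N q hq hqN hq2) Q)
    (H : F3dEX R (inredZero N q hq hqN hq2 R) (infPlaceBar N) (cuspZero N q hq hqN hq2) Q Q a₀)
    (hm : 0 < m) (hmk : (m : IsLocalRing.ResidueField A) ≠ 0) (hn : 0 < X.n) :
    UnipK N m A := by
  obtain ⟨a₁, ha, hyp⟩ := X.twistHyp H hm
  obtain ⟨D₂, n₂, f, finv, hc⟩ :=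
    X.twistCrux H ha hyp hmk (ac_infPlaceBar_ne_cuspZero hq hqN hq2) hn
  rw [← ac_cuspDiv_eq hq hqN hq2] at hyp hc
  exact unipK_of_package hq hqN hq2 hR hfrac hyp hc X.const_mem_T0

end

end Fermat.Agent.S34lib

end
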