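/-
Item 79 (S34), piece C5 (EX), FINAL form (helper17).  No sorry.

Level `M = M' q` with `IsAuxLevel q M'`, `A ⊂ ℚ̄` a valuation ring over `q`, `k` its residue
field.  For EVERY series reduction `R'` of `F_{M'}` and `R` of `F_{M' q}` (both onto `F_{M',k}`),
with `R0 = R ∘ w_q`:

* `exFinal_exInput` : the term `ExInput R' R R0 α β ∞' P∞ P0 Q∞ φ q` (input (i) of `glueConc`);
* `exFinal_surj`    : the joint reduction `ssRed R R0` is onto;
* `exFinal_f3dEX`   : the term `F3dEX R R0 P∞ P0 Q∞ Q∞ a₀` of `F3Dim.lean`.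
-/
import Mathlib
import Fermat.Agent.S34lib.ExProd
import Fermat.Agent.S34lib.VKron
import Fermat.Agent.S34lib.VKronNe
import Fermat.Agent.S34lib.LiftInfMain

set_option autoImplicit false
set_option linter.style.haveILetI false
set_option linter.unusedSectionVars false
set_option synthInstance.maxHeartbeats 400000

noncomputable section

namespace Fermat.Agent.S34lib

open AlgebraicCurve ModularCurve Fermat.Agent.GoodRed Fermat.Agent.S24lib Fermat.Agent.HeckeBar
  Fermat.Agent.GM
open HahnSeries

variable (M' q : ℕ) [NeZero M'] [NeZero q] (hq : q.Prime) (haux : IsAuxLevel q M')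
variable {A : ValuationSubring Kbar} (hA : A.LiesOverPrime q)
variable [Fact q.Prime] [CharP (IsLocalRing.ResidueField A) q]
  [PerfectRing (IsLocalRing.ResidueField A) q]
variable {R' : ConstRed A (IsLocalRing.residue A)
    (↥(modularFunctionFieldFullC (IsLocalRing.ResidueField A) M')) (FF M')}
  {R : ConstRed A (IsLocalRing.residue A)
    (↥(modularFunctionFieldFullC (IsLocalRing.ResidueField A) M')) (FF (M' * q))}
  (hR' : IsSeriesRed R') (hR : IsSeriesRed R)

include haux hA hR' hR in
/-- **C5, final**: the concrete `ExInput` at the auxiliary level `M' q`. -/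
theorem exFinal_exInput :
    ExInput R' R (inredZero (M' * q) q hq (dvd_mul_left q M') (inf_not_sq_dvd M' q hq haux.1) R)
      (heckeAlphaBar Kbar M' q).toRingHom (heckeBetaBar Kbar M' q).toRingHom
      (infPlaceBar M') (infPlaceBar (M' * q))
      (zeroPlaceBar (M' * q) q hq (dvd_mul_left q M') (inf_not_sq_dvd M' q hq haux.1))
      (infPlaceC (IsLocalRing.ResidueField A) M')
      (affFrobFk (IsLocalRing.ResidueField A) q M').toRingHom q := by
  have hfrac' : HasPrimFrac A (modularFunctionFieldBar M') := vri_hfrac M' q hq A hA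
  refine exp_exInput M' q hq haux.1 R' R _ ?_ ?_ ?_ ?_ (2 * genusFF Kbar (FF M'))
    (fun n hn => liftInf_order q haux hA hR' n hn)
  · intro g hg
    exact ⟨vk_alpha_mem M' q hR' hR hfrac' hg,
      Subtype.ext (vk_red_alpha M' q hR' hR hfrac' hg _)⟩
  · intro g hg
    exact ⟨vk_beta_mem M' q hR' hR hfrac' hg,
      Subtype.ext (vk_red_beta M' q hR' hR hfrac' hg _)⟩
  · intro g hg
    exact ⟨vk_alpha_mem_zero M' q hq haux.1 hR' hR hfrac' hg,
      Subtype.ext (vk_red_alpha_zero M' q hq haux.1 hR' hR hfrac' hg _)⟩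
  · intro g hg
    exact ⟨vk_beta_mem_zero M' q hq haux.1 hR' hR hfrac' hg,
      Subtype.ext (vk_red_beta_zero M' q hq haux.1 hR' hR hfrac' hg _)⟩

include hA hR in
/-- **(SURJ)** at the auxiliary level: the joint reduction is onto. -/
theorem exFinal_surj (hqM : ¬ q ∣ M') :
    Function.Surjective
      (ssRed R (inredZero (M' * q) q hq (dvd_mul_left q M') (inf_not_sq_dvd M' q hq hqM) R)) :=
  gss_red_surjective_of_liesOverPrime hq hA R _ (vk_O_ne M' q hq hqM hR hA)

include haux hA hR' hR in
/-- **C5 (EX)**: the term required by `F3Dim.lean`, at the auxiliary level `M' q`. -/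
theorem exFinal_f3dEX :
    ∃ a₀ : ℕ, F3dEX R
      (inredZero (M' * q) q hq (dvd_mul_left q M') (inf_not_sq_dvd M' q hq haux.1) R)
      (infPlaceBar (M' * q))
      (zeroPlaceBar (M' * q) q hq (dvd_mul_left q M') (inf_not_sq_dvd M' q hq haux.1))
      (infPlaceC (IsLocalRing.ResidueField A) M') (infPlaceC (IsLocalRing.ResidueField A) M')
      a₀ :=
  (exFinal_exInput M' q hq haux hA hR' hR).f3dEX (exFinal_surj M' q hq hA hR haux.1)

end Fermat.Agent.S34lib

end
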