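import Mathlib
import Fermat.Agent.S20_Comb

/-!
# 79/FR2: the translation `T` has exactly one orbit of full size `N` on `SL(2, ℤ) ⧸ Γ₀(N)`

For `i = γ Γ₀(N)` with `γ = (a b; c e)`:  `T ^ k • i = i ↔ N ∣ k c²`, so the orbit of `i` under
`⟨T⟩` has `N / gcd (N, c²)` elements.  If it has at least `N` elements then `c` is a unit
modulo `N`, and any two cosets with this property are in the same `⟨T⟩`-orbit.

Main result: `fr_orbit_unique`.
-/

set_option autoImplicit false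

namespace Fermat.Agent.S34lib

open CongruenceSubgroup
open scoped MatrixGroups

/-- `T ^ k • γ Γ₀(N) = γ' Γ₀(N)` in terms of the first columns. -/
lemma fr_zpow_smul_mk_eq_iff (N : ℕ) (k : ℤ) (g h : SL(2, ℤ)) :
    (ModularGroup.T ^ k) • (QuotientGroup.mk g : SL(2, ℤ) ⧸ Gamma0 N) = QuotientGroup.mk h ↔
      ((((g 0 0 + k * g 1 0) * h 1 0 - g 1 0 * h 0 0 : ℤ)) : ZMod N) = 0 := by
  rw [Fermat.Agent.S20lib.smul_mk, Fermat.Agent.S20lib.quot_eq_iff,
    Fermat.Agent.S20lib.T_zpow_mul_apply_00, Fermat.Agent.S20lib.T_zpow_mul_apply_10]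

/-- The cardinality of a `⟨T⟩`-orbit is the minimal period. -/
lemma fr_card_orbit_eq (N : ℕ) (i : SL(2, ℤ) ⧸ Gamma0 N) :
    Nat.card (MulAction.orbit (Subgroup.zpowers ModularGroup.T) i) =
      Function.minimalPeriod (fun x : SL(2, ℤ) ⧸ Gamma0 N => ModularGroup.T • x) i := by
  exact (Nat.card_congr (MulAction.orbitZPowersEquiv ModularGroup.T i)).trans (Nat.card_zmod _)

/-- If `N ∣ m c²` (`m > 0`) then the `⟨T⟩`-orbit of `γ Γ₀(N)` has at most `m` elements. -/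
lemma fr_card_orbit_le (N : ℕ) (g : SL(2, ℤ)) (m : ℕ) (hm : 0 < m)
    (hdvd : (N : ℤ) ∣ (m : ℤ) * (g 1 0) ^ 2) :
    Nat.card (MulAction.orbit (Subgroup.zpowers ModularGroup.T)
      (QuotientGroup.mk g : SL(2, ℤ) ⧸ Gamma0 N)) ≤ m := by
  have hper : ModularGroup.T ^ m • (QuotientGroup.mk g : SL(2, ℤ) ⧸ Gamma0 N) =
      QuotientGroup.mk g := by
    have h1 : (ModularGroup.T ^ (m : ℤ)) • (QuotientGroup.mk g : SL(2, ℤ) ⧸ Gamma0 N) =
        QuotientGroup.mk g := by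
      rw [fr_zpow_smul_mk_eq_iff]
      have h2 : ((g 0 0 + (m : ℤ) * g 1 0) * g 1 0 - g 1 0 * g 0 0 : ℤ) =
          (m : ℤ) * (g 1 0) ^ 2 := by ring
      rw [h2]
      exact (ZMod.intCast_zmod_eq_zero_iff_dvd _ _).2 hdvd
    rwa [zpow_natCast] at h1
  rw [MulAction.pow_smul_eq_iff_minimalPeriod_dvd] at hper
  rw [fr_card_orbit_eq]
  exact Nat.le_of_dvd hm hper

/-- A coset whose `⟨T⟩`-orbit has at least `N` elements has lower left entry prime to `N`. -/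
lemma fr_isUnit_of_orbit (N : ℕ) [NeZero N] (g : SL(2, ℤ))
    (h : N ≤ Nat.card (MulAction.orbit (Subgroup.zpowers ModularGroup.T)
      (QuotientGroup.mk g : SL(2, ℤ) ⧸ Gamma0 N))) :
    IsUnit (((g 1 0 : ℤ)) : ZMod N) := by
  have hN : 0 < N := Nat.pos_of_ne_zero (NeZero.ne N)
  rw [ZMod.coe_int_isUnit_iff_isCoprime, Int.isCoprime_iff_gcd_eq_one]
  set d : ℕ := Int.gcd (N : ℤ) (g 1 0) with hd
  have hdN : d ∣ N := by
    have := Int.gcd_dvd_left (N : ℤ) (g 1 0)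
    exact_mod_cast this
  have hdc : (d : ℤ) ∣ g 1 0 := Int.gcd_dvd_right (N : ℤ) (g 1 0)
  have hd0 : 0 < d := Nat.pos_of_dvd_of_pos hdN hN
  obtain ⟨m, hm⟩ := hdN
  have hm0 : 0 < m := by
    rcases Nat.eq_zero_or_pos m with h0 | h0
    · rw [h0, mul_zero] at hm
      omega
    · exact h0
  have hle := fr_card_orbit_le N g m hm0 (by
    obtain ⟨t, ht⟩ := hdc
    refine ⟨t * g 1 0, ?_⟩
    rw [hm]
    push_cast
    rw [sq]
    nth_rewrite 1 [ht]
    ring)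
  have h3 : N ≤ m := h.trans hle
  rw [hm] at h3
  by_contra hne
  have hd2 : 2 ≤ d := by omega
  nlinarith

/-- Two cosets with unit lower left entries are in the same `⟨T⟩`-orbit. -/
lemma fr_mem_orbit_of_isUnit (N : ℕ) [NeZero N] (g g' : SL(2, ℤ))
    (hg : IsUnit (((g 1 0 : ℤ)) : ZMod N)) (hg' : IsUnit (((g' 1 0 : ℤ)) : ZMod N)) :
    (QuotientGroup.mk g' : SL(2, ℤ) ⧸ Gamma0 N) ∈
      MulAction.orbit (Subgroup.zpowers ModularGroup.T)
        (QuotientGroup.mk g : SL(2, ℤ) ⧸ Gamma0 N) := by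
  obtain ⟨u, hu⟩ := hg
  obtain ⟨u', hu'⟩ := hg'
  obtain ⟨k, hk⟩ := ZMod.intCast_surjective
    (((((g 1 0 : ℤ)) : ZMod N) * (((g' 0 0 : ℤ)) : ZMod N) -
      (((g 0 0 : ℤ)) : ZMod N) * (((g' 1 0 : ℤ)) : ZMod N)) *
        ((↑u⁻¹ : ZMod N) * (↑u'⁻¹ : ZMod N)))
  rw [MulAction.mem_orbit_iff]
  refine ⟨⟨ModularGroup.T ^ k, zpow_mem (Subgroup.mem_zpowers _) k⟩, ?_⟩
  show ModularGroup.T ^ k • (QuotientGroup.mk g : SL(2, ℤ) ⧸ Gamma0 N) = QuotientGroup.mk g'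
  rw [fr_zpow_smul_mk_eq_iff]
  push_cast
  rw [hk, ← hu, ← hu']
  have e1 : (u : ZMod N) * (↑u⁻¹ : ZMod N) = 1 := by
    rw [← Units.val_mul, mul_inv_cancel, Units.val_one]
  have e2 : (u' : ZMod N) * (↑u'⁻¹ : ZMod N) = 1 := by
    rw [← Units.val_mul, mul_inv_cancel, Units.val_one]
  linear_combination
    ((u : ZMod N) * (((g' 0 0 : ℤ)) : ZMod N) - (((g 0 0 : ℤ)) : ZMod N) * (u' : ZMod N)) *
      ((u' : ZMod N) * (↑u'⁻¹ : ZMod N) * e1 + e2)

/-- **FR2.**  The translation `T` has at most one orbit with at least `N` elements on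
`SL(2, ℤ) ⧸ Γ₀(N)`. -/
theorem fr_orbit_unique (N : ℕ) [NeZero N] (i i' : SL(2, ℤ) ⧸ Gamma0 N)
    (hi : N ≤ Nat.card (MulAction.orbit (Subgroup.zpowers ModularGroup.T) i))
    (hi' : N ≤ Nat.card (MulAction.orbit (Subgroup.zpowers ModularGroup.T) i')) :
    i' ∈ MulAction.orbit (Subgroup.zpowers ModularGroup.T) i := by
  obtain ⟨g, rfl⟩ := QuotientGroup.mk_surjective i
  obtain ⟨g', rfl⟩ := QuotientGroup.mk_surjective i'
  exact fr_mem_orbit_of_isUnit N g g' (fr_isUnit_of_orbit N g hi) (fr_isUnit_of_orbit N g' hi')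

/-- Variant: the two orbits are equal. -/
theorem fr_orbit_eq (N : ℕ) [NeZero N] (i i' : SL(2, ℤ) ⧸ Gamma0 N)
    (hi : N ≤ Nat.card (MulAction.orbit (Subgroup.zpowers ModularGroup.T) i))
    (hi' : N ≤ Nat.card (MulAction.orbit (Subgroup.zpowers ModularGroup.T) i')) :
    MulAction.orbit (Subgroup.zpowers ModularGroup.T) i' =
      MulAction.orbit (Subgroup.zpowers ModularGroup.T) i :=
  MulAction.orbit_eq_iff.2 (fr_orbit_unique N i i' hi hi')

/-- Variant: an explicit element of `⟨T⟩` moving `i` to `i'`. -/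
theorem fr_orbit_exists (N : ℕ) [NeZero N] (i i' : SL(2, ℤ) ⧸ Gamma0 N)
    (hi : N ≤ Nat.card (MulAction.orbit (Subgroup.zpowers ModularGroup.T) i))
    (hi' : N ≤ Nat.card (MulAction.orbit (Subgroup.zpowers ModularGroup.T) i')) :
    ∃ h : Subgroup.zpowers ModularGroup.T, h • i = i' :=
  MulAction.mem_orbit_iff.1 (fr_orbit_unique N i i' hi hi')

end Fermat.Agent.S34lib
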