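/-
Item 79 (S34), ADAPTER for C11 GRAPHS / (E3) `glueConc` (helper25).

`liftInf_hlift`: the hypothesis `hlift` of `ExInput.hα`, `ExInput.hβ`, `glueConc` (helper19,
`GlueConc.lean`) at an auxiliary level `M`, from the lifting with pole control
`liftInf_exists_lift` (helper18, `LiftInf.lean`):  every element of the affine ring
`B = ⋃ L(a Q∞)` of `Fk` is the reduction of an element of `O` which is regular off `P∞`.
The inputs `hW` (F3) and `hrInf : r P∞ = Q∞` (C6a) stay hypotheses.  No sorry.
-/
import Mathlib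
import Fermat.Agent.S34lib.LiftInf

set_option autoImplicit false
set_option linter.style.haveILetI false
set_option synthInstance.maxHeartbeats 400000

noncomputable section

namespace Fermat.Agent.S34lib

open AlgebraicCurve ModularCurve IntermediateField CongruenceSubgroup
open Fermat.Agent.S24lib Fermat.Agent.FFlib Fermat.Agent.RRlib Fermat.Agent.GoodRed
  Fermat.Agent.GM
open scoped MatrixGroups

/-- an element of `L(n • P)` is regular off `P`. -/
theorem grh_regular_off {K F : Type*} [Field K] [Field F] [Algebra K F] (P : Place K F) (n : ℤ)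
    {x : F} (hx : x ∈ riemannRochSpace (K := K) (Finsupp.single P n)) (v : Place K F)
    (hv : v ≠ P) : 0 ≤ v.ord x := by
  classical
  rw [mem_riemannRochSpace_iff] at hx
  rcases hx v with h0 | h
  · rw [h0, Place.ord_zero]
  · rwa [Finsupp.single_apply, if_neg (fun h => hv h.symm), neg_zero] at h

section Lift

variable {M : ℕ} [NeZero M] {A : ValuationSubring Kbar}
variable [IsAlgClosed (IsLocalRing.ResidueField A)]
variable [RRHyp Kbar (FF M)] [RRHyp (IsLocalRing.ResidueField A) (Fk (IsLocalRing.ResidueField A) M)]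
variable {R : ConstRed A (IsLocalRing.residue A) (Fk (IsLocalRing.ResidueField A) M) (FF M)}
variable {r : Place Kbar (FF M) →
    Place (IsLocalRing.ResidueField A) (Fk (IsLocalRing.ResidueField A) M)}

/-- **the hypothesis `hlift` of `glueConc`** at an auxiliary level, from `liftInf_exists_lift`. -/
theorem liftInf_hlift
    (hW : ∀ D : Divisor Kbar (FF M), 2 * (genusFF Kbar (FF M) : ℤ) - 2 < Divisor.degree D →
        R.W D = riemannRochSpace (K := IsLocalRing.ResidueField A) (Finsupp.mapDomain r D))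
    (hrInf : r (infPlaceBar M) = infPlaceC (IsLocalRing.ResidueField A) M)
    (B : Subalgebra (IsLocalRing.ResidueField A) (Fk (IsLocalRing.ResidueField A) M))
    (hB : ∀ x : Fk (IsLocalRing.ResidueField A) M, x ∈ B ↔ ∃ a : ℕ,
      x ∈ riemannRochSpace (K := IsLocalRing.ResidueField A)
        (Finsupp.single (infPlaceC (IsLocalRing.ResidueField A) M) (a : ℤ)))
    (a : B) :
    ∃ (g : FF M) (hg : g ∈ R.O),
      (∀ v' : Place Kbar (FF M), v' ≠ infPlaceBar M → 0 ≤ v'.ord g) ∧
        R.red ⟨g, hg⟩ = (a : Fk (IsLocalRing.ResidueField A) M) := by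
  obtain ⟨n, hn⟩ := (hB a).mp a.2
  obtain ⟨x, hx, hred⟩ := liftInf_exists_lift hW hrInf (n : ℤ) (a : Fk (IsLocalRing.ResidueField A) M) hn
  exact ⟨(x : FF M), x.2, fun v' hv' => grh_regular_off _ _ hx v' hv', hred⟩

/-- the same with the pole bound kept: the lift lies in `L(m • P∞)`, `m = max n (2g)`. -/
theorem liftInf_hlift_bound
    (hW : ∀ D : Divisor Kbar (FF M), 2 * (genusFF Kbar (FF M) : ℤ) - 2 < Divisor.degree D →
        R.W D = riemannRochSpace (K := IsLocalRing.ResidueField A) (Finsupp.mapDomain r D))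
    (hrInf : r (infPlaceBar M) = infPlaceC (IsLocalRing.ResidueField A) M)
    (B : Subalgebra (IsLocalRing.ResidueField A) (Fk (IsLocalRing.ResidueField A) M))
    (hB : ∀ x : Fk (IsLocalRing.ResidueField A) M, x ∈ B ↔ ∃ a : ℕ,
      x ∈ riemannRochSpace (K := IsLocalRing.ResidueField A)
        (Finsupp.single (infPlaceC (IsLocalRing.ResidueField A) M) (a : ℤ)))
    (a : B) :
    ∃ (g : FF M) (hg : g ∈ R.O),
      (∃ m : ℕ, g ∈ riemannRochSpace (K := Kbar) (Finsupp.single (infPlaceBar M) (m : ℤ))) ∧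
        R.red ⟨g, hg⟩ = (a : Fk (IsLocalRing.ResidueField A) M) := by
  obtain ⟨n, hn⟩ := (hB a).mp a.2
  obtain ⟨x, hx, hred⟩ := liftInf_exists_lift hW hrInf (n : ℤ) (a : Fk (IsLocalRing.ResidueField A) M) hn
  refine ⟨(x : FF M), x.2, ⟨max n (2 * genusFF Kbar (FF M)), ?_⟩, hred⟩
  have : ((max n (2 * genusFF Kbar (FF M)) : ℕ) : ℤ) = max (n : ℤ) (2 * (genusFF Kbar (FF M) : ℤ)) := by
    push_cast
    rfl
  rw [this]
  exact hx

end Lift

end Fermat.Agent.S34lib

end
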