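/-
Item 79 (S34), piece ML-FD (helper27): values of functions at places.

`mfdVal x a c`: the function `a` is regular at the place `x` and takes the value `c` there
(`a - c` lies in the maximal ideal of `x`).  Ring-like calculus of values, existence of values
for regular functions (`RRBase`: all places are rational), uniqueness.
Blueprint: NOTES/S34_ML_finite_dim_helper27.md.  No sorry.
-/
import Mathlib
import Fermat.Agent.RRlib.Defs
import Fermat.Agent.S24lib.FFBasic

set_option autoImplicit false

noncomputable section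

namespace Fermat.Agent.S34lib

open AlgebraicCurve Fermat.Agent.RRlib WithZero

variable {k Fk : Type*} [Field k] [Field Fk] [Algebra k Fk]

/-- `a` is regular at `x` -/
def mfdReg (x : Place k Fk) (a : Fk) : Prop := x.adicValuation a ≤ 1

/-- `a` vanishes at `x` -/
def mfdPos (x : Place k Fk) (a : Fk) : Prop := x.adicValuation a < 1

/-- `a` has the value `c` at `x` -/
def mfdVal (x : Place k Fk) (a : Fk) (c : k) : Prop :=
  x.adicValuation (a - algebraMap k Fk c) < 1

variable (x : Place k Fk)

theorem mfdPos_iff {a : Fk} : mfdPos x a ↔ a = 0 ∨ 0 < x.ord a := by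
  unfold mfdPos
  rcases eq_or_ne a 0 with rfl | ha
  · simp
  · rw [x.adicValuation_eq_exp_neg_ord ha, or_iff_right ha, ← exp_zero, exp_lt_exp]
    constructor <;> intro h <;> omega

theorem mfdReg_iff {a : Fk} : mfdReg x a ↔ a = 0 ∨ 0 ≤ x.ord a :=
  x.adicValuation_le_one_iff

theorem mfdVal_zero_iff {a : Fk} : mfdVal x a 0 ↔ mfdPos x a := by
  unfold mfdVal mfdPos
  rw [map_zero, sub_zero]

theorem mfd_val_const {c : k} (hc : c ≠ 0) : x.adicValuation (algebraMap k Fk c) = 1 := by
  have h1 := x.adicValuation_algebraMap_le_one c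
  have h2 := x.adicValuation_algebraMap_le_one c⁻¹
  rw [map_inv₀, map_inv₀] at h2
  have h0 : x.adicValuation (algebraMap k Fk c) ≠ 0 :=
    x.adicValuation_ne_zero ((map_ne_zero _).mpr hc)
  refine le_antisymm h1 ?_
  by_contra hlt
  rw [not_le] at hlt
  have h3 : (1 : ℤᵐ⁰) < (x.adicValuation (algebraMap k Fk c))⁻¹ := by
    rw [one_lt_inv₀ (zero_lt_iff.mpr h0)]
    exact hlt
  exact absurd h2 (not_le.mpr h3)

theorem mfdVal_const (c : k) : mfdVal x (algebraMap k Fk c) c := by
  unfold mfdVal
  rw [sub_self, map_zero]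
  exact zero_lt_one

theorem mfdVal_zero : mfdVal x (0 : Fk) 0 := by
  simpa using mfdVal_const x (0 : k)

theorem mfdVal_one : mfdVal x (1 : Fk) 1 := by
  simpa using mfdVal_const x (1 : k)

theorem mfdVal.reg {a : Fk} {c : k} (h : mfdVal x a c) : mfdReg x a := by
  unfold mfdReg
  have e : a = (a - algebraMap k Fk c) + algebraMap k Fk c := by ring
  rw [e]
  exact (x.adicValuation.map_add _ _).trans
    (max_le h.le (x.adicValuation_algebraMap_le_one c))

theorem mfdVal.unique {a : Fk} {c d : k} (h : mfdVal x a c) (h' : mfdVal x a d) : c = d := by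
  by_contra hne
  have hcd : d - c ≠ 0 := sub_ne_zero.mpr (Ne.symm hne)
  have e : algebraMap k Fk (d - c) = (a - algebraMap k Fk c) - (a - algebraMap k Fk d) := by
    rw [map_sub]; ring
  have h1 := mfd_val_const x hcd
  rw [e] at h1
  have h2 : x.adicValuation ((a - algebraMap k Fk c) - (a - algebraMap k Fk d)) < 1 :=
    (x.adicValuation.map_sub _ _).trans_lt (max_lt h h')
  rw [h1] at h2
  exact lt_irrefl _ h2

theorem mfdVal.add {a b : Fk} {c d : k} (h : mfdVal x a c) (h' : mfdVal x b d) :
    mfdVal x (a + b) (c + d) := by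
  unfold mfdVal at *
  have e : a + b - algebraMap k Fk (c + d) = (a - algebraMap k Fk c) + (b - algebraMap k Fk d) := by
    rw [map_add]; ring
  rw [e]
  exact (x.adicValuation.map_add _ _).trans_lt (max_lt h h')

theorem mfdVal.neg {a : Fk} {c : k} (h : mfdVal x a c) : mfdVal x (-a) (-c) := by
  unfold mfdVal at *
  have e : -a - algebraMap k Fk (-c) = -(a - algebraMap k Fk c) := by
    rw [map_neg]; ring
  rw [e, Valuation.map_neg]
  exact h

theorem mfdVal.sub {a b : Fk} {c d : k} (h : mfdVal x a c) (h' : mfdVal x b d) :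
    mfdVal x (a - b) (c - d) := by
  rw [sub_eq_add_neg, sub_eq_add_neg]
  exact h.add x (h'.neg x)

theorem mfdVal.mul {a b : Fk} {c d : k} (h : mfdVal x a c) (h' : mfdVal x b d) :
    mfdVal x (a * b) (c * d) := by
  have ha : x.adicValuation a ≤ 1 := h.reg x
  unfold mfdVal at *
  have e : a * b - algebraMap k Fk (c * d)
      = a * (b - algebraMap k Fk d) + algebraMap k Fk d * (a - algebraMap k Fk c) := by
    rw [map_mul]; ring
  rw [e]
  refine (x.adicValuation.map_add _ _).trans_lt (max_lt ?_ ?_)
  · rw [map_mul]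
    calc x.adicValuation a * x.adicValuation (b - algebraMap k Fk d)
        ≤ 1 * x.adicValuation (b - algebraMap k Fk d) := by gcongr
      _ < 1 := by rw [one_mul]; exact h'
  · rw [map_mul]
    calc x.adicValuation (algebraMap k Fk d) * x.adicValuation (a - algebraMap k Fk c)
        ≤ 1 * x.adicValuation (a - algebraMap k Fk c) := by
          gcongr
          exact x.adicValuation_algebraMap_le_one d
      _ < 1 := by rw [one_mul]; exact h

theorem mfdVal.smul {a : Fk} {c : k} (t : k) (h : mfdVal x a c) : mfdVal x (t • a) (t * c) := by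
  rw [Algebra.smul_def]
  exact (mfdVal_const x t).mul x h

theorem mfdVal.prod {ι : Type*} (s : Finset ι) (a : ι → Fk) (c : ι → k)
    (h : ∀ i ∈ s, mfdVal x (a i) (c i)) : mfdVal x (∏ i ∈ s, a i) (∏ i ∈ s, c i) := by
  classical
  induction s using Finset.induction_on with
  | empty => simpa using mfdVal_one x
  | insert i s hi ih =>
    rw [Finset.prod_insert hi, Finset.prod_insert hi]
    exact (h i (Finset.mem_insert_self i s)).mul x
      (ih fun j hj => h j (Finset.mem_insert_of_mem hj))

/-- a nonzero function with a nonzero value has order `0` -/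
theorem mfdVal.ord_eq_zero {a : Fk} {c : k} (h : mfdVal x a c) (hc : c ≠ 0) :
    a ≠ 0 ∧ x.ord a = 0 := by
  have ha0 : a ≠ 0 := by
    rintro rfl
    have := h.unique x (mfdVal_zero x)
    exact hc this
  refine ⟨ha0, ?_⟩
  have hreg := (mfdReg_iff x).mp (h.reg x)
  have h1 : 0 ≤ x.ord a := hreg.resolve_left ha0
  by_contra hne
  have hpos : 0 < x.ord a := lt_of_le_of_ne h1 (Ne.symm hne)
  have h0 : mfdVal x a 0 := (mfdVal_zero_iff x).mpr ((mfdPos_iff x).mpr (Or.inr hpos))
  exact hc (h.unique x h0)

/-- regular functions have values (all places are rational) -/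
theorem mfdReg.exists_val [RRBase k Fk] {a : Fk} (h : mfdReg x a) : ∃ c : k, mfdVal x a c := by
  have hmem : a ∈ x.toValuationSubring := by
    rcases (mfdReg_iff x).mp h with rfl | h0
    · exact zero_mem _
    · exact (Fermat.Agent.S24lib.ffMem_iff_ord_nonneg x).mpr h0
  obtain ⟨c, hc⟩ := RRBase.residue_surjective (K := k) x
    (IsLocalRing.residue x.toValuationSubring ⟨a, hmem⟩)
  refine ⟨c, ?_⟩
  have hmem' : (⟨a, hmem⟩ - algebraMap k x.toValuationSubring c : x.toValuationSubring) ∈
      IsLocalRing.maximalIdeal x.toValuationSubring := by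
    rw [← Ideal.Quotient.eq_zero_iff_mem]
    show IsLocalRing.residue x.toValuationSubring (⟨a, hmem⟩ - algebraMap k _ c) = 0
    rw [map_sub, ← hc]
    exact sub_self _
  have hlt := (x.heightOneSpectrum.intValuation_lt_one_iff_mem _).mpr
    (by rw [Place.heightOneSpectrum_asIdeal]; exact hmem')
  rw [← x.adicValuation_coe] at hlt
  exact hlt

end Fermat.Agent.S34lib

end
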