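import Mathlib
import Fermat.Agent.GoodRed.Bounded
import Fermat.Agent.S34lib.GrowthSS

/-!
# Item 79 (S34): valuation rings of fields algebraic over `ℚ` are archimedean (rank one)

`gssArch_of_isIntegral : (∀ c : K, IsIntegral ℚ c) → GssArch A`, in particular `gssArch_Qbar` for
every valuation subring of `AlgebraicClosure ℚ`.  (Hypothesis of `gss_red_surjective`.)
-/

set_option autoImplicit false

namespace Fermat.Agent.S34lib

open Fermat.Agent.GoodRed

variable {K : Type*} [Field K] [Algebra ℚ K]

theorem gssArch_of_isIntegral (halg : ∀ c : K, IsIntegral ℚ c) (A : ValuationSubring K) :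
    GssArch A := by
  intro a c ha
  by_contra hcon
  push Not at hcon
  have ha0 : a ≠ 0 := by
    rintro rfl
    exact hcon 1 (by rw [pow_one, zero_mul]; exact A.zero_mem)
  have hc0 : c ≠ 0 := by
    rintro rfl
    exact hcon 0 (by rw [mul_zero]; exact A.zero_mem)
  have hva : A.valuation a < 1 := A.mem_nonunits_iff.mp ha
  have hAtop : A ≠ ⊤ := by
    rintro rfl
    have h1 : (⊤ : ValuationSubring K).valuation a⁻¹ ≤ 1 :=
      ((⊤ : ValuationSubring K).valuation_le_one_iff _).mpr trivial
    rw [map_inv₀] at h1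
    have h2 : 0 < (⊤ : ValuationSubring K).valuation a :=
      zero_lt_iff.mpr ((map_ne_zero _).mpr ha0)
    have h3 : 1 ≤ (⊤ : ValuationSubring K).valuation a := (inv_le_one₀ h2).mp h1
    exact absurd hva (not_lt.mpr h3)
  obtain ⟨ℓ, hℓ, hlt⟩ := exists_prime_valuation_lt_one halg hAtop
  -- the number field generated by `a` and `c`
  let E : IntermediateField ℚ K := IntermediateField.adjoin ℚ {a} ⊔ IntermediateField.adjoin ℚ {c}
  have hE : FiniteDimensional ℚ E := by
    have h1 : FiniteDimensional ℚ (IntermediateField.adjoin ℚ {a}) :=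
      IntermediateField.adjoin.finiteDimensional (halg a)
    have h2 : FiniteDimensional ℚ (IntermediateField.adjoin ℚ {c}) :=
      IntermediateField.adjoin.finiteDimensional (halg c)
    exact IntermediateField.finiteDimensional_sup _ _
  have haE : a ∈ E :=
    (le_sup_left : IntermediateField.adjoin ℚ {a} ≤ E)
      (IntermediateField.mem_adjoin_simple_self ℚ a)
  have hcE : c ∈ E :=
    (le_sup_right : IntermediateField.adjoin ℚ {c} ≤ E)
      (IntermediateField.mem_adjoin_simple_self ℚ c)
  have hdisc := isValDiscreteOn_of_finiteDimensional A hℓ hlt E hE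
  let g : ℕ → K := fun r => (a ^ r * c)⁻¹
  have hg0 : ∀ r, g r ≠ 0 := fun r => inv_ne_zero (mul_ne_zero (pow_ne_zero r ha0) hc0)
  have hgE : ∀ r, g r ∈ (E : Set K) := fun r => E.inv_mem (E.mul_mem (pow_mem haE r) hcE)
  have hgA : ∀ r, g r ∈ A := fun r => by
    rcases A.mem_or_inv_mem (a ^ r * c) with h | h
    · exact absurd h (hcon r)
    · exact h
  obtain ⟨n₀, -, hmax⟩ := exists_max_valuation A hdisc g hgE hgA 0 (hg0 0)
  have h1 := hmax (n₀ + 1)
  have hrel : g n₀ = g (n₀ + 1) * a := by
    show (a ^ n₀ * c)⁻¹ = (a ^ (n₀ + 1) * c)⁻¹ * a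
    rw [pow_succ]
    field_simp
  have hpos : 0 < A.valuation (g (n₀ + 1)) := zero_lt_iff.mpr ((map_ne_zero _).mpr (hg0 _))
  have h2 : A.valuation (g n₀) < A.valuation (g (n₀ + 1)) := by
    rw [hrel, map_mul]
    calc A.valuation (g (n₀ + 1)) * A.valuation a
        < A.valuation (g (n₀ + 1)) * 1 := by
          exact mul_lt_mul_of_pos_left hva hpos
      _ = A.valuation (g (n₀ + 1)) := mul_one _
  exact absurd h1 (not_le.mpr h2)

/-- Every valuation subring of `ℚ̄` is archimedean. -/
theorem gssArch_Qbar (A : ValuationSubring (AlgebraicClosure ℚ)) : GssArch A :=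
  gssArch_of_isIntegral (fun c => ((AlgebraicClosure.isAlgebraic ℚ).isAlgebraic c).isIntegral) A

end Fermat.Agent.S34lib
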